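import Mathlib
import Fermat.Prelude.Def_GaloisRep_Adic

/-!
# Absolute irreducibility of two-dimensional representations, Burnside, Brauer–Nesbitt

Everything is phrased for a monoid homomorphism `ρ : G →* Module.End k V`.

* `Fermat.Agent.BN2.span_range_eq_top_of_isAlgClosed` (Burnside);
* `Fermat.Agent.BN2.isAbsolutelyIrreducible_iff_span` : `ρ` abs. irreducible ↔ its image spans
  `End_k V`;
* `Fermat.Agent.BN2.span_range_eq_top_of_trace_eq` : if `ρ₂` spans and the traces of `ρ₁`, `ρ₂`
  agree in a common extension then `ρ₁` spans (Brauer–Nesbitt);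
* `Fermat.Agent.BN2.isAbsolutelyIrreducible_of_isIrreducible` : irreducible + an involution of
  determinant `-1` + `2 ≠ 0` ⇒ absolutely irreducible.
-/

set_option autoImplicit false

open scoped TensorProduct

namespace Fermat.Agent.BN2

section General

variable {G : Type*} [Monoid G] {k : Type*} [Field k] {V : Type*} [AddCommGroup V] [Module k V]

/-- The image of a monoid hom into `End_k V` spans a subalgebra. -/
theorem span_range_eq_adjoin (ρ : G →* Module.End k V) :
    Submodule.span k (Set.range ρ) = Subalgebra.toSubmodule (Algebra.adjoin k (Set.range ρ)) := by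
  rw [Algebra.adjoin_eq_span]
  congr 1
  have h : (Set.range ρ : Set (Module.End k V)) = (MonoidHom.mrange ρ : Set (Module.End k V)) := by
    rw [MonoidHom.coe_mrange]
  rw [h, Submonoid.closure_eq]

/-- **Burnside's theorem** for monoid representations over an algebraically closed field. -/
theorem span_range_eq_top_of_isAlgClosed [IsAlgClosed k] [FiniteDimensional k V] [Nontrivial V]
    (ρ : G →* Module.End k V)
    (h : ∀ W : Submodule k V, (∀ g : G, ∀ x ∈ W, ρ g x ∈ W) → W = ⊥ ∨ W = ⊤) :
    Submodule.span k (Set.range ρ) = ⊤ := by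
  rw [span_range_eq_adjoin]
  set A := Algebra.adjoin k (Set.range ρ) with hA
  have hmem : ∀ g : G, ρ g ∈ A := fun g => Algebra.subset_adjoin ⟨g, rfl⟩
  -- `V` is a simple `A`-module
  have hsimple : IsSimpleModule A V := by
    rw [isSimpleModule_iff]
    refine { toNontrivial := inferInstance, eq_bot_or_eq_top := fun W => ?_ }
    rcases h (W.restrictScalars k) (fun g x hx => W.smul_mem (⟨ρ g, hmem g⟩ : A) hx) with hW | hW
    · left
      rw [eq_bot_iff]
      intro x hx
      have : x ∈ W.restrictScalars k := hx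
      rw [hW] at this
      exact this
    · right
      rw [eq_top_iff]
      intro x _
      have : x ∈ W.restrictScalars k := by rw [hW]; trivial
      exact this
  have hbij := IsSimpleModule.algebraMap_end_bijective_of_isAlgClosed (A := A) (V := V) k
  rw [eq_top_iff]
  intro f _
  -- `f` commutes with all `A`-endomorphisms (they are scalars)
  let F : Module.End (Module.End A V) V :=
    { toFun := f
      map_add' := map_add f
      map_smul' := fun φ x => by
        obtain ⟨c, rfl⟩ := hbij.2 φ
        exact f.map_smul c x }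
  obtain ⟨s, hs⟩ := Module.Finite.fg_top (R := k) (M := V)
  obtain ⟨r, hr⟩ := jacobson_density (R := A) F s
  have hfr : f = (r : Module.End k V) := by
    refine LinearMap.ext_on hs (fun x hx => ?_)
    exact hr x hx
  rw [hfr]
  exact r.2

end General

/-! ## The trace form on `End_k V` -/

section Trace

variable {k : Type*} [Field k] {V : Type*} [AddCommGroup V] [Module k V] [FiniteDimensional k V]

theorem trace_mul_smulRight (A : Module.End k V) (φ : Module.Dual k V) (w : V) :
    LinearMap.trace k V (A * φ.smulRight w) = φ (A w) := by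
  have h : A * φ.smulRight w = φ.smulRight (A w) := by
    ext x
    simp
  rw [h]
  have := LinearMap.trace_eq_contract_apply (R := k) (M := V) (φ ⊗ₜ[k] (A w))
  rw [contractLeft_apply] at this
  rw [← this]
  congr 1

theorem eq_zero_of_trace_mul_eq_zero {A : Module.End k V}
    (h : ∀ B : Module.End k V, LinearMap.trace k V (A * B) = 0) : A = 0 := by
  ext w
  rw [LinearMap.zero_apply, ← Module.forall_dual_apply_eq_zero_iff k]
  intro φ
  rw [← trace_mul_smulRight A φ w]
  exact h _

/-- The bilinear form `(A, B) ↦ tr (A * B)` on `End_k V`. -/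
noncomputable def trForm (k V : Type*) [Field k] [AddCommGroup V] [Module k V] :
    LinearMap.BilinForm k (Module.End k V) :=
  LinearMap.mk₂ k (fun A B => LinearMap.trace k V (A * B))
    (fun A A' B => by rw [add_mul, map_add])
    (fun c A B => by rw [smul_mul_assoc, map_smul])
    (fun A B B' => by rw [mul_add, map_add])
    (fun c A B => by rw [mul_smul_comm, map_smul])

omit [FiniteDimensional k V] in
@[simp] theorem trForm_apply (A B : Module.End k V) :
    trForm k V A B = LinearMap.trace k V (A * B) := rfl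

theorem trForm_nondegenerate : (trForm k V).Nondegenerate := by
  refine ⟨fun A hA => eq_zero_of_trace_mul_eq_zero hA, fun A hA => eq_zero_of_trace_mul_eq_zero
    fun B => ?_⟩
  rw [LinearMap.trace_mul_comm]
  exact hA B

/-- Every linear functional on `End_k V` vanishing on `U ≠ ⊤` ... there is a nonzero `A` with
`tr (A * u) = 0` for all `u ∈ U`. -/
theorem exists_trace_eq_zero_of_ne_top {U : Submodule k (Module.End k V)} (hU : U ≠ ⊤) :
    ∃ A : Module.End k V, A ≠ 0 ∧ ∀ u ∈ U, LinearMap.trace k V (A * u) = 0 := by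
  obtain ⟨f, hf, hfU⟩ := Submodule.exists_le_ker_of_lt_top U (lt_top_iff_ne_top.mpr hU)
  have hinj : Function.Injective (trForm k V) := by
    rw [injective_iff_map_eq_zero]
    intro A hA
    exact eq_zero_of_trace_mul_eq_zero fun B => LinearMap.congr_fun hA B
  have hsurj : Function.Surjective (trForm k V) :=
    (LinearMap.injective_iff_surjective_of_finrank_eq_finrank
      (Subspace.dual_finrank_eq (K := k) (V := Module.End k V)).symm).mp hinj
  obtain ⟨A, hA⟩ := hsurj f
  refine ⟨A, ?_, fun u hu => ?_⟩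
  · rintro rfl
    exact hf (by rw [← hA, map_zero])
  · have := LinearMap.mem_ker.mp (hfU hu)
    rwa [← hA] at this

end Trace

/-! ## Absolute irreducibility -/

section Abs

variable {G : Type*} [Monoid G] {k : Type*} [Field k] {V : Type*} [AddCommGroup V] [Module k V]
  [FiniteDimensional k V]

/-- If the image of `ρ` spans `End_k V`, then every base change of `ρ` is irreducible. -/
theorem eq_bot_or_eq_top_of_span_eq_top {K : Type*} [Field K] [Algebra k K]
    (ρ : G →* Module.End k V) (h : Submodule.span k (Set.range ρ) = ⊤)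
    (W : Submodule K (K ⊗[k] V)) (hW : ∀ g : G, ∀ x ∈ W, (ρ g).baseChange K x ∈ W) :
    W = ⊥ ∨ W = ⊤ := by
  -- `W` is stable under all `f ⊗ 1`
  have hst : ∀ f : Module.End k V, ∀ x ∈ W, f.baseChange K x ∈ W := by
    intro f x hx
    have hf : f ∈ Submodule.span k (Set.range ρ) := by rw [h]; trivial
    induction hf using Submodule.span_induction with
    | mem f hf => obtain ⟨g, rfl⟩ := hf; exact hW g x hx
    | zero => rw [LinearMap.baseChange_zero]; exact W.zero_mem
    | add f f' _ _ hf hf' =>
      rw [LinearMap.baseChange_add]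
      exact W.add_mem hf hf'
    | smul c f _ hf =>
      rw [LinearMap.baseChange_smul, LinearMap.smul_apply, ← algebraMap_smul K c]
      exact W.smul_mem _ hf
  by_cases hbot : W = ⊥
  · exact Or.inl hbot
  right
  obtain ⟨w, hw, hw0⟩ := Submodule.exists_mem_ne_zero_of_ne_bot hbot
  let b := Module.finBasis k V
  let bK := b.baseChange K
  -- some coordinate is nonzero
  obtain ⟨j, hj⟩ : ∃ j, bK.repr w j ≠ 0 := by
    by_contra hcon
    push Not at hcon
    exact hw0 (bK.repr.map_eq_zero_iff.mp (Finsupp.ext hcon))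
  -- elementary matrices
  have key : ∀ v : V, (1 : K) ⊗ₜ[k] v ∈ W := by
    intro v
    have h1 := hst ((b.coord j).smulRight v) w hw
    have h2 : ((b.coord j).smulRight v).baseChange K w = (bK.repr w j) • ((1 : K) ⊗ₜ[k] v) := by
      clear h1 hw hw0 hj
      induction w using TensorProduct.induction_on with
      | zero => simp
      | tmul c x =>
        rw [LinearMap.baseChange_tmul, LinearMap.smulRight_apply, Module.Basis.baseChange_repr_tmul,
          Module.Basis.coord_apply, TensorProduct.tmul_smul, TensorProduct.smul_tmul',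
          TensorProduct.smul_tmul', smul_eq_mul, mul_one]
      | add x y hx hy =>
        rw [map_add, hx, hy, map_add, Finsupp.add_apply, add_smul]
    rw [h2] at h1
    exact (W.smul_mem_iff hj).mp h1
  rw [eq_top_iff]
  intro x _
  induction x using TensorProduct.induction_on with
  | zero => exact W.zero_mem
  | tmul c v =>
    have : c ⊗ₜ[k] v = c • ((1 : K) ⊗ₜ[k] v) := by
      rw [TensorProduct.smul_tmul', smul_eq_mul, mul_one]
    rw [this]
    exact W.smul_mem _ (key v)
  | add x y hx hy => exact W.add_mem (hx trivial) (hy trivial)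

/-- If the base change to an algebraically closed field is irreducible, the image spans. -/
theorem span_eq_top_of_baseChange_irreducible {K : Type*} [Field K] [Algebra k K] [IsAlgClosed K]
    [Nontrivial V] (ρ : G →* Module.End k V)
    (h : ∀ W : Submodule K (K ⊗[k] V), (∀ g : G, ∀ x ∈ W, (ρ g).baseChange K x ∈ W) →
      W = ⊥ ∨ W = ⊤) :
    Submodule.span k (Set.range ρ) = ⊤ := by
  let ρK : G →* Module.End K (K ⊗[k] V) :=
    { toFun := fun g => (ρ g).baseChange K
      map_one' := by rw [map_one, LinearMap.baseChange_one]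
      map_mul' := fun g g' => by rw [map_mul, LinearMap.baseChange_mul] }
  have hK : Submodule.span K (Set.range ρK) = ⊤ := span_range_eq_top_of_isAlgClosed ρK h
  by_contra hne
  obtain ⟨A, hA0, hA⟩ := exists_trace_eq_zero_of_ne_top hne
  have hAK : A.baseChange K = 0 := by
    refine eq_zero_of_trace_mul_eq_zero fun B => ?_
    have hB : B ∈ Submodule.span K (Set.range ρK) := by rw [hK]; trivial
    induction hB using Submodule.span_induction with
    | mem B hB =>
      obtain ⟨g, rfl⟩ := hB
      change LinearMap.trace K (K ⊗[k] V) (A.baseChange K * (ρ g).baseChange K) = 0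
      rw [← LinearMap.baseChange_mul, LinearMap.trace_baseChange,
        hA _ (Submodule.subset_span ⟨g, rfl⟩), map_zero]
    | zero => rw [mul_zero, map_zero]
    | add B B' _ _ hB hB' => rw [mul_add, map_add, hB, hB', add_zero]
    | smul c B _ hB => rw [mul_smul_comm, map_smul, hB, smul_zero]
  apply hA0
  ext v
  have h1 : A.baseChange K ((1 : K) ⊗ₜ[k] v) = 0 := by rw [hAK, LinearMap.zero_apply]
  rw [LinearMap.baseChange_tmul] at h1
  rw [LinearMap.zero_apply]
  by_contra hne'
  -- `1 ⊗ x ≠ 0` for `x ≠ 0`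
  have hinj : Function.Injective (TensorProduct.mk k K V 1) :=
    Module.FaithfullyFlat.tensorProduct_mk_injective (A := k) (B := K) V
  exact hne' (hinj (by rw [TensorProduct.mk_apply, h1, map_zero]))

end Abs

/-! ## Brauer–Nesbitt -/

section BrauerNesbitt

variable {G : Type*} [Monoid G]
  {k₁ : Type*} [Field k₁] {V₁ : Type*} [AddCommGroup V₁] [Module k₁ V₁] [FiniteDimensional k₁ V₁]
  {k₂ : Type*} [Field k₂] {V₂ : Type*} [AddCommGroup V₂] [Module k₂ V₂] [FiniteDimensional k₂ V₂]
  {K : Type*} [Field K]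

/-- If the image of `ρ₂` spans `End V₂`, and `ρ₁` has the same traces (in a common extension) and
the same dimension, then the image of `ρ₁` spans `End V₁`. -/
theorem span_range_eq_top_of_trace_eq (ρ₁ : G →* Module.End k₁ V₁) (ρ₂ : G →* Module.End k₂ V₂)
    (i₁ : k₁ →+* K) (i₂ : k₂ →+* K) (hdim : Module.finrank k₁ V₁ = Module.finrank k₂ V₂)
    (htr : ∀ g : G, i₁ (LinearMap.trace k₁ V₁ (ρ₁ g)) = i₂ (LinearMap.trace k₂ V₂ (ρ₂ g)))
    (h₂ : Submodule.span k₂ (Set.range ρ₂) = ⊤) :
    Submodule.span k₁ (Set.range ρ₁) = ⊤ := by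
  classical
  -- a basis of `End V₂` inside the image of `ρ₂`
  obtain ⟨κ, a, -, hspan, hli⟩ :=
    exists_linearIndependent' k₂ (fun g : G => (ρ₂ g : Module.End k₂ V₂))
  have htop : ⊤ ≤ Submodule.span k₂ (Set.range ((fun g : G => (ρ₂ g : Module.End k₂ V₂)) ∘ a)) := by
    rw [hspan]
    exact h₂.ge
  let b : Module.Basis κ k₂ (Module.End k₂ V₂) := Module.Basis.mk hli htop
  have hb : ∀ i, b i = ρ₂ (a i) := fun i => by
    rw [Module.Basis.mk_apply]
    rfl
  have : Fintype κ := FiniteDimensional.fintypeBasisIndex b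
  -- Gram matrices
  let M₂ : Matrix κ κ k₂ := Matrix.of fun i j => LinearMap.trace k₂ V₂ (ρ₂ (a i * a j))
  let M₁ : Matrix κ κ k₁ := Matrix.of fun i j => LinearMap.trace k₁ V₁ (ρ₁ (a i * a j))
  have hM₂ : M₂.det ≠ 0 := by
    have h := (LinearMap.BilinForm.nondegenerate_iff_det_ne_zero b).mp
      (trForm_nondegenerate (k := k₂) (V := V₂))
    convert h using 2
    ext i j
    rw [LinearMap.BilinForm.toMatrix_apply, hb, hb, trForm_apply, ← map_mul]
    rfl
  have hM : M₁.map i₁ = M₂.map i₂ := by
    ext i j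
    exact htr _
  have hM₁ : M₁.det ≠ 0 := by
    intro h0
    have h1 : i₁ M₁.det = i₂ M₂.det := by
      rw [RingHom.map_det, RingHom.map_det]
      exact congrArg Matrix.det hM
    rw [h0, map_zero] at h1
    exact hM₂ ((map_eq_zero i₂).mp h1.symm)
  -- `ρ₁ (a i)` are linearly independent
  have hli₁ : LinearIndependent k₁ (fun i => ρ₁ (a i)) := by
    rw [Fintype.linearIndependent_iff]
    intro c hc
    have hvec : Matrix.vecMul c M₁ = 0 := by
      funext j
      have h1 : LinearMap.trace k₁ V₁ ((∑ i, c i • ρ₁ (a i)) * ρ₁ (a j)) = 0 := by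
        rw [hc, zero_mul, map_zero]
      rw [Finset.sum_mul, map_sum] at h1
      simp only [smul_mul_assoc, map_smul, ← map_mul, smul_eq_mul] at h1
      exact h1
    intro i
    exact congrFun (Matrix.eq_zero_of_vecMul_eq_zero hM₁ hvec) i
  have hcard : Fintype.card κ = Module.finrank k₁ (Module.End k₁ V₁) := by
    rw [← Module.finrank_eq_card_basis b, Module.finrank_linearMap, Module.finrank_linearMap, hdim]
  have h3 := hli₁.span_eq_top_of_card_eq_finrank' hcard
  rw [eq_top_iff, ← h3]
  exact Submodule.span_mono (by rintro _ ⟨i, rfl⟩; exact ⟨a i, rfl⟩)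

end BrauerNesbitt

/-! ## Brauer–Nesbitt: isomorphism -/

section Iso

variable {G : Type*} [Monoid G] {k : Type*} [Field k]
  {V₁ : Type*} [AddCommGroup V₁] [Module k V₁] [FiniteDimensional k V₁]
  {V₂ : Type*} [AddCommGroup V₂] [Module k V₂] [FiniteDimensional k V₂]

/-- Two representations with the same traces whose images span are isomorphic. -/
theorem exists_linearEquiv_of_trace_eq (ρ₁ : G →* Module.End k V₁) (ρ₂ : G →* Module.End k V₂)
    (hdim : Module.finrank k V₁ = Module.finrank k V₂)
    (htr : ∀ g : G, LinearMap.trace k V₁ (ρ₁ g) = LinearMap.trace k V₂ (ρ₂ g))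
    (h₂ : Submodule.span k (Set.range ρ₂) = ⊤) :
    ∃ e : V₁ ≃ₗ[k] V₂, ∀ (g : G) (x : V₁), e (ρ₁ g x) = ρ₂ g (e x) := by
  classical
  have h₁ : Submodule.span k (Set.range ρ₁) = ⊤ :=
    span_range_eq_top_of_trace_eq ρ₁ ρ₂ (RingHom.id k) (RingHom.id k) hdim htr h₂
  -- the extensions of `ρ₁`, `ρ₂` to the monoid algebra
  let r₁ : MonoidAlgebra k G →ₐ[k] Module.End k V₁ := MonoidAlgebra.lift k (Module.End k V₁) G ρ₁
  let r₂ : MonoidAlgebra k G →ₐ[k] Module.End k V₂ := MonoidAlgebra.lift k (Module.End k V₂) G ρ₂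
  have hr₁ : Function.Surjective r₁ := by
    intro f
    have hf : f ∈ Submodule.span k (Set.range ρ₁) := by rw [h₁]; trivial
    induction hf using Submodule.span_induction with
    | mem f hf =>
      obtain ⟨g, rfl⟩ := hf
      exact ⟨MonoidAlgebra.of k G g, MonoidAlgebra.lift_of _ _⟩
    | zero => exact ⟨0, map_zero _⟩
    | add f f' _ _ hf hf' =>
      obtain ⟨x, rfl⟩ := hf
      obtain ⟨y, rfl⟩ := hf'
      exact ⟨x + y, map_add _ _ _⟩
    | smul c f _ hf =>
      obtain ⟨x, rfl⟩ := hf
      exact ⟨c • x, map_smul _ _ _⟩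
  have hr₂ : Function.Surjective r₂ := by
    intro f
    have hf : f ∈ Submodule.span k (Set.range ρ₂) := by rw [h₂]; trivial
    induction hf using Submodule.span_induction with
    | mem f hf =>
      obtain ⟨g, rfl⟩ := hf
      exact ⟨MonoidAlgebra.of k G g, MonoidAlgebra.lift_of _ _⟩
    | zero => exact ⟨0, map_zero _⟩
    | add f f' _ _ hf hf' =>
      obtain ⟨x, rfl⟩ := hf
      obtain ⟨y, rfl⟩ := hf'
      exact ⟨x + y, map_add _ _ _⟩
    | smul c f _ hf =>
      obtain ⟨x, rfl⟩ := hf
      exact ⟨c • x, map_smul _ _ _⟩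
  -- traces agree on the monoid algebra
  have htr' : ∀ x : MonoidAlgebra k G,
      LinearMap.trace k V₁ (r₁ x) = LinearMap.trace k V₂ (r₂ x) := by
    intro x
    induction x using MonoidAlgebra.induction_on with
    | of g =>
      rw [MonoidAlgebra.lift_of, MonoidAlgebra.lift_of]
      exact htr g
    | add x y hx hy => rw [map_add, map_add, map_add, map_add, hx, hy]
    | smul c x hx => rw [map_smul, map_smul, map_smul, map_smul, hx]
  -- the kernels agree
  have hker : ∀ x : MonoidAlgebra k G, r₁ x = 0 → r₂ x = 0 := by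
    intro x hx
    refine eq_zero_of_trace_mul_eq_zero fun B => ?_
    obtain ⟨y, rfl⟩ := hr₂ B
    rw [← map_mul, ← htr', map_mul, hx, zero_mul, map_zero]
  have hker' : ∀ x y : MonoidAlgebra k G, r₁ x = r₁ y → r₂ x = r₂ y := by
    intro x y h
    have := hker (x - y) (by rw [map_sub, h, sub_self])
    rwa [map_sub, sub_eq_zero] at this
  -- choose sections
  choose s hs using hr₁
  -- the map `Φ : End V₁ → End V₂`
  have hΦ : ∀ x : MonoidAlgebra k G, r₂ (s (r₁ x)) = r₂ x := fun x => hker' _ _ (hs _)
  by_cases hV : Nontrivial V₁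
  swap
  · -- trivial case
    rw [not_nontrivial_iff_subsingleton] at hV
    have h0 : Module.finrank k V₂ = 0 := by rw [← hdim, Module.finrank_zero_of_subsingleton]
    have : Subsingleton V₂ := Module.finrank_zero_iff.mp h0
    exact ⟨LinearEquiv.ofFinrankEq V₁ V₂ hdim, fun g x => Subsingleton.elim _ _⟩
  obtain ⟨v₀, hv₀⟩ := exists_ne (0 : V₁)
  obtain ⟨φ₀, hφ₀⟩ : ∃ φ : Module.Dual k V₁, φ v₀ = 1 := by
    obtain ⟨φ, hφ⟩ : ∃ φ : Module.Dual k V₁, φ v₀ ≠ 0 := by
      by_contra hcon
      push Not at hcon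
      exact hv₀ ((Module.forall_dual_apply_eq_zero_iff k v₀).mp hcon)
    exact ⟨(φ v₀)⁻¹ • φ, by rw [LinearMap.smul_apply, smul_eq_mul, inv_mul_cancel₀ hφ]⟩
  -- the idempotent `p = v₀ ⊗ φ₀`
  have hmulsr : ∀ (f : Module.End k V₁) (v : V₁), f * φ₀.smulRight v = φ₀.smulRight (f v) := by
    intro f v
    ext x
    simp
  have hp0 : r₂ (s (φ₀.smulRight v₀)) ≠ 0 := by
    intro h0
    have h1 : LinearMap.trace k V₁ (φ₀.smulRight v₀) = 1 := by
      have := trace_mul_smulRight (1 : Module.End k V₁) φ₀ v₀
      rwa [one_mul, Module.End.one_apply, hφ₀] at this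
    rw [← hs (φ₀.smulRight v₀), htr', h0, map_zero] at h1
    exact zero_ne_one h1
  obtain ⟨w, hw⟩ : ∃ w : V₂, r₂ (s (φ₀.smulRight v₀)) w ≠ 0 := by
    by_contra hcon
    push Not at hcon
    exact hp0 (LinearMap.ext hcon)
  -- the map `e`
  let e : V₁ →ₗ[k] V₂ :=
    { toFun := fun v => r₂ (s (φ₀.smulRight v)) w
      map_add' := fun v v' => by
        have h : r₂ (s (φ₀.smulRight (v + v'))) =
            r₂ (s (φ₀.smulRight v) + s (φ₀.smulRight v')) := by
          apply hker'
          rw [map_add, hs, hs, hs]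
          ext x
          simp
        rw [h, map_add, LinearMap.add_apply]
      map_smul' := fun c v => by
        have h : r₂ (s (φ₀.smulRight (c • v))) = r₂ (c • s (φ₀.smulRight v)) := by
          apply hker'
          rw [map_smul, hs, hs]
          ext x
          rw [LinearMap.smulRight_apply, LinearMap.smul_apply, LinearMap.smulRight_apply, smul_comm]
        rw [h, map_smul, LinearMap.smul_apply, RingHom.id_apply] }
  have he : ∀ (x : MonoidAlgebra k G) (v : V₁), e (r₁ x v) = r₂ x (e v) := by
    intro x v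
    change r₂ (s (φ₀.smulRight (r₁ x v))) w = r₂ x (r₂ (s (φ₀.smulRight v)) w)
    have h : r₂ (s (φ₀.smulRight (r₁ x v))) = r₂ (x * s (φ₀.smulRight v)) := by
      apply hker'
      rw [map_mul, hs, hs, hmulsr]
    rw [h, map_mul, Module.End.mul_apply]
  have hinj : Function.Injective e := by
    rw [injective_iff_map_eq_zero]
    intro v hv
    by_contra hv0
    -- `f v = v₀`
    obtain ⟨φ, hφ⟩ : ∃ φ : Module.Dual k V₁, φ v ≠ 0 := by
      by_contra hcon
      push Not at hcon
      exact hv0 ((Module.forall_dual_apply_eq_zero_iff k v).mp hcon)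
    have h1 := he (s (((φ v)⁻¹ • φ).smulRight v₀)) v
    rw [hs, hv, map_zero, LinearMap.smulRight_apply, LinearMap.smul_apply, smul_eq_mul,
      inv_mul_cancel₀ hφ, one_smul] at h1
    exact hw h1
  refine ⟨LinearEquiv.ofInjectiveOfFinrankEq e hinj hdim, fun g x => ?_⟩
  have h1 := he (MonoidAlgebra.of k G g) x
  rw [MonoidAlgebra.lift_of, MonoidAlgebra.lift_of] at h1
  exact h1

end Iso

/-! ## Oddness -/

section Odd

variable {G : Type*} [Monoid G] {k : Type*} [Field k] {V : Type*} [AddCommGroup V] [Module k V]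

/-- `ρ` irreducible of dimension 2 with an involution `c`, `ρ c ≠ ±1`, in characteristic `≠ 2`:
all base changes of `ρ` are irreducible. -/
theorem baseChange_irreducible_of_involution {K : Type*} [Field K] [Algebra k K]
    (h2 : (2 : k) ≠ 0) (hdim : Module.finrank k V = 2) (ρ : G →* Module.End k V)
    (hirr : ∀ W : Submodule k V, (∀ g : G, ∀ x ∈ W, ρ g x ∈ W) → W = ⊥ ∨ W = ⊤)
    (c : G) (hc : ρ c * ρ c = 1) (hc1 : ρ c ≠ 1) (hc2 : ρ c ≠ -1)
    (W : Submodule K (K ⊗[k] V)) (hW : ∀ g : G, ∀ x ∈ W, (ρ g).baseChange K x ∈ W) :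
    W = ⊥ ∨ W = ⊤ := by
  by_cases hbot : W = ⊥
  · exact Or.inl hbot
  right
  -- eigenvectors
  obtain ⟨v₂, hv₂⟩ : ∃ v, ρ c v ≠ v := by
    by_contra hcon
    push Not at hcon
    exact hc1 (LinearMap.ext hcon)
  obtain ⟨v₁, hv₁⟩ : ∃ v, ρ c v ≠ -v := by
    by_contra hcon
    push Not at hcon
    exact hc2 (LinearMap.ext hcon)
  have hcc : ∀ v, ρ c (ρ c v) = v := fun v => LinearMap.congr_fun hc v
  set e₁ := v₁ + ρ c v₁ with he₁
  set e₂ := v₂ - ρ c v₂ with he₂
  have he₁0 : e₁ ≠ 0 := fun h => hv₁ (by rw [eq_neg_iff_add_eq_zero, add_comm]; exact h)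
  have he₂0 : e₂ ≠ 0 := fun h => hv₂ (sub_eq_zero.mp h).symm
  have hce₁ : ρ c e₁ = e₁ := by rw [he₁, map_add, hcc, add_comm]
  have hce₂ : ρ c e₂ = -e₂ := by rw [he₂, map_sub, hcc, neg_sub]
  have hli : LinearIndependent k ![e₁, e₂] := by
    rw [LinearIndependent.pair_iff]
    intro s t hst
    have h1 : ρ c (s • e₁ + t • e₂) = 0 := by rw [hst, map_zero]
    rw [map_add, map_smul, map_smul, hce₁, hce₂, smul_neg, ← sub_eq_add_neg] at h1
    have hs : (2 * s) • e₁ = 0 := by
      have : (2 * s) • e₁ = (s • e₁ + t • e₂) + (s • e₁ - t • e₂) := by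
        rw [two_mul, add_smul]; abel
      rw [this, hst, h1, add_zero]
    have ht : (2 * t) • e₂ = 0 := by
      have : (2 * t) • e₂ = (s • e₁ + t • e₂) - (s • e₁ - t • e₂) := by
        rw [two_mul, add_smul]; abel
      rw [this, hst, h1, sub_zero]
    exact ⟨(mul_eq_zero.mp ((smul_eq_zero.mp hs).resolve_right he₁0)).resolve_left h2,
      (mul_eq_zero.mp ((smul_eq_zero.mp ht).resolve_right he₂0)).resolve_left h2⟩
  let b : Module.Basis (Fin 2) k V :=
    basisOfLinearIndependentOfCardEqFinrank hli (by rw [hdim]; rfl)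
  have hb0 : b 0 = e₁ := by simp [b]
  have hb1 : b 1 = e₂ := by simp [b]
  let bK := b.baseChange K
  obtain ⟨w, hw, hw0⟩ := Submodule.exists_mem_ne_zero_of_ne_bot hbot
  have hwsum : w = bK.repr w 0 • ((1 : K) ⊗ₜ[k] e₁) + bK.repr w 1 • ((1 : K) ⊗ₜ[k] e₂) := by
    conv_lhs => rw [← bK.sum_repr w]
    rw [Fin.sum_univ_two]
    simp only [bK, Module.Basis.baseChange_apply, hb0, hb1]
  set α := bK.repr w 0
  set β := bK.repr w 1
  have hcw : (ρ c).baseChange K w = α • ((1 : K) ⊗ₜ[k] e₁) - β • ((1 : K) ⊗ₜ[k] e₂) := by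
    rw [hwsum, map_add, map_smul, map_smul, LinearMap.baseChange_tmul, LinearMap.baseChange_tmul,
      hce₁, hce₂, TensorProduct.tmul_neg, smul_neg, sub_eq_add_neg]
  have h2K : (2 : K) ≠ 0 := by
    intro h
    apply h2
    apply (algebraMap k K).injective
    rw [map_ofNat, h, map_zero]
  have hα : (2 * α) • ((1 : K) ⊗ₜ[k] e₁) ∈ W := by
    have : (2 * α) • ((1 : K) ⊗ₜ[k] e₁) = w + (ρ c).baseChange K w := by
      rw [hcw]
      conv_rhs => rw [hwsum]
      rw [two_mul, add_smul]; abel
    rw [this]
    exact W.add_mem hw (hW c w hw)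
  have hβ : (2 * β) • ((1 : K) ⊗ₜ[k] e₂) ∈ W := by
    have : (2 * β) • ((1 : K) ⊗ₜ[k] e₂) = w - (ρ c).baseChange K w := by
      rw [hcw]
      conv_rhs => rw [hwsum]
      rw [two_mul, add_smul]; abel
    rw [this]
    exact W.sub_mem hw (hW c w hw)
  -- the descended submodule
  let W' : Submodule k V :=
    { carrier := {v | (1 : K) ⊗ₜ[k] v ∈ W}
      add_mem' := fun {x y} hx hy => by
        change (1 : K) ⊗ₜ[k] (x + y) ∈ W
        rw [TensorProduct.tmul_add]
        exact W.add_mem hx hy
      zero_mem' := by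
        change (1 : K) ⊗ₜ[k] (0 : V) ∈ W
        rw [TensorProduct.tmul_zero]
        exact W.zero_mem
      smul_mem' := fun a x hx => by
        change (1 : K) ⊗ₜ[k] (a • x) ∈ W
        rw [TensorProduct.tmul_smul, ← algebraMap_smul K a]
        exact W.smul_mem _ hx }
  have hW'st : ∀ g : G, ∀ x ∈ W', ρ g x ∈ W' := by
    intro g x hx
    have := hW g _ hx
    rwa [LinearMap.baseChange_tmul] at this
  have hW'ne : W' ≠ ⊥ := by
    by_cases hα0 : α = 0
    · have hβ0 : β ≠ 0 := by
        rintro hβ0
        apply hw0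
        rw [hwsum, hα0, hβ0, zero_smul, zero_smul, add_zero]
      have : e₂ ∈ W' := (W.smul_mem_iff (mul_ne_zero h2K hβ0)).mp hβ
      exact fun h => he₂0 (by rw [h] at this; exact this)
    · have : e₁ ∈ W' := (W.smul_mem_iff (mul_ne_zero h2K hα0)).mp hα
      exact fun h => he₁0 (by rw [h] at this; exact this)
  have hW'top : W' = ⊤ := (hirr W' hW'st).resolve_left hW'ne
  rw [eq_top_iff]
  intro x _
  induction x using TensorProduct.induction_on with
  | zero => exact W.zero_mem
  | tmul c v =>
    have hv : v ∈ W' := by rw [hW'top]; trivial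
    have : c ⊗ₜ[k] v = c • ((1 : K) ⊗ₜ[k] v) := by
      rw [TensorProduct.smul_tmul', smul_eq_mul, mul_one]
    rw [this]
    exact W.smul_mem _ hv
  | add x y hx hy => exact W.add_mem (hx trivial) (hy trivial)

end Odd

end Fermat.Agent.BN2
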