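import Fermat.Agent.BrauerNesbitt2
import Fermat.Prelude.Def_GaloisRep_Adic
import Fermat.Prelude.Def_GaloisRep_ComplexConjugation

/-!
# Absolute irreducibility for residual Galois representations

* `isAbsolutelyIrreducible_iff_span`;
* `isAbsolutelyIrreducible_of_trace_eq`, `isAbsolutelyIrreducible_of_charpoly_eq`;
* `isEquiv_of_trace_eq`, `isEquiv_of_charpoly_eq`;
* `isAbsolutelyIrreducible_of_isIrreducible_of_isOdd`.
-/

set_option autoImplicit false

open scoped TensorProduct
open Polynomial

namespace Fermat.Agent.BN2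

section

variable {k : Type} [Field k]

theorem nontrivial_V (ρ : ResidualGaloisRep k) : Nontrivial ρ.V :=
  Module.nontrivial_of_finrank_pos (R := k) (by rw [ρ.finrank_eq]; norm_num)

/-- Absolute irreducibility = the image spans `End_k V`. -/
theorem isAbsolutelyIrreducible_iff_span (ρ : ResidualGaloisRep k) :
    ρ.IsAbsolutelyIrreducible ↔ Submodule.span k (Set.range ρ.ρ) = ⊤ := by
  have := nontrivial_V ρ
  constructor
  · intro h
    exact span_eq_top_of_baseChange_irreducible (K := AlgebraicClosure k) ρ.ρ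
      (fun W hW => h W hW)
  · intro h W hW
    exact eq_bot_or_eq_top_of_span_eq_top ρ.ρ h W hW

theorem isIrreducible_of_isAbsolutelyIrreducible {ρ : ResidualGaloisRep k}
    (h : ρ.IsAbsolutelyIrreducible) : ρ.IsIrreducible := by
  rw [isAbsolutelyIrreducible_iff_span] at h
  intro W hW
  -- `W` is stable under everything
  have hst : ∀ f : Module.End k ρ.V, ∀ x ∈ W, f x ∈ W := by
    intro f x hx
    have hf : f ∈ Submodule.span k (Set.range ρ.ρ) := by rw [h]; trivial
    induction hf using Submodule.span_induction with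
    | mem f hf => obtain ⟨g, rfl⟩ := hf; exact hW g x hx
    | zero => exact W.zero_mem
    | add f f' _ _ hf hf' => exact W.add_mem hf hf'
    | smul c f _ hf => exact W.smul_mem c hf
  by_cases hbot : W = ⊥
  · exact Or.inl hbot
  · right
    obtain ⟨w, hw, hw0⟩ := Submodule.exists_mem_ne_zero_of_ne_bot hbot
    obtain ⟨φ, hφ⟩ : ∃ φ : Module.Dual k ρ.V, φ w ≠ 0 := by
      by_contra hcon
      push Not at hcon
      exact hw0 ((Module.forall_dual_apply_eq_zero_iff k w).mp hcon)
    rw [eq_top_iff]
    intro x _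
    have := hst (φ.smulRight x) w hw
    rw [LinearMap.smulRight_apply] at this
    exact (W.smul_mem_iff hφ).mp this

/-- Brauer–Nesbitt: absolute irreducibility only depends on traces (compared in some common
extension field `K`). -/
theorem isAbsolutelyIrreducible_of_trace_eq {k' : Type} [Field k'] {K : Type*} [Field K]
    (i : k →+* K) (i' : k' →+* K) (ρ : ResidualGaloisRep k) (ρ' : ResidualGaloisRep k')
    (htr : ∀ σ, i (LinearMap.trace k ρ.V (ρ.ρ σ)) = i' (LinearMap.trace k' ρ'.V (ρ'.ρ σ)))
    (h' : ρ'.IsAbsolutelyIrreducible) : ρ.IsAbsolutelyIrreducible := by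
  rw [isAbsolutelyIrreducible_iff_span] at h' ⊢
  exact span_range_eq_top_of_trace_eq ρ.ρ ρ'.ρ i i' (by rw [ρ.finrank_eq, ρ'.finrank_eq]) htr h'

end

section Charpoly

/-- In rank 2 the charpoly is `X² - tr X + det`. -/
theorem charpoly_eq_of_finrank_two {R V : Type*} [CommRing R] [Nontrivial R] [AddCommGroup V]
    [Module R V] [Module.Free R V] [Module.Finite R V] (h : Module.finrank R V = 2)
    (f : Module.End R V) :
    LinearMap.charpoly f = X ^ 2 - C (LinearMap.trace R V f) * X + C (LinearMap.det f) := by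
  let b : Module.Basis (Fin 2) R V := Module.finBasisOfFinrankEq R V h
  rw [← LinearMap.charpoly_toMatrix f b, Matrix.charpoly_fin_two, LinearMap.trace_eq_matrix_trace R b,
    LinearMap.det_toMatrix]

theorem trace_eq_of_charpoly_map_eq {R R' S V V' : Type*} [CommRing R] [Nontrivial R] [CommRing R']
    [Nontrivial R'] [CommRing S] [AddCommGroup V] [Module R V] [Module.Free R V] [Module.Finite R V]
    [AddCommGroup V'] [Module R' V'] [Module.Free R' V'] [Module.Finite R' V']
    (h : Module.finrank R V = 2) (h' : Module.finrank R' V' = 2)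
    (i : R →+* S) (i' : R' →+* S) (f : Module.End R V) (f' : Module.End R' V')
    (heq : (LinearMap.charpoly f).map i = (LinearMap.charpoly f').map i') :
    i (LinearMap.trace R V f) = i' (LinearMap.trace R' V' f') := by
  rw [charpoly_eq_of_finrank_two h, charpoly_eq_of_finrank_two h'] at heq
  have := congrArg (fun p => p.coeff 1) heq
  simpa [coeff_X, coeff_C] using this

theorem det_eq_of_charpoly_map_eq {R R' S V V' : Type*} [CommRing R] [Nontrivial R] [CommRing R']
    [Nontrivial R'] [CommRing S] [AddCommGroup V] [Module R V] [Module.Free R V] [Module.Finite R V]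
    [AddCommGroup V'] [Module R' V'] [Module.Free R' V'] [Module.Finite R' V']
    (h : Module.finrank R V = 2) (h' : Module.finrank R' V' = 2)
    (i : R →+* S) (i' : R' →+* S) (f : Module.End R V) (f' : Module.End R' V')
    (heq : (LinearMap.charpoly f).map i = (LinearMap.charpoly f').map i') :
    i (LinearMap.det f) = i' (LinearMap.det f') := by
  rw [charpoly_eq_of_finrank_two h, charpoly_eq_of_finrank_two h'] at heq
  have := congrArg (fun p => p.coeff 0) heq
  simpa [coeff_X, coeff_C] using this

theorem charpoly_map_eq_of_trace_det_eq {R R' S V V' : Type*} [CommRing R] [Nontrivial R]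
    [CommRing R']
    [Nontrivial R'] [CommRing S] [AddCommGroup V] [Module R V] [Module.Free R V] [Module.Finite R V]
    [AddCommGroup V'] [Module R' V'] [Module.Free R' V'] [Module.Finite R' V']
    (h : Module.finrank R V = 2) (h' : Module.finrank R' V' = 2)
    (i : R →+* S) (i' : R' →+* S) (f : Module.End R V) (f' : Module.End R' V')
    (htr : i (LinearMap.trace R V f) = i' (LinearMap.trace R' V' f'))
    (hdet : i (LinearMap.det f) = i' (LinearMap.det f')) :
    (LinearMap.charpoly f).map i = (LinearMap.charpoly f').map i' := by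
  rw [charpoly_eq_of_finrank_two h, charpoly_eq_of_finrank_two h']
  simp [htr, hdet]

end Charpoly

section

variable {k : Type} [Field k]

theorem isAbsolutelyIrreducible_of_charpoly_eq {k' : Type} [Field k'] {K : Type*} [Field K]
    (i : k →+* K) (i' : k' →+* K) (ρ : ResidualGaloisRep k) (ρ' : ResidualGaloisRep k')
    (hcp : ∀ σ, (LinearMap.charpoly (ρ.ρ σ)).map i = (LinearMap.charpoly (ρ'.ρ σ)).map i')
    (h' : ρ'.IsAbsolutelyIrreducible) : ρ.IsAbsolutelyIrreducible :=
  isAbsolutelyIrreducible_of_trace_eq i i' ρ ρ'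
    (fun σ => trace_eq_of_charpoly_map_eq ρ.finrank_eq ρ'.finrank_eq i i' _ _ (hcp σ)) h'

/-- Brauer–Nesbitt: two residual representations with the same traces, one of them absolutely
irreducible, are isomorphic. -/
theorem isEquiv_of_trace_eq (ρ ρ' : ResidualGaloisRep k)
    (htr : ∀ σ, LinearMap.trace k ρ.V (ρ.ρ σ) = LinearMap.trace k ρ'.V (ρ'.ρ σ))
    (h' : ρ'.IsAbsolutelyIrreducible) : ρ.IsEquiv ρ' := by
  rw [isAbsolutelyIrreducible_iff_span] at h'
  obtain ⟨e, he⟩ := exists_linearEquiv_of_trace_eq ρ.ρ ρ'.ρ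
    (by rw [ρ.finrank_eq, ρ'.finrank_eq]) htr h'
  exact ⟨⟨e, he⟩⟩

theorem isEquiv_of_charpoly_eq (ρ ρ' : ResidualGaloisRep k)
    (hcp : ∀ σ, LinearMap.charpoly (ρ.ρ σ) = LinearMap.charpoly (ρ'.ρ σ))
    (h' : ρ'.IsAbsolutelyIrreducible) : ρ.IsEquiv ρ' :=
  isEquiv_of_trace_eq ρ ρ' (fun σ => trace_eq_of_charpoly_map_eq ρ.finrank_eq ρ'.finrank_eq
    (RingHom.id k) (RingHom.id k) _ _ (by rw [hcp])) h'

theorem complexConjugation_ne_one : complexConjugation ≠ 1 := by
  intro h
  obtain ⟨z, hz⟩ := IsAlgClosed.exists_pow_nat_eq (-1 : AlgebraicClosure ℚ) (n := 2) (by norm_num)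
  have h1 := complexEmbedding_complexConjugation z
  rw [h, AlgEquiv.one_apply] at h1
  -- `w = complexEmbedding z` is real with `w² = -1`
  have h2 : (complexEmbedding z) ^ 2 = -1 := by
    rw [← map_pow, hz, map_neg, map_one]
  have h3 : (complexEmbedding z).im = 0 := by
    have := congrArg Complex.im h1
    rw [Complex.conj_im] at this
    linarith
  have h4 := congrArg Complex.re h2
  rw [sq, Complex.mul_re, h3] at h4
  simp at h4
  nlinarith [mul_self_nonneg (complexEmbedding z).re]

/-- Irreducible and `c` acts with determinant `-1` for one involution `c`, `char k ≠ 2` ⇒ absolutely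
irreducible. -/
theorem isAbsolutelyIrreducible_of_isIrreducible (h2 : (2 : k) ≠ 0) (ρ : ResidualGaloisRep k)
    (hirr : ρ.IsIrreducible) (c : AlgebraicClosure ℚ ≃ₐ[ℚ] AlgebraicClosure ℚ) (hc : c * c = 1)
    (hdet : LinearMap.det (ρ.ρ c) = -1) : ρ.IsAbsolutelyIrreducible := by
  have hone : (1 : k) ≠ -1 := fun h => h2 (by
    have : (1 : k) + 1 = 0 := by nth_rewrite 2 [h]; ring
    rwa [one_add_one_eq_two] at this)
  intro W hW
  refine baseChange_irreducible_of_involution h2 ρ.finrank_eq ρ.ρ hirr c ?_ ?_ ?_ W hW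
  · rw [← map_mul, hc, map_one]
  · intro h
    rw [h, map_one] at hdet
    exact hone hdet
  · intro h
    rw [h, show (-1 : Module.End k ρ.V) = (-1 : k) • (1 : Module.End k ρ.V) by
      rw [neg_smul, one_smul], LinearMap.det_smul, ρ.finrank_eq, map_one] at hdet
    norm_num at hdet
    exact hone hdet

/-- Irreducible + odd, `char k ≠ 2` ⇒ absolutely irreducible. -/
theorem isAbsolutelyIrreducible_of_isIrreducible_of_isOdd (h2 : (2 : k) ≠ 0)
    (ρ : ResidualGaloisRep k) (hirr : ρ.IsIrreducible) (hodd : ρ.IsOdd) :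
    ρ.IsAbsolutelyIrreducible :=
  isAbsolutelyIrreducible_of_isIrreducible h2 ρ hirr complexConjugation complexConjugation_mul_self
    (hodd _ complexConjugation_mul_self complexConjugation_ne_one)

end

end Fermat.Agent.BN2
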