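import Mathlib

/-!
# Instances for `AlgebraicClosure ℚ` over `ℚ`

With the whole prelude, `Algebra ℚ (AlgebraicClosure ℚ)` is found as `DivisionRing.toRatAlgebra`,
not as `AlgebraicClosure.instAlgebra`; hence Mathlib's instances on the algebraic closure are not
found. We re-state the most useful ones for the `DivisionRing.toRatAlgebra` structure.
-/

namespace Fermat.Agent.QbarInst

theorem algebra_eq : (DivisionRing.toRatAlgebra : Algebra ℚ (AlgebraicClosure ℚ)) =
    (AlgebraicClosure.instAlgebra ℚ : Algebra ℚ (AlgebraicClosure ℚ)) :=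
  Subsingleton.elim _ _

instance instIsAlgClosure : IsAlgClosure ℚ (AlgebraicClosure ℚ) := by
  rw [algebra_eq]
  infer_instance

instance instIsAlgebraic : Algebra.IsAlgebraic ℚ (AlgebraicClosure ℚ) :=
  IsAlgClosure.isAlgebraic

instance instIsGalois : IsGalois ℚ (AlgebraicClosure ℚ) :=
  IsAlgClosure.isGalois ℚ (AlgebraicClosure ℚ)

instance instNormal : Normal ℚ (AlgebraicClosure ℚ) := IsGalois.to_normal

instance instIsSeparable : Algebra.IsSeparable ℚ (AlgebraicClosure ℚ) := IsGalois.to_isSeparable

end Fermat.Agent.QbarInst
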