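import Mathlib
import Fermat.Agent.QbarInst
import Fermat.Prelude.Def_EllipticCurve_FrobeniusTrace

open Pointwise NumberField

namespace Fermat.Agent.FrobExists

section general

variable {L : Type*} [Field L]

/-- An element integral over `ℤ` lies in every valuation subring. -/
lemma mem_of_isIntegral (A : ValuationSubring L) {x : L} (hx : IsIntegral ℤ x) : x ∈ A := by
  have h : IsIntegral A x := hx.tower_top
  obtain ⟨y, hy⟩ := IsIntegrallyClosed.isIntegral_iff.mp h
  rw [← hy]
  exact y.2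

lemma mul_mem_nonunits (A : ValuationSubring L) {x y : L} (hx : x ∈ A) (hy : y ∈ A.nonunits) :
    x * y ∈ A.nonunits := by
  rw [ValuationSubring.mem_nonunits_iff] at hy ⊢
  rw [map_mul]
  exact mul_lt_one_of_nonneg_of_lt_one_right ((A.valuation_le_one_iff x).mpr hx) zero_le hy

lemma mul_mem_nonunits_iff (A : ValuationSubring L) {x y : L} (hx : x ∈ A) (hy : y ∈ A) :
    x * y ∈ A.nonunits ↔ x ∈ A.nonunits ∨ y ∈ A.nonunits := by
  constructor
  · intro h
    by_contra! hcon
    obtain ⟨h1, h2⟩ := hcon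
    rw [ValuationSubring.mem_nonunits_iff] at h h1 h2
    have h1' := (A.valuation_le_one_iff x).mpr hx
    have h2' := (A.valuation_le_one_iff y).mpr hy
    rw [map_mul, le_antisymm h1' (not_lt.mp h1), le_antisymm h2' (not_lt.mp h2), one_mul] at h
    exact lt_irrefl _ h
  · rintro (h | h)
    · rw [mul_comm]; exact mul_mem_nonunits A hy h
    · exact mul_mem_nonunits A hx h

end general

lemma key_numberField (K : Type*) [Field K] [NumberField K] (B : ValuationSubring K)
    {ℓ : ℕ} (hℓ0 : ℓ ≠ 0) (hℓ : (ℓ : K) ∈ B.nonunits) {y : K} (hy : y ∈ B) :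
    ∃ a b : 𝓞 K, (b : K) ∉ B.nonunits ∧ y * b = a := by
  let ι : 𝓞 K →+* B :=
    (algebraMap (𝓞 K) K).codRestrict B.toSubring
      (fun x => mem_of_isIntegral B (RingOfIntegers.isIntegral_coe x))
  have hι : ∀ x : 𝓞 K, ((ι x : B) : K) = x := fun x => rfl
  let P : Ideal (𝓞 K) := (IsLocalRing.maximalIdeal B).comap ι
  have hPmem : ∀ x : 𝓞 K, x ∈ P ↔ (x : K) ∈ B.nonunits := fun x => by
    rw [Ideal.mem_comap, ← hι x, ValuationSubring.coe_mem_nonunits_iff]
  have hP : P ≠ ⊥ := by
    intro h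
    have h1 : ((ℓ : 𝓞 K)) ∈ P := by
      rw [hPmem]; simpa using hℓ
    rw [h, Ideal.mem_bot] at h1
    exact hℓ0 (by exact_mod_cast h1)
  have : P.IsPrime := Ideal.IsPrime.comap _
  have : IsDiscreteValuationRing (Localization.AtPrime P) :=
    IsLocalization.AtPrime.isDiscreteValuationRing_of_dedekind_domain _ hP _
  obtain ⟨a, b, hb, rfl⟩ := IsFractionRing.div_surjective (A := 𝓞 K) y
  have hb0 : (algebraMap (𝓞 K) K b) ≠ 0 := by
    simpa using nonZeroDivisors.ne_zero hb
  have hinj : Function.Injective (algebraMap (𝓞 K) (Localization.AtPrime P)) :=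
    IsLocalization.injective _ P.primeCompl_le_nonZeroDivisors
  rcases ValuationRing.dvd_total (algebraMap (𝓞 K) (Localization.AtPrime P) a)
    (algebraMap (𝓞 K) (Localization.AtPrime P) b) with ⟨z, hz⟩ | ⟨z, hz⟩
  · obtain ⟨c, d, rfl⟩ := IsLocalization.exists_mk'_eq P.primeCompl z
    have h1 : b * d = a * c := by
      apply hinj
      rw [map_mul, map_mul, hz, mul_assoc, IsLocalization.mk'_spec]
    have h2 : algebraMap (𝓞 K) K a / algebraMap (𝓞 K) K b * algebraMap (𝓞 K) K c =
        algebraMap (𝓞 K) K d := by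
      rw [div_mul_eq_mul_div, ← map_mul, ← h1, map_mul, mul_div_cancel_left₀ _ hb0]
    have hd : ((d : 𝓞 K) : K) ∉ B.nonunits := by
      rw [← hPmem]; exact d.2
    refine ⟨d, c, ?_, h2⟩
    intro hc
    have h3 := mul_mem_nonunits B hy hc
    rw [h2] at h3
    exact hd h3
  · obtain ⟨c, d, rfl⟩ := IsLocalization.exists_mk'_eq P.primeCompl z
    have h1 : a * d = b * c := by
      apply hinj
      rw [map_mul, map_mul, hz, mul_assoc, IsLocalization.mk'_spec]
    have h2 : algebraMap (𝓞 K) K a / algebraMap (𝓞 K) K b * algebraMap (𝓞 K) K d =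
        algebraMap (𝓞 K) K c := by
      rw [div_mul_eq_mul_div, ← map_mul, h1, map_mul, mul_div_cancel_left₀ _ hb0]
    have hd : ((d : 𝓞 K) : K) ∉ B.nonunits := by
      rw [← hPmem]; exact d.2
    exact ⟨c, d, hd, h2⟩


lemma mem_nonunits_comap {K L : Type*} [Field K] [Field L] (A : ValuationSubring L) (f : K →+* L)
    {x : K} : x ∈ (A.comap f).nonunits ↔ f x ∈ A.nonunits := by
  rw [ValuationSubring.mem_nonunits_iff_or, ValuationSubring.mem_nonunits_iff_or,
    ValuationSubring.mem_comap, map_inv₀, map_eq_zero]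

section alg

variable {L : Type*} [Field L] [Algebra ℚ L]

/-- Every valuation subring of an algebraic extension of `ℚ` lying over a rational prime is the
localisation of the ring of algebraic integers at its centre. -/
lemma exists_integral_mul_eq [Algebra.IsAlgebraic ℚ L] (A : ValuationSubring L)
    {ℓ : ℕ} (hℓ0 : ℓ ≠ 0) (hℓ : A.LiesOverPrime ℓ) {y : L} (hy : y ∈ A) :
    ∃ a b : integralClosure ℤ L, (b : L) ∉ A.nonunits ∧ y * b = a := by
  have : CharZero L := algebraRat.charZero L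
  let K : IntermediateField ℚ L := IntermediateField.adjoin ℚ {y}
  have hfin : FiniteDimensional ℚ K :=
    IntermediateField.adjoin.finiteDimensional (Algebra.IsAlgebraic.isAlgebraic y).isIntegral
  have : NumberField K :=
    { to_finiteDimensional := by convert! hfin; exact Subsingleton.elim _ _ }
  let y' : K := ⟨y, IntermediateField.mem_adjoin_simple_self ℚ y⟩
  obtain ⟨a, b, hb, hab⟩ := key_numberField K (A.comap (algebraMap K L)) (ℓ := ℓ) hℓ0
    (by rw [mem_nonunits_comap, map_natCast]; exact hℓ) (y := y')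
    (by rw [ValuationSubring.mem_comap]; exact hy)
  rw [mem_nonunits_comap] at hb
  refine ⟨⟨algebraMap K L a, ?_⟩, ⟨algebraMap K L b, ?_⟩, hb, ?_⟩
  · exact (RingOfIntegers.isIntegral_coe a).map ((algebraMap K L).toIntAlgHom)
  · exact (RingOfIntegers.isIntegral_coe b).map ((algebraMap K L).toIntAlgHom)
  · have := congrArg (algebraMap K L) hab
    rw [map_mul] at this
    exact this

/-- The map from algebraic integers to a valuation subring. -/
def ι (A : ValuationSubring L) : integralClosure ℤ L →+* A :=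
  (algebraMap (integralClosure ℤ L) L).codRestrict A.toSubring (fun x => mem_of_isIntegral A x.2)

omit [Algebra ℚ L] in
@[simp] lemma coe_ι (A : ValuationSubring L) (x : integralClosure ℤ L) :
    ((ι A x : A) : L) = x := rfl

/-- The centre of a valuation subring on the ring of algebraic integers. -/
def center (A : ValuationSubring L) : Ideal (integralClosure ℤ L) :=
  (IsLocalRing.maximalIdeal A).comap (ι A)

omit [Algebra ℚ L] in
lemma mem_center (A : ValuationSubring L) (x : integralClosure ℤ L) :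
    x ∈ center A ↔ (x : L) ∈ A.nonunits := by
  rw [center, Ideal.mem_comap, ← coe_ι A x, ValuationSubring.coe_mem_nonunits_iff]

instance (A : ValuationSubring L) : (center A).IsPrime := Ideal.IsPrime.comap _

lemma mem_iff [Algebra.IsAlgebraic ℚ L] (A : ValuationSubring L)
    {ℓ : ℕ} (hℓ0 : ℓ ≠ 0) (hℓ : A.LiesOverPrime ℓ) {y : L} :
    y ∈ A ↔ ∃ a b : integralClosure ℤ L, b ∉ center A ∧ y * b = a := by
  constructor
  · intro hy
    obtain ⟨a, b, hb, h⟩ := exists_integral_mul_eq A hℓ0 hℓ hy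
    exact ⟨a, b, by rwa [mem_center], h⟩
  · rintro ⟨a, b, hb, h⟩
    rw [mem_center, ValuationSubring.mem_nonunits_iff_or] at hb
    push Not at hb
    have : y = (a : L) * (b : L)⁻¹ := by
      rw [← h, mul_assoc, mul_inv_cancel₀ hb.1, mul_one]
    rw [this]
    exact A.mul_mem _ _ (mem_of_isIntegral A a.2) hb.2

lemma eq_of_center_eq [Algebra.IsAlgebraic ℚ L] (A B : ValuationSubring L)
    {ℓ ℓ' : ℕ} (hℓ0 : ℓ ≠ 0) (hℓ0' : ℓ' ≠ 0) (hA : A.LiesOverPrime ℓ) (hB : B.LiesOverPrime ℓ')
    (h : center A = center B) : A = B := by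
  ext y
  rw [mem_iff A hℓ0 hA, mem_iff B hℓ0' hB, h]

lemma mem_smul_iff (σ : L ≃ₐ[ℚ] L) (A : ValuationSubring L) (x : L) :
    x ∈ σ • A ↔ σ⁻¹ • x ∈ A := ValuationSubring.mem_pointwise_smul_iff_inv_smul_mem

lemma smul_liesOverPrime (σ : L ≃ₐ[ℚ] L) (A : ValuationSubring L) {ℓ : ℕ}
    (hA : A.LiesOverPrime ℓ) : (σ • A).LiesOverPrime ℓ := by
  unfold ValuationSubring.LiesOverPrime at *
  rw [ValuationSubring.mem_nonunits_iff_or] at *
  rcases hA with hA | hA
  · exact Or.inl hA
  · right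
    rw [mem_smul_iff]
    intro h
    apply hA
    have : (σ⁻¹ • ((ℓ : L)⁻¹)) = (ℓ : L)⁻¹ := by
      show σ⁻¹ ((ℓ : L)⁻¹) = _
      rw [map_inv₀, map_natCast]
    rwa [this] at h

lemma center_smul (σ : L ≃ₐ[ℚ] L) (A : ValuationSubring L) :
    center (σ • A) = σ • center A := by
  ext x
  rw [Ideal.mem_pointwise_smul_iff_inv_smul_mem, mem_center, mem_center,
    ValuationSubring.mem_nonunits_iff_or, ValuationSubring.mem_nonunits_iff_or, mem_smul_iff]
  have h1 : (((σ⁻¹ • x : integralClosure ℤ L)) : L) = σ⁻¹ (x : L) := rfl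
  have h2 : σ⁻¹ • ((x : L)⁻¹) = (σ⁻¹ (x : L))⁻¹ := map_inv₀ (σ⁻¹ : L ≃ₐ[ℚ] L) (x : L)
  rw [h1, h2, map_eq_zero]


section galois

variable [IsGalois ℚ L]

attribute [local instance] Ideal.Quotient.field

/-- `ℤ̄ ∩ ℚ = ℤ` in invariant form. -/
theorem isInvariant : Algebra.IsInvariant ℤ (integralClosure ℤ L) (L ≃ₐ[ℚ] L) := by
  have : CharZero L := algebraRat.charZero L
  refine ⟨fun b hb => ?_⟩
  have h1 : (b : L) ∈ (⊥ : IntermediateField ℚ L) := by
    rw [← InfiniteGalois.fixedField_bot (k := ℚ) (K := L)]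
    rintro ⟨g, -⟩
    exact congrArg Subtype.val (hb g)
  rw [IntermediateField.mem_bot] at h1
  obtain ⟨q, hq⟩ := h1
  have h2 : IsIntegral ℤ q := by
    have := b.2
    rw [← hq] at this
    exact (isIntegral_algebraMap_iff (algebraMap ℚ L).injective).mp this
  obtain ⟨n, hn⟩ := IsIntegrallyClosed.isIntegral_iff.mp h2
  refine ⟨n, Subtype.ext ?_⟩
  rw [← hq, ← hn]
  simp

attribute [local instance] isInvariant

local instance instTopZbar : TopologicalSpace (integralClosure ℤ L) := ⊥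
local instance instDiscZbar : DiscreteTopology (integralClosure ℤ L) := ⟨rfl⟩

local instance instContZbar : ContinuousSMul (L ≃ₐ[ℚ] L) (integralClosure ℤ L) := by
  rw [continuousSMul_iff_stabilizer_isOpen]
  intro x
  have h := stabilizer_isOpen_of_isIntegral (K := ℚ) (x : L)
  have h2 : (MulAction.stabilizer (L ≃ₐ[ℚ] L) x) = (MulAction.stabilizer (L ≃ₐ[ℚ] L) (x : L)) := by
    ext σ
    rw [MulAction.mem_stabilizer_iff, MulAction.mem_stabilizer_iff]
    exact Subtype.ext_iff
  rw [h2]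
  exact h


omit [Algebra ℚ L] [IsGalois ℚ L] in
lemma center_liesOver (A : ValuationSubring L) {ℓ : ℕ} (hℓ : ℓ.Prime) (hA : A.LiesOverPrime ℓ) :
    (center A).LiesOver (Ideal.span {(ℓ : ℤ)}) := by
  have hmax : (Ideal.span {(ℓ : ℤ)}).IsMaximal :=
    PrincipalIdealRing.isMaximal_of_irreducible (Nat.prime_iff_prime_int.mp hℓ).irreducible
  refine ⟨?_⟩
  refine hmax.eq_of_le (Ideal.IsPrime.ne_top inferInstance) ?_
  rw [Ideal.span_singleton_le_iff_mem, Ideal.mem_comap, mem_center]
  simpa using! hA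

omit [IsGalois ℚ L] in
lemma smul_eq_of_mem_stabilizer [Algebra.IsAlgebraic ℚ L] (A : ValuationSubring L) {ℓ : ℕ}
    (hℓ : ℓ ≠ 0) (hA : A.LiesOverPrime ℓ) (σ : L ≃ₐ[ℚ] L)
    (hσ : σ • center A = center A) : σ • A = A :=
  eq_of_center_eq _ _ hℓ hℓ (smul_liesOverPrime σ A hA) hA (by rw [center_smul, hσ])

/-- Transitivity of the Galois action on the valuation subrings above a rational prime. -/
theorem exists_smul_eq (A B : ValuationSubring L) {ℓ : ℕ} (hℓ : ℓ.Prime)
    (hA : A.LiesOverPrime ℓ) (hB : B.LiesOverPrime ℓ) : ∃ σ : L ≃ₐ[ℚ] L, B = σ • A := by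
  have h1 := (center_liesOver A hℓ hA).over
  have h2 := (center_liesOver B hℓ hB).over
  obtain ⟨σ, hσ⟩ := Algebra.IsInvariant.exists_smul_of_under_eq_of_profinite (A := ℤ)
    (B := integralClosure ℤ L) (G := L ≃ₐ[ℚ] L) (center A) (center B) (h1.symm.trans h2)
  exact ⟨σ, eq_of_center_eq _ _ hℓ.ne_zero hℓ.ne_zero hB (smul_liesOverPrime σ A hA)
    (by rw [center_smul, hσ])⟩

/-- Existence of Frobenius elements at every valuation subring above a rational prime. -/
theorem exists_isFrobeniusAt (A : ValuationSubring L) {ℓ : ℕ} (hℓ : ℓ.Prime)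
    (hA : A.LiesOverPrime ℓ) : ∃ σ : L ≃ₐ[ℚ] L, A.IsFrobeniusAt σ ℓ := by
  have hfact : Fact ℓ.Prime := ⟨hℓ⟩
  have hlies := center_liesOver A hℓ hA
  have hmaxP : (Ideal.span {(ℓ : ℤ)}).IsMaximal :=
    PrincipalIdealRing.isMaximal_of_irreducible (Nat.prime_iff_prime_int.mp hℓ).irreducible
  have hmaxQ : (center A).IsMaximal := by
    refine Ideal.isMaximal_of_isIntegral_of_isMaximal_comap (R := ℤ) (center A) ?_
    rw [← Ideal.under_def, ← hlies.over]
    exact hmaxP
  let k := ℤ ⧸ (Ideal.span {(ℓ : ℤ)})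
  let κ := integralClosure ℤ L ⧸ center A
  have hchar : CharP κ ℓ := by
    have : (ℓ : κ) = 0 := by
      have h : (ℓ : integralClosure ℤ L) ∈ center A := by
        rw [mem_center]; simpa using! hA
      have := Ideal.Quotient.eq_zero_iff_mem.mpr h
      simpa using this
    exact (CharP.charP_iff_prime_eq_zero hℓ).mpr this
  have hfin : Finite k := by
    have : NeZero ℓ := ⟨hℓ.ne_zero⟩
    exact Finite.of_equiv _ (Int.quotientSpanNatEquivZMod ℓ).symm.toEquiv
  have halg : Algebra.IsAlgebraic k κ := by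
    have : Algebra.IsIntegral k κ := Ideal.Quotient.algebra_isIntegral_of_liesOver _ _
    exact this.isAlgebraic
  have hperf : PerfectField κ := Algebra.IsAlgebraic.perfectField k
  have hperf' : PerfectRing κ ℓ := PerfectField.toPerfectRing ℓ
  let l : κ ≃ₐ[k] κ :=
    { frobeniusEquiv κ ℓ with
      commutes' := by
        intro r
        obtain ⟨n, rfl⟩ := Ideal.Quotient.mk_surjective r
        have h1 : algebraMap k κ (Ideal.Quotient.mk _ n) = (n : κ) := by
          have : (Ideal.Quotient.mk (Ideal.span {(ℓ : ℤ)}) n) = (n : k) := by simp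
          rw [this, map_intCast]
        show frobenius κ ℓ _ = _
        rw [h1, map_intCast] }
  obtain ⟨⟨σ, hσ⟩, hσl⟩ := Ideal.Quotient.stabilizerHom_surjective_of_profinite
    (G := L ≃ₐ[ℚ] L) (Ideal.span {(ℓ : ℤ)}) (center A) l
  have hσA : σ • A = A := smul_eq_of_mem_stabilizer A hℓ.ne_zero hA σ hσ
  refine ⟨σ, hσA, ?_⟩
  have key : ∀ x : integralClosure ℤ L,
      IsLocalRing.residue A (ι A (σ • x)) = (IsLocalRing.residue A (ι A x)) ^ ℓ := by
    intro x
    have h1 := DFunLike.congr_fun hσl (Ideal.Quotient.mk _ x)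
    have h2 : Ideal.Quotient.mk (center A) (σ • x) = Ideal.Quotient.mk (center A) (x ^ ℓ) := h1
    rw [Ideal.Quotient.eq] at h2
    rw [← map_pow, ← map_pow, ← sub_eq_zero, ← map_sub, ← map_sub, IsLocalRing.residue_eq_zero_iff]
    exact h2
  intro x
  obtain ⟨y, rfl⟩ := IsLocalRing.residue_surjective x
  obtain ⟨a, b, hb, hab⟩ := (mem_iff A hℓ.ne_zero hA).mp y.2
  have hab' : y * ι A b = ι A a := Subtype.ext hab
  have hb0 : IsLocalRing.residue A (ι A b) ≠ 0 := by
    rw [Ne, IsLocalRing.residue_eq_zero_iff]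
    exact hb
  set τ : A.decompositionSubgroup ℚ := ⟨σ, hσA⟩ with hτ
  have h3 : ∀ z : integralClosure ℤ L, τ • IsLocalRing.residue A (ι A z) =
      (IsLocalRing.residue A (ι A z)) ^ ℓ := by
    intro z
    rw [← key, ← IsLocalRing.ResidueField.residue_smul]
    rfl
  have h4 := congrArg (fun w => τ • IsLocalRing.residue A w) hab'
  simp only [map_mul, smul_mul'] at h4
  rw [h3, h3, ← hab', map_mul, mul_pow] at h4
  exact mul_right_cancel₀ (pow_ne_zero ℓ hb0) h4

end galois

/-- Existence of a valuation subring above a rational prime. -/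
theorem exists_liesOverPrime (L : Type*) [Field L] [CharZero L] {ℓ : ℕ} (hℓ : ℓ.Prime) :
    ∃ A : ValuationSubring L, A.LiesOverPrime ℓ := by
  let R : Subring L := (Int.castRingHom L).range
  let l : R := ⟨(ℓ : L), ⟨(ℓ : ℤ), by simp⟩⟩
  have hI : Ideal.span {l} ≠ ⊤ := by
    intro h
    have h1 : (1 : R) ∈ Ideal.span {l} := h ▸ Submodule.mem_top
    rw [Ideal.mem_span_singleton'] at h1
    obtain ⟨⟨a, n, hn⟩, ha⟩ := h1
    have h2 : a * (ℓ : L) = 1 := congrArg Subtype.val ha
    rw [← hn] at h2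
    have h6 : n * (ℓ : ℤ) = 1 := by
      have : (((n * (ℓ : ℤ) : ℤ)) : L) = ((1 : ℤ) : L) := by
        simpa using h2
      exact_mod_cast this
    have h7 : (ℓ : ℤ) ∣ 1 := ⟨n, by rw [mul_comm]; exact h6.symm⟩
    have h8 := Int.natAbs_dvd_natAbs.mpr h7
    simp at h8
    exact hℓ.one_lt.ne' h8
  obtain ⟨B, -, hB⟩ := Ideal.image_subset_nonunits_valuationSubring (Ideal.span {l}) hI
  exact ⟨B, hB ⟨l, Ideal.subset_span rfl, rfl⟩⟩

end alg

end Fermat.Agent.FrobExists
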