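import Mathlib
import Fermat.Agent.QbarInst
import Fermat.Agent.FrobExists

/-!
# Lifting arithmetic Frobenius elements of number fields to places of `ℚ̄`
-/

set_option autoImplicit false

open Pointwise NumberField
open Fermat.Agent.FrobExists

namespace Fermat.Agent.FrobPlaceLift

variable (L : IntermediateField ℚ (AlgebraicClosure ℚ))

/-- The prime of `𝓞 L` below a valuation subring of `ℚ̄`. -/
noncomputable def centerOn (A : ValuationSubring (AlgebraicClosure ℚ)) : Ideal (𝓞 L) :=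
  Ideal.comap
    (((algebraMap L (AlgebraicClosure ℚ)).comp (algebraMap (𝓞 L) L)).codRestrict A.toSubring
      (fun x => mem_of_isIntegral A
        ((RingOfIntegers.isIntegral_coe x).map ((algebraMap L (AlgebraicClosure ℚ)).toIntAlgHom))))
    (IsLocalRing.maximalIdeal A)

lemma mem_centerOn (A : ValuationSubring (AlgebraicClosure ℚ)) (x : 𝓞 L) :
    x ∈ centerOn L A ↔ (((x : L) : AlgebraicClosure ℚ)) ∈ A.nonunits := by
  rw [centerOn, Ideal.mem_comap, ← ValuationSubring.coe_mem_nonunits_iff]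
  rfl

instance (A : ValuationSubring (AlgebraicClosure ℚ)) : (centerOn L A).IsPrime :=
  Ideal.IsPrime.comap _

lemma centerOn_liesOver (A : ValuationSubring (AlgebraicClosure ℚ)) {ℓ : ℕ} (hℓ : ℓ.Prime)
    (hA : A.LiesOverPrime ℓ) : (centerOn L A).LiesOver (Ideal.span {(ℓ : ℤ)}) := by
  have hmax : (Ideal.span {(ℓ : ℤ)}).IsMaximal :=
    PrincipalIdealRing.isMaximal_of_irreducible (Nat.prime_iff_prime_int.mp hℓ).irreducible
  refine ⟨?_⟩
  refine hmax.eq_of_le (Ideal.IsPrime.ne_top inferInstance) ?_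
  rw [Ideal.span_singleton_le_iff_mem, Ideal.mem_comap, mem_centerOn]
  simpa using! hA

lemma centerOn_smul [Normal ℚ L] (σ : AlgebraicClosure ℚ ≃ₐ[ℚ] AlgebraicClosure ℚ)
    (A : ValuationSubring (AlgebraicClosure ℚ)) :
    centerOn L (σ • A) = (AlgEquiv.restrictNormal σ L) • centerOn L A := by
  ext x
  rw [Ideal.mem_pointwise_smul_iff_inv_smul_mem, mem_centerOn, mem_centerOn,
    ValuationSubring.mem_nonunits_iff_or, ValuationSubring.mem_nonunits_iff_or, mem_smul_iff]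
  have h1 : (((((AlgEquiv.restrictNormal σ L)⁻¹ • x : 𝓞 L) : L)) : AlgebraicClosure ℚ) =
      σ⁻¹ ((x : L) : AlgebraicClosure ℚ) := by
    have h2 : (((AlgEquiv.restrictNormal σ L)⁻¹ • x : 𝓞 L) : L) =
      (AlgEquiv.restrictNormal σ L)⁻¹ (x : L) := rfl
    rw [h2, eq_comm, AlgEquiv.aut_inv, AlgEquiv.symm_apply_eq]
    have h3 := AlgEquiv.restrictNormal_commutes σ L ((AlgEquiv.restrictNormal σ L)⁻¹ (x : L))
    have h4 : (AlgEquiv.restrictNormal σ L) ((AlgEquiv.restrictNormal σ L)⁻¹ (x : L)) = (x : L) :=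
      AlgEquiv.apply_symm_apply _ _
    rw [h4] at h3
    exact h3
  have h2 : σ⁻¹ • ((((x : L) : AlgebraicClosure ℚ))⁻¹) = (σ⁻¹ (((x : L) : AlgebraicClosure ℚ)))⁻¹ :=
    map_inv₀ (σ⁻¹ : AlgebraicClosure ℚ ≃ₐ[ℚ] AlgebraicClosure ℚ) _
  rw [h1, h2, map_eq_zero]

lemma sub_pow_mem_centerOn [Normal ℚ L] (A : ValuationSubring (AlgebraicClosure ℚ)) {ℓ : ℕ}
    {σ : AlgebraicClosure ℚ ≃ₐ[ℚ] AlgebraicClosure ℚ} (hσ : A.IsFrobeniusAt σ ℓ) (x : 𝓞 L) :
    (AlgEquiv.restrictNormal σ L) • x - x ^ ℓ ∈ centerOn L A := by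
  obtain ⟨hd, h⟩ := hσ
  let y : A := ⟨((x : L) : AlgebraicClosure ℚ), mem_of_isIntegral A
        ((RingOfIntegers.isIntegral_coe x).map ((algebraMap L (AlgebraicClosure ℚ)).toIntAlgHom))⟩
  have h1 := h (IsLocalRing.residue A y)
  rw [← IsLocalRing.ResidueField.residue_smul, ← map_pow, ← sub_eq_zero, ← map_sub,
    IsLocalRing.residue_eq_zero_iff, ← ValuationSubring.coe_mem_nonunits_iff] at h1
  rw [mem_centerOn]
  convert h1 using 1
  have h2 : (((AlgEquiv.restrictNormal σ L) • x : 𝓞 L) : L) =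
      (AlgEquiv.restrictNormal σ L) (x : L) := rfl
  have h3 := AlgEquiv.restrictNormal_commutes σ L (x : L)
  have h4 : (((AlgEquiv.restrictNormal σ L) • x - x ^ ℓ : 𝓞 L) : L) =
      (AlgEquiv.restrictNormal σ L) (x : L) - (x : L) ^ ℓ := by
    rw [← h2]; rfl
  have h5 : ((((AlgEquiv.restrictNormal σ L) (x : L) - (x : L) ^ ℓ : L)) : AlgebraicClosure ℚ) =
      algebraMap L (AlgebraicClosure ℚ) ((AlgEquiv.restrictNormal σ L) (x : L)) -
        (algebraMap L (AlgebraicClosure ℚ) (x : L)) ^ ℓ := by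
    simp only [AddSubgroupClass.coe_sub, SubmonoidClass.coe_pow]
    rfl
  rw [h4, h5, h3]
  rfl

instance isInvariant_ringOfIntegers [IsGalois ℚ L] :
    Algebra.IsInvariant ℤ (𝓞 L) (L ≃ₐ[ℚ] L) :=
  FrobExists.isInvariant (L := L)

theorem exists_place_frobenius_of_isArithFrobAt [FiniteDimensional ℚ L] [IsGalois ℚ L]
    (ℓ : ℕ) (hℓ : ℓ.Prime) (P : Ideal (𝓞 L)) [P.IsPrime] (hP : (ℓ : 𝓞 L) ∈ P)
    (hunr : ∀ τ : L ≃ₐ[ℚ] L, τ ∈ P.inertia (L ≃ₐ[ℚ] L) → τ = 1)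
    (τ : L ≃ₐ[ℚ] L) (hτ : IsArithFrobAt ℤ τ P) :
    ∃ (A : ValuationSubring (AlgebraicClosure ℚ)) (σ : AlgebraicClosure ℚ ≃ₐ[ℚ] AlgebraicClosure ℚ),
      A.LiesOverPrime ℓ ∧ A.IsFrobeniusAt σ ℓ ∧ AlgEquiv.restrictNormal σ L = τ := by
  obtain ⟨A₀, hA₀⟩ := exists_liesOverPrime (AlgebraicClosure ℚ) hℓ
  have hu0 := (centerOn_liesOver L A₀ hℓ hA₀).over
  have hmax : (Ideal.span {(ℓ : ℤ)}).IsMaximal :=
    PrincipalIdealRing.isMaximal_of_irreducible (Nat.prime_iff_prime_int.mp hℓ).irreducible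
  have hu : Ideal.span {(ℓ : ℤ)} = P.under ℤ := by
    refine hmax.eq_of_le (Ideal.IsPrime.ne_top inferInstance) ?_
    rw [Ideal.span_singleton_le_iff_mem, Ideal.mem_comap]
    simpa using hP
  obtain ⟨g, hg⟩ := Algebra.IsInvariant.exists_smul_of_under_eq ℤ (𝓞 L) (L ≃ₐ[ℚ] L)
    (centerOn L A₀) P (hu0.symm.trans hu)
  obtain ⟨g', hg'⟩ := AlgEquiv.restrictNormalHom_surjective (F := ℚ) (K₁ := L)
    (E := AlgebraicClosure ℚ) g
  have hA : (g' • A₀).LiesOverPrime ℓ := smul_liesOverPrime g' A₀ hA₀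
  obtain ⟨σ, hσ⟩ := exists_isFrobeniusAt (g' • A₀) hℓ hA
  refine ⟨g' • A₀, σ, hA, hσ, ?_⟩
  have hPc : centerOn L (g' • A₀) = P := by
    rw [centerOn_smul, hg, ← hg']
    rfl
  have hσ' : IsArithFrobAt ℤ (AlgEquiv.restrictNormal σ L) P := by
    intro x
    have h1 := sub_pow_mem_centerOn L (g' • A₀) hσ x
    rw [hPc] at h1
    have hcard : Nat.card (ℤ ⧸ P.under ℤ) = ℓ := by
      rw [← hu]
      exact Int.card_ideal_quot ℓ
    rw [hcard]
    exact h1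
  have h2 := hunr _ (hσ'.mul_inv_mem_inertia hτ)
  exact mul_inv_eq_one.mp h2

end Fermat.Agent.FrobPlaceLift
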