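import Fermat.Statements.S22
import Fermat.Agent.S22.Sep

set_option autoImplicit false
open CuspForm

namespace Fermat.Agent.S22

open CongruenceSubgroup in
lemma subsingleton_of_odd (N : ℕ) [NeZero N] (k : ℤ) (hk : Odd k) :
    Subsingleton (CuspForm (Gamma0 N) k) := by
  refine ⟨fun f g => ?_⟩
  have h0 : ∀ f : CuspForm (Gamma0 N) k, f = 0 := by
    intro f
    have hmem : (-1 : Matrix.GeneralLinearGroup (Fin 2) ℝ) ∈
        (Gamma0 N : Subgroup (Matrix.GeneralLinearGroup (Fin 2) ℝ)) := by
      refine ⟨-1, ?_, ?_⟩
      · show (-1 : Matrix.SpecialLinearGroup (Fin 2) ℤ) ∈ Gamma0 N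
        rw [Gamma0_mem]
        simp
      · ext i j
        fin_cases i <;> fin_cases j <;> simp
    have h1 := ModularForm.eq_zero_of_neg_one_mem hmem hk (ModularFormClass.modularForm f)
    apply DFunLike.coe_injective
    exact congrArg (fun g : ModularForm (Gamma0 N) k => (g : UpperHalfPlane → ℂ)) h1
  rw [h0 f, h0 g]

open CongruenceSubgroup in
lemma subsingleton_of_nonpos (N : ℕ) [NeZero N] (k : ℤ) (hk : k ≤ 0) :
    Subsingleton (CuspForm (Gamma0 N) k) := by
  refine ⟨fun f g => ?_⟩
  have h0 : ∀ f : CuspForm (Gamma0 N) k, f = 0 := by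
    intro f
    have h1 : (1 : ℝ) ∈ (Gamma0 N : Subgroup (Matrix.GeneralLinearGroup (Fin 2) ℝ)).strictPeriods :=
      CongruenceSubgroup.one_mem_strictPeriods_Gamma0 N
    have hG : (ModularFormClass.modularForm f : ModularForm (Gamma0 N) k) = 0 := by
      apply ModularForm.sturm_bound_Gamma0
      intro m hm
      have hm0 : m = 0 := by
        have e : (k * (Gamma0 N).index).toNat = 0 := by
          rw [Int.toNat_eq_zero]
          exact mul_nonpos_of_nonpos_of_nonneg hk (by positivity)
        rw [e] at hm
        omega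
      subst hm0
      have hper := SlashInvariantFormClass.periodic_comp_ofComplex
        (ModularFormClass.modularForm f : ModularForm (Gamma0 N) k) h1
      rw [UpperHalfPlane.qExpansion_coeff_zero one_pos
        (ModularFormClass.analyticAt_cuspFunction_zero
          (ModularFormClass.modularForm f : ModularForm (Gamma0 N) k) one_pos h1) hper]
      have hz : UpperHalfPlane.IsZeroAtImInfty (f : UpperHalfPlane → ℂ) := by
        have := Fermat.Agent.EichlerInt.cuspForm_good f 1
        rw [SlashAction.slash_one] at this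
        exact this.zero
      exact hz.valueAtInfty_eq_zero
    apply DFunLike.coe_injective
    exact congrArg (fun g : ModularForm (Gamma0 N) k => (g : UpperHalfPlane → ℂ)) hG
  rw [h0 f, h0 g]

theorem result (N : ℕ) [NeZero N] (k : ℤ) (S : Set ℕ) :
    Module.Finite ℤ (CuspForm.heckeAlgebra N k S) := by
  by_cases hsub : Subsingleton (CuspForm (CongruenceSubgroup.Gamma0 N) k)
  · have : Subsingleton (Module.End ℂ (CuspForm (CongruenceSubgroup.Gamma0 N) k)) :=
      ⟨fun a b => LinearMap.ext fun x => Subsingleton.elim _ _⟩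
    have : Subsingleton (CuspForm.heckeAlgebra N k S) :=
      ⟨fun a b => Subtype.ext (Subsingleton.elim _ _)⟩
    infer_instance
  · have h1 : 0 < k := by
      by_contra h
      exact hsub (subsingleton_of_nonpos N k (not_lt.mp h))
    have h2 : ¬ Odd k := fun h => hsub (subsingleton_of_odd N k h)
    have h3 : 2 ≤ k := by
      rcases Int.not_odd_iff_even.mp h2 with ⟨m, hm⟩
      omega
    obtain ⟨n, hn⟩ := Int.eq_ofNat_of_zero_le (show 0 ≤ k - 2 by omega)
    have hk : k = (n : ℤ) + 2 := by
      have : (k - 2 : ℤ) = (n : ℤ) := hn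
      omega
    subst hk
    exact Fermat.Agent.EichlerInt.moduleFinite_of_weight_ge_two n N S

end Fermat.Agent.S22
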