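import Mathlib
import Fermat.Prelude.Def_CuspForm_HeckeAlgebra
import Fermat.Prelude.Def_CuspForm_HeckeLocal
import Fermat.Prelude.Def_CuspForm_IntegralLattice
import Fermat.Prelude.Thm_CuspForm_intLattice_fg
import Fermat.Prelude.Thm_CuspForm_mem_intLattice_of_mem_heckeAlgebra
import Fermat.Prelude.Thm_ModularFormClass_qCoeff_heckeT
import Fermat.Prelude.Thm_ModularFormClass_qCoeff_heckeU
import Fermat.Prelude.Thm_ModularForm_sturm_bound_Gamma0
import Fermat.Prelude.Thm_CongruenceSubgroup_one_mem_strictPeriods_Gamma0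

/-!
# Duality between cusp forms and the Hecke algebra (weight 2, level `Γ₀(N)`)

Given an integral structure, the pairing `𝕋 × S₂ → ℂ`, `(t, f) ↦ a₁(t f)` is perfect; ring
homomorphisms `𝕋 → ℂ` correspond to normalised eigenforms.
-/

set_option autoImplicit false

noncomputable section

open UpperHalfPlane ModularForm ModularFormClass CongruenceSubgroup

namespace Fermat.Agent.HeckeDuality

variable {N : ℕ} {k : ℤ}

theorem hper (N : ℕ) :
    (1 : ℝ) ∈ (Subgroup.map (Matrix.SpecialLinearGroup.mapGL ℝ) (Gamma0 N)).strictPeriods :=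
  CongruenceSubgroup.one_mem_strictPeriods_Gamma0 N

theorem qc_add (f g : CuspForm (Gamma0 N) k) (n : ℕ) :
    qCoeff ⇑(f + g) n = qCoeff ⇑f n + qCoeff ⇑g n := by
  simp only [qCoeff, FunLike.coe_add]
  rw [ModularForm.qExpansion_add one_pos (hper N) f g, map_add]

theorem qc_zero (n : ℕ) : qCoeff ⇑(0 : CuspForm (Gamma0 N) k) n = 0 := by
  simp only [qCoeff, FunLike.coe_zero]
  rw [UpperHalfPlane.qExpansion_zero, map_zero]

theorem qc_smul (c : ℂ) (f : CuspForm (Gamma0 N) k) (n : ℕ) :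
    qCoeff ⇑(c • f) n = c * qCoeff ⇑f n := by
  have h1 : ⇑(c • f) = c • ⇑f := by
    ext z
    simp
  simp only [qCoeff, h1]
  rw [ModularForm.qExpansion_smul one_pos (hper N) c f]
  simp

/-- The `n`-th `q`-expansion coefficient as a linear map. -/
def qcLin (N : ℕ) (k : ℤ) (n : ℕ) : CuspForm (Gamma0 N) k →ₗ[ℂ] ℂ where
  toFun f := qCoeff ⇑f n
  map_add' f g := qc_add f g n
  map_smul' c f := qc_smul c f n

@[simp] theorem qcLin_apply (n : ℕ) (f : CuspForm (Gamma0 N) k) : qcLin N k n f = qCoeff ⇑f n := rfl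

theorem qc_zsmul (c : ℤ) (f : CuspForm (Gamma0 N) k) (n : ℕ) :
    qCoeff ⇑(c • f) n = c * qCoeff ⇑f n := by
  rw [← Int.cast_smul_eq_zsmul ℂ c f, qc_smul]

theorem qc_sub (f g : CuspForm (Gamma0 N) k) (n : ℕ) :
    qCoeff ⇑(f - g) n = qCoeff ⇑f n - qCoeff ⇑g n :=
  (qcLin N k n).map_sub f g

theorem qc_sum {ι : Type*} (s : Finset ι) (f : ι → CuspForm (Gamma0 N) k) (n : ℕ) :
    qCoeff ⇑(∑ i ∈ s, f i) n = ∑ i ∈ s, qCoeff ⇑(f i) n :=
  map_sum (qcLin N k n) f s

theorem qc_apply_zero [NeZero N] (f : CuspForm (Gamma0 N) k) : qCoeff ⇑f 0 = 0 :=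
  CuspFormClass.qExpansion_coeff_zero f one_pos (hper N)

theorem eq_zero_of_qc [NeZero N] (f : CuspForm (Gamma0 N) k) (h : ∀ n, qCoeff ⇑f n = 0) : f = 0 := by
  have hmf : (ModularFormClass.modularForm f : ModularForm (Gamma0 N) k) = 0 := by
    refine ModularForm.sturm_bound_Gamma0 N _ fun n _ ↦ ?_
    simpa [qCoeff] using h n
  have hcoe : (⇑f : ℍ → ℂ) = 0 := by
    have := congrArg (fun F : ModularForm (Gamma0 N) k ↦ (⇑F : ℍ → ℂ)) hmf
    simpa using this
  exact DFunLike.coe_injective (hcoe.trans FunLike.coe_zero.symm)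

theorem ext_of_qc [NeZero N] {f g : CuspForm (Gamma0 N) k} (h : ∀ n, qCoeff ⇑f n = qCoeff ⇑g n) :
    f = g := by
  rw [← sub_eq_zero]
  exact eq_zero_of_qc _ fun n => by rw [qc_sub, h n, sub_self]

theorem qc_heckeTLin {p : ℕ} (hp : p.Prime) (hpN : ¬ p ∣ N) (f : CuspForm (Gamma0 N) k) (n : ℕ) :
    qCoeff ⇑(CuspForm.heckeTLin k hp hpN f) n =
      qCoeff ⇑f (n * p) + if p ∣ n then (p : ℂ) ^ (k - 1) * qCoeff ⇑f (n / p) else 0 := by
  rw [CuspForm.coe_heckeTLin_apply, ModularFormClass.qCoeff_heckeT f (hper N) hp.ne_zero n]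
  rfl

theorem qc_heckeULin [NeZero N] {p : ℕ} (hp : p.Prime) (hpN : p ∣ N) (f : CuspForm (Gamma0 N) k)
    (n : ℕ) : qCoeff ⇑(CuspForm.heckeULin k hpN f) n = qCoeff ⇑f (n * p) := by
  rw [CuspForm.coe_heckeULin_apply, ModularFormClass.qCoeff_heckeU f (hper N) hp.ne_zero n]
  rfl

/-! ### The integral lattice -/

theorem mem_intLattice_iff (f : CuspForm (Gamma0 N) k) :
    f ∈ CuspForm.intLattice N k ↔ ∀ n : ℕ, ∃ m : ℤ, qCoeff f n = (m : ℂ) := by
  constructor
  · intro hf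
    rw [CuspForm.intLattice] at hf
    induction hf using Submodule.span_induction with
    | mem f hf => exact hf
    | zero => exact fun n => ⟨0, by rw [qc_zero]; simp⟩
    | add f g _ _ hf hg =>
      intro n
      obtain ⟨a, ha⟩ := hf n
      obtain ⟨b, hb⟩ := hg n
      exact ⟨a + b, by rw [qc_add, ha, hb]; push_cast; ring⟩
    | smul c f _ hf =>
      intro n
      obtain ⟨a, ha⟩ := hf n
      exact ⟨c * a, by rw [qc_zsmul, ha]; push_cast; ring⟩
  · intro hf
    exact Submodule.subset_span hf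

/-- Integral coefficient of an element of the integral lattice. -/
def intCoeff (f : CuspForm.intLattice N k) (n : ℕ) : ℤ :=
  ((mem_intLattice_iff f.1).mp f.2 n).choose

theorem coe_intCoeff (f : CuspForm.intLattice N k) (n : ℕ) :
    ((intCoeff f n : ℤ) : ℂ) = qCoeff ⇑f.1 n :=
  ((mem_intLattice_iff f.1).mp f.2 n).choose_spec.symm

theorem intCoeff_add (f g : CuspForm.intLattice N k) (n : ℕ) :
    intCoeff (f + g) n = intCoeff f n + intCoeff g n := by
  have : ((intCoeff (f + g) n : ℤ) : ℂ) = ((intCoeff f n + intCoeff g n : ℤ) : ℂ) := by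
    push_cast
    rw [coe_intCoeff, coe_intCoeff, coe_intCoeff]
    exact qc_add f.1 g.1 n
  exact_mod_cast this

theorem intCoeff_zsmul (c : ℤ) (f : CuspForm.intLattice N k) (n : ℕ) :
    intCoeff (c • f) n = c * intCoeff f n := by
  have : ((intCoeff (c • f) n : ℤ) : ℂ) = ((c * intCoeff f n : ℤ) : ℂ) := by
    push_cast
    rw [coe_intCoeff, coe_intCoeff]
    exact qc_zsmul c f.1 n
  exact_mod_cast this

/-- Integral coefficients as `ℤ`-linear functional on the lattice. -/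
def intCoeffLin (N : ℕ) (k : ℤ) (n : ℕ) : CuspForm.intLattice N k →ₗ[ℤ] ℤ where
  toFun f := intCoeff f n
  map_add' f g := intCoeff_add f g n
  map_smul' c f := by simp [intCoeff_zsmul]

@[simp] theorem intCoeffLin_apply (n : ℕ) (f : CuspForm.intLattice N k) :
    intCoeffLin N k n f = intCoeff f n := rfl

/-- `ℤ`-linearly independent vectors of the integral lattice are `ℂ`-linearly independent. -/
theorem linearIndependent_coe [NeZero N] {ι : Type*} (b : ι → CuspForm.intLattice N k)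
    (hb : LinearIndependent ℤ b) :
    LinearIndependent ℂ (fun i => (b i : CuspForm (Gamma0 N) k)) := by
  classical
  have hbQ : ∀ (s : Finset ι) (g : ι → ℚ), (∀ n, ∑ i ∈ s, g i * (intCoeff (b i) n : ℚ) = 0) →
      ∀ i ∈ s, g i = 0 := by
    intro s g hg
    -- clear denominators
    obtain ⟨d, hd0, m, hm⟩ : ∃ d : ℤ, d ≠ 0 ∧ ∃ m : ι → ℤ, ∀ i ∈ s, (m i : ℚ) = d * g i := by
      refine ⟨∏ i ∈ s, (g i).den, ?_, fun i => (∏ j ∈ s.erase i, ((g j).den : ℤ)) * (g i).num, ?_⟩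
      · exact Finset.prod_ne_zero_iff.mpr fun i _ => by exact_mod_cast (g i).den_nz
      · intro i hi
        rw [← Finset.mul_prod_erase s _ hi]
        push_cast
        have h1 : ((g i).den : ℚ) * g i = (g i).num := Rat.den_mul_eq_num _
        calc (∏ j ∈ s.erase i, ((g j).den : ℚ)) * ((g i).num : ℚ)
            = (∏ j ∈ s.erase i, ((g j).den : ℚ)) * (((g i).den : ℚ) * g i) := by rw [h1]
          _ = _ := by ring
    have hsum : ∑ i ∈ s, m i • b i = 0 := by
      apply Subtype.ext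
      refine eq_zero_of_qc _ fun n => ?_
      have h1 := hg n
      have h2 : (∑ i ∈ s, (m i : ℚ) * (intCoeff (b i) n : ℚ)) = 0 := by
        rw [Finset.sum_congr rfl (fun i hi => by rw [hm i hi, mul_assoc]), ← Finset.mul_sum, h1,
          mul_zero]
      have h3 : (∑ i ∈ s, m i * intCoeff (b i) n : ℤ) = 0 := by exact_mod_cast h2
      have h4 : intCoeffLin N k n (∑ i ∈ s, m i • b i) = 0 := by
        rw [map_sum, ← h3]
        refine Finset.sum_congr rfl fun i _ => ?_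
        rw [map_smul, intCoeffLin_apply, smul_eq_mul]
      rw [intCoeffLin_apply] at h4
      rw [← coe_intCoeff, h4, Int.cast_zero]
    have hm0 := linearIndependent_iff'.mp hb s m hsum
    intro i hi
    have := hm i hi
    rw [hm0 i hi, Int.cast_zero] at this
    rcases mul_eq_zero.mp this.symm with h | h
    · exact absurd (by exact_mod_cast h) hd0
    · exact h
  rw [linearIndependent_iff']
  intro s c hc i hi
  by_contra hne
  -- a `ℚ`-linear functional nonzero on `c i`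
  obtain ⟨φ, hφ⟩ : ∃ φ : Module.Dual ℚ ℂ, φ (c i) ≠ 0 := by
    by_contra hcon
    push Not at hcon
    exact hne ((Module.forall_dual_apply_eq_zero_iff ℚ (c i)).mp hcon)
  refine hφ (hbQ s (fun j => φ (c j)) (fun n => ?_) i hi)
  have h1 : ∑ j ∈ s, c j * (intCoeff (b j) n : ℂ) = 0 := by
    have h2 := congrArg (qcLin N k n) hc
    rw [map_sum, map_zero] at h2
    rw [← h2]
    refine Finset.sum_congr rfl fun j _ => ?_
    rw [map_smul, qcLin_apply, coe_intCoeff, smul_eq_mul]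
  have h3 := congrArg φ h1
  rw [map_sum, map_zero] at h3
  rw [← h3]
  refine Finset.sum_congr rfl fun j _ => ?_
  have h4 : c j * (intCoeff (b j) n : ℂ) = (intCoeff (b j) n : ℚ) • c j := by
    rw [Rat.smul_def]; push_cast; ring
  rw [h4, map_smul, smul_eq_mul, mul_comm]

/-! ### The Hecke algebra and first coefficients -/

variable [NeZero N]

/-- The Hecke operator `T_ℓ` (or `U_ℓ`) as element of the full Hecke algebra. -/
def gen (N : ℕ) [NeZero N] (k : ℤ) {ℓ : ℕ} (hℓ : ℓ.Prime) : CuspForm.heckeAlgebra N k ∅ :=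
  if h : ℓ ∣ N then CuspForm.heckeAlgebra.U hℓ h (Set.notMem_empty _)
  else CuspForm.heckeAlgebra.T hℓ h (Set.notMem_empty _)

theorem qc_gen {ℓ : ℕ} (hℓ : ℓ.Prime) (f : CuspForm (Gamma0 N) k) (n : ℕ) :
    qCoeff ⇑((gen N k hℓ : Module.End ℂ (CuspForm (Gamma0 N) k)) f) n =
      qCoeff ⇑f (n * ℓ) +
        if ℓ ∣ n ∧ ¬ ℓ ∣ N then (ℓ : ℂ) ^ (k - 1) * qCoeff ⇑f (n / ℓ) else 0 := by
  by_cases h : ℓ ∣ N
  · rw [gen, dif_pos h, CuspForm.heckeAlgebra.coe_U, qc_heckeULin hℓ]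
    simp [h]
  · rw [gen, dif_neg h, CuspForm.heckeAlgebra.coe_T, qc_heckeTLin hℓ]
    simp [h]

/-- For `n ≥ 1` there is a Hecke operator `T_n` with `a₁(T_n f) = a_n(f)`. -/
theorem exists_heckeOp (hk : 1 ≤ k) (n : ℕ) (hn : n ≠ 0) :
    ∃ t : CuspForm.heckeAlgebra N k ∅, ∀ f : CuspForm (Gamma0 N) k,
      qCoeff ⇑((t : Module.End ℂ (CuspForm (Gamma0 N) k)) f) 1 = qCoeff ⇑f n := by
  induction n using Nat.strong_induction_on with
  | _ n ih =>
    rcases eq_or_ne n 1 with rfl | hn1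
    · exact ⟨1, fun f => rfl⟩
    · obtain ⟨ℓ, hℓ, m, rfl⟩ : ∃ ℓ : ℕ, ℓ.Prime ∧ ∃ m, n = m * ℓ := by
        obtain ⟨ℓ, hℓ, hd⟩ := Nat.exists_prime_and_dvd hn1
        obtain ⟨m, hm⟩ := hd
        exact ⟨ℓ, hℓ, m, by rw [hm, mul_comm]⟩
      have hm0 : m ≠ 0 := fun h => hn (by rw [h, zero_mul])
      have hlt : m < m * ℓ := lt_mul_of_one_lt_right (Nat.pos_of_ne_zero hm0) hℓ.one_lt
      obtain ⟨tm, htm⟩ := ih m hlt hm0
      by_cases hc : ℓ ∣ m ∧ ¬ ℓ ∣ N
      · have hdiv0 : m / ℓ ≠ 0 := (Nat.div_pos (Nat.le_of_dvd (Nat.pos_of_ne_zero hm0) hc.1)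
          hℓ.pos).ne'
        obtain ⟨td, htd⟩ := ih (m / ℓ) (lt_of_le_of_lt (Nat.div_le_self _ _) hlt) hdiv0
        refine ⟨tm * gen N k hℓ - ((ℓ : ℤ) ^ (k - 1).toNat) • td, fun f => ?_⟩
        have h1 : (((tm * gen N k hℓ - ((ℓ : ℤ) ^ (k - 1).toNat) • td :
            CuspForm.heckeAlgebra N k ∅) : Module.End ℂ (CuspForm (Gamma0 N) k)) f) =
            (tm : Module.End ℂ (CuspForm (Gamma0 N) k)) ((gen N k hℓ :
              Module.End ℂ (CuspForm (Gamma0 N) k)) f) - ((ℓ : ℤ) ^ (k - 1).toNat) •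
              ((td : Module.End ℂ (CuspForm (Gamma0 N) k)) f) := rfl
        rw [h1, qc_sub, qc_zsmul, htm, htd, qc_gen, if_pos hc]
        have h2 : (ℓ : ℂ) ^ (k - 1) = (((ℓ : ℤ) ^ (k - 1).toNat : ℤ) : ℂ) := by
          have h3 : k - 1 = ((k - 1).toNat : ℤ) := (Int.toNat_of_nonneg (by linarith)).symm
          conv_lhs => rw [h3]
          rw [zpow_natCast]
          push_cast
          rfl
        rw [h2]
        ring
      · refine ⟨tm * gen N k hℓ, fun f => ?_⟩
        have h1 : (((tm * gen N k hℓ : CuspForm.heckeAlgebra N k ∅) :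
            Module.End ℂ (CuspForm (Gamma0 N) k)) f) =
            (tm : Module.End ℂ (CuspForm (Gamma0 N) k)) ((gen N k hℓ :
              Module.End ℂ (CuspForm (Gamma0 N) k)) f) := rfl
        rw [h1, htm, qc_gen, if_neg hc, add_zero]

/-- Nondegeneracy on the form side. -/
theorem eq_zero_of_forall_heckeAlgebra (hk : 1 ≤ k) (f : CuspForm (Gamma0 N) k)
    (h : ∀ t : CuspForm.heckeAlgebra N k ∅,
      qCoeff ⇑((t : Module.End ℂ (CuspForm (Gamma0 N) k)) f) 1 = 0) : f = 0 := by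
  refine eq_zero_of_qc f fun n => ?_
  rcases eq_or_ne n 0 with rfl | hn
  · exact qc_apply_zero f
  · obtain ⟨t, ht⟩ := exists_heckeOp (N := N) hk n hn
    rw [← ht f, h t]

end Fermat.Agent.HeckeDuality
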