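import Mathlib
import Fermat.Agent.HeckeDualityA

/-!
# Perfect duality `𝕋 × S₂ → ℂ` and eigenforms attached to characters of `𝕋`
-/

set_option autoImplicit false

noncomputable section

open UpperHalfPlane ModularForm ModularFormClass CongruenceSubgroup

namespace Fermat.Agent.HeckeDuality

variable {N : ℕ} [NeZero N]

local notation "V" => CuspForm (Gamma0 N) 2

/-- The Hecke action on the integral lattice. -/
def latAct (t : CuspForm.heckeAlgebra N 2 ∅) (x : CuspForm.intLattice N 2) :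
    CuspForm.intLattice N 2 :=
  ⟨(t : Module.End ℂ (CuspForm (Gamma0 N) 2)) x.1,
    CuspForm.mem_intLattice_of_mem_heckeAlgebra one_le_two t.2 x.2⟩

theorem coe_latAct (t : CuspForm.heckeAlgebra N 2 ∅) (x : CuspForm.intLattice N 2) :
    (latAct t x : CuspForm (Gamma0 N) 2) = (t : Module.End ℂ (CuspForm (Gamma0 N) 2)) x.1 := rfl

/-- The integral pairing `t ↦ (x ↦ a₁(t x))`. -/
def intPairing (N : ℕ) [NeZero N] :
    CuspForm.heckeAlgebra N 2 ∅ →ₗ[ℤ] Module.Dual ℤ (CuspForm.intLattice N 2) where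
  toFun t :=
    { toFun := fun x => intCoeff (latAct t x) 1
      map_add' := fun x y => by
        rw [← intCoeff_add]
        congr 1
        exact Subtype.ext (map_add _ _ _)
      map_smul' := fun c x => by
        rw [eq_intCast, Int.cast_id, smul_eq_mul, ← intCoeff_zsmul]
        congr 1
        exact Subtype.ext (map_zsmul _ _ _) }
  map_add' s t := by
    refine LinearMap.ext fun x => ?_
    change intCoeff (latAct (s + t) x) 1 = intCoeff (latAct s x) 1 + intCoeff (latAct t x) 1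
    rw [← intCoeff_add]
    congr 1
  map_smul' c t := by
    refine LinearMap.ext fun x => ?_
    change intCoeff (latAct (c • t) x) 1 = c * intCoeff (latAct t x) 1
    rw [← intCoeff_zsmul]
    congr 1

theorem intPairing_apply (t : CuspForm.heckeAlgebra N 2 ∅) (x : CuspForm.intLattice N 2) :
    intPairing N t x = intCoeff (latAct t x) 1 := rfl

theorem coe_mul_comm_apply (s t : CuspForm.heckeAlgebra N 2 ∅) (x : CuspForm (Gamma0 N) 2) :
    (s : Module.End ℂ (CuspForm (Gamma0 N) 2)) ((t : Module.End ℂ (CuspForm (Gamma0 N) 2)) x) =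
    (t : Module.End ℂ (CuspForm (Gamma0 N) 2)) ((s : Module.End ℂ (CuspForm (Gamma0 N) 2)) x) := by
  have h := congrArg (fun u : CuspForm.heckeAlgebra N 2 ∅ =>
    (u : Module.End ℂ (CuspForm (Gamma0 N) 2)) x) (mul_comm s t)
  exact h

theorem intPairing_injective (hint : CuspForm.HasIntegralStructure N 2) :
    Function.Injective (intPairing N) := by
  refine (injective_iff_map_eq_zero _).mpr fun t ht => ?_
  refine Subtype.ext (LinearMap.ext_on hint fun x hx => ?_)
  change (t : Module.End ℂ (CuspForm (Gamma0 N) 2)) x = 0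
  refine eq_zero_of_forall_heckeAlgebra one_le_two _ fun s => ?_
  rw [coe_mul_comm_apply]
  have h := LinearMap.congr_fun ht (latAct s ⟨x, hx⟩)
  rw [intPairing_apply, LinearMap.zero_apply] at h
  have h2 := coe_intCoeff (latAct t (latAct s ⟨x, hx⟩)) 1
  rw [h, Int.cast_zero] at h2
  exact h2.symm

theorem finite_intLattice : Module.Finite ℤ (CuspForm.intLattice N 2) :=
  CuspForm.intLattice.moduleFinite N

theorem free_intLattice : Module.Free ℤ (CuspForm.intLattice N 2) :=
  CuspForm.intLattice.moduleFree N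

theorem finite_heckeAlgebra (hint : CuspForm.HasIntegralStructure N 2) :
    Module.Finite ℤ (CuspForm.heckeAlgebra N 2 ∅) := by
  have := finite_intLattice (N := N)
  have := free_intLattice (N := N)
  exact Module.Finite.of_injective (intPairing N) (intPairing_injective hint)

theorem free_heckeAlgebra (hint : CuspForm.HasIntegralStructure N 2) :
    Module.Free ℤ (CuspForm.heckeAlgebra N 2 ∅) := by
  have := finite_heckeAlgebra (N := N) hint
  exact Module.free_of_finite_type_torsion_free'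

theorem finrank_heckeAlgebra_le (hint : CuspForm.HasIntegralStructure N 2) :
    Module.finrank ℤ (CuspForm.heckeAlgebra N 2 ∅) ≤
      Module.finrank ℤ (CuspForm.intLattice N 2) := by
  have := finite_intLattice (N := N)
  have := free_intLattice (N := N)
  have := finite_heckeAlgebra (N := N) hint
  have h := LinearMap.finrank_le_finrank_of_injective (intPairing_injective (N := N) hint)
  rwa [Module.finrank_linearMap_self] at h

theorem finiteDimensional_cuspForm (hint : CuspForm.HasIntegralStructure N 2) :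
    FiniteDimensional ℂ (CuspForm (Gamma0 N) 2) := by
  have := finite_intLattice (N := N)
  obtain ⟨s, hs⟩ := (CuspForm.intLattice_fg N 2)
  refine ⟨s, ?_⟩
  rw [eq_top_iff, ← hint, Submodule.span_le, ← hs]
  intro x hx
  have : Submodule.span ℤ (s : Set (CuspForm (Gamma0 N) 2)) ≤
      (Submodule.span ℂ (s : Set (CuspForm (Gamma0 N) 2))).restrictScalars ℤ :=
    Submodule.span_le.mpr Submodule.subset_span
  exact this hx

theorem finrank_intLattice_le (hint : CuspForm.HasIntegralStructure N 2) :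
    Module.finrank ℤ (CuspForm.intLattice N 2) ≤ Module.finrank ℂ (CuspForm (Gamma0 N) 2) := by
  have := finite_intLattice (N := N)
  have := free_intLattice (N := N)
  have := finiteDimensional_cuspForm (N := N) hint
  let b := Module.Free.chooseBasis ℤ (CuspForm.intLattice N 2)
  have h := linearIndependent_coe (fun i => b i) b.linearIndependent
  have h2 := h.fintype_card_le_finrank
  rwa [← Module.finrank_eq_card_chooseBasisIndex] at h2

/-- The complex pairing, for a fixed form: `t ↦ a₁(t f)`. -/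
def cPairingAt (f : CuspForm (Gamma0 N) 2) : CuspForm.heckeAlgebra N 2 ∅ →ₗ[ℤ] ℂ :=
  AddMonoidHom.toIntLinearMap
    { toFun := fun t => qCoeff ⇑((t : Module.End ℂ (CuspForm (Gamma0 N) 2)) f) 1
      map_zero' := qc_zero 1
      map_add' := fun s t => qc_add _ _ 1 }

theorem cPairingAt_apply (f : CuspForm (Gamma0 N) 2) (t : CuspForm.heckeAlgebra N 2 ∅) :
    cPairingAt f t = qCoeff ⇑((t : Module.End ℂ (CuspForm (Gamma0 N) 2)) f) 1 := rfl

/-- The complex pairing `f ↦ (t ↦ a₁(t f))`. -/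
def cPairing (N : ℕ) [NeZero N] :
    CuspForm (Gamma0 N) 2 →ₗ[ℂ] (CuspForm.heckeAlgebra N 2 ∅ →ₗ[ℤ] ℂ) where
  toFun f := cPairingAt f
  map_add' f g := by
    refine LinearMap.ext fun t => ?_
    rw [LinearMap.add_apply, cPairingAt_apply, cPairingAt_apply, cPairingAt_apply, map_add, qc_add]
  map_smul' c f := by
    refine LinearMap.ext fun t => ?_
    rw [LinearMap.smul_apply, cPairingAt_apply, cPairingAt_apply, map_smul, qc_smul]
    rfl

theorem cPairing_apply (f : CuspForm (Gamma0 N) 2) (t : CuspForm.heckeAlgebra N 2 ∅) :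
    cPairing N f t = qCoeff ⇑((t : Module.End ℂ (CuspForm (Gamma0 N) 2)) f) 1 := rfl

theorem cPairing_injective : Function.Injective (cPairing N) := by
  refine (injective_iff_map_eq_zero _).mpr fun f hf => ?_
  refine eq_zero_of_forall_heckeAlgebra one_le_two _ fun t => ?_
  exact LinearMap.congr_fun hf t

theorem finrank_intLinearMap (A : Type*) [AddCommGroup A] [Module.Finite ℤ A] [Module.Free ℤ A] :
    Module.finrank ℂ (A →ₗ[ℤ] ℂ) = Module.finrank ℤ A := by
  have b := Module.Free.chooseBasis ℤ A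
  have e : (Module.Free.ChooseBasisIndex ℤ A → ℂ) ≃ₗ[ℂ] (A →ₗ[ℤ] ℂ) := b.constr ℂ
  rw [← e.finrank_eq, Module.finrank_fintype_fun_eq_card, Module.finrank_eq_card_chooseBasisIndex]

theorem finite_intLinearMap (A : Type*) [AddCommGroup A] [Module.Finite ℤ A] [Module.Free ℤ A] :
    FiniteDimensional ℂ (A →ₗ[ℤ] ℂ) := by
  have b := Module.Free.chooseBasis ℤ A
  have e : (Module.Free.ChooseBasisIndex ℤ A → ℂ) ≃ₗ[ℂ] (A →ₗ[ℤ] ℂ) := b.constr ℂ
  exact Module.Finite.equiv e

theorem cPairing_surjective (hint : CuspForm.HasIntegralStructure N 2) :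
    Function.Surjective (cPairing N) := by
  have := finite_heckeAlgebra (N := N) hint
  have := free_heckeAlgebra (N := N) hint
  have := finiteDimensional_cuspForm (N := N) hint
  have := finite_intLinearMap (CuspForm.heckeAlgebra N 2 ∅)
  have hle : Module.finrank ℂ (CuspForm.heckeAlgebra N 2 ∅ →ₗ[ℤ] ℂ) ≤
      Module.finrank ℂ (CuspForm (Gamma0 N) 2) := by
    rw [finrank_intLinearMap]
    exact (finrank_heckeAlgebra_le hint).trans (finrank_intLattice_le hint)
  have heq : Module.finrank ℂ (CuspForm (Gamma0 N) 2) =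
      Module.finrank ℂ (CuspForm.heckeAlgebra N 2 ∅ →ₗ[ℤ] ℂ) :=
    le_antisymm (LinearMap.finrank_le_finrank_of_injective cPairing_injective) hle
  exact (LinearMap.injective_iff_surjective_of_finrank_eq_finrank heq).mp cPairing_injective

/-- Every ring homomorphism `ψ : 𝕋 → ℂ` is the eigencharacter of some form `f` with `a₁(f) = 1`. -/
theorem exists_form_of_ringHom (hint : CuspForm.HasIntegralStructure N 2)
    (ψ : CuspForm.heckeAlgebra N 2 ∅ →+* ℂ) :
    ∃ f : CuspForm (Gamma0 N) 2, qCoeff ⇑f 1 = 1 ∧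
      ∀ t : CuspForm.heckeAlgebra N 2 ∅,
        (t : Module.End ℂ (CuspForm (Gamma0 N) 2)) f = ψ t • f := by
  obtain ⟨f, hf⟩ := cPairing_surjective hint (ψ.toIntAlgHom.toLinearMap)
  have hf' : ∀ t : CuspForm.heckeAlgebra N 2 ∅,
      qCoeff ⇑((t : Module.End ℂ (CuspForm (Gamma0 N) 2)) f) 1 = ψ t := fun t =>
    LinearMap.congr_fun hf t
  refine ⟨f, ?_, fun t => ?_⟩
  · have := hf' 1
    rw [map_one] at this
    exact this
  · rw [← sub_eq_zero]
    refine eq_zero_of_forall_heckeAlgebra one_le_two _ fun s => ?_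
    rw [map_sub, map_smul, qc_sub, qc_smul, hf' s]
    have h2 : (s : Module.End ℂ (CuspForm (Gamma0 N) 2))
        ((t : Module.End ℂ (CuspForm (Gamma0 N) 2)) f) =
        ((s * t : CuspForm.heckeAlgebra N 2 ∅) : Module.End ℂ (CuspForm (Gamma0 N) 2)) f := rfl
    rw [h2, hf', map_mul]
    ring

/-! ### From Hecke eigenforms to `IsNormalizedEigenform` -/

/-- A form with `a₁ = 1` which is an eigenvector of all `T_ℓ`, `U_ℓ` is a normalised eigenform
in the sense of the prelude. -/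
theorem isNormalizedEigenform_of_gen (f : CuspForm (Gamma0 N) 2) (h1 : qCoeff ⇑f 1 = 1)
    (hgen : ∀ (ℓ : ℕ) (hℓ : ℓ.Prime), ∃ c : ℂ,
      ((gen N 2 hℓ : Module.End ℂ (CuspForm (Gamma0 N) 2)) f) = c • f) :
    f.IsNormalizedEigenform ∧ ∀ (ℓ : ℕ) (hℓ : ℓ.Prime),
      ((gen N 2 hℓ : Module.End ℂ (CuspForm (Gamma0 N) 2)) f) = qCoeff ⇑f ℓ • f := by
  have hc : ∀ (ℓ : ℕ) (hℓ : ℓ.Prime),
      ((gen N 2 hℓ : Module.End ℂ (CuspForm (Gamma0 N) 2)) f) = qCoeff ⇑f ℓ • f := by
    intro ℓ hℓ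
    obtain ⟨c, hc⟩ := hgen ℓ hℓ
    have h : qCoeff ⇑((gen N 2 hℓ : Module.End ℂ (CuspForm (Gamma0 N) 2)) f) 1 =
      qCoeff ⇑(c • f) 1 := congrArg (fun g : CuspForm (Gamma0 N) 2 => qCoeff ⇑g 1) hc
    rw [qc_gen, qc_smul, h1, one_mul, mul_one, if_neg, add_zero] at h
    · rw [hc, h]
    · rintro ⟨h, -⟩
      exact hℓ.one_lt.ne' (Nat.dvd_one.mp h)
  have hrec : ∀ (ℓ : ℕ) (hℓ : ℓ.Prime) (n : ℕ), qCoeff ⇑f (n * ℓ) +
      (if ℓ ∣ n ∧ ¬ ℓ ∣ N then (ℓ : ℂ) * qCoeff ⇑f (n / ℓ) else 0) = qCoeff ⇑f ℓ * qCoeff ⇑f n := by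
    intro ℓ hℓ n
    have h : qCoeff ⇑((gen N 2 hℓ : Module.End ℂ (CuspForm (Gamma0 N) 2)) f) n =
      qCoeff ⇑(qCoeff ⇑f ℓ • f) n :=
      congrArg (fun g : CuspForm (Gamma0 N) 2 => qCoeff ⇑g n) (hc ℓ hℓ)
    rw [qc_gen, qc_smul] at h
    simpa using h
  refine ⟨⟨h1, ?_, ?_, ?_⟩, hc⟩
  · -- multiplicativity
    intro m n
    induction m using Nat.strong_induction_on generalizing n with
    | _ m ih =>
      intro hmn
      rcases eq_or_ne m 0 with rfl | hm0
      · have hn1 : n = 1 := by simpa using hmn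
        rw [hn1, h1]; simp
      rcases eq_or_ne m 1 with rfl | hm1
      · rw [one_mul, h1, one_mul]
      · obtain ⟨ℓ, hℓ, m', rfl⟩ : ∃ ℓ : ℕ, ℓ.Prime ∧ ∃ m', m = m' * ℓ := by
          obtain ⟨ℓ, hℓ, hd⟩ := Nat.exists_prime_and_dvd hm1
          obtain ⟨m', hm'⟩ := hd
          exact ⟨ℓ, hℓ, m', by rw [hm', mul_comm]⟩
        have hm'0 : m' ≠ 0 := fun h => hm0 (by rw [h, zero_mul])
        have hlt : m' < m' * ℓ := lt_mul_of_one_lt_right (Nat.pos_of_ne_zero hm'0) hℓ.one_lt
        have hcop1 : m'.Coprime n := Nat.Coprime.coprime_mul_right hmn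
        have hcop2 : ℓ.Coprime n := Nat.Coprime.coprime_mul_left hmn
        have hndvd : ¬ ℓ ∣ n := (Nat.Prime.coprime_iff_not_dvd hℓ).mp hcop2
        have e1 := hrec ℓ hℓ (m' * n)
        have e2 := hrec ℓ hℓ m'
        have e3 := ih m' hlt n hcop1
        have hdd : ℓ ∣ m' * n ↔ ℓ ∣ m' := by
          rw [hℓ.dvd_mul]; tauto
        have e4 : m' * ℓ * n = m' * n * ℓ := by ring
        rw [e4]
        by_cases hcond : ℓ ∣ m' ∧ ¬ ℓ ∣ N
        · have hcond' : ℓ ∣ m' * n ∧ ¬ ℓ ∣ N := ⟨hdd.mpr hcond.1, hcond.2⟩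
          rw [if_pos hcond'] at e1
          rw [if_pos hcond] at e2
          have hdiv : m' * n / ℓ = m' / ℓ * n := by
            obtain ⟨r, rfl⟩ := hcond.1
            rw [Nat.mul_div_cancel_left _ hℓ.pos, mul_assoc, Nat.mul_div_cancel_left _ hℓ.pos]
          have hcop3 : (m' / ℓ).Coprime n := Nat.Coprime.coprime_div_left hcop1 hcond.1
          have hlt3 : m' / ℓ < m' * ℓ := lt_of_le_of_lt (Nat.div_le_self _ _) hlt
          have e5 := ih (m' / ℓ) hlt3 n hcop3
          rw [hdiv, e5] at e1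
          rw [e3] at e1
          linear_combination e1 - qCoeff ⇑f n * e2
        · have hcond' : ¬ (ℓ ∣ m' * n ∧ ¬ ℓ ∣ N) := fun h => hcond ⟨hdd.mp h.1, h.2⟩
          rw [if_neg hcond'] at e1
          rw [if_neg hcond] at e2
          rw [e3] at e1
          linear_combination e1 - qCoeff ⇑f n * e2
  · intro p r hp hpN
    have e := hrec p hp (p ^ (r + 1))
    rw [if_pos ⟨dvd_pow_self p (Nat.succ_ne_zero r), hpN⟩] at e
    have h2 : p ^ (r + 1) / p = p ^ r := by
      rw [pow_succ, Nat.mul_div_cancel _ hp.pos]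
    rw [h2, ← pow_succ] at e
    linear_combination e
  · intro p r hp hpN
    have e := hrec p hp (p ^ (r + 1))
    rw [if_neg (fun h => h.2 hpN), ← pow_succ] at e
    linear_combination e

/-- Every ring homomorphism `ψ : 𝕋 → ℂ` is realised by a normalised eigenform. -/
theorem exists_eigenform_of_ringHom (hint : CuspForm.HasIntegralStructure N 2)
    (ψ : CuspForm.heckeAlgebra N 2 ∅ →+* ℂ) :
    ∃ f : CuspForm (Gamma0 N) 2, f.IsNormalizedEigenform ∧
      (∀ t : CuspForm.heckeAlgebra N 2 ∅,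
        (t : Module.End ℂ (CuspForm (Gamma0 N) 2)) f = ψ t • f) ∧
      ∀ (ℓ : ℕ) (hℓ : ℓ.Prime), qCoeff ⇑f ℓ = ψ (gen N 2 hℓ) := by
  obtain ⟨f, h1, hf⟩ := exists_form_of_ringHom hint ψ
  obtain ⟨h2, h3⟩ := isNormalizedEigenform_of_gen f h1 fun ℓ hℓ => ⟨_, hf (gen N 2 hℓ)⟩
  refine ⟨f, h2, hf, fun ℓ hℓ => ?_⟩
  have h4 := (h3 ℓ hℓ).symm.trans (hf (gen N 2 hℓ))
  have h5 : qCoeff ⇑(qCoeff ⇑f ℓ • f) 1 = qCoeff ⇑(ψ (gen N 2 hℓ) • f) 1 :=
    congrArg (fun g : CuspForm (Gamma0 N) 2 => qCoeff ⇑g 1) h4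
  rwa [qc_smul, qc_smul, h1, mul_one, mul_one] at h5

end Fermat.Agent.HeckeDuality
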