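import Fermat.Agent.Lib.Cyclotomic

/-!
# Involutions of `ℚbar` invert roots of unity

If `c` is an involution (`c * c = 1`, `c ≠ 1`) of an algebraically closed field of characteristic
zero then `c ζ = ζ⁻¹` for every root of unity `ζ` (Artin–Schreier style argument).
-/

set_option autoImplicit false

namespace Fermat.Agent.InvolutionCyc

section General

variable {K : Type*} [Field K] [IsAlgClosed K] (h2 : (2 : K) ≠ 0) (c : K ≃+* K)
  (hc : ∀ x, c (c x) = x) {x₀ : K} (hx₀ : c x₀ ≠ x₀)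

include h2 hc hx₀ in
/-- `c i = -i`. -/
theorem map_I_ne {i : K} (hi : i ^ 2 = -1) : c i ≠ i := by
  intro hci
  set α := x₀ - c x₀ with hα
  have hα0 : α ≠ 0 := fun h => hx₀ (sub_eq_zero.mp h).symm
  have hcα : c α = -α := by rw [hα, map_sub, hc, neg_sub]
  obtain ⟨β, hβ⟩ := IsAlgClosed.exists_pow_nat_eq α (n := 2) (by norm_num)
  -- `N(β)² = N(α) = -α²`
  have h1 : (β * c β) ^ 2 = (i * α) ^ 2 := by
    rw [mul_pow, ← map_pow, hβ, hcα, mul_pow, hi]; ring
  have h3 : c (β * c β) = β * c β := by rw [map_mul, hc, mul_comm]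
  have h4 : c (i * α) = -(i * α) := by rw [map_mul, hci, hcα, mul_neg]
  have hi0 : i ≠ 0 := by
    rintro rfl
    rw [zero_pow (by norm_num)] at hi
    exact one_ne_zero (neg_eq_zero.mp hi.symm)
  have h5 : i * α ≠ 0 := mul_ne_zero hi0 hα0
  have h6 : β * c β = i * α ∨ β * c β = -(i * α) := sq_eq_sq_iff_eq_or_eq_neg.mp h1
  have h7 : c (i * α) = i * α := by
    rcases h6 with h | h
    · rw [← h]; exact h3
    · have := h3
      rw [h, map_neg] at this
      exact neg_injective this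
  rw [h4] at h7
  have : (2 : K) * (i * α) = 0 := by linear_combination -h7
  exact h5 ((mul_eq_zero.mp this).resolve_left h2)

include h2 hc hx₀ in
theorem map_I {i : K} (hi : i ^ 2 = -1) : c i = -i := by
  have h : (c i) ^ 2 = i ^ 2 := by rw [← map_pow, hi, map_neg, map_one]
  exact (sq_eq_sq_iff_eq_or_eq_neg.mp h).resolve_left (map_I_ne h2 c hc hx₀ hi)

include h2 hc hx₀ in
/-- Sums of two squares of `c`-fixed elements are squares of `c`-fixed elements. -/
theorem exists_sq_add_sq {x y : K} (hx : c x = x) (hy : c y = y) :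
    ∃ z : K, c z = z ∧ z ^ 2 = x ^ 2 + y ^ 2 := by
  obtain ⟨i, hi⟩ := IsAlgClosed.exists_pow_nat_eq (-1 : K) (n := 2) (by norm_num)
  obtain ⟨w, hw⟩ := IsAlgClosed.exists_pow_nat_eq (x + i * y) (n := 2) (by norm_num)
  refine ⟨w * c w, by rw [map_mul, hc, mul_comm], ?_⟩
  rw [mul_pow, ← map_pow, hw, map_add, map_mul, hx, hy, map_I h2 c hc hx₀ hi]
  linear_combination (-y ^ 2) * hi

include h2 hc hx₀ in
theorem exists_sq_eq_sum {ι : Type*} (s : Finset ι) (f : ι → K) (hf : ∀ j ∈ s, c (f j) = f j) :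
    ∃ z : K, c z = z ∧ z ^ 2 = ∑ j ∈ s, (f j) ^ 2 := by
  classical
  induction s using Finset.induction_on with
  | empty => exact ⟨0, map_zero c, by simp⟩
  | insert a s ha ih =>
    obtain ⟨z, hz, hz2⟩ := ih fun j hj => hf j (Finset.mem_insert_of_mem hj)
    obtain ⟨w, hw, hw2⟩ := exists_sq_add_sq h2 c hc hx₀ (hf a (Finset.mem_insert_self a s)) hz
    exact ⟨w, hw, by rw [hw2, hz2, Finset.sum_insert ha]⟩

include h2 hc hx₀ in
theorem neg_one_ne_sum_sq {ι : Type*} (s : Finset ι) (f : ι → K) (hf : ∀ j ∈ s, c (f j) = f j) :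
    ∑ j ∈ s, (f j) ^ 2 ≠ -1 := by
  intro h
  obtain ⟨z, hz, hz2⟩ := exists_sq_eq_sum h2 c hc hx₀ s f hf
  rw [h] at hz2
  exact map_I_ne h2 c hc hx₀ hz2 hz

include h2 hc hx₀ in
/-- **An involution inverts all roots of unity.** -/
theorem map_rootOfUnity {n : ℕ} (hn : n ≠ 0) {ζ : K} (hζ : ζ ^ n = 1) : c ζ = ζ⁻¹ := by
  obtain ⟨w, hw⟩ := IsAlgClosed.exists_pow_nat_eq ζ (n := 2) (by norm_num)
  set s := w * c w with hs
  have hcs : c s = s := by rw [hs, map_mul, hc, mul_comm]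
  set ν := ζ * c ζ with hν
  have hνs : ν = s ^ 2 := by rw [hν, hs, mul_pow, ← map_pow, hw]
  have hνn : ν ^ n = 1 := by rw [hν, mul_pow, ← map_pow, hζ, map_one, one_mul]
  have hζ0 : ζ ≠ 0 := by
    rintro rfl
    rw [zero_pow hn] at hζ
    exact zero_ne_one hζ
  by_cases h1 : ν = 1
  · exact eq_inv_of_mul_eq_one_right h1
  exfalso
  have hgeom : ∑ j ∈ Finset.range n, ν ^ j = 0 := by
    have := geom_sum_mul ν n
    rw [hνn, sub_self] at this
    exact (mul_eq_zero.mp this).resolve_right (sub_ne_zero.mpr h1)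
  obtain ⟨m, rfl⟩ := Nat.exists_eq_succ_of_ne_zero hn
  rw [Finset.sum_range_succ'] at hgeom
  refine neg_one_ne_sum_sq h2 c hc hx₀ (Finset.range m) (fun j => s ^ (j + 1)) ?_ ?_
  · intro j _
    rw [map_pow, hcs]
  · have : ∀ j, (s ^ (j + 1)) ^ 2 = ν ^ (j + 1) := fun j => by
      rw [hνs, ← pow_mul, ← pow_mul, mul_comm]
    simp only [this]
    rw [pow_zero] at hgeom
    linear_combination hgeom

end General

local notation "Γℚ" => (AlgebraicClosure ℚ ≃ₐ[ℚ] AlgebraicClosure ℚ)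

/-- Every involution in `G_ℚ` inverts roots of unity. -/
theorem involution_rootOfUnity (c : Γℚ) (hc : c * c = 1) (hc1 : c ≠ 1) {n : ℕ} (hn : n ≠ 0)
    {ζ : AlgebraicClosure ℚ} (hζ : ζ ^ n = 1) : c ζ = ζ⁻¹ := by
  obtain ⟨x, hx⟩ : ∃ x, c x ≠ x := by
    by_contra hcon
    push Not at hcon
    exact hc1 (AlgEquiv.ext hcon)
  exact map_rootOfUnity (K := AlgebraicClosure ℚ) two_ne_zero (c : AlgebraicClosure ℚ ≃+* _)
    (fun x => by
      change c (c x) = x
      rw [← AlgEquiv.mul_apply, hc, AlgEquiv.one_apply]) (x₀ := x) hx hn hζ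

/-- The mod-`n` cyclotomic character takes the value `-1` on every involution. -/
theorem cyc_involution (n : ℕ) [NeZero n] (c : Γℚ) (hc : c * c = 1) (hc1 : c ≠ 1) :
    Cyclotomic.cyc n c = -1 := by
  refine Units.ext ?_
  have h := Cyclotomic.cyc_unique_nat n c (m := n - 1) (fun ζ hζ => by
    rw [involution_rootOfUnity c hc hc1 (NeZero.ne n) hζ]
    have h0 : ζ ≠ 0 := by
      rintro rfl
      rw [zero_pow (NeZero.ne n)] at hζ
      exact zero_ne_one hζ
    have h1 : ζ ^ (n - 1) * ζ = 1 := by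
      rw [← pow_succ, Nat.sub_add_cancel (Nat.pos_of_ne_zero (NeZero.ne n)), hζ]
    exact (eq_inv_of_mul_eq_one_left h1).symm)
  rw [h, Units.val_neg, Units.val_one, Nat.cast_sub (Nat.pos_of_ne_zero (NeZero.ne n)),
    ZMod.natCast_self]
  simp

end Fermat.Agent.InvolutionCyc
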