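import Fermat.Agent.FrobCompare
import Fermat.Agent.InvolutionCyc
import Fermat.Prelude.Def_GaloisRep_LocalConditions

/-!
# The determinant is cyclotomic (from Frobenius elements) and oddness
-/

set_option autoImplicit false

open Polynomial IsLocalRing
open scoped TensorProduct

namespace Fermat.Agent.FrobCompare

open Fermat.Agent.Cyclotomic

local notation "Γℚ" => (AlgebraicClosure ℚ ≃ₐ[ℚ] AlgebraicClosure ℚ)

section Det

variable {R V : Type*} [CommRing R] [AddCommGroup V] [Module R V] {B : Type*} [CommRing B]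

/-- `cyc n g` only depends on the restriction to some finite level. -/
theorem exists_level_cyc (n : ℕ) [NeZero n] :
    ∃ L : IntermediateField ℚ (AlgebraicClosure ℚ), FiniteDimensional ℚ L ∧
      ∀ g g' : Γℚ, (∀ x ∈ L, g x = g' x) → cyc n g = cyc n g' := by
  obtain ⟨L, hL, h⟩ := cyc_finite_level n
  refine ⟨L, hL, fun g g' hgg' => ?_⟩
  have h1 : cyc n (g'⁻¹ * g) = 1 := h _ fun x hx => by
    rw [AlgEquiv.mul_apply, hgg' x hx]
    change g'.symm (g' x) = x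
    exact g'.symm_apply_apply x
  rw [map_mul, map_inv] at h1
  exact (inv_mul_eq_one.mp h1).symm

/-- A character-like function `δ : G_ℚ → B` (multiplicative), locally constant, equal to `ℓ` at
Frobenii outside `S`, where `n = 0` in `B`, is the mod `n` cyclotomic character. -/
theorem monoidHom_eq_cyc (hD : FrobDensity) (n : ℕ) [NeZero n] (hn : (n : B) = 0)
    (δ : Γℚ →* B) (L : IntermediateField ℚ (AlgebraicClosure ℚ)) [FiniteDimensional ℚ L]
    (hL : ∀ g g' : Γℚ, (∀ x ∈ L, g x = g' x) → δ g = δ g') (S : Finset ℕ)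
    (hF : ∀ ℓ : ℕ, ℓ.Prime → ℓ ∉ S → ∀ A : ValuationSubring (AlgebraicClosure ℚ),
      A.LiesOverPrime ℓ → ∀ σ : Γℚ, A.IsFrobeniusAt σ ℓ → δ σ = (ℓ : B))
    (g : Γℚ) {a : ℕ} (ha : (cyc n g : ZMod n) = a) : δ g = (a : B) := by
  obtain ⟨L', hL', h'⟩ := exists_level_cyc n
  obtain ⟨ℓ, hℓ, hℓS, A, hA, σ, hσ, k, hk⟩ := hD (L ⊔ L') g (S ∪ n.primeFactors)
  rw [Finset.mem_union, not_or] at hℓS
  have hℓn : ¬ ℓ ∣ n := fun h => hℓS.2 (Nat.mem_primeFactors.mpr ⟨hℓ, h, NeZero.ne n⟩)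
  have e₁ : δ g = δ (σ ^ k) := hL g (σ ^ k) fun x hx => hk x ((le_sup_left : L ≤ L ⊔ L') hx)
  have e₂ : cyc n g = cyc n (σ ^ k) :=
    h' g (σ ^ k) fun x hx => hk x ((le_sup_right : L' ≤ L ⊔ L') hx)
  have e₃ : (cyc n σ : ZMod n) = ℓ := cyc_frobenius hℓ hℓn A hA hσ
  rw [e₁, map_pow, hF ℓ hℓ hℓS.1 A hA σ hσ]
  have e₄ : (a : ZMod n) = ((ℓ ^ k : ℕ) : ZMod n) := by
    rw [← ha, e₂, map_pow, Units.val_pow_eq_pow_val, e₃]
    push_cast
    rfl
  rw [ZMod.natCast_eq_natCast_iff] at e₄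
  -- `a ≡ ℓ ^ k mod n`, hence equal in `B`
  have e₅ : (n : ℤ) ∣ ((ℓ ^ k : ℕ) : ℤ) - (a : ℤ) := (Nat.modEq_iff_dvd.mp e₄)
  obtain ⟨d, hd⟩ := e₅
  have e₆ : (((ℓ ^ k : ℕ) : ℤ) : B) - ((a : ℤ) : B) = ((n : ℤ) : B) * (d : B) := by
    rw [← Int.cast_sub, hd, Int.cast_mul]
  push_cast at e₆
  rw [hn, zero_mul, sub_eq_zero] at e₆
  exact e₆

end Det

/-! ## Adic representations -/

/-- `det ρ` is cyclotomic as soon as `det ρ(Frob_ℓ) = ℓ` outside a finite set. -/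
theorem detIsCyclotomic_of_frob (hD : FrobDensity) {A : Type} [CommRing A] [IsLocalRing A]
    [IsNoetherianRing A] (ρ : GaloisRepAdic A) {p : ℕ} (hp0 : p ≠ 0)
    (hp : (p : A) ∈ maximalIdeal A) (S : Finset ℕ)
    (hF : ∀ ℓ : ℕ, ℓ.Prime → ℓ ∉ S → ∀ P : ValuationSubring (AlgebraicClosure ℚ),
      P.LiesOverPrime ℓ → ∀ σ : Γℚ, P.IsFrobeniusAt σ ℓ → LinearMap.det (ρ.ρ σ) = (ℓ : A)) :
    ρ.DetIsCyclotomic p := by
  refine ⟨hp, fun n σ a ha => ?_⟩
  have : NeZero (p ^ n) := ⟨pow_ne_zero n hp0⟩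
  set I : Ideal A := Ideal.span {((p ^ n : ℕ) : A)} with hI
  -- enough modulo `I + 𝔪^N` for all `N`
  have hclosed : ∀ x : A, (∀ N : ℕ, x ∈ I ⊔ maximalIdeal A ^ N) → x ∈ I := by
    intro x hx
    by_cases htop : I = ⊤
    · rw [htop]; trivial
    have hnt : Nontrivial (A ⧸ I) := Ideal.Quotient.nontrivial_iff.mpr htop
    have hloc : IsLocalRing (A ⧸ I) := IsLocalRing.of_surjective' (Ideal.Quotient.mk I)
      Ideal.Quotient.mk_surjective
    rw [← Ideal.Quotient.eq_zero_iff_mem]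
    refine eq_zero_of_forall_mem_pow (B := A ⧸ I) fun N => ?_
    obtain ⟨y, hy, z, hz, rfl⟩ := Submodule.mem_sup.mp (hx N)
    rw [map_add, Ideal.Quotient.eq_zero_iff_mem.mpr hy, zero_add]
    have h1 : (maximalIdeal A ^ N).map (Ideal.Quotient.mk I) ≤ maximalIdeal (A ⧸ I) ^ N := by
      rw [Ideal.map_pow]
      refine Ideal.pow_right_mono (Ideal.map_le_iff_le_comap.mpr fun a ha => ?_) N
      have : IsLocalHom (Ideal.Quotient.mk I) :=
        Function.Surjective.isLocalHom _ Ideal.Quotient.mk_surjective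
      exact Ideal.mem_comap.mpr (map_nonunit _ a ha)
    exact h1 (Ideal.mem_map_of_mem _ hz)
  refine hclosed _ fun N => ?_
  set J : Ideal A := I ⊔ maximalIdeal A ^ N with hJ
  rw [← Ideal.Quotient.eq_zero_iff_mem, map_sub, map_natCast, sub_eq_zero]
  obtain ⟨L, hL, h⟩ := exists_charpolyConstantOn_of_isAdicContinuous ρ.ρ ρ.isAdicContinuous N
    (Ideal.Quotient.mk J) (by rw [Ideal.mk_ker]; exact le_sup_right)
  have hn0 : ((p ^ n : ℕ) : A ⧸ J) = 0 := by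
    rw [← map_natCast (Ideal.Quotient.mk J), Ideal.Quotient.eq_zero_iff_mem]
    exact (le_sup_left : I ≤ J) (Ideal.subset_span rfl)
  refine monoidHom_eq_cyc hD (p ^ n) hn0
    (((Ideal.Quotient.mk J).toMonoidHom.comp LinearMap.det).comp ρ.ρ) L (fun g g' hgg' => ?_) S
    (fun ℓ hℓ hℓS P hP τ hτ => ?_) σ (cyc_unique_nat (p ^ n) σ ha)
  · have h1 := BN2.det_eq_of_charpoly_map_eq ρ.finrank_eq ρ.finrank_eq (Ideal.Quotient.mk J)
      (Ideal.Quotient.mk J) (ρ.ρ g) (ρ.ρ g') (h g g' hgg')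
    exact h1
  · change Ideal.Quotient.mk J (LinearMap.det (ρ.ρ τ)) = _
    rw [hF ℓ hℓ hℓS P hP τ hτ, map_natCast]

/-- A residual representation with `det (Frob_ℓ) = ℓ` outside `S` is odd. -/
theorem isOdd_of_frob (hD : FrobDensity) {k : Type} [Field k] (p : ℕ) [Fact p.Prime] [CharP k p]
    (ρ : ResidualGaloisRep k) (S : Finset ℕ)
    (hF : ∀ ℓ : ℕ, ℓ.Prime → ℓ ∉ S → ∀ P : ValuationSubring (AlgebraicClosure ℚ),
      P.LiesOverPrime ℓ → ∀ σ : Γℚ, P.IsFrobeniusAt σ ℓ → LinearMap.det (ρ.ρ σ) = (ℓ : k)) :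
    ρ.IsOdd := by
  intro c hc hc1
  obtain ⟨L, hL, h⟩ := ρ.factorsThroughFiniteLevel
  have hp0 : p ≠ 0 := (Fact.out : p.Prime).ne_zero
  have : NeZero p := ⟨hp0⟩
  have hcyc := InvolutionCyc.cyc_involution p c hc hc1
  have ha : (cyc p c : ZMod p) = ((p - 1 : ℕ) : ZMod p) := by
    rw [hcyc, Nat.cast_sub (Nat.pos_of_ne_zero hp0), ZMod.natCast_self]
    simp
  have h1 := monoidHom_eq_cyc hD p (CharP.cast_eq_zero k p)
    (LinearMap.det.comp ρ.ρ) L (fun g g' hgg' => ?_) S hF c ha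
  · change LinearMap.det (ρ.ρ c) = _ at h1
    rw [h1, Nat.cast_sub (Nat.pos_of_ne_zero hp0), CharP.cast_eq_zero]
    simp
  · have h2 := charpolyConstantOn_of_factors ρ.ρ (RingHom.id k) L h g g' hgg'
    exact BN2.det_eq_of_charpoly_map_eq ρ.finrank_eq ρ.finrank_eq (RingHom.id k) (RingHom.id k)
      (ρ.ρ g) (ρ.ρ g') h2

end Fermat.Agent.FrobCompare
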