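import Mathlib

set_option autoImplicit false

open NumberField IsDedekindDomain Filter Topology Asymptotics

namespace Fermat.Agent.DedekindEuler

variable (K : Type*) [Field K] [NumberField K]

theorem tendsto_sum_card :
    Tendsto (fun n : ℕ ↦ (∑ k ∈ Finset.Icc 1 n, (Nat.card {I : Ideal (𝓞 K) // Ideal.absNorm I = k} : ℝ)) / (n : ℝ))
      atTop (𝓝 (dedekindZeta_residue K)) := by
  refine ((Ideal.tendsto_norm_le_div_atTop₀ K).comp tendsto_natCast_atTop_atTop).congr fun n ↦ ?_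
  simp only [Function.comp_apply, Nat.cast_le, ← Nat.cast_sum]
  congr
  rw [← add_left_inj 1, ← Ideal.card_norm_le_eq_card_norm_le_add_one,
    show Finset.Icc 1 n = Finset.Ioc 0 n from Finset.Icc_succ_left_eq_Ioc _ _,
    show 1 = Nat.card {I : Ideal (𝓞 K) // Ideal.absNorm I = 0} by simp [Ideal.absNorm_eq_zero_iff],
    Finset.sum_Ioc_add_eq_sum_Icc (n.zero_le),
    ← Finset.card_preimage_eq_sum_card_image_eq (fun k _ ↦ Ideal.finite_setOfPred_absNorm_eq k)]
  simp [Set.coe_eq_subtype]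

theorem lseriesSummable {s : ℝ} (hs : 1 < s) :
    LSeriesSummable (fun n ↦ ((Nat.card {I : Ideal (𝓞 K) // Ideal.absNorm I = n} : ℝ) : ℂ)) (s : ℂ) := by
  refine LSeriesSummable_of_sum_norm_bigO_and_nonneg (r := 1) ?_ (fun _ ↦ Nat.cast_nonneg _) zero_le_one ?_
  · have h := (tendsto_sum_card K).isBigO_one ℝ
    have h2 : (fun n : ℕ ↦ (n : ℝ)) =O[atTop] (fun n : ℕ ↦ (n : ℝ)) := isBigO_refl _ _
    have h3 := h.mul h2
    refine h3.congr' ?_ ?_
    · filter_upwards [eventually_ne_atTop 0] with n hn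
      have : (n : ℝ) ≠ 0 := by exact_mod_cast hn
      field_simp
    · filter_upwards with n
      simp
  · simpa using hs

/-- real term of the Dedekind zeta series -/
theorem hasSum_dedekindZeta {s : ℝ} (hs : 1 < s) :
    HasSum (fun n : ℕ ↦ (Nat.card {I : Ideal (𝓞 K) // Ideal.absNorm I = n} : ℝ) * (n : ℝ) ^ (-s))
      (dedekindZeta K s).re := by
  have h := (lseriesSummable K hs).hasSum
  have h2 := (Complex.hasSum_re h)
  have h3 : dedekindZeta K s = ∑' (b : ℕ), LSeries.term (fun n ↦ ((Nat.card {I : Ideal (𝓞 K) // Ideal.absNorm I = n} : ℝ) : ℂ)) (s : ℂ) b := by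
    unfold dedekindZeta LSeries
    simp
  rw [← h3] at h2
  have h4 : (fun n : ℕ ↦ (Nat.card {I : Ideal (𝓞 K) // Ideal.absNorm I = n} : ℝ) * (n : ℝ) ^ (-s)) =
    fun x ↦ (LSeries.term (fun n ↦ ((Nat.card {I : Ideal (𝓞 K) // Ideal.absNorm I = n} : ℝ) : ℂ)) (s : ℂ) x).re := by
    funext n
    rcases eq_or_ne n 0 with rfl | hn
    · simp [LSeries.term_zero, Real.zero_rpow (show -s ≠ 0 by linarith)]
    · rw [LSeries.term_of_ne_zero hn]
      have h5 : ((n : ℂ) ^ (s : ℂ)) = (((n : ℝ) ^ s : ℝ) : ℂ) := by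
        rw [Complex.ofReal_cpow (Nat.cast_nonneg n)]; simp
      rw [h5, ← Complex.ofReal_div, Complex.ofReal_re, Real.rpow_neg (Nat.cast_nonneg n)]
      rfl
  rw [h4]
  exact h2

theorem summable_and_tsum_ideals {s : ℝ} (hs : 1 < s) :
    Summable (fun I : Ideal (𝓞 K) ↦ (Ideal.absNorm I : ℝ) ^ (-s)) ∧
    ∑' I : Ideal (𝓞 K), (Ideal.absNorm I : ℝ) ^ (-s) = (dedekindZeta K s).re := by
  let e := (Equiv.sigmaFiberEquiv (fun I : Ideal (𝓞 K) ↦ Ideal.absNorm I))
  have hfin : ∀ n : ℕ, Finite {I : Ideal (𝓞 K) // Ideal.absNorm I = n} := fun n ↦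
    Ideal.finite_setOfPred_absNorm_eq n
  have hsum : ∀ n : ℕ, ∑' (y : {I : Ideal (𝓞 K) // Ideal.absNorm I = n}),
      (Ideal.absNorm (y : Ideal (𝓞 K)) : ℝ) ^ (-s) =
      (Nat.card {I : Ideal (𝓞 K) // Ideal.absNorm I = n} : ℝ) * (n : ℝ) ^ (-s) := by
    intro n
    have := hfin n
    rw [tsum_congr (g := fun _ ↦ (n : ℝ) ^ (-s)) (fun y ↦ by rw [y.2]), tsum_const]
    simp
  have hS : Summable ((fun I : Ideal (𝓞 K) ↦ (Ideal.absNorm I : ℝ) ^ (-s)) ∘ e) := by
    rw [summable_sigma_of_nonneg (f := (fun I : Ideal (𝓞 K) ↦ (Ideal.absNorm I : ℝ) ^ (-s)) ∘ e)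
      (fun x ↦ Real.rpow_nonneg (Nat.cast_nonneg _) _)]
    refine ⟨fun n ↦ ?_, ?_⟩
    · have := hfin n
      exact Summable.of_finite
    · refine (hasSum_dedekindZeta K hs).summable.congr fun n ↦ ?_
      rw [← hsum n]
      rfl
  refine ⟨(Equiv.summable_iff e).mp hS, ?_⟩
  rw [← Equiv.tsum_eq e]
  change ∑' c, ((fun I : Ideal (𝓞 K) ↦ (Ideal.absNorm I : ℝ) ^ (-s)) ∘ e) c = _
  rw [hS.tsum_sigma' (fun n ↦ ?_), ← (hasSum_dedekindZeta K hs).tsum_eq]
  · exact tsum_congr fun n ↦ hsum n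
  · have := hfin n
    exact Summable.of_finite

variable {K}

theorem two_le_absNorm (v : HeightOneSpectrum (𝓞 K)) : 2 ≤ Ideal.absNorm v.asIdeal := by
  have h0 : Ideal.absNorm v.asIdeal ≠ 0 := by
    rw [Ne, Ideal.absNorm_eq_zero_iff]; exact v.ne_bot
  have h1 : Ideal.absNorm v.asIdeal ≠ 1 := by
    rw [Ne, Ideal.absNorm_eq_one_iff]; exact v.isPrime.ne_top
  omega

/-- the term `N v ^ (-s)` -/
noncomputable def x (s : ℝ) (v : HeightOneSpectrum (𝓞 K)) : ℝ := (Ideal.absNorm v.asIdeal : ℝ) ^ (-s)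

theorem x_nonneg (s : ℝ) (v : HeightOneSpectrum (𝓞 K)) : 0 ≤ x s v := by
  unfold x; positivity

theorem x_le_half {s : ℝ} (hs : 1 ≤ s) (v : HeightOneSpectrum (𝓞 K)) : x s v ≤ 1 / 2 := by
  have h2 : (2 : ℝ) ≤ Ideal.absNorm v.asIdeal := by exact_mod_cast two_le_absNorm v
  unfold x
  calc (Ideal.absNorm v.asIdeal : ℝ) ^ (-s) ≤ (Ideal.absNorm v.asIdeal : ℝ) ^ (-1 : ℝ) :=
        Real.rpow_le_rpow_of_exponent_le (by linarith) (by linarith)
    _ = ((Ideal.absNorm v.asIdeal : ℝ))⁻¹ := Real.rpow_neg_one _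
    _ ≤ 2⁻¹ := inv_anti₀ (by norm_num) h2
    _ = 1 / 2 := by norm_num

theorem x_sq (s : ℝ) (v : HeightOneSpectrum (𝓞 K)) : x s v ^ 2 = x (2 * s) v := by
  unfold x
  rw [← Real.rpow_natCast, ← Real.rpow_mul (Nat.cast_nonneg _)]
  congr 1; push_cast; ring

omit [NumberField K] in
theorem asIdeal_injective : Function.Injective (fun v : HeightOneSpectrum (𝓞 K) ↦ v.asIdeal) := by
  intro v w h; exact HeightOneSpectrum.ext h

theorem prod_injOn (F : Finset (HeightOneSpectrum (𝓞 K))) :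
    Set.InjOn (fun T : Finset (HeightOneSpectrum (𝓞 K)) ↦ ∏ v ∈ T, v.asIdeal) (F.powerset : Set (Finset (HeightOneSpectrum (𝓞 K)))) := by
  intro T hT T' hT' h
  simp only at h
  have key : ∀ (T : Finset (HeightOneSpectrum (𝓞 K))) (v : HeightOneSpectrum (𝓞 K)), v.asIdeal ∣ ∏ w ∈ T, w.asIdeal ↔ v ∈ T := by
    intro T v
    constructor
    · intro hv
      obtain ⟨w, hw, hvw⟩ := (v.prime.dvd_finsetProd_iff _).mp hv
      have : v = w := by
        apply HeightOneSpectrum.ext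
        exact (associated_iff_eq.mp ((v.prime.associated_of_dvd w.prime hvw)))
      rwa [this]
    · intro hv
      exact Finset.dvd_prod_of_mem _ hv
  ext v
  rw [← key T v, ← key T' v, h]

theorem prod_one_add_le {s : ℝ} (hs : 1 < s) (F : Finset (HeightOneSpectrum (𝓞 K))) :
    ∏ v ∈ F, (1 + x s v) ≤ (dedekindZeta K s).re := by
  classical
  rw [Finset.prod_one_add]
  have h1 : ∀ T : Finset (HeightOneSpectrum (𝓞 K)), ∏ v ∈ T, x s v =
      (Ideal.absNorm (∏ v ∈ T, v.asIdeal) : ℝ) ^ (-s) := by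
    intro T
    unfold x
    rw [map_prod, Nat.cast_prod, Real.finsetProd_rpow _ _ (fun i _ ↦ Nat.cast_nonneg _)]
  simp_rw [h1]
  rw [← Finset.sum_image (f := fun I : Ideal (𝓞 K) ↦ (Ideal.absNorm I : ℝ) ^ (-s)) (prod_injOn F)]
  rw [← (summable_and_tsum_ideals K hs).2]
  exact (summable_and_tsum_ideals K hs).1.sum_le_tsum _ (fun I _ ↦ by positivity)


theorem sum_le_prod {s : ℝ} (hs : 1 < s) (Z : Finset (Ideal (𝓞 K))) :
    ∃ F : Finset (HeightOneSpectrum (𝓞 K)),
      ∑ I ∈ Z, (Ideal.absNorm I : ℝ) ^ (-s) ≤ ∏ v ∈ F, (1 - x s v)⁻¹ := by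
  classical
  -- remove zero
  have hZ : ∑ I ∈ Z, (Ideal.absNorm I : ℝ) ^ (-s) = ∑ I ∈ Z.filter (· ≠ 0), (Ideal.absNorm I : ℝ) ^ (-s) := by
    rw [Finset.sum_filter]
    refine Finset.sum_congr rfl fun I _ ↦ ?_
    split_ifs with h
    · rfl
    · push Not at h
      subst h
      simp [Real.zero_rpow (show -s ≠ 0 by linarith)]
  rw [hZ]
  set Z' := Z.filter (· ≠ 0) with hZ'
  have hne : ∀ I ∈ Z', I ≠ 0 := fun I hI ↦ (Finset.mem_filter.mp hI).2
  let F : Finset (HeightOneSpectrum (𝓞 K)) :=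
    Z'.attach.biUnion fun I ↦ (Ideal.finite_factors (hne I.1 I.2)).toFinset
  have hF : ∀ I ∈ Z', ∀ v : HeightOneSpectrum (𝓞 K), v.asIdeal ∣ I → v ∈ F := by
    intro I hI v hv
    refine Finset.mem_biUnion.mpr ⟨⟨I, hI⟩, Finset.mem_attach _ _, ?_⟩
    simpa using hv
  let c : Ideal (𝓞 K) → HeightOneSpectrum (𝓞 K) → ℕ := fun I v ↦
    Multiset.count v.asIdeal (UniqueFactorizationMonoid.normalizedFactors I)
  let k : ℕ := (Z'.sup fun I ↦ F.sup fun v ↦ c I v) + 1
  have hk : ∀ I ∈ Z', ∀ v ∈ F, c I v ∈ Finset.range k := by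
    intro I hI v hv
    rw [Finset.mem_range, Nat.lt_succ_iff]
    exact (Finset.le_sup (f := fun v ↦ c I v) hv).trans (Finset.le_sup (f := fun I ↦ F.sup fun v ↦ c I v) hI)
  have hprod : ∀ I ∈ Z', I = ∏ v ∈ F, v.asIdeal ^ c I v := by
    intro I hI
    conv_lhs => rw [← Ideal.finprod_heightOneSpectrum_factorization (hne I hI)]
    rw [finprod_eq_prod_of_mulSupport_subset (s := F)]
    · exact Finset.prod_congr rfl fun v _ ↦
        IsDedekindDomain.HeightOneSpectrum.maxPowDividing_eq_pow_multiset_count v (hne I hI)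
    · intro v hv
      rw [Function.mem_mulSupport, 
        IsDedekindDomain.HeightOneSpectrum.maxPowDividing_eq_pow_multiset_count v (hne I hI)] at hv
      apply Finset.mem_coe.mpr
      apply hF I hI
      by_contra h
      apply hv
      rw [Multiset.count_eq_zero_of_notMem, pow_zero]
      intro h2
      exact h (UniqueFactorizationMonoid.dvd_of_mem_normalizedFactors h2)
  refine ⟨F, ?_⟩
  calc ∑ I ∈ Z', (Ideal.absNorm I : ℝ) ^ (-s) 
      = ∑ I ∈ Z', ∏ v ∈ F.attach, x s v.1 ^ (c I v.1) := by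
        refine Finset.sum_congr rfl fun I hI ↦ ?_
        rw [Finset.prod_attach F (fun v ↦ x s v ^ (c I v))]
        conv_lhs => rw [hprod I hI]
        rw [map_prod, Nat.cast_prod, ← Real.finsetProd_rpow _ _ (fun i _ ↦ Nat.cast_nonneg _)]
        refine Finset.prod_congr rfl fun v _ ↦ ?_
        unfold x
        rw [map_pow, Nat.cast_pow, ← Real.rpow_natCast, ← Real.rpow_natCast, ← Real.rpow_mul (Nat.cast_nonneg _), 
          ← Real.rpow_mul (Nat.cast_nonneg _), mul_comm]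
    _ ≤ ∑ p ∈ F.pi (fun _ ↦ Finset.range k), ∏ v ∈ F.attach, x s v.1 ^ (p v.1 v.2) := by
        let g : Ideal (𝓞 K) → ((a : HeightOneSpectrum (𝓞 K)) → a ∈ F → ℕ) := fun I v _ ↦ c I v
        have hg : Set.InjOn g (Z' : Set (Ideal (𝓞 K))) := by
          intro I hI J hJ hIJ
          rw [hprod I hI, hprod J hJ]
          refine Finset.prod_congr rfl fun v hv ↦ ?_
          rw [show c I v = c J v from congrFun (congrFun hIJ v) hv]
        have h1 := Finset.sum_image (f := fun p : ((a : HeightOneSpectrum (𝓞 K)) → a ∈ F → ℕ) ↦ 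
          ∏ v ∈ F.attach, x s v.1 ^ (p v.1 v.2)) hg
        rw [← h1]
        refine Finset.sum_le_sum_of_subset_of_nonneg ?_ fun p _ _ ↦ Finset.prod_nonneg fun v _ ↦ pow_nonneg (x_nonneg _ _) _
        intro p hp
        obtain ⟨I, hI, rfl⟩ := Finset.mem_image.mp hp
        rw [Finset.mem_pi]
        intro v hv
        exact hk I hI v hv
    _ = ∏ v ∈ F, ∑ j ∈ Finset.range k, x s v ^ j := by
        rw [Finset.prod_sum]
    _ ≤ ∏ v ∈ F, (1 - x s v)⁻¹ := by
        refine Finset.prod_le_prod (fun v _ ↦ Finset.sum_nonneg fun j _ ↦ pow_nonneg (x_nonneg _ _) _) fun v _ ↦ ?_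
        have h0 := x_nonneg s v
        have h1 : x s v < 1 := lt_of_le_of_lt (x_le_half hs.le v) (by norm_num)
        rw [← tsum_geometric_of_lt_one h0 h1]
        exact (summable_geometric_of_lt_one h0 h1).sum_le_tsum _ (fun j _ ↦ pow_nonneg h0 _)


theorem sub_sq_le_log {t : ℝ} (ht : 0 ≤ t) : t - t ^ 2 ≤ Real.log (1 + t) := by
  have h1 : 0 < 1 + t := by linarith
  have h2 := Real.one_sub_inv_le_log_of_pos h1
  refine le_trans ?_ h2
  have h3 : 1 - (1 + t)⁻¹ - (t - t ^ 2) = t ^ 3 / (1 + t) := by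
    field_simp
    ring
  have h4 : 0 ≤ t ^ 3 / (1 + t) := by positivity
  linarith

theorem log_inv_one_sub_le {t : ℝ} (ht2 : t ≤ 1 / 2) :
    Real.log ((1 - t)⁻¹) ≤ t + 2 * t ^ 2 := by
  have h1 : 0 < 1 - t := by linarith
  have h2 := Real.log_le_sub_one_of_pos (inv_pos.mpr h1)
  refine le_trans h2 ?_
  have h3 : t + 2 * t ^ 2 - ((1 - t)⁻¹ - 1) = t ^ 2 * (1 - 2 * t) / (1 - t) := by
    field_simp
    ring
  have h4 : 0 ≤ t ^ 2 * (1 - 2 * t) / (1 - t) := by
    apply div_nonneg _ h1.le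
    apply mul_nonneg (sq_nonneg _)
    linarith
  linarith

theorem one_le_zeta {s : ℝ} (hs : 1 < s) : 1 ≤ (dedekindZeta K s).re := by
  have := prod_one_add_le (K := K) hs ∅
  simpa using this

theorem summable_x {s : ℝ} (hs : 1 < s) : Summable (fun v : HeightOneSpectrum (𝓞 K) ↦ x s v) :=
  (summable_and_tsum_ideals K hs).1.comp_injective asIdeal_injective

theorem tsum_x_nonneg (s : ℝ) : 0 ≤ ∑' v : HeightOneSpectrum (𝓞 K), x s v :=
  tsum_nonneg fun v ↦ x_nonneg s v

theorem x_anti {s t : ℝ} (h : s ≤ t) (v : HeightOneSpectrum (𝓞 K)) : x t v ≤ x s v := by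
  have h2 : (2 : ℝ) ≤ Ideal.absNorm v.asIdeal := by exact_mod_cast two_le_absNorm v
  unfold x
  exact Real.rpow_le_rpow_of_exponent_le (by linarith) (by linarith)

/-- lower bound for `log ζ`. -/
theorem tsum_sub_le_log {s : ℝ} (hs : 1 < s) :
    ∑' v : HeightOneSpectrum (𝓞 K), x s v - ∑' v : HeightOneSpectrum (𝓞 K), x 2 v
      ≤ Real.log (dedekindZeta K s).re := by
  have h2s : Summable (fun v : HeightOneSpectrum (𝓞 K) ↦ x (2 * s) v) := summable_x (by linarith)
  have h1 : ∑' v : HeightOneSpectrum (𝓞 K), x (2 * s) v ≤ ∑' v : HeightOneSpectrum (𝓞 K), x 2 v :=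
    h2s.tsum_le_tsum (fun v ↦ x_anti (by linarith) v) (summable_x (by norm_num))
  have h3 : ∑' v : HeightOneSpectrum (𝓞 K), (x s v - x (2 * s) v) ≤ Real.log (dedekindZeta K s).re := by
    refine ((summable_x hs).sub h2s).tsum_le_of_sum_le fun F ↦ ?_
    calc ∑ v ∈ F, (x s v - x (2 * s) v) ≤ ∑ v ∈ F, Real.log (1 + x s v) := by
          refine Finset.sum_le_sum fun v _ ↦ ?_
          rw [← x_sq]
          exact sub_sq_le_log (x_nonneg s v)
      _ = Real.log (∏ v ∈ F, (1 + x s v)) := by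
          rw [Real.log_prod]
          intro v _
          have := x_nonneg s v
          positivity
      _ ≤ Real.log (dedekindZeta K s).re := by
          refine Real.log_le_log (Finset.prod_pos fun v _ ↦ ?_) (prod_one_add_le hs F)
          have := x_nonneg s v
          positivity
  rw [(summable_x hs).tsum_sub h2s] at h3
  linarith

/-- upper bound for `log ζ`. -/
theorem log_le_tsum_add {s : ℝ} (hs : 1 < s) :
    Real.log (dedekindZeta K s).re ≤ 
      ∑' v : HeightOneSpectrum (𝓞 K), x s v + 2 * ∑' v : HeightOneSpectrum (𝓞 K), x 2 v := by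
  have h2s : Summable (fun v : HeightOneSpectrum (𝓞 K) ↦ x (2 * s) v) := summable_x (by linarith)
  have h1 : ∑' v : HeightOneSpectrum (𝓞 K), x (2 * s) v ≤ ∑' v : HeightOneSpectrum (𝓞 K), x 2 v :=
    h2s.tsum_le_tsum (fun v ↦ x_anti (by linarith) v) (summable_x (by norm_num))
  rw [Real.log_le_iff_le_exp (by linarith [one_le_zeta (K := K) hs])]
  rw [← (summable_and_tsum_ideals K hs).2]
  refine (summable_and_tsum_ideals K hs).1.tsum_le_of_sum_le fun Z ↦ ?_
  obtain ⟨F, hF⟩ := sum_le_prod hs Z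
  refine hF.trans ?_
  have hpos : ∀ v : HeightOneSpectrum (𝓞 K), 0 < (1 - x s v)⁻¹ := fun v ↦ by
    have := x_le_half hs.le v
    apply inv_pos.mpr
    linarith
  rw [← Real.exp_log (Finset.prod_pos fun v (_ : v ∈ F) ↦ hpos v)]
  apply Real.exp_le_exp.mpr
  rw [Real.log_prod (fun v _ ↦ (hpos v).ne')]
  calc ∑ v ∈ F, Real.log ((1 - x s v)⁻¹) ≤ ∑ v ∈ F, (x s v + 2 * x (2 * s) v) := by
        refine Finset.sum_le_sum fun v _ ↦ ?_
        rw [← x_sq]
        exact log_inv_one_sub_le (x_le_half hs.le v)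
    _ ≤ ∑' v, (x s v + 2 * x (2 * s) v) := by
        refine ((summable_x hs).add (h2s.mul_left 2)).sum_le_tsum _ fun v _ ↦ ?_
        have := x_nonneg s v
        have := x_nonneg (2 * s) v
        positivity
    _ = ∑' v : HeightOneSpectrum (𝓞 K), x s v + 2 * ∑' v : HeightOneSpectrum (𝓞 K), x (2 * s) v := by
        rw [(summable_x hs).tsum_add (h2s.mul_left 2), tsum_mul_left]
    _ ≤ _ := by linarith

variable (K) in
/-- `∑ N v ^ (-s) = log (1 / (s - 1)) + O(1)` as `s → 1+`. -/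
theorem exists_abs_tsum_sub_log_le :
    ∃ C : ℝ, ∀ᶠ s : ℝ in 𝓝[>] 1,
      |∑' v : HeightOneSpectrum (𝓞 K), x s v - Real.log (1 / (s - 1))| ≤ C := by
  have hres := tendsto_sub_one_mul_dedekindZeta_nhdsGT K
  have hpos := dedekindZeta_residue_pos K
  have h1 : Tendsto (fun s : ℝ ↦ (s - 1) * (dedekindZeta K s).re) (𝓝[>] 1) (𝓝 (dedekindZeta_residue K)) := by
    have h := (Complex.continuous_re.tendsto _).comp hres
    simp only [Complex.ofReal_re] at h
    refine h.congr fun s ↦ ?_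
    simp only [Function.comp_apply]
    rw [← Complex.ofReal_one, ← Complex.ofReal_sub, Complex.re_ofReal_mul]
  have h2 : Tendsto (fun s : ℝ ↦ Real.log ((s - 1) * (dedekindZeta K s).re)) (𝓝[>] 1)
      (𝓝 (Real.log (dedekindZeta_residue K))) := (Real.continuousAt_log hpos.ne').tendsto.comp h1
  set B := |Real.log (dedekindZeta_residue K)| + 1
  have h3 : ∀ᶠ s : ℝ in 𝓝[>] 1, |Real.log ((s - 1) * (dedekindZeta K s).re)| ≤ B := by
    have h4 := h2.abs.eventually_lt_const (show |Real.log (dedekindZeta_residue K)| < B by simp [B])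
    exact h4.mono fun s hs ↦ hs.le
  refine ⟨B + 2 * ∑' v : HeightOneSpectrum (𝓞 K), x 2 v, ?_⟩
  filter_upwards [h3, self_mem_nhdsWithin] with s hs hs1
  have hs1' : 1 < s := hs1
  have hz := one_le_zeta (K := K) hs1'
  have hlog : Real.log ((s - 1) * (dedekindZeta K s).re) = 
      Real.log (dedekindZeta K s).re - Real.log (1 / (s - 1)) := by
    rw [Real.log_mul (by linarith) (by linarith), one_div, Real.log_inv]
    ring
  rw [hlog] at hs
  have hl := tsum_sub_le_log (K := K) hs1'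
  have hu := log_le_tsum_add (K := K) hs1'
  have hn := tsum_x_nonneg (K := K) 2
  rw [abs_le] at hs ⊢
  constructor <;> linarith [hs.1, hs.2]


/-! ### primes of degree one -/

/-- the rational prime below `v` -/
noncomputable def below (v : HeightOneSpectrum (𝓞 K)) : ℕ := Ideal.absNorm (Ideal.under ℤ v.asIdeal)

omit [NumberField K] in
theorem below_prime (v : HeightOneSpectrum (𝓞 K)) : (below v).Prime := by
  have : NeZero v.asIdeal := ⟨v.ne_bot⟩
  have := v.isPrime
  exact Nat.absNorm_under_prime v.asIdeal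

theorem below_pow (v : HeightOneSpectrum (𝓞 K)) :
    below v ^ v.asIdeal.inertiaDeg ℤ = Ideal.absNorm v.asIdeal := by
  have := v.isPrime
  have h : v.asIdeal.LiesOver (Ideal.span {(below v : ℤ)}) := Int.liesOver_span_absNorm v.asIdeal
  exact Ideal.pow_inertiaDeg (below v) v.asIdeal

theorem inertiaDeg_pos (v : HeightOneSpectrum (𝓞 K)) : 0 < v.asIdeal.inertiaDeg ℤ := by
  have := v.isPrime
  exact Ideal.inertiaDeg_pos v.asIdeal ℤ

omit [NumberField K] in
theorem natCast_mem_iff (v : HeightOneSpectrum (𝓞 K)) (n : ℕ) : (n : 𝓞 K) ∈ v.asIdeal ↔ below v ∣ n := by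
  have := Int.cast_mem_ideal_iff (I := v.asIdeal) (d := (n : ℤ))
  rw [Int.cast_natCast, Int.natCast_dvd_natCast] at this
  exact this

omit [NumberField K] in
theorem below_eq_iff (v : HeightOneSpectrum (𝓞 K)) {p : ℕ} (hp : p.Prime) :
    below v = p ↔ (p : 𝓞 K) ∈ v.asIdeal := by
  rw [natCast_mem_iff, Nat.dvd_prime hp]
  have := (below_prime v).ne_one
  tauto

theorem card_fiber_below_le (F : Finset (HeightOneSpectrum (𝓞 K))) (p : ℕ) :
    (F.filter fun v ↦ below v = p).card ≤ Module.finrank ℤ (𝓞 K) := by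
  classical
  rcases Finset.eq_empty_or_nonempty (F.filter fun v ↦ below v = p) with h | ⟨v₀, hv₀⟩
  · rw [h]; simp
  have hp : p.Prime := (Finset.mem_filter.mp hv₀).2 ▸ below_prime v₀
  let P : Ideal ℤ := Ideal.span {(p : ℤ)}
  have hPprime : P.IsPrime := by
    rw [Ideal.span_singleton_prime (by exact_mod_cast hp.ne_zero)]
    exact Nat.prime_iff_prime_int.mp hp
  have hfin : (P.primesOver (𝓞 K)).Finite := Algebra.QuasiFinite.finite_primesOver P
  let _ : Fintype (P.primesOver (𝓞 K)) := hfin.fintype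
  rw [← Ideal.sum_ramification_inertia_eq_finrank P (𝓞 K)]
  calc (F.filter fun v ↦ below v = p).card ≤ Fintype.card (P.primesOver (𝓞 K)) := by
        let g : {v // v ∈ F.filter fun v ↦ below v = p} → P.primesOver (𝓞 K) := fun v ↦ 
          ⟨v.1.asIdeal, v.1.isPrime, by
            have h1 := Int.liesOver_span_absNorm v.1.asIdeal
            have h2 : below v.1 = p := (Finset.mem_filter.mp v.2).2
            unfold below at h2
            rw [h2] at h1
            exact h1⟩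
        have hg : Function.Injective g := by
          intro v w h
          apply Subtype.ext
          apply HeightOneSpectrum.ext
          exact congrArg Subtype.val h
        have := Fintype.card_le_of_injective g hg
        simpa using this
    _ = ∑ q : P.primesOver (𝓞 K), 1 := by simp
    _ ≤ _ := by
        refine Finset.sum_le_sum fun q _ ↦ ?_
        have := q.2.1
        have h1 := Ideal.ramificationIdx_pos q.1 ℤ
        have h2 := Ideal.inertiaDeg_pos q.1 ℤ
        exact Nat.one_le_iff_ne_zero.mpr (by positivity)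


theorem absNorm_prime_iff (v : HeightOneSpectrum (𝓞 K)) :
    (Ideal.absNorm v.asIdeal).Prime ↔ v.asIdeal.inertiaDeg ℤ = 1 := by
  rw [← below_pow v]
  constructor
  · intro h
    by_contra h1
    exact h1 (Nat.Prime.eq_one_of_pow h)
  · intro h
    rw [h, pow_one]
    exact below_prime v

theorem below_eq_absNorm {v : HeightOneSpectrum (𝓞 K)} (h : (Ideal.absNorm v.asIdeal).Prime) :
    below v = Ideal.absNorm v.asIdeal := by
  rw [← below_pow v, (absNorm_prime_iff v).mp h, pow_one]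

theorem x_le_of_not_prime {s : ℝ} (hs : 1 ≤ s) {v : HeightOneSpectrum (𝓞 K)}
    (h : ¬ (Ideal.absNorm v.asIdeal).Prime) : x s v ≤ ((below v : ℝ) ^ 2)⁻¹ := by
  have h0 := inertiaDeg_pos v
  have h1 : v.asIdeal.inertiaDeg ℤ ≠ 1 := fun h2 ↦ h ((absNorm_prime_iff v).mpr h2)
  have h2 : 2 ≤ v.asIdeal.inertiaDeg ℤ := by omega
  have hp : (1 : ℝ) ≤ below v := by exact_mod_cast (below_prime v).one_le
  refine (x_anti hs v).trans ?_
  unfold x
  rw [← below_pow v, Real.rpow_neg_one, Nat.cast_pow]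
  apply inv_anti₀ (by positivity)
  exact pow_le_pow_right₀ hp h2

theorem finite_absNorm_mem (B : Finset ℕ) :
    {v : HeightOneSpectrum (𝓞 K) | Ideal.absNorm v.asIdeal ∈ B}.Finite := by
  have h1 : {I : Ideal (𝓞 K) | Ideal.absNorm I ∈ B}.Finite := by
    have : {I : Ideal (𝓞 K) | Ideal.absNorm I ∈ B} = ⋃ n ∈ B, {I | Ideal.absNorm I = n} := by
      ext I; simp
    rw [this]
    exact Set.Finite.biUnion (Finset.finite_toSet B) fun n _ ↦ Ideal.finite_setOfPred_absNorm_eq n
  exact Set.Finite.preimage (f := fun v : HeightOneSpectrum (𝓞 K) ↦ v.asIdeal) (asIdeal_injective.injOn) h1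

/-- primes of residue degree one whose norm avoids `B` -/
def goodSet (K : Type*) [Field K] [NumberField K] (B : Finset ℕ) : Set (HeightOneSpectrum (𝓞 K)) :=
  {v | (Ideal.absNorm v.asIdeal).Prime ∧ Ideal.absNorm v.asIdeal ∉ B}

theorem sum_compl_le (B : Finset ℕ) :
    ∃ C : ℝ, ∀ s : ℝ, 1 ≤ s → ∀ F : Finset (HeightOneSpectrum (𝓞 K)),
      ∑ v ∈ F, (goodSet K B)ᶜ.indicator (x s) v ≤ C := by
  classical
  have hsum : Summable (fun n : ℕ ↦ (((n : ℝ) ^ 2)⁻¹)) := Real.summable_nat_pow_inv.mpr (by norm_num)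
  refine ⟨(Module.finrank ℤ (𝓞 K) : ℝ) * ∑' n : ℕ, (((n : ℝ) ^ 2)⁻¹) + 
    ((finite_absNorm_mem (K := K) B).toFinset.card : ℝ), fun s hs F ↦ ?_⟩
  have h1 : ∀ v ∈ F, (goodSet K B)ᶜ.indicator (x s) v ≤ 
      ((below v : ℝ) ^ 2)⁻¹ + (if v ∈ (finite_absNorm_mem (K := K) B).toFinset then 1 else 0) := by
    intro v _
    have hnn : 0 ≤ ((below v : ℝ) ^ 2)⁻¹ := by positivity
    by_cases hv : v ∈ goodSet K B
    · rw [Set.indicator_of_notMem (by simpa using hv)]
      split_ifs <;> linarith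
    · rw [Set.indicator_of_mem (by simpa using hv)]
      by_cases hp : (Ideal.absNorm v.asIdeal).Prime
      · have hB : Ideal.absNorm v.asIdeal ∈ B := by
          by_contra h2
          exact hv ⟨hp, h2⟩
        rw [if_pos (by simpa using hB)]
        have := x_le_half hs v
        linarith
      · have := x_le_of_not_prime hs hp
        split_ifs <;> linarith
  refine (Finset.sum_le_sum h1).trans ?_
  rw [Finset.sum_add_distrib]
  apply add_le_add
  · rw [Finset.sum_comp (fun n : ℕ ↦ ((n : ℝ) ^ 2)⁻¹) (below (K := K))]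
    calc ∑ b ∈ F.image below, (F.filter fun a ↦ below a = b).card • ((b : ℝ) ^ 2)⁻¹ 
        ≤ ∑ b ∈ F.image below, (Module.finrank ℤ (𝓞 K) : ℝ) * ((b : ℝ) ^ 2)⁻¹ := by
          refine Finset.sum_le_sum fun b _ ↦ ?_
          rw [nsmul_eq_mul]
          apply mul_le_mul_of_nonneg_right _ (by positivity)
          exact_mod_cast card_fiber_below_le F b
      _ = (Module.finrank ℤ (𝓞 K) : ℝ) * ∑ b ∈ F.image below, ((b : ℝ) ^ 2)⁻¹ := by
          rw [Finset.mul_sum]
      _ ≤ _ := by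
          apply mul_le_mul_of_nonneg_left _ (Nat.cast_nonneg _)
          exact hsum.sum_le_tsum _ fun n _ ↦ by positivity
  · rw [← Finset.sum_filter, Finset.sum_const, nsmul_eq_mul, mul_one]
    norm_cast
    apply Finset.card_le_card
    intro v hv
    exact (Finset.mem_filter.mp hv).2

theorem summable_indicator {s : ℝ} (hs : 1 < s) (A : Set (HeightOneSpectrum (𝓞 K))) :
    Summable (A.indicator (x s)) := (summable_x hs).indicator A

variable (K) in
/-- **Key analytic input**: the sum of `N v ^ (-s)` over the primes `v` of residue degree one,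
with norm not in `B`, is `log (1 / (s - 1)) + O(1)` as `s → 1+`. -/
theorem exists_abs_tsum_good_sub_log_le (B : Finset ℕ) :
    ∃ C : ℝ, ∀ᶠ s : ℝ in 𝓝[>] 1,
      |∑' v : HeightOneSpectrum (𝓞 K), (goodSet K B).indicator (x s) v - Real.log (1 / (s - 1))| ≤ C := by
  obtain ⟨C₁, h₁⟩ := exists_abs_tsum_sub_log_le K
  obtain ⟨C₂, h₂⟩ := sum_compl_le (K := K) B
  refine ⟨C₁ + C₂, ?_⟩
  filter_upwards [h₁, self_mem_nhdsWithin] with s hs hs1
  have hs1' : 1 < s := hs1
  have h3 : ∑' v : HeightOneSpectrum (𝓞 K), (goodSet K B)ᶜ.indicator (x s) v ≤ C₂ :=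
    (summable_indicator hs1' _).tsum_le_of_sum_le fun F ↦ h₂ s hs1'.le F
  have h4 : 0 ≤ ∑' v : HeightOneSpectrum (𝓞 K), (goodSet K B)ᶜ.indicator (x s) v :=
    tsum_nonneg fun v ↦ Set.indicator_nonneg (fun v _ ↦ x_nonneg s v) v
  have h5 : ∑' v : HeightOneSpectrum (𝓞 K), x s v = 
      ∑' v : HeightOneSpectrum (𝓞 K), (goodSet K B).indicator (x s) v + 
      ∑' v : HeightOneSpectrum (𝓞 K), (goodSet K B)ᶜ.indicator (x s) v := by
    rw [← (summable_indicator hs1' _).tsum_add (summable_indicator hs1' _)]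
    refine tsum_congr fun v ↦ ?_
    rw [← Pi.add_apply, Set.indicator_self_add_compl]
  rw [h5] at hs
  rw [abs_le] at hs ⊢
  constructor <;> linarith [hs.1, hs.2]

end Fermat.Agent.DedekindEuler
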