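import Mathlib
import Fermat.Agent.DedekindEuler

set_option autoImplicit false

open NumberField IsDedekindDomain Filter Topology Asymptotics

namespace Fermat.Agent.FrobDensity

open Fermat.Agent.DedekindEuler
open scoped Pointwise

variable {L : Type*} [Field L] [NumberField L]

/-- There is a finite set of rational primes outside of which all inertia groups are trivial. -/
theorem exists_bad (L : Type*) [Field L] [NumberField L] (S : Finset ℕ) :
    ∃ B : Finset ℕ, S ⊆ B ∧ ∀ P : HeightOneSpectrum (𝓞 L), below P ∉ B →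
      ∀ σ : L ≃ₐ[ℚ] L, σ ∈ P.asIdeal.inertia (L ≃ₐ[ℚ] L) → σ = 1 := by
  classical
  have hx : ∀ σ : L ≃ₐ[ℚ] L, ∃ x : 𝓞 L, σ ≠ 1 → σ • x - x ≠ 0 := by
    intro σ
    by_cases h : σ = 1
    · exact ⟨0, fun h' ↦ absurd h h'⟩
    · by_contra hc
      push Not at hc
      apply h
      ext y
      obtain ⟨a, b, hb, rfl⟩ := IsFractionRing.div_surjective (A := 𝓞 L) y
      have ha := (hc a).2
      have hb' := (hc b).2
      rw [sub_eq_zero] at ha hb'
      have h1 : σ (algebraMap (𝓞 L) L a) = algebraMap (𝓞 L) L a := by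
        conv_rhs => rw [← ha]
        rfl
      have h2 : σ (algebraMap (𝓞 L) L b) = algebraMap (𝓞 L) L b := by
        conv_rhs => rw [← hb']
        rfl
      rw [map_div₀, h1, h2]
      rfl
  choose x hx using hx
  have hfin : (⋃ σ : {σ : L ≃ₐ[ℚ] L // σ ≠ 1}, {P : HeightOneSpectrum (𝓞 L) | P.asIdeal ∣ Ideal.span {σ.1 • x σ.1 - x σ.1}}).Finite := by
    apply Set.finite_iUnion
    intro σ
    apply Ideal.finite_factors
    rw [Ne, Ideal.zero_eq_bot, Ideal.span_singleton_eq_bot]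
    exact hx σ.1 σ.2
  refine ⟨S ∪ hfin.toFinset.image below, Finset.subset_union_left, fun P hP σ hσ ↦ ?_⟩
  by_contra h
  apply hP
  rw [Finset.mem_union]
  right
  refine Finset.mem_image_of_mem _ ?_
  rw [Set.Finite.mem_toFinset, Set.mem_iUnion]
  refine ⟨⟨σ, h⟩, ?_⟩
  change P.asIdeal ∣ _
  rw [Ideal.dvd_span_singleton]
  exact hσ (x σ)


variable [IsGalois ℚ L]

instance (P : HeightOneSpectrum (𝓞 L)) : Finite (𝓞 L ⧸ P.asIdeal) :=
  Ideal.finiteQuotientOfFreeOfNeBot _ P.ne_bot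

/-- a chosen Frobenius element -/
noncomputable def frob (P : HeightOneSpectrum (𝓞 L)) : L ≃ₐ[ℚ] L :=
  haveI := P.isPrime
  arithFrobAt ℤ (L ≃ₐ[ℚ] L) P.asIdeal

theorem isArithFrobAt_frob (P : HeightOneSpectrum (𝓞 L)) : IsArithFrobAt ℤ (frob P) P.asIdeal :=
  haveI := P.isPrime
  IsArithFrobAt.arithFrobAt ℤ (L ≃ₐ[ℚ] L) P.asIdeal

omit [NumberField L] [IsGalois ℚ L] in
theorem card_quot_under (P : HeightOneSpectrum (𝓞 L)) : Nat.card (ℤ ⧸ P.asIdeal.under ℤ) = below P := by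
  unfold below
  rw [Ideal.absNorm_apply, Submodule.cardQuot_apply]

theorem eq_frob {B : Finset ℕ} (hB : ∀ P : HeightOneSpectrum (𝓞 L), below P ∉ B →
      ∀ σ : L ≃ₐ[ℚ] L, σ ∈ P.asIdeal.inertia (L ≃ₐ[ℚ] L) → σ = 1)
    {P : HeightOneSpectrum (𝓞 L)} (hP : below P ∉ B) {σ : L ≃ₐ[ℚ] L}
    (hσ : IsArithFrobAt ℤ σ P.asIdeal) : σ = frob P := by
  have h := hB P hP _ (hσ.mul_inv_mem_inertia (isArithFrobAt_frob P))
  rwa [mul_inv_eq_one] at h

/-! ### comparison with a subfield -/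

variable (E : Type*) [Field E] [NumberField E] [Algebra E L] (D : Subgroup (L ≃ₐ[ℚ] L)) [IsGaloisGroup D E L]

instance instIGG : IsGaloisGroup D (𝓞 E) (𝓞 L) :=
  IsGaloisGroup.of_isFractionRing D (𝓞 E) (𝓞 L) E L

/-- the prime of `E` below `P` -/
noncomputable def underE (P : HeightOneSpectrum (𝓞 L)) : HeightOneSpectrum (𝓞 E) where
  asIdeal := P.asIdeal.under (𝓞 E)
  isPrime := by have := P.isPrime; infer_instance
  ne_bot := by
    intro h
    exact P.ne_bot (Ideal.eq_bot_of_comap_eq_bot h)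

omit [NumberField L] [IsGalois ℚ L] [NumberField E] in
theorem below_underE (P : HeightOneSpectrum (𝓞 L)) : below (underE E P) = below P := by
  unfold below underE
  simp only
  rw [Ideal.under_under]

theorem absNorm_underE_prime_iff {B : Finset ℕ} (hB : ∀ P : HeightOneSpectrum (𝓞 L), below P ∉ B →
      ∀ σ : L ≃ₐ[ℚ] L, σ ∈ P.asIdeal.inertia (L ≃ₐ[ℚ] L) → σ = 1)
    {P : HeightOneSpectrum (𝓞 L)} (hP : below P ∉ B) :
    (Ideal.absNorm (underE E P).asIdeal).Prime ↔ frob P ∈ D := by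
  have hPp := P.isPrime
  constructor
  · intro h
    obtain ⟨τ, hτ⟩ := IsArithFrobAt.exists_of_isInvariant (𝓞 E) D P.asIdeal
    have h1 : IsArithFrobAt ℤ (τ : L ≃ₐ[ℚ] L) P.asIdeal := by
      intro y
      have h2 := hτ y
      have h3 : Nat.card (𝓞 E ⧸ P.asIdeal.under (𝓞 E)) = Nat.card (ℤ ⧸ P.asIdeal.under ℤ) := by
        rw [card_quot_under, ← below_underE E P, below_eq_absNorm h, Ideal.absNorm_apply, Submodule.cardQuot_apply]
        rfl
      rw [h3] at h2
      exact h2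
    rw [← eq_frob hB hP h1]
    exact τ.2
  · intro h
    set v := underE E P with hv
    have hvp := v.isPrime
    have hvm : v.asIdeal.IsMaximal := v.isMaximal
    -- every element of the residue field satisfies `y ^ ℓ = y`
    have h1 : ∀ y : 𝓞 E ⧸ v.asIdeal, y ^ below P = y := by
      intro y
      obtain ⟨y, rfl⟩ := Ideal.Quotient.mk_surjective y
      rw [← map_pow, Ideal.Quotient.eq]
      have h2 := isArithFrobAt_frob P (algebraMap (𝓞 E) (𝓞 L) y)
      rw [card_quot_under] at h2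
      have h3 : (MulSemiringAction.toAlgHom ℤ (𝓞 L) (frob P)) (algebraMap (𝓞 E) (𝓞 L) y) = algebraMap (𝓞 E) (𝓞 L) y := by
        change (⟨frob P, h⟩ : D) • (algebraMap (𝓞 E) (𝓞 L) y) = algebraMap (𝓞 E) (𝓞 L) y
        exact smul_algebraMap _ _
      rw [h3, ← map_pow, ← map_sub] at h2
      have h4 : y - y ^ below P ∈ v.asIdeal := h2
      rw [← neg_sub]
      exact v.asIdeal.neg_mem h4
    have hfin : Finite (𝓞 E ⧸ v.asIdeal) := Ideal.finiteQuotientOfFreeOfNeBot _ v.ne_bot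
    let _ : Fintype (𝓞 E ⧸ v.asIdeal) := Fintype.ofFinite _
    let _ : Field (𝓞 E ⧸ v.asIdeal) := Ideal.Quotient.field v.asIdeal
    have hℓ := below_prime P
    -- so its cardinality is at most `ℓ`
    have h5 : Fintype.card (𝓞 E ⧸ v.asIdeal) ≤ below P := by
      have h6 : (Polynomial.X ^ below P - Polynomial.X : Polynomial (𝓞 E ⧸ v.asIdeal)) ≠ 0 :=
        FiniteField.X_pow_card_sub_X_ne_zero _ hℓ.one_lt
      have h7 := Polynomial.card_le_degree_of_subset_roots
        (p := (Polynomial.X ^ below P - Polynomial.X : Polynomial (𝓞 E ⧸ v.asIdeal))) 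
        (Z := Finset.univ) (fun y _ ↦ by
          rw [Polynomial.mem_roots h6, Polynomial.IsRoot.def]
          simp [h1 y])
      rw [FiniteField.X_pow_card_sub_X_natDegree_eq _ hℓ.one_lt, Finset.card_univ] at h7
      exact h7
    rw [absNorm_prime_iff]
    have h8 : Ideal.absNorm v.asIdeal = Fintype.card (𝓞 E ⧸ v.asIdeal) := by
      rw [Ideal.absNorm_apply, Submodule.cardQuot_apply, Nat.card_eq_fintype_card]
    rw [← h8, ← below_pow v, hv, below_underE] at h5
    by_contra h9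
    have h9' : (underE E P).asIdeal.inertiaDeg ℤ ≠ 1 := h9
    have h10 := inertiaDeg_pos (underE E P)
    have h11 : 2 ≤ (underE E P).asIdeal.inertiaDeg ℤ := by omega
    have h12 : below P ^ 2 ≤ below P ^ (underE E P).asIdeal.inertiaDeg ℤ := 
      Nat.pow_le_pow_right hℓ.pos h11
    have h13 := h12.trans h5
    have := hℓ.two_le
    nlinarith


/-! ### the counting identity -/

/-- the weight of a prime of `L` -/
noncomputable def w (s : ℝ) (P : HeightOneSpectrum (𝓞 L)) : ℝ :=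
  (P.asIdeal.inertiaDeg ℤ : ℝ) * (below P : ℝ) ^ (-s)

omit [NumberField L] [IsGalois ℚ L] in
theorem w_nonneg (s : ℝ) (P : HeightOneSpectrum (𝓞 L)) : 0 ≤ w s P := by
  unfold w; positivity

omit [IsGalois ℚ L] in
theorem w_pos (s : ℝ) (P : HeightOneSpectrum (𝓞 L)) : 0 < w s P := by
  have h1 := inertiaDeg_pos P
  have h2 : 0 < below P := (below_prime P).pos
  have h3 : (0 : ℝ) < (P.asIdeal.inertiaDeg ℤ : ℝ) := by exact_mod_cast h1
  have h4 : (0 : ℝ) < (below P : ℝ) := by exact_mod_cast h2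
  unfold w
  positivity

omit [NumberField L] [IsGalois ℚ L] [NumberField E] in
theorem liesOver_fiber (v : HeightOneSpectrum (𝓞 E)) (P : {P : HeightOneSpectrum (𝓞 L) // underE E P = v}) :
    P.1.asIdeal.LiesOver v.asIdeal := by
  obtain ⟨P, rfl⟩ := P
  exact ⟨rfl⟩

omit [IsGalois ℚ L] in
theorem finite_fiber (v : HeightOneSpectrum (𝓞 E)) : Finite {P : HeightOneSpectrum (𝓞 L) // underE E P = v} := by
  have hfin : (v.asIdeal.primesOver (𝓞 L)).Finite := Algebra.QuasiFinite.finite_primesOver v.asIdeal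
  have := hfin.to_subtype
  refine Finite.of_injective (β := v.asIdeal.primesOver (𝓞 L)) 
    (fun P ↦ ⟨P.1.asIdeal, P.1.isPrime, liesOver_fiber E v P⟩) ?_
  intro P Q h
  apply Subtype.ext
  apply HeightOneSpectrum.ext
  exact congrArg Subtype.val h

theorem sum_fiber {B : Finset ℕ} (hB : ∀ P : HeightOneSpectrum (𝓞 L), below P ∉ B →
      ∀ σ : L ≃ₐ[ℚ] L, σ ∈ P.asIdeal.inertia (L ≃ₐ[ℚ] L) → σ = 1)
    (s : ℝ) (v : HeightOneSpectrum (𝓞 E)) :
    ∑' P : {P : HeightOneSpectrum (𝓞 L) // underE E P = v}, 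
      {P : HeightOneSpectrum (𝓞 L) | below P ∉ B ∧ frob P ∈ D}.indicator (w s) P.1 =
    (Nat.card D : ℝ) * (goodSet E B).indicator (x s) v := by
  classical
  have hmem : ∀ P : {P : HeightOneSpectrum (𝓞 L) // underE E P = v}, 
      P.1 ∈ {P : HeightOneSpectrum (𝓞 L) | below P ∉ B ∧ frob P ∈ D} ↔ v ∈ goodSet E B := by
    rintro ⟨P, rfl⟩
    simp only [Set.mem_ofPred_eq, goodSet]
    constructor
    · rintro ⟨h1, h2⟩
      have h3 := (absNorm_underE_prime_iff E D hB h1).mpr h2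
      refine ⟨h3, ?_⟩
      rw [← below_eq_absNorm h3, below_underE]
      exact h1
    · rintro ⟨h1, h2⟩
      rw [← below_eq_absNorm h1, below_underE] at h2
      exact ⟨h2, (absNorm_underE_prime_iff E D hB h2).mp h1⟩
  by_cases hv : v ∈ goodSet E B
  · rw [Set.indicator_of_mem hv]
    have h1 : ∀ P : {P : HeightOneSpectrum (𝓞 L) // underE E P = v}, 
        {P : HeightOneSpectrum (𝓞 L) | below P ∉ B ∧ frob P ∈ D}.indicator (w s) P.1 = w s P.1 :=
      fun P ↦ Set.indicator_of_mem ((hmem P).mpr hv) _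
    rw [tsum_congr h1]
    have hvp := v.isPrime
    have hvm : v.asIdeal.IsMaximal := v.isMaximal
    have hbv : below v = Ideal.absNorm v.asIdeal := below_eq_absNorm hv.1
    have hfv : v.asIdeal.inertiaDeg ℤ = 1 := (absNorm_prime_iff v).mp hv.1
    -- the fibre is nonempty
    obtain ⟨⟨Q, hQ, hQv⟩⟩ : Nonempty (v.asIdeal.primesOver (𝓞 L)) := inferInstance
    have hQne : Q ≠ ⊥ := Ideal.ne_bot_of_mem_primesOver v.ne_bot ⟨hQ, hQv⟩
    let P₀ : HeightOneSpectrum (𝓞 L) := ⟨Q, hQ, hQne⟩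
    have hP₀ : underE E P₀ = v := HeightOneSpectrum.ext hQv.over.symm
    have hbP : ∀ P : {P : HeightOneSpectrum (𝓞 L) // underE E P = v}, below P.1 = below v := fun P ↦ by
      rw [← below_underE E P.1, P.2]
    have hfP : ∀ P : {P : HeightOneSpectrum (𝓞 L) // underE E P = v}, 
        P.1.asIdeal.inertiaDeg ℤ = Q.inertiaDeg (𝓞 E) := fun P ↦ by
      have h2 : P.1.asIdeal.LiesOver v.asIdeal := liesOver_fiber E v P
      have := P.1.isPrime
      rw [Ideal.inertiaDeg_tower (R := ℤ) v.asIdeal P.1.asIdeal, hfv, one_mul]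
      exact Ideal.inertiaDeg_eq_of_isGaloisGroup v.asIdeal _ _ D
    have hconst : ∀ P : {P : HeightOneSpectrum (𝓞 L) // underE E P = v}, 
        w s P.1 = (Q.inertiaDeg (𝓞 E) : ℝ) * x s v := fun P ↦ by
      unfold w x
      rw [hfP, hbP, hbv]
    rw [tsum_congr hconst]
    have := finite_fiber (L := L) E v
    rw [tsum_const, nsmul_eq_mul, ← mul_assoc]
    congr 1
    have hcard : Nat.card {P : HeightOneSpectrum (𝓞 L) // underE E P = v} = (v.asIdeal.primesOver (𝓞 L)).ncard := by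
      rw [← Nat.card_coe_set_eq]
      refine Nat.card_congr ⟨fun P ↦ ⟨P.1.asIdeal, P.1.isPrime, liesOver_fiber E v P⟩,
        fun P ↦ ⟨⟨P.1, P.2.1, Ideal.ne_bot_of_mem_primesOver v.ne_bot P.2⟩, HeightOneSpectrum.ext P.2.2.over.symm⟩, 
        fun P ↦ rfl, fun P ↦ rfl⟩
    rw [hcard]
    have hPF : PerfectField v.asIdeal.ResidueField := by
      have : Finite (𝓞 E ⧸ v.asIdeal) := Ideal.finiteQuotientOfFreeOfNeBot _ v.ne_bot
      have hs : Function.Surjective (algebraMap (𝓞 E ⧸ v.asIdeal) v.asIdeal.ResidueField) :=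
        (Ideal.bijective_algebraMap_quotient_residueField v.asIdeal).2
      have : Finite v.asIdeal.ResidueField := Finite.of_surjective _ hs
      infer_instance
    have key := Ideal.ncard_primesOver_mul_card_inertia_mul_finrank (G := D) v.asIdeal Q
    have hin : Nat.card (Q.inertia D) = 1 := by
      rw [Nat.card_eq_one_iff_unique]
      refine ⟨⟨fun a b ↦ ?_⟩, ⟨1⟩⟩
      have hP₀B : below P₀ ∉ B := by
        rw [← below_underE E P₀, hP₀, hbv]
        exact hv.2
      have h3 : ∀ a : Q.inertia D, (a.1 : D) = 1 := fun a ↦ by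
        have := hB P₀ hP₀B (a.1 : L ≃ₐ[ℚ] L) (fun y ↦ a.2 y)
        exact Subtype.ext this
      apply Subtype.ext
      rw [h3 a, h3 b]
    rw [hin, mul_one] at key
    exact_mod_cast key
  · rw [Set.indicator_of_notMem hv, mul_zero]
    have h1 : ∀ P : {P : HeightOneSpectrum (𝓞 L) // underE E P = v}, 
        {P : HeightOneSpectrum (𝓞 L) | below P ∉ B ∧ frob P ∈ D}.indicator (w s) P.1 = 0 :=
      fun P ↦ Set.indicator_of_notMem (fun h ↦ hv ((hmem P).mp h)) _
    rw [tsum_congr h1, tsum_zero]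

/-- the set of good primes of `L` whose Frobenius lies in `D` -/
def frobSet (B : Finset ℕ) (X : Set (L ≃ₐ[ℚ] L)) : Set (HeightOneSpectrum (𝓞 L)) :=
  {P | below P ∉ B ∧ frob P ∈ X}

theorem summable_and_tsum_frobSet {B : Finset ℕ} (hB : ∀ P : HeightOneSpectrum (𝓞 L), below P ∉ B →
      ∀ σ : L ≃ₐ[ℚ] L, σ ∈ P.asIdeal.inertia (L ≃ₐ[ℚ] L) → σ = 1)
    {s : ℝ} (hs : 1 < s) :
    Summable (fun P ↦ (frobSet B (D : Set (L ≃ₐ[ℚ] L))).indicator (w s) P) ∧
    ∑' P : HeightOneSpectrum (𝓞 L), (frobSet B (D : Set (L ≃ₐ[ℚ] L))).indicator (w s) P = 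
      (Nat.card D : ℝ) * ∑' v : HeightOneSpectrum (𝓞 E), (goodSet E B).indicator (x s) v := by
  let e := Equiv.sigmaFiberEquiv (underE (L := L) E)
  let f : HeightOneSpectrum (𝓞 L) → ℝ := fun P ↦ (frobSet B (D : Set (L ≃ₐ[ℚ] L))).indicator (w s) P
  have hf : ∀ P, 0 ≤ f P := fun P ↦ Set.indicator_nonneg (fun P _ ↦ w_nonneg s P) P
  have hsum : ∀ v : HeightOneSpectrum (𝓞 E), ∑' P : {P : HeightOneSpectrum (𝓞 L) // underE E P = v}, f P.1 =
    (Nat.card D : ℝ) * (goodSet E B).indicator (x s) v := fun v ↦ sum_fiber E D hB s v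
  have hS : Summable (f ∘ e) := by
    rw [summable_sigma_of_nonneg (f := f ∘ e) (fun x ↦ hf _)]
    refine ⟨fun v ↦ ?_, ?_⟩
    · have := finite_fiber (L := L) E v
      exact Summable.of_finite
    · refine ((summable_indicator hs (goodSet E B)).mul_left (Nat.card D : ℝ)).congr fun v ↦ ?_
      rw [← hsum v]
      rfl
  refine ⟨(Equiv.summable_iff e).mp hS, ?_⟩
  change ∑' P, f P = _
  rw [← Equiv.tsum_eq e]
  change ∑' c, (f ∘ e) c = _
  rw [hS.tsum_sigma' (fun v ↦ ?_), ← tsum_mul_left]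
  · exact tsum_congr fun v ↦ hsum v
  · have := finite_fiber (L := L) E v
    exact Summable.of_finite

/-- `log (1 / (s - 1)) → ∞` -/
theorem tendsto_log_atTop : Tendsto (fun s : ℝ ↦ Real.log (1 / (s - 1))) (𝓝[>] 1) atTop := by
  have h1 : Tendsto (fun s : ℝ ↦ s - 1) (𝓝[>] 1) (𝓝[>] 0) := by
    refine tendsto_nhdsWithin_iff.mpr ⟨?_, ?_⟩
    · have : Tendsto (fun s : ℝ ↦ s - 1) (𝓝 1) (𝓝 (1 - 1)) := (continuous_id.sub continuous_const).tendsto _
      rw [sub_self] at this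
      exact this.mono_left nhdsWithin_le_nhds
    · filter_upwards [self_mem_nhdsWithin] with s hs
      have : 1 < s := hs
      exact sub_pos.mpr this
  have h2 : Tendsto (fun s : ℝ ↦ (s - 1)⁻¹) (𝓝[>] 1) atTop := tendsto_inv_nhdsGT_zero.comp h1
  refine (Real.tendsto_log_atTop.comp h2).congr fun s ↦ ?_
  simp [one_div]

theorem tendsto_div_log_of_bounded {f : ℝ → ℝ} {C : ℝ}
    (h : ∀ᶠ s : ℝ in 𝓝[>] 1, |f s - Real.log (1 / (s - 1))| ≤ C) :
    Tendsto (fun s ↦ f s / Real.log (1 / (s - 1))) (𝓝[>] 1) (𝓝 1) := by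
  have hl := tendsto_log_atTop
  have h1 : Tendsto (fun s : ℝ ↦ (f s - Real.log (1 / (s - 1))) / Real.log (1 / (s - 1))) (𝓝[>] 1) (𝓝 0) := by
    have h2 : Tendsto (fun s : ℝ ↦ C / Real.log (1 / (s - 1))) (𝓝[>] 1) (𝓝 0) := hl.const_div_atTop C
    refine squeeze_zero_norm' ?_ h2
    filter_upwards [h, hl.eventually_gt_atTop 0] with s hs hs2
    rw [norm_div, Real.norm_eq_abs, Real.norm_eq_abs, abs_of_pos hs2]
    exact div_le_div_of_nonneg_right hs hs2.le
  have h3 := h1.add_const 1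
  rw [zero_add] at h3
  refine h3.congr' ?_
  filter_upwards [hl.eventually_gt_atTop 0] with s hs2
  field_simp
  ring

variable (L) in
/-- For every subgroup `D` the primes with Frobenius in `D` have (weighted) density `|D|`. -/
theorem tendsto_frobSet_subgroup {B : Finset ℕ} (hB : ∀ P : HeightOneSpectrum (𝓞 L), below P ∉ B →
      ∀ σ : L ≃ₐ[ℚ] L, σ ∈ P.asIdeal.inertia (L ≃ₐ[ℚ] L) → σ = 1) (D : Subgroup (L ≃ₐ[ℚ] L)) :
    Tendsto (fun s ↦ (∑' P : HeightOneSpectrum (𝓞 L), (frobSet B (D : Set (L ≃ₐ[ℚ] L))).indicator (w s) P) /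
      Real.log (1 / (s - 1))) (𝓝[>] 1) (𝓝 (Nat.card D : ℝ)) := by
  obtain ⟨C, hC⟩ := exists_abs_tsum_good_sub_log_le (FixedPoints.intermediateField D : IntermediateField ℚ L) B
  have h1 := (tendsto_div_log_of_bounded hC).const_mul (Nat.card D : ℝ)
  rw [mul_one] at h1
  refine h1.congr' ?_
  filter_upwards [self_mem_nhdsWithin] with s hs
  rw [(summable_and_tsum_frobSet (FixedPoints.intermediateField D : IntermediateField ℚ L) D hB hs).2, mul_div_assoc]

/-- generators of `D` -/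
def gens (D : Subgroup (L ≃ₐ[ℚ] L)) : Set (L ≃ₐ[ℚ] L) := {g | Subgroup.zpowers g = D}

open Classical in
omit [IsGalois ℚ L] in
theorem sum_ite_gens (D : Subgroup (L ≃ₐ[ℚ] L)) (g : L ≃ₐ[ℚ] L) (c : ℝ) :
    ∑ D' ∈ (Finset.univ : Finset (Subgroup (L ≃ₐ[ℚ] L))).filter (· ≤ D), (if g ∈ gens D' then c else 0)
      = if g ∈ D then c else 0 := by
  by_cases hg : g ∈ D
  · rw [if_pos hg, Finset.sum_eq_single (Subgroup.zpowers g)]
    · exact if_pos rfl
    · intro D' _ hD'
      exact if_neg (fun h ↦ hD' h.symm)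
    · intro h
      exfalso
      apply h
      rw [Finset.mem_filter]
      exact ⟨Finset.mem_univ _, by rwa [Subgroup.zpowers_le]⟩
  · rw [if_neg hg]
    apply Finset.sum_eq_zero
    intro D' hD'
    apply if_neg
    intro h
    apply hg
    have h2 : D' ≤ D := (Finset.mem_filter.mp hD').2
    apply h2
    rw [← show Subgroup.zpowers g = D' from h]
    exact Subgroup.mem_zpowers g

open Classical in
omit [IsGalois ℚ L] in
theorem filter_le_eq (D : Subgroup (L ≃ₐ[ℚ] L)) :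
    (Finset.univ : Finset (Subgroup (L ≃ₐ[ℚ] L))).filter (· ≤ D) =
      insert D ((Finset.univ : Finset (Subgroup (L ≃ₐ[ℚ] L))).filter (· < D)) := by
  ext D'
  simp [le_iff_eq_or_lt]

open Classical in
omit [IsGalois ℚ L] in
theorem card_eq_sum_gens (D : Subgroup (L ≃ₐ[ℚ] L)) :
    (Nat.card D : ℝ) = Nat.card (gens D) + 
      ∑ D' ∈ (Finset.univ : Finset (Subgroup (L ≃ₐ[ℚ] L))).filter (· < D), (Nat.card (gens D') : ℝ) := by
  have h1 : ∀ D : Subgroup (L ≃ₐ[ℚ] L), (Nat.card (gens D) : ℝ) = ∑ g : L ≃ₐ[ℚ] L, if g ∈ gens D then (1 : ℝ) else 0 := by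
    intro D
    rw [Finset.sum_ite, Finset.sum_const_zero, add_zero, Finset.sum_const, nsmul_eq_mul, mul_one]
    rw [Nat.card_eq_fintype_card, Fintype.card_subtype]
  have h2 : (Nat.card D : ℝ) = ∑ g : L ≃ₐ[ℚ] L, if g ∈ D then (1 : ℝ) else 0 := by
    rw [Finset.sum_ite, Finset.sum_const_zero, add_zero, Finset.sum_const, nsmul_eq_mul, mul_one]
    rw [Nat.card_eq_fintype_card, Fintype.card_subtype]
  have h3 : (Nat.card D : ℝ) = ∑ D' ∈ (Finset.univ : Finset (Subgroup (L ≃ₐ[ℚ] L))).filter (· ≤ D), (Nat.card (gens D') : ℝ) := by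
    rw [h2, Finset.sum_congr rfl (fun D' _ ↦ h1 D'), Finset.sum_comm]
    exact Finset.sum_congr rfl fun g _ ↦ (sum_ite_gens D g 1).symm
  rw [h3, filter_le_eq, Finset.sum_insert (by simp)]

open Classical in
theorem indicator_frobSet (B : Finset ℕ) (s : ℝ) (D : Subgroup (L ≃ₐ[ℚ] L)) (P : HeightOneSpectrum (𝓞 L)) :
    (frobSet B (D : Set (L ≃ₐ[ℚ] L))).indicator (w s) P = 
      (frobSet B (gens D)).indicator (w s) P + 
      ∑ D' ∈ (Finset.univ : Finset (Subgroup (L ≃ₐ[ℚ] L))).filter (· < D), (frobSet B (gens D')).indicator (w s) P := by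
  rw [← Finset.sum_insert (s := (Finset.univ : Finset (Subgroup (L ≃ₐ[ℚ] L))).filter (· < D)) (a := D)
    (f := fun D' ↦ (frobSet B (gens D')).indicator (w s) P) (by simp), ← filter_le_eq]
  have h1 : ∀ X : Set (L ≃ₐ[ℚ] L), (frobSet B X).indicator (w s) P = 
    if frob P ∈ X then (if below P ∉ B then w s P else 0) else 0 := by
    intro X
    by_cases hX : frob P ∈ X
    · by_cases hb : below P ∉ B
      · rw [Set.indicator_of_mem (by exact ⟨hb, hX⟩), if_pos hX, if_pos hb]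
      · rw [Set.indicator_of_notMem (fun h ↦ hb h.1), if_pos hX, if_neg hb]
    · rw [Set.indicator_of_notMem (fun h ↦ hX h.2), if_neg hX]
  rw [h1, Finset.sum_congr rfl (fun D' _ ↦ h1 (gens D')), sum_ite_gens]
  rfl

variable (L) in
/-- the primes whose Frobenius generates `D` have weighted density the number of generators of `D` -/
theorem tendsto_frobSet_gens {B : Finset ℕ} (hB : ∀ P : HeightOneSpectrum (𝓞 L), below P ∉ B →
      ∀ σ : L ≃ₐ[ℚ] L, σ ∈ P.asIdeal.inertia (L ≃ₐ[ℚ] L) → σ = 1) (D : Subgroup (L ≃ₐ[ℚ] L)) :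
    Tendsto (fun s ↦ (∑' P : HeightOneSpectrum (𝓞 L), (frobSet B (gens D)).indicator (w s) P) /
      Real.log (1 / (s - 1))) (𝓝[>] 1) (𝓝 (Nat.card (gens D) : ℝ)) := by
  classical
  induction D using WellFoundedLT.induction with
  | ind D ih =>
    have h1 := tendsto_frobSet_subgroup L hB D
    have h2 : Tendsto (fun s ↦ ∑ D' ∈ (Finset.univ : Finset (Subgroup (L ≃ₐ[ℚ] L))).filter (· < D),
        (∑' P : HeightOneSpectrum (𝓞 L), (frobSet B (gens D')).indicator (w s) P) /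
      Real.log (1 / (s - 1))) (𝓝[>] 1) 
        (𝓝 (∑ D' ∈ (Finset.univ : Finset (Subgroup (L ≃ₐ[ℚ] L))).filter (· < D), (Nat.card (gens D') : ℝ))) := by
      refine tendsto_finsetSum _ fun D' hD' ↦ ?_
      exact ih D' (Finset.mem_filter.mp hD').2
    have h3 := h1.sub h2
    rw [card_eq_sum_gens D, add_sub_cancel_right] at h3
    refine h3.congr' ?_
    filter_upwards [self_mem_nhdsWithin] with s hs
    have hs1 : (1 : ℝ) < s := hs
    rw [← Finset.sum_div, ← sub_div]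
    congr 1
    have hsumm : ∀ D' : Subgroup (L ≃ₐ[ℚ] L), D' ≤ D → Summable (fun P ↦ (frobSet B (gens D')).indicator (w s) P) := by
      intro D' hD'
      refine Summable.of_nonneg_of_le (fun P ↦ Set.indicator_nonneg (fun P _ ↦ w_nonneg s P) P) (fun P ↦ ?_)
        (summable_and_tsum_frobSet (FixedPoints.intermediateField D : IntermediateField ℚ L) D hB hs1).1
      refine Set.indicator_le_indicator_of_subset ?_ (fun P ↦ w_nonneg s P) P
      intro P hP
      refine ⟨hP.1, hD' ?_⟩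
      have h4 : Subgroup.zpowers (frob P) = D' := hP.2
      rw [← h4]
      exact Subgroup.mem_zpowers _
    rw [tsum_congr (indicator_frobSet B s D), Summable.tsum_add (hsumm D le_rfl), Summable.tsum_finsetSum]
    · ring
    · intro D' hD'
      exact hsumm D' (Finset.mem_filter.mp hD').2.le
    · exact summable_sum fun D' hD' ↦ hsumm D' (Finset.mem_filter.mp hD').2.le

variable (L) in
/-- **Frobenius density theorem** (existence form), at finite level. -/
theorem exists_frob_zpowers_eq (S : Finset ℕ) (g : L ≃ₐ[ℚ] L) :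
    ∃ P : HeightOneSpectrum (𝓞 L), below P ∉ S ∧ 
      (∀ σ : L ≃ₐ[ℚ] L, σ ∈ P.asIdeal.inertia (L ≃ₐ[ℚ] L) → σ = 1) ∧
      Subgroup.zpowers (frob P) = Subgroup.zpowers g := by
  obtain ⟨B, hSB, hB⟩ := exists_bad L S
  have h1 := tendsto_frobSet_gens L hB (Subgroup.zpowers g)
  have h2 : 0 < (Nat.card (gens (Subgroup.zpowers g)) : ℝ) := by
    have : Nonempty (gens (Subgroup.zpowers g)) := ⟨⟨g, rfl⟩⟩
    exact_mod_cast Nat.card_pos
  have h3 := h1.eventually_const_lt h2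
  obtain ⟨s, hs⟩ := h3.exists
  have h4 : ∃ P : HeightOneSpectrum (𝓞 L), (frobSet B (gens (Subgroup.zpowers g))).indicator (w s) P ≠ 0 := by
    by_contra hc
    push Not at hc
    rw [tsum_congr hc, tsum_zero, zero_div] at hs
    exact lt_irrefl _ hs
  obtain ⟨P, hP⟩ := h4
  have hP' : P ∈ frobSet B (gens (Subgroup.zpowers g)) := Set.mem_of_indicator_ne_zero hP
  exact ⟨P, fun h ↦ hP'.1 (hSB h), hB P hP'.1, hP'.2⟩

end Fermat.Agent.FrobDensity
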