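import Mathlib
import Fermat.Agent.FrobeniusDensityNF
import Fermat.Agent.FrobPlaceLift

/-!
# Frobenius density theorem in the language of places of `ℚ̄`
-/

set_option autoImplicit false

open NumberField IsDedekindDomain

namespace Fermat.Agent.FrobDensity

open Fermat.Agent.DedekindEuler Fermat.Agent.FrobPlaceLift

/-- **Frobenius density theorem**, Galois case: for a finite Galois extension `L / ℚ` inside `ℚ̄`,
`g ∈ Gal(ℚ̄/ℚ)` and a finite set `S`, there are a prime `ℓ ∉ S`, a place `A` of `ℚ̄` above `ℓ`, a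
Frobenius `σ` at `A`, such that `σ` and `g` generate the same subgroup of `Gal(L/ℚ)`; moreover the
place `A` is unramified in `L`. -/
theorem exists_frobenius_zpowers_eq (L : IntermediateField ℚ (AlgebraicClosure ℚ))
    [FiniteDimensional ℚ L] [IsGalois ℚ L]
    (S : Finset ℕ) (g : AlgebraicClosure ℚ ≃ₐ[ℚ] AlgebraicClosure ℚ) :
    ∃ ℓ : ℕ, ℓ.Prime ∧ ℓ ∉ S ∧ ∃ (A : ValuationSubring (AlgebraicClosure ℚ))
      (σ : AlgebraicClosure ℚ ≃ₐ[ℚ] AlgebraicClosure ℚ), A.LiesOverPrime ℓ ∧ A.IsFrobeniusAt σ ℓ ∧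
        Subgroup.zpowers (AlgEquiv.restrictNormal σ L) = Subgroup.zpowers (AlgEquiv.restrictNormal g L) := by
  have : NumberField L := { to_charZero := inferInstance, to_finiteDimensional := inferInstance }
  obtain ⟨P, hPS, hunr, hP⟩ := exists_frob_zpowers_eq L S (AlgEquiv.restrictNormal g L)
  have hPp := P.isPrime
  have hmem : ((below P : ℕ) : 𝓞 L) ∈ P.asIdeal := (natCast_mem_iff P _).mpr dvd_rfl
  obtain ⟨A, σ, hA, hσ, hσL⟩ := exists_place_frobenius_of_isArithFrobAt L (below P) (below_prime P)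
    P.asIdeal hmem hunr (frob P) (isArithFrobAt_frob P)
  exact ⟨below P, below_prime P, hPS, A, σ, hA, hσ, by rw [hσL, hP]⟩

/-- **Frobenius density theorem**: for a finite extension `L / ℚ` inside `ℚ̄`,
`g ∈ Gal(ℚ̄/ℚ)` and a finite set `S`, there are a prime `ℓ ∉ S`, a place `A` of `ℚ̄` above `ℓ`, a
Frobenius `σ` at `A`, such that on `L` each of `σ`, `g` is a power of the other one. -/
theorem frobenius_density (L : IntermediateField ℚ (AlgebraicClosure ℚ)) [FiniteDimensional ℚ L]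
    (S : Finset ℕ) (g : AlgebraicClosure ℚ ≃ₐ[ℚ] AlgebraicClosure ℚ) :
    ∃ ℓ : ℕ, ℓ.Prime ∧ ℓ ∉ S ∧ ∃ (A : ValuationSubring (AlgebraicClosure ℚ))
      (σ : AlgebraicClosure ℚ ≃ₐ[ℚ] AlgebraicClosure ℚ), A.LiesOverPrime ℓ ∧ A.IsFrobeniusAt σ ℓ ∧
        (∃ k : ℕ, ∀ x ∈ L, g x = (σ ^ k) x) ∧ (∃ k : ℕ, ∀ x ∈ L, σ x = (g ^ k) x) := by
  let L' : IntermediateField ℚ (AlgebraicClosure ℚ) := IntermediateField.normalClosure ℚ L (AlgebraicClosure ℚ)
  have : FiniteDimensional ℚ L' := normalClosure.is_finiteDimensional ℚ L (AlgebraicClosure ℚ)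
  have : Normal ℚ L' := normalClosure.normal ℚ L (AlgebraicClosure ℚ)
  have : IsGalois ℚ L' := ⟨⟩
  obtain ⟨ℓ, hℓ, hℓS, A, σ, hA, hσ, hz⟩ := exists_frobenius_zpowers_eq L' S g
  have hle : L ≤ L' := IntermediateField.le_normalClosure L
  have key : ∀ a b : AlgebraicClosure ℚ ≃ₐ[ℚ] AlgebraicClosure ℚ,
      AlgEquiv.restrictNormal a L' ∈ Subgroup.zpowers (AlgEquiv.restrictNormal b L') →
      ∃ k : ℕ, ∀ x ∈ L, a x = (b ^ k) x := by
    intro a b hab
    rw [← mem_powers_iff_mem_zpowers] at hab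
    obtain ⟨k, hk⟩ := hab
    refine ⟨k, fun x hx ↦ ?_⟩
    have h1 := AlgEquiv.restrictNormal_commutes a L' ⟨x, hle hx⟩
    have h2 := AlgEquiv.restrictNormal_commutes (b ^ k) L' ⟨x, hle hx⟩
    have h3 : AlgEquiv.restrictNormal (b ^ k) L' = AlgEquiv.restrictNormal b L' ^ k :=
      map_pow (AlgEquiv.restrictNormalHom L') b k
    rw [h3] at h2
    simp only at hk
    rw [hk] at h2
    exact h1.symm.trans h2
  refine ⟨ℓ, hℓ, hℓS, A, σ, hA, hσ, key g σ ?_, key σ g ?_⟩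
  · rw [hz]; exact Subgroup.mem_zpowers _
  · rw [← hz]; exact Subgroup.mem_zpowers _

end Fermat.Agent.FrobDensity
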