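import Mathlib

set_option autoImplicit false

namespace Fermat.Agent.PseudoRep

open MonoidAlgebra Polynomial

section Defs

variable {G : Type*} [Group G] {R : Type*} [CommRing R]

/-- Two-dimensional pseudo-representation of a group, with determinant `D`. -/
structure IsPseudoRep (T : G → R) (D : G →* R) : Prop where
  map_one : T 1 = 2
  comm : ∀ g h, T (g * h) = T (h * g)
  mul : ∀ g h, T (g * h) + D h * T (g * h⁻¹) = T g * T h

theorem IsPseudoRep.three {T : G → R} {D : G →* R} (H : IsPseudoRep T D) (x y z : G) :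
    T x * T y * T z - T x * T (y * z) - T y * T (x * z) - T z * T (x * y) + T (x * y * z)
      + T (x * z * y) = 0 := by
  have e1 := H.mul x (y * z)
  have e2 := H.mul (x * z) y
  have e4 := H.mul x y
  have e6 := H.mul (y⁻¹ * x) z
  have c1 : T (y⁻¹ * x) = T (x * y⁻¹) := H.comm _ _
  have c2 : T (y⁻¹ * x * z) = T (x * z * y⁻¹) := by rw [mul_assoc, H.comm]
  have c3 : T (y⁻¹ * x * z⁻¹) = T (x * (y * z)⁻¹) := by
    rw [mul_assoc, H.comm]; congr 1; group
  have c4 : T (x * (y * z)) = T (x * y * z) := by rw [mul_assoc]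
  rw [c1, c2, c3] at e6
  rw [c4, map_mul] at e1
  linear_combination e1 + e2 - T z * e4 - D y * e6

end Defs

section Linear

variable {G : Type*} [Group G] {K : Type*} [CommRing K]

/-- Linear extension of a function on the group to the group algebra. -/
noncomputable def lin (T : G → K) : MonoidAlgebra K G →ₗ[K] K :=
  (MonoidAlgebra.basis G K).constr K T

@[simp] theorem lin_of (T : G → K) (g : G) : lin T (MonoidAlgebra.of K G g) = T g := by
  have := (MonoidAlgebra.basis G K).constr_basis K T g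
  simpa [lin, MonoidAlgebra.of_apply] using this

variable {T : G → K} {D : G →* K} (H : IsPseudoRep T D)

include H

theorem lin_comm (x y : MonoidAlgebra K G) : lin T (x * y) = lin T (y * x) := by
  induction x using MonoidAlgebra.induction_on with
  | of g =>
    induction y using MonoidAlgebra.induction_on with
    | of h => rw [← map_mul, ← map_mul, lin_of, lin_of, H.comm]
    | add a b ha hb => rw [mul_add, add_mul, map_add, map_add, ha, hb]
    | smul r a ha => rw [mul_smul_comm, smul_mul_assoc, map_smul, map_smul, ha]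
  | add a b ha hb => rw [mul_add, add_mul, map_add, map_add, ha, hb]
  | smul r a ha => rw [mul_smul_comm, smul_mul_assoc, map_smul, map_smul, ha]

theorem lin_three (x y z : MonoidAlgebra K G) :
    lin T x * lin T y * lin T z - lin T x * lin T (y * z) - lin T y * lin T (x * z)
      - lin T z * lin T (x * y) + lin T (x * y * z) + lin T (x * z * y) = 0 := by
  induction x using MonoidAlgebra.induction_on with
  | of g =>
    induction y using MonoidAlgebra.induction_on with
    | of h =>
      induction z using MonoidAlgebra.induction_on with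
      | of k =>
        simp only [← map_mul, lin_of]
        exact H.three g h k
      | add a b ha hb =>
        simp only [mul_add, add_mul, map_add]
        linear_combination ha + hb
      | smul r a ha =>
        simp only [mul_smul_comm, smul_mul_assoc, map_smul, smul_eq_mul]
        linear_combination r * ha
    | add a b ha hb =>
      simp only [mul_add, add_mul, map_add]
      linear_combination ha + hb
    | smul r a ha =>
      simp only [mul_smul_comm, smul_mul_assoc, map_smul, smul_eq_mul]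
      linear_combination r * ha
  | add a b ha hb =>
    simp only [add_mul, map_add]
    linear_combination ha + hb
  | smul r a ha =>
    simp only [smul_mul_assoc, map_smul, smul_eq_mul]
    linear_combination r * ha

theorem lin_one : lin T 1 = 2 := by
  rw [← map_one (MonoidAlgebra.of K G), lin_of, H.map_one]

/-- For an idempotent of trace one, `x ↦ T (e x)` is multiplicative on the corner ring. -/
theorem lin_corner {e : MonoidAlgebra K G} (he : e * e = e) (hTe : lin T e = 1)
    (x y : MonoidAlgebra K G) :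
    lin T (e * x * e * y) = lin T (e * x) * lin T (e * y) := by
  have h := lin_three H (e * x * e) (e * y * e) e
  have e1 : e * x * e * e = e * x * e := by rw [mul_assoc, he]
  have e2 : e * y * e * e = e * y * e := by rw [mul_assoc, he]
  have e3 : e * x * e * (e * y * e) = e * x * e * y * e := by
    rw [← mul_assoc, ← mul_assoc, e1]
  have e4 : lin T (e * x * e) = lin T (e * x) := by
    rw [lin_comm H, ← mul_assoc, he]
  have e5 : lin T (e * y * e) = lin T (e * y) := by
    rw [lin_comm H, ← mul_assoc, he]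
  have e6 : lin T (e * x * e * y * e) = lin T (e * x * e * y) := by
    rw [lin_comm H, ← mul_assoc, ← mul_assoc, ← mul_assoc, he]
  have e7 : e * x * e * y * e * e = e * x * e * y * e := by rw [mul_assoc, he]
  rw [e1, e2, e3, e7, hTe, e4, e5, e6] at h
  linear_combination h

end Linear

section Idem

variable {G : Type*} [Group G] {K : Type*} [Field K] (h2 : (2 : K) ≠ 0) (T : G → K) (D : G →* K)
  (c : G)

/-- The idempotent `(1 + c)/2` of the group algebra. -/
noncomputable def eIdem (K : Type*) [Field K] (c : G) : MonoidAlgebra K G :=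
  (2⁻¹ : K) • (1 + MonoidAlgebra.of K G c)

noncomputable def fIdem (K : Type*) [Field K] (c : G) : MonoidAlgebra K G :=
  (2⁻¹ : K) • (1 - MonoidAlgebra.of K G c)

noncomputable def aEnt (g : G) : K := lin T (eIdem K c * MonoidAlgebra.of K G g)
noncomputable def dEnt (g : G) : K := lin T (fIdem K c * MonoidAlgebra.of K G g)
noncomputable def xEnt (g h : G) : K :=
  lin T (eIdem K c * MonoidAlgebra.of K G g * fIdem K c * MonoidAlgebra.of K G h)

theorem aEnt_eq (g : G) : aEnt T c g = 2⁻¹ * (T g + T (c * g)) := by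
  simp only [aEnt, eIdem, smul_mul_assoc, add_mul, one_mul, ← map_mul, map_smul, map_add, lin_of,
    smul_eq_mul]

theorem dEnt_eq (g : G) : dEnt T c g = 2⁻¹ * (T g - T (c * g)) := by
  simp only [dEnt, fIdem, smul_mul_assoc, sub_mul, one_mul, ← map_mul, map_smul, map_sub, lin_of,
    smul_eq_mul]

variable {T D c}

include h2 in
theorem eIdem_add_fIdem : eIdem K c + fIdem K c = 1 := by
  rw [eIdem, fIdem, ← smul_add]
  have : (1 + MonoidAlgebra.of K G c + (1 - MonoidAlgebra.of K G c)) = (2 : K) • 1 := by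
    rw [two_smul]; abel
  rw [this, smul_smul, inv_mul_cancel₀ h2, one_smul]

variable (hc : c * c = 1)

include h2 hc in
theorem eIdem_mul_self : eIdem K c * eIdem K c = eIdem K c := by
  have h : MonoidAlgebra.of K G c * MonoidAlgebra.of K G c = 1 := by rw [← map_mul, hc, map_one]
  rw [eIdem, smul_mul_smul_comm]
  have : (1 + MonoidAlgebra.of K G c) * (1 + MonoidAlgebra.of K G c)
      = (2 : K) • (1 + MonoidAlgebra.of K G c) := by
    rw [mul_add, add_mul, add_mul, h, one_mul, one_mul, mul_one, two_smul]; abel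
  rw [this, smul_smul]
  congr 1
  field_simp

include h2 hc in
theorem fIdem_mul_self : fIdem K c * fIdem K c = fIdem K c := by
  have h : MonoidAlgebra.of K G c * MonoidAlgebra.of K G c = 1 := by rw [← map_mul, hc, map_one]
  rw [fIdem, smul_mul_smul_comm]
  have : (1 - MonoidAlgebra.of K G c) * (1 - MonoidAlgebra.of K G c)
      = (2 : K) • (1 - MonoidAlgebra.of K G c) := by
    rw [mul_sub, sub_mul, sub_mul, h, one_mul, one_mul, mul_one, two_smul]; abel
  rw [this, smul_smul]
  congr 1
  field_simp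

include hc in
theorem eIdem_mul_fIdem : eIdem K c * fIdem K c = 0 := by
  have h : MonoidAlgebra.of K G c * MonoidAlgebra.of K G c = 1 := by rw [← map_mul, hc, map_one]
  rw [eIdem, fIdem, smul_mul_smul_comm]
  have : (1 + MonoidAlgebra.of K G c) * (1 - MonoidAlgebra.of K G c) = 0 := by
    rw [mul_sub, add_mul, add_mul, h, one_mul, one_mul, mul_one]; abel
  rw [this, smul_zero]

include hc in
theorem fIdem_mul_eIdem : fIdem K c * eIdem K c = 0 := by
  have h : MonoidAlgebra.of K G c * MonoidAlgebra.of K G c = 1 := by rw [← map_mul, hc, map_one]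
  rw [eIdem, fIdem, smul_mul_smul_comm]
  have : (1 - MonoidAlgebra.of K G c) * (1 + MonoidAlgebra.of K G c) = 0 := by
    rw [mul_add, sub_mul, sub_mul, h, one_mul, one_mul, mul_one]; abel
  rw [this, smul_zero]

variable (H : IsPseudoRep T D) (hDc : D c = -1)

include hc H hDc in
theorem T_c_eq_zero : T c = 0 := by
  have h := H.mul c c
  have hc' : c⁻¹ = c := inv_eq_of_mul_eq_one_left hc
  rw [hc', hc, hDc, H.map_one] at h
  have : T c * T c = 0 := by rw [← h]; ring
  exact mul_self_eq_zero.mp this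

include h2 hc H hDc in
theorem lin_eIdem : lin T (eIdem K c) = 1 := by
  rw [eIdem, map_smul, map_add, lin_one H, lin_of, T_c_eq_zero hc H hDc, add_zero, smul_eq_mul,
    inv_mul_cancel₀ h2]

include h2 hc H hDc in
theorem lin_fIdem : lin T (fIdem K c) = 1 := by
  rw [fIdem, map_smul, map_sub, lin_one H, lin_of, T_c_eq_zero hc H hDc, sub_zero, smul_eq_mul,
    inv_mul_cancel₀ h2]

include h2 hc H hDc in
theorem corner_e (x y : MonoidAlgebra K G) :
    lin T (eIdem K c * x * eIdem K c * y) = lin T (eIdem K c * x) * lin T (eIdem K c * y) :=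
  lin_corner H (eIdem_mul_self h2 hc) (lin_eIdem h2 hc H hDc) x y

include h2 hc H hDc in
theorem corner_f (x y : MonoidAlgebra K G) :
    lin T (fIdem K c * x * fIdem K c * y) = lin T (fIdem K c * x) * lin T (fIdem K c * y) :=
  lin_corner H (fIdem_mul_self h2 hc) (lin_fIdem h2 hc H hDc) x y

theorem mul_one_insert {e f : MonoidAlgebra K G} (hef : e + f = 1) (x y : MonoidAlgebra K G) :
    x * y = x * e * y + x * f * y := by
  rw [← add_mul, ← mul_add, hef, mul_one]

include h2 hc H hDc in
theorem aEnt_mul (g h : G) : aEnt T c (g * h) = aEnt T c g * aEnt T c h + xEnt T c g h := by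
  rw [aEnt, map_mul (MonoidAlgebra.of K G), ← mul_assoc, mul_one_insert (eIdem_add_fIdem h2 (c := c)), map_add,
    corner_e h2 hc H hDc]
  rfl

include h2 hc H hDc in
theorem dEnt_mul (g h : G) : dEnt T c (g * h) = dEnt T c g * dEnt T c h + xEnt T c h g := by
  rw [dEnt, map_mul (MonoidAlgebra.of K G), ← mul_assoc, mul_one_insert (eIdem_add_fIdem h2 (c := c)), map_add,
    corner_f h2 hc H hDc, add_comm]
  congr 1
  rw [xEnt, mul_assoc, lin_comm H, ← mul_assoc]

include h2 hc H hDc in
theorem xEnt_mul_left (g h s : G) :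
    xEnt T c (g * h) s = aEnt T c g * xEnt T c h s + xEnt T c g s * dEnt T c h := by
  have key : eIdem K c * MonoidAlgebra.of K G (g * h) * fIdem K c * MonoidAlgebra.of K G s =
      eIdem K c * MonoidAlgebra.of K G g * eIdem K c *
        (MonoidAlgebra.of K G h * fIdem K c * MonoidAlgebra.of K G s) +
      eIdem K c * MonoidAlgebra.of K G g * (fIdem K c * MonoidAlgebra.of K G h * fIdem K c *
        MonoidAlgebra.of K G s) := by
    rw [map_mul]
    have := mul_one_insert (eIdem_add_fIdem h2 (c := c)) (eIdem K c * MonoidAlgebra.of K G g)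
      (MonoidAlgebra.of K G h * fIdem K c * MonoidAlgebra.of K G s)
    simp only [mul_assoc] at this ⊢
    exact this
  rw [xEnt, key, map_add, corner_e h2 hc H hDc]
  congr 1
  · simp only [aEnt, xEnt, mul_assoc]
  · rw [lin_comm H]
    have e1 : fIdem K c * MonoidAlgebra.of K G h * fIdem K c * MonoidAlgebra.of K G s *
        (eIdem K c * MonoidAlgebra.of K G g) =
        fIdem K c * MonoidAlgebra.of K G h * fIdem K c * (MonoidAlgebra.of K G s *
        (eIdem K c * MonoidAlgebra.of K G g)) := by simp only [mul_assoc]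
    rw [e1, corner_f h2 hc H hDc, mul_comm]
    congr 1
    rw [xEnt, ← mul_assoc, lin_comm H]
    simp only [mul_assoc]

include h2 hc H hDc in
theorem xEnt_mul_right (s g h : G) :
    xEnt T c s (g * h) = xEnt T c s g * aEnt T c h + dEnt T c g * xEnt T c s h := by
  have key : eIdem K c * MonoidAlgebra.of K G s * fIdem K c * MonoidAlgebra.of K G (g * h) =
      eIdem K c * (MonoidAlgebra.of K G s * fIdem K c * MonoidAlgebra.of K G g) * eIdem K c *
        MonoidAlgebra.of K G h +
      eIdem K c * MonoidAlgebra.of K G s * (fIdem K c * MonoidAlgebra.of K G g * fIdem K c *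
        MonoidAlgebra.of K G h) := by
    rw [map_mul]
    have := mul_one_insert (eIdem_add_fIdem h2 (c := c)) (eIdem K c * MonoidAlgebra.of K G s *
      fIdem K c * MonoidAlgebra.of K G g) (MonoidAlgebra.of K G h)
    simp only [mul_assoc] at this ⊢
    exact this
  rw [xEnt, key, map_add, corner_e h2 hc H hDc]
  congr 1
  · simp only [aEnt, xEnt, mul_assoc]
  · rw [lin_comm H]
    have e1 : fIdem K c * MonoidAlgebra.of K G g * fIdem K c * MonoidAlgebra.of K G h *
        (eIdem K c * MonoidAlgebra.of K G s) =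
        fIdem K c * MonoidAlgebra.of K G g * fIdem K c * (MonoidAlgebra.of K G h *
        (eIdem K c * MonoidAlgebra.of K G s)) := by simp only [mul_assoc]
    rw [e1, corner_f h2 hc H hDc]
    congr 1
    rw [xEnt, ← mul_assoc, lin_comm H]
    simp only [mul_assoc]

include h2 hc H hDc in
theorem xEnt_swap (g h r s : G) :
    xEnt T c g h * xEnt T c r s = xEnt T c g s * xEnt T c r h := by
  have e1 : xEnt T c g h * xEnt T c r s = lin T (eIdem K c * (MonoidAlgebra.of K G g * fIdem K c *
      MonoidAlgebra.of K G h) * eIdem K c *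
      (MonoidAlgebra.of K G r * fIdem K c * MonoidAlgebra.of K G s)) := by
    rw [corner_e h2 hc H hDc]
    simp only [xEnt, mul_assoc]
  have e2 : lin T (eIdem K c * (MonoidAlgebra.of K G g * fIdem K c *
      MonoidAlgebra.of K G h) * eIdem K c *
      (MonoidAlgebra.of K G r * fIdem K c * MonoidAlgebra.of K G s)) =
      lin T (fIdem K c * (MonoidAlgebra.of K G h * eIdem K c * MonoidAlgebra.of K G r) *
        fIdem K c * (MonoidAlgebra.of K G s * eIdem K c * MonoidAlgebra.of K G g)) := by
    have := lin_comm H (eIdem K c * MonoidAlgebra.of K G g) (fIdem K c *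
      MonoidAlgebra.of K G h * eIdem K c *
      (MonoidAlgebra.of K G r * fIdem K c * MonoidAlgebra.of K G s))
    simp only [mul_assoc] at this ⊢
    exact this
  have e3 : lin T (fIdem K c * (MonoidAlgebra.of K G h * eIdem K c * MonoidAlgebra.of K G r)) =
      xEnt T c r h := by
    rw [xEnt, ← mul_assoc, ← mul_assoc, mul_assoc, lin_comm H]
    simp only [mul_assoc]
  have e4 : lin T (fIdem K c * (MonoidAlgebra.of K G s * eIdem K c * MonoidAlgebra.of K G g)) =
      xEnt T c g s := by
    rw [xEnt, ← mul_assoc, ← mul_assoc, mul_assoc, lin_comm H]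
    simp only [mul_assoc]
  rw [e1, e2, corner_f h2 hc H hDc, e3, e4, mul_comm]

include h2 hc H hDc in
theorem aEnt_one : aEnt T c 1 = 1 := by
  rw [aEnt, map_one, mul_one, lin_eIdem h2 hc H hDc]

include h2 hc H hDc in
theorem dEnt_one : dEnt T c 1 = 1 := by
  rw [dEnt, map_one, mul_one, lin_fIdem h2 hc H hDc]

include hc in
theorem xEnt_one_left (h : G) : xEnt T c 1 h = 0 := by
  rw [xEnt, map_one, mul_one, eIdem_mul_fIdem hc, zero_mul, map_zero]

include hc H in
theorem xEnt_one_right (g : G) : xEnt T c g 1 = 0 := by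
  rw [xEnt, map_one, mul_one, lin_comm H, ← mul_assoc, fIdem_mul_eIdem hc, zero_mul, map_zero]

include h2 in
theorem aEnt_add_dEnt (g : G) : aEnt T c g + dEnt T c g = T g := by
  rw [aEnt, dEnt, ← map_add, ← add_mul, eIdem_add_fIdem h2, one_mul, lin_of]

include h2 hc H hDc in
theorem det_ent (g : G) : aEnt T c g * dEnt T c g - xEnt T c g g = D g := by
  have h := H.mul g g
  rw [mul_inv_cancel, H.map_one, ← aEnt_add_dEnt h2 (T := T) (c := c) (g * g),
    ← aEnt_add_dEnt h2 (T := T) (c := c) g, aEnt_mul h2 hc H hDc, dEnt_mul h2 hc H hDc] at h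
  apply mul_left_cancel₀ h2
  linear_combination -h

end Idem

section MatrixRep

variable {G : Type*} [Group G] {K : Type*} [Field K]

/-- Wiles' explicit matrices attached to a two dimensional pseudo-representation with a
complex conjugation. -/
theorem exists_matrixRep_aux (h2 : (2 : K) ≠ 0) {T : G → K} {D : G →* K} {c : G}
    (hc : c * c = 1) (H : IsPseudoRep T D) (hDc : D c = -1) :
    ∃ M : G →* Matrix (Fin 2) (Fin 2) K,
      (∀ g, (M g).trace = T g) ∧ (∀ g, (M g).det = D g) ∧
      ((∀ g, M g = !![aEnt T c g, 0; 0, dEnt T c g]) ∨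
        ∃ g₀ h₀, xEnt T c g₀ h₀ ≠ 0 ∧ ∀ g, M g =
          !![aEnt T c g, xEnt T c g h₀ / xEnt T c g₀ h₀; xEnt T c g₀ g, dEnt T c g]) := by
  by_cases hx : ∃ g₀ h₀, xEnt T c g₀ h₀ ≠ 0
  · obtain ⟨g₀, h₀, hx⟩ := hx
    refine ⟨{ toFun := fun g =>
                !![aEnt T c g, xEnt T c g h₀ / xEnt T c g₀ h₀; xEnt T c g₀ g, dEnt T c g]
              map_one' := ?_
              map_mul' := ?_ }, ?_, ?_, Or.inr ⟨g₀, h₀, hx, fun _ => rfl⟩⟩
    · rw [aEnt_one h2 hc H hDc, dEnt_one h2 hc H hDc, xEnt_one_left hc, xEnt_one_right hc H,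
        zero_div, Matrix.one_fin_two]
    · intro g h
      rw [Matrix.mul_fin_two]
      have e1 := aEnt_mul h2 hc H hDc g h
      have e2 := dEnt_mul h2 hc H hDc g h
      have e3 := xEnt_mul_left h2 hc H hDc g h h₀
      have e4 := xEnt_mul_right h2 hc H hDc g₀ g h
      have s1 := xEnt_swap h2 hc H hDc g h g₀ h₀
      have s2 := xEnt_swap h2 hc H hDc h g g₀ h₀
      congr 1
      ext i j
      fin_cases i <;> fin_cases j
      · simp only [Matrix.cons_val', Matrix.cons_val_zero, Fin.zero_eta,
          Matrix.cons_val_fin_one]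
        rw [e1]
        field_simp
        linear_combination s1
      · simp only [Matrix.cons_val', Matrix.cons_val_zero, Fin.zero_eta,
          Matrix.cons_val_fin_one, Fin.mk_one, Matrix.cons_val_one]
        rw [e3]
        field_simp
      · simp only [Matrix.cons_val', Matrix.cons_val_zero, Fin.zero_eta,
          Matrix.cons_val_fin_one, Fin.mk_one, Matrix.cons_val_one]
        rw [e4]
      · simp only [Matrix.cons_val',
          Matrix.cons_val_fin_one, Fin.mk_one, Matrix.cons_val_one]
        rw [e2]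
        field_simp
        linear_combination s2
    · intro g
      simp only [MonoidHom.coe_mk, OneHom.coe_mk, Matrix.trace_fin_two_of]
      exact aEnt_add_dEnt h2 g
    · intro g
      simp only [MonoidHom.coe_mk, OneHom.coe_mk, Matrix.det_fin_two_of]
      have s1 := xEnt_swap h2 hc H hDc g g g₀ h₀
      rw [← det_ent h2 hc H hDc]
      field_simp
      linear_combination s1
  · simp only [not_exists, not_not] at hx
    refine ⟨{ toFun := fun g => !![aEnt T c g, 0; 0, dEnt T c g]
              map_one' := ?_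
              map_mul' := ?_ }, ?_, ?_, Or.inl fun _ => rfl⟩
    · rw [aEnt_one h2 hc H hDc, dEnt_one h2 hc H hDc, Matrix.one_fin_two]
    · intro g h
      rw [Matrix.mul_fin_two, aEnt_mul h2 hc H hDc g h, dEnt_mul h2 hc H hDc g h, hx, hx]
      simp
    · intro g
      simp only [MonoidHom.coe_mk, OneHom.coe_mk, Matrix.trace_fin_two_of]
      exact aEnt_add_dEnt h2 g
    · intro g
      simp only [MonoidHom.coe_mk, OneHom.coe_mk, Matrix.det_fin_two_of]
      rw [← det_ent h2 hc H hDc, hx]
      ring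

variable {𝒪 : Type*} [CommRing 𝒪] [Algebra 𝒪 K]

/-- The composition of a pseudo-representation with a ring homomorphism. -/
theorem IsPseudoRep.map {R S : Type*} [CommRing R] [CommRing S] (f : R →+* S)
    {T : G → R} {D : G →* R} (H : IsPseudoRep T D) :
    IsPseudoRep (fun g => f (T g)) (f.toMonoidHom.comp D) where
  map_one := by rw [H.map_one, map_ofNat]
  comm g h := by rw [H.comm]
  mul g h := by
    have := congrArg f (H.mul g h)
    simpa using this

/-- Membership of an element of `K` in (the image of) an ideal of `𝒪`. -/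
def InI (K : Type*) [Field K] [Algebra 𝒪 K] (I : Ideal 𝒪) (z : K) : Prop :=
  ∃ y ∈ I, algebraMap 𝒪 K y = z

namespace InI

variable {I : Ideal 𝒪} {z w : K}

theorem add (hz : InI K I z) (hw : InI K I w) : InI K I (z + w) := by
  obtain ⟨y, hy, rfl⟩ := hz
  obtain ⟨y', hy', rfl⟩ := hw
  exact ⟨y + y', I.add_mem hy hy', by rw [map_add]⟩

theorem sub (hz : InI K I z) (hw : InI K I w) : InI K I (z - w) := by
  obtain ⟨y, hy, rfl⟩ := hz
  obtain ⟨y', hy', rfl⟩ := hw
  exact ⟨y - y', I.sub_mem hy hy', by rw [map_sub]⟩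

theorem mul_left (a : 𝒪) (hz : InI K I z) : InI K I (algebraMap 𝒪 K a * z) := by
  obtain ⟨y, hy, rfl⟩ := hz
  exact ⟨a * y, I.mul_mem_left a hy, by rw [map_mul]⟩

theorem mul_right (a : 𝒪) (hz : InI K I z) : InI K I (z * algebraMap 𝒪 K a) := by
  rw [mul_comm]; exact hz.mul_left a

theorem zero : InI K I 0 := ⟨0, I.zero_mem, map_zero _⟩

end InI

theorem entry_bounds (h2 : (2 : K) ≠ 0) {T : G → 𝒪} {D : G →* 𝒪} {c : G}
    (hc : c * c = 1) (H : IsPseudoRep T D) (hDc : D c = -1)
    (hTc : algebraMap 𝒪 K (T c) = 0)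
    (I : Ideal 𝒪) (g : G) (hg : ∀ h, T (g * h) - T h ∈ I) :
    InI K I (2 * (aEnt (fun g => algebraMap 𝒪 K (T g)) c g - 1)) ∧
    InI K I (2 * (dEnt (fun g => algebraMap 𝒪 K (T g)) c g - 1)) ∧
    (∀ h, InI K I (4 * xEnt (fun g => algebraMap 𝒪 K (T g)) c g h)) ∧
    (∀ h, InI K I (4 * xEnt (fun g => algebraMap 𝒪 K (T g)) c h g)) := by
  have H' := H.map (algebraMap 𝒪 K)
  have hDc' : ((algebraMap 𝒪 K).toMonoidHom.comp D) c = -1 := by
    simp [hDc]
  have hg' : ∀ h, InI K I (algebraMap 𝒪 K (T (g * h)) - algebraMap 𝒪 K (T h)) :=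
    fun h => ⟨_, hg h, map_sub _ _ _⟩
  have h1 : algebraMap 𝒪 K (T 1) = 2 := H'.map_one
  have hcg : ∀ h, algebraMap 𝒪 K (T (c * h)) = algebraMap 𝒪 K (T (h * c)) := fun h => by
    rw [H.comm]
  have ha : InI K I (2 * (aEnt (fun g => algebraMap 𝒪 K (T g)) c g - 1)) := by
    have e : 2 * (aEnt (fun g => algebraMap 𝒪 K (T g)) c g - 1) =
        (algebraMap 𝒪 K (T (g * 1)) - algebraMap 𝒪 K (T 1)) +
        (algebraMap 𝒪 K (T (g * c)) - algebraMap 𝒪 K (T c)) := by
      rw [aEnt_eq, hTc, hcg, h1, mul_one]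
      field_simp
      ring
    rw [e]
    exact (hg' _).add (hg' _)
  have hd : InI K I (2 * (dEnt (fun g => algebraMap 𝒪 K (T g)) c g - 1)) := by
    have e : 2 * (dEnt (fun g => algebraMap 𝒪 K (T g)) c g - 1) =
        (algebraMap 𝒪 K (T (g * 1)) - algebraMap 𝒪 K (T 1)) -
        (algebraMap 𝒪 K (T (g * c)) - algebraMap 𝒪 K (T c)) := by
      rw [dEnt_eq, hTc, hcg, h1, mul_one]
      field_simp
      ring
    rw [e]
    exact (hg' _).sub (hg' _)
  have h2a : ∀ h, 2 * aEnt (fun g => algebraMap 𝒪 K (T g)) c h =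
      algebraMap 𝒪 K (T h + T (c * h)) := by
    intro h
    rw [aEnt_eq, map_add]
    field_simp
  refine ⟨ha, hd, fun h => ?_, fun h => ?_⟩
  · have e : 4 * xEnt (fun g => algebraMap 𝒪 K (T g)) c g h =
        algebraMap 𝒪 K 2 * ((algebraMap 𝒪 K (T (g * h)) - algebraMap 𝒪 K (T h)) +
          (algebraMap 𝒪 K (T (g * (h * c))) - algebraMap 𝒪 K (T (h * c)))) -
        (2 * (aEnt (fun g => algebraMap 𝒪 K (T g)) c g - 1)) *
          algebraMap 𝒪 K (T h + T (c * h)) := by
      have e1 := aEnt_mul h2 hc H' hDc' g h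
      have e2 : 2 * aEnt (fun g => algebraMap 𝒪 K (T g)) c (g * h) =
        algebraMap 𝒪 K (T (g * h)) + algebraMap 𝒪 K (T (g * (h * c))) := by
        rw [h2a, map_add, hcg, mul_assoc]
      have e3 : 2 * aEnt (fun g => algebraMap 𝒪 K (T g)) c h =
        algebraMap 𝒪 K (T h) + algebraMap 𝒪 K (T (h * c)) := by
        rw [h2a, map_add, hcg]
      rw [← h2a, map_ofNat]
      linear_combination (-4) * e1 + 2 * e2 - 2 * e3
    rw [e]
    exact (((hg' _).add (hg' _)).mul_left _).sub (ha.mul_right _)
  · have e : 4 * xEnt (fun g => algebraMap 𝒪 K (T g)) c h g =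
        algebraMap 𝒪 K 2 * ((algebraMap 𝒪 K (T (g * h)) - algebraMap 𝒪 K (T h)) +
          (algebraMap 𝒪 K (T (g * (c * h))) - algebraMap 𝒪 K (T (c * h)))) -
        (2 * (aEnt (fun g => algebraMap 𝒪 K (T g)) c g - 1)) *
          algebraMap 𝒪 K (T h + T (c * h)) := by
      have e1 := aEnt_mul h2 hc H' hDc' h g
      have e2 : 2 * aEnt (fun g => algebraMap 𝒪 K (T g)) c (h * g) =
        algebraMap 𝒪 K (T (g * h)) + algebraMap 𝒪 K (T (g * (c * h))) := by
        rw [h2a, map_add]
        congr 2
        · rw [H.comm]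
        · rw [← mul_assoc, H.comm]
      have e3 : 2 * aEnt (fun g => algebraMap 𝒪 K (T g)) c h =
        algebraMap 𝒪 K (T h) + algebraMap 𝒪 K (T (c * h)) := by
        rw [h2a, map_add]
      rw [← h2a, map_ofNat]
      linear_combination (-4) * e1 + 2 * e2 - 2 * e3
    rw [e]
    exact (((hg' _).add (hg' _)).mul_left _).sub (ha.mul_right _)

theorem exists_matrixRep_bounded [IsDomain 𝒪] (hinj : Function.Injective (algebraMap 𝒪 K))
    (h2 : (2 : 𝒪) ≠ 0) {T : G → 𝒪} {D : G →* 𝒪} {c : G}
    (hc : c * c = 1) (H : IsPseudoRep T D) (hDc : D c = -1) :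
    ∃ (M : G →* Matrix (Fin 2) (Fin 2) K) (δ : 𝒪), δ ≠ 0 ∧
      (∀ g, (M g).trace = algebraMap 𝒪 K (T g)) ∧ (∀ g, (M g).det = algebraMap 𝒪 K (D g)) ∧
      ∀ (I : Ideal 𝒪) (g : G), (∀ h, T (g * h) - T h ∈ I) →
        ∀ i j, InI K I (algebraMap 𝒪 K δ * (M g - 1) i j) := by
  have h2' : (2 : K) ≠ 0 := by
    intro h
    apply h2
    apply hinj
    rw [map_ofNat, h, map_zero]
  have H' := H.map (algebraMap 𝒪 K)
  have hDc' : ((algebraMap 𝒪 K).toMonoidHom.comp D) c = -1 := by simp [hDc]
  have hTc : algebraMap 𝒪 K (T c) = 0 :=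
    T_c_eq_zero (T := fun g => algebraMap 𝒪 K (T g)) hc H' hDc'
  have hTc0 : T c = 0 := hinj (by rw [hTc, map_zero])
  obtain ⟨M, hM1, hM2, hM3⟩ := exists_matrixRep_aux h2' hc H' hDc'
  rcases hM3 with hM3 | ⟨g₀, h₀, hx, hM3⟩
  · refine ⟨M, 2, h2, hM1, hM2, ?_⟩
    intro I g hg i j
    obtain ⟨b1, b2, b3, b4⟩ := entry_bounds h2' hc H hDc hTc I g hg
    rw [hM3 g, map_ofNat]
    fin_cases i <;> fin_cases j
    · simpa using b1
    · simpa using InI.zero (K := K) (I := I)
    · simpa using InI.zero (K := K) (I := I)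
    · simpa using b2
  · -- the normalising element
    have hy₀ : InI K (⊤ : Ideal 𝒪) (4 * xEnt (fun g => algebraMap 𝒪 K (T g)) c g₀ h₀) :=
      (entry_bounds h2' hc H hDc hTc ⊤ g₀ (fun _ => Submodule.mem_top)).2.2.1 h₀
    obtain ⟨y₀, -, hy₀⟩ := hy₀
    have h4 : (4 : K) ≠ 0 := by
      have : (4 : K) = 2 * 2 := by norm_num
      rw [this]
      exact mul_ne_zero h2' h2'
    have hy₀ne : y₀ ≠ 0 := by
      rintro rfl
      rw [map_zero] at hy₀
      exact (mul_ne_zero h4 hx) hy₀.symm
    have h4O : (4 : 𝒪) ≠ 0 := by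
      intro h
      apply h4
      rw [← map_ofNat (algebraMap 𝒪 K) 4, h, map_zero]
    refine ⟨M, 4 * y₀, mul_ne_zero h4O hy₀ne, hM1, hM2, ?_⟩
    intro I g hg i j
    obtain ⟨b1, b2, b3, b4⟩ := entry_bounds h2' hc H hDc hTc I g hg
    rw [hM3 g, map_mul, map_ofNat]
    fin_cases i <;> fin_cases j
    · have e := b1.mul_left (2 * y₀)
      have e' : algebraMap 𝒪 K (2 * y₀) * (2 * (aEnt (fun g => algebraMap 𝒪 K (T g)) c g - 1)) =
          4 * algebraMap 𝒪 K y₀ * (aEnt (fun g => algebraMap 𝒪 K (T g)) c g - 1) := by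
        rw [map_mul, map_ofNat]; ring
      rw [e'] at e
      simpa using e
    · have e := (b3 h₀).mul_left 4
      have e' : algebraMap 𝒪 K 4 * (4 * xEnt (fun g => algebraMap 𝒪 K (T g)) c g h₀) =
          4 * algebraMap 𝒪 K y₀ * (xEnt (fun g => algebraMap 𝒪 K (T g)) c g h₀ /
            xEnt (fun g => algebraMap 𝒪 K (T g)) c g₀ h₀) := by
        rw [hy₀, map_ofNat]; field_simp
      rw [e'] at e
      simpa using e
    · have e := (b4 g₀).mul_left y₀
      have e' : algebraMap 𝒪 K y₀ * (4 * xEnt (fun g => algebraMap 𝒪 K (T g)) c g₀ g) =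
          4 * algebraMap 𝒪 K y₀ * (xEnt (fun g => algebraMap 𝒪 K (T g)) c g₀ g) := by
        ring
      rw [e'] at e
      simpa using e
    · have e := b2.mul_left (2 * y₀)
      have e' : algebraMap 𝒪 K (2 * y₀) * (2 * (dEnt (fun g => algebraMap 𝒪 K (T g)) c g - 1)) =
          4 * algebraMap 𝒪 K y₀ * (dEnt (fun g => algebraMap 𝒪 K (T g)) c g - 1) := by
        rw [map_mul, map_ofNat]; ring
      rw [e'] at e
      simpa using e

end MatrixRep

section Lattice

variable {G : Type*} [Group G] {𝒪 : Type*} [CommRing 𝒪] [IsDomain 𝒪] [IsPrincipalIdealRing 𝒪]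
  {K : Type*} [Field K] [Algebra 𝒪 K] [IsFractionRing 𝒪 K]

/-- Over a principal ideal domain, a bounded matrix representation over the fraction field is
conjugate to an integral one. -/
theorem exists_lattice (M : G →* Matrix (Fin 2) (Fin 2) K) (δ : 𝒪) (hδ : δ ≠ 0)
    (hM : ∀ g i j, ∃ y : 𝒪, algebraMap 𝒪 K y = algebraMap 𝒪 K δ * M g i j) :
    ∃ (P Q : Matrix (Fin 2) (Fin 2) 𝒪) (N : G → Matrix (Fin 2) (Fin 2) 𝒪),
      P * Q = δ • (1 : Matrix (Fin 2) (Fin 2) 𝒪) ∧
      ∀ g, M g * P.map (algebraMap 𝒪 K) = P.map (algebraMap 𝒪 K) * (N g).map (algebraMap 𝒪 K) := by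
  classical
  have hinj : Function.Injective (algebraMap 𝒪 K) := IsFractionRing.injective 𝒪 K
  choose Y hY using hM
  -- the `Y g` are the matrices `δ • M g`
  have hYm : ∀ g, (Matrix.of (Y g)).map (algebraMap 𝒪 K) = algebraMap 𝒪 K δ • M g := by
    intro g; ext i j
    simp [hY]
  -- the columns
  let col : G × Fin 2 → (Fin 2 → 𝒪) := fun p i => Y p.1 i p.2
  let L : Submodule 𝒪 (Fin 2 → 𝒪) := Submodule.span 𝒪 (Set.range col)
  have hmem : ∀ g j, (fun i => Y g i j) ∈ L := fun g j => Submodule.subset_span ⟨(g, j), rfl⟩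
  -- stability
  have hstab : ∀ g, ∀ v ∈ L, ∃ w ∈ L, ∀ i, algebraMap 𝒪 K (w i) =
      (M g).mulVec (fun j => algebraMap 𝒪 K (v j)) i := by
    intro g v hv
    induction hv using Submodule.span_induction with
    | mem v hv =>
      obtain ⟨⟨h, j⟩, rfl⟩ := hv
      refine ⟨fun i => Y (g * h) i j, hmem _ _, fun i => ?_⟩
      have e : M (g * h) i j = ∑ k, M g i k * M h k j := by
        rw [map_mul, Matrix.mul_apply]
      simp only [hY, e, Matrix.mulVec, dotProduct, col]
      rw [Finset.mul_sum]
      refine Finset.sum_congr rfl fun k _ => ?_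
      ring
    | zero => exact ⟨0, L.zero_mem, fun i => by
        have : (fun j => algebraMap 𝒪 K ((0 : Fin 2 → 𝒪) j)) = 0 := by ext j; simp
        rw [this, Matrix.mulVec_zero]; simp⟩
    | add x y _ _ hx hy =>
      obtain ⟨w, hw, hw'⟩ := hx
      obtain ⟨z, hz, hz'⟩ := hy
      refine ⟨w + z, L.add_mem hw hz, fun i => ?_⟩
      have : (fun j => algebraMap 𝒪 K ((x + y) j)) =
          (fun j => algebraMap 𝒪 K (x j)) + (fun j => algebraMap 𝒪 K (y j)) := by
        ext j; simp
      rw [this, Matrix.mulVec_add, Pi.add_apply, Pi.add_apply, map_add, hw', hz']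
    | smul a x _ hx =>
      obtain ⟨w, hw, hw'⟩ := hx
      refine ⟨a • w, L.smul_mem a hw, fun i => ?_⟩
      have : (fun j => algebraMap 𝒪 K ((a • x) j)) =
          algebraMap 𝒪 K a • (fun j => algebraMap 𝒪 K (x j)) := by
        ext j; simp
      rw [this, Matrix.mulVec_smul, Pi.smul_apply, Pi.smul_apply, smul_eq_mul, smul_eq_mul,
        map_mul, hw']
  -- `δ • e_j` belongs to `L`
  have hδL : ∀ j : Fin 2, (fun i => if i = j then δ else 0) ∈ L := by
    intro j
    have : (fun i => if i = j then δ else 0) = fun i => Y 1 i j := by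
      ext i
      apply hinj
      rw [hY, map_one, Matrix.one_apply]
      split_ifs <;> simp
    rw [this]
    exact hmem 1 j
  -- the rank
  have hrank : Module.finrank 𝒪 L = 2 := by
    apply le_antisymm
    · have := Submodule.finrank_le L
      simpa using this
    · let φ : (Fin 2 → 𝒪) →ₗ[𝒪] L :=
        { toFun := fun v => ⟨δ • v, by
            have : δ • v = ∑ j, v j • (fun i => if i = j then δ else 0) := by
              ext i
              simp [Finset.sum_apply, mul_comm]
            rw [this]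
            exact L.sum_mem fun j _ => L.smul_mem _ (hδL j)⟩
          map_add' := fun v w => by ext i; simp [mul_add]
          map_smul' := fun a v => by ext i; simp [mul_left_comm] }
      have hφ : Function.Injective φ := by
        intro v w hvw
        have := congrArg Subtype.val hvw
        simp only [LinearMap.coe_mk, AddHom.coe_mk, φ] at this
        exact smul_right_injective _ hδ this
      have := LinearMap.finrank_le_finrank_of_injective hφ
      simpa using this
  have b : Module.Basis (Fin 2) 𝒪 L := Module.finBasisOfFinrankEq 𝒪 L hrank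
  let P : Matrix (Fin 2) (Fin 2) 𝒪 := Matrix.of fun i j => (b j : Fin 2 → 𝒪) i
  let Q : Matrix (Fin 2) (Fin 2) 𝒪 := Matrix.of fun i j => b.repr ⟨_, hδL j⟩ i
  have hcomb : ∀ (v : L) (i : Fin 2), (v : Fin 2 → 𝒪) i = ∑ k, P i k * b.repr v k := by
    intro v i
    have := congrArg (fun w : L => (w : Fin 2 → 𝒪) i) (b.sum_repr v)
    simp only [Submodule.coe_sum, Submodule.coe_smul, Finset.sum_apply, Pi.smul_apply,
      smul_eq_mul] at this
    rw [← this]
    exact Finset.sum_congr rfl fun k _ => mul_comm _ _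
  have hPQ : P * Q = δ • (1 : Matrix (Fin 2) (Fin 2) 𝒪) := by
    ext i j
    rw [Matrix.mul_apply]
    have := hcomb ⟨_, hδL j⟩ i
    simp only [Q, Matrix.of_apply]
    rw [← this]
    simp [Matrix.one_apply]
  -- the integral matrices
  have hN : ∀ g, ∃ N : Matrix (Fin 2) (Fin 2) 𝒪,
      M g * P.map (algebraMap 𝒪 K) = P.map (algebraMap 𝒪 K) * N.map (algebraMap 𝒪 K) := by
    intro g
    have h1 : ∀ j, ∃ w ∈ L, ∀ i, algebraMap 𝒪 K (w i) =
      (M g).mulVec (fun k => algebraMap 𝒪 K ((b j : Fin 2 → 𝒪) k)) i := fun j =>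
        hstab g _ (b j).2
    choose w hw hw' using h1
    refine ⟨Matrix.of fun i j => b.repr ⟨w j, hw j⟩ i, ?_⟩
    ext i j
    rw [Matrix.mul_apply, Matrix.mul_apply]
    have e1 := hw' j i
    have e2 := hcomb ⟨w j, hw j⟩ i
    simp only at e2
    simp only [Matrix.mulVec, dotProduct] at e1
    simp only [Matrix.map_apply, Matrix.of_apply, P]
    rw [← e1, e2, map_sum]
    simp only [map_mul]
    rfl
  choose N hN using hN
  exact ⟨P, Q, N, hPQ, hN⟩

/-- A two dimensional pseudo-representation with values in a principal ideal domain of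
characteristic different from two, having a complex conjugation, comes from an honest integral
representation, which is as continuous as the pseudo-representation is. -/
theorem exists_integral_rep (h2 : (2 : 𝒪) ≠ 0) {T : G → 𝒪} {D : G →* 𝒪} {c : G}
    (hc : c * c = 1) (H : IsPseudoRep T D) (hDc : D c = -1) :
    ∃ (N : G →* Matrix (Fin 2) (Fin 2) 𝒪) (δ : 𝒪), δ ≠ 0 ∧
      (∀ g, (N g).trace = T g) ∧ (∀ g, (N g).det = D g) ∧
      ∀ (I : Ideal 𝒪) (g : G), (∀ h, T (g * h) - T h ∈ I) → ∀ i j, δ * (N g - 1) i j ∈ I := by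
  classical
  set K := FractionRing 𝒪 with hK
  have hinj : Function.Injective (algebraMap 𝒪 K) := IsFractionRing.injective 𝒪 K
  obtain ⟨M, δ, hδ, htr, hdet, hbd⟩ := exists_matrixRep_bounded hinj h2 hc H hDc
  have hint : ∀ g i j, ∃ y : 𝒪, algebraMap 𝒪 K y = algebraMap 𝒪 K δ * M g i j := by
    intro g i j
    obtain ⟨y, -, hy⟩ := hbd ⊤ g (fun _ => Submodule.mem_top) i j
    refine ⟨y + δ * (1 : Matrix (Fin 2) (Fin 2) 𝒪) i j, ?_⟩
    rw [map_add, hy, map_mul, Matrix.sub_apply]
    have : algebraMap 𝒪 K ((1 : Matrix (Fin 2) (Fin 2) 𝒪) i j) =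
        (1 : Matrix (Fin 2) (Fin 2) K) i j := by
      simp only [Matrix.one_apply]
      split_ifs <;> simp
    rw [this]
    ring
  obtain ⟨P, Q, N, hPQ, hN⟩ := exists_lattice M δ hδ hint
  have hδK : algebraMap 𝒪 K δ ≠ 0 := by
    intro h; exact hδ (hinj (by rw [h, map_zero]))
  set P' := P.map (algebraMap 𝒪 K) with hP'
  set Q' := Q.map (algebraMap 𝒪 K) with hQ'
  have hPQ' : P' * Q' = algebraMap 𝒪 K δ • (1 : Matrix (Fin 2) (Fin 2) K) := by
    have := congrArg (fun X : Matrix (Fin 2) (Fin 2) 𝒪 => X.map (algebraMap 𝒪 K)) hPQ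
    simp only [Matrix.map_mul] at this
    rw [hP', hQ', this]
    ext i j
    simp only [Matrix.map_apply, Matrix.smul_apply, smul_eq_mul, map_mul, Matrix.one_apply]
    split_ifs <;> simp
  have hQP' : Q' * P' = algebraMap 𝒪 K δ • (1 : Matrix (Fin 2) (Fin 2) K) := by
    have h1 : P' * ((algebraMap 𝒪 K δ)⁻¹ • Q') = 1 := by
      rw [Matrix.mul_smul, hPQ', smul_smul, inv_mul_cancel₀ hδK, one_smul]
    have h2 := mul_eq_one_comm.mp h1
    rw [Matrix.smul_mul] at h2
    rw [← h2, smul_smul, mul_inv_cancel₀ hδK, one_smul]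
  -- conjugation formula
  have hconj : ∀ g, algebraMap 𝒪 K δ • (N g).map (algebraMap 𝒪 K) = Q' * M g * P' := by
    intro g
    rw [mul_assoc, hN g, ← mul_assoc, hQP', Matrix.smul_mul, one_mul]
  have hcancel : ∀ X Y : Matrix (Fin 2) (Fin 2) 𝒪,
      P' * X.map (algebraMap 𝒪 K) = P' * Y.map (algebraMap 𝒪 K) → X = Y := by
    intro X Y h
    have h1 := congrArg (fun Z => Q' * Z) h
    simp only [← mul_assoc, hQP', Matrix.smul_mul, one_mul] at h1
    have h2 := smul_right_injective _ hδK h1
    ext i j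
    apply hinj
    exact congrFun (congrFun h2 i) j
  have hmapmul : ∀ X Y : Matrix (Fin 2) (Fin 2) 𝒪, (X * Y).map (algebraMap 𝒪 K) =
      X.map (algebraMap 𝒪 K) * Y.map (algebraMap 𝒪 K) := fun X Y => Matrix.map_mul
  have hone : (1 : Matrix (Fin 2) (Fin 2) 𝒪).map (algebraMap 𝒪 K) = 1 :=
    Matrix.map_one _ (map_zero _) (map_one _)
  let N' : G →* Matrix (Fin 2) (Fin 2) 𝒪 :=
    { toFun := N
      map_one' := by
        apply hcancel
        rw [← hN, map_one, one_mul, hone, mul_one]
      map_mul' := fun g h => by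
        apply hcancel
        rw [← hN, map_mul, hmapmul, mul_assoc, hN h, ← mul_assoc, hN g, mul_assoc] }
  refine ⟨N', δ * δ, mul_ne_zero hδ hδ, ?_, ?_, ?_⟩
  · intro g
    apply hinj
    rw [← htr g]
    have e1 : algebraMap 𝒪 K δ * algebraMap 𝒪 K ((N g).trace) =
        algebraMap 𝒪 K δ * (M g).trace := by
      have e2 : algebraMap 𝒪 K ((N g).trace) = ((N g).map (algebraMap 𝒪 K)).trace := by
        simp [Matrix.trace]
      rw [e2, ← smul_eq_mul, ← Matrix.trace_smul, hconj, Matrix.trace_mul_cycle, hPQ',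
        Matrix.smul_mul, one_mul, Matrix.trace_smul, smul_eq_mul]
    exact mul_left_cancel₀ hδK e1
  · intro g
    apply hinj
    rw [← hdet g]
    have e2 : algebraMap 𝒪 K ((N g).det) = ((N g).map (algebraMap 𝒪 K)).det := by
      rw [RingHom.map_det]; rfl
    have e3 : P'.det ≠ 0 := by
      intro h0
      have := congrArg Matrix.det hPQ'
      rw [Matrix.det_mul, h0, zero_mul, Matrix.det_smul, Matrix.det_one, mul_one] at this
      exact (pow_ne_zero _ hδK) this.symm
    have e1 := congrArg Matrix.det (hN g)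
    rw [Matrix.det_mul, Matrix.det_mul, mul_comm] at e1
    change algebraMap 𝒪 K ((N g).det) = _
    rw [e2]
    exact (mul_left_cancel₀ e3 e1).symm
  · intro I g hg i j
    have hb := hbd I g hg
    choose y hyI hy using hb
    have e1 : algebraMap 𝒪 K (δ * δ * (N g - 1) i j) =
        (Q' * (algebraMap 𝒪 K δ • (M g - 1)) * P') i j := by
      have e2 : Q' * (algebraMap 𝒪 K δ • (M g - 1)) * P' =
          algebraMap 𝒪 K δ • (algebraMap 𝒪 K δ • ((N g).map (algebraMap 𝒪 K) - 1)) := by
        rw [Matrix.mul_smul, Matrix.smul_mul, mul_sub, mul_one, sub_mul, ← hconj, hQP',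
          ← smul_sub]
      rw [e2, map_mul, map_mul, Matrix.smul_apply, Matrix.smul_apply, Matrix.sub_apply,
        Matrix.sub_apply, map_sub, smul_eq_mul, smul_eq_mul, mul_assoc, Matrix.map_apply]
      congr 3
      simp only [Matrix.one_apply]
      split_ifs <;> simp
    have e3 : (Q' * (algebraMap 𝒪 K δ • (M g - 1)) * P') i j =
        algebraMap 𝒪 K ((Q * Matrix.of y * P) i j) := by
      have e4 : algebraMap 𝒪 K δ • (M g - 1) = (Matrix.of y).map (algebraMap 𝒪 K) := by
        ext i j
        rw [Matrix.smul_apply, smul_eq_mul, ← hy, Matrix.map_apply, Matrix.of_apply]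
      rw [e4, hQ', hP', ← hmapmul, ← hmapmul, Matrix.map_apply]
    have e5 : δ * δ * (N g - 1) i j = (Q * Matrix.of y * P) i j := hinj (e1.trans e3)
    change δ * δ * (N g - 1) i j ∈ I
    rw [e5, Matrix.mul_apply]
    refine I.sum_mem fun k _ => I.mul_mem_right _ ?_
    rw [Matrix.mul_apply]
    exact I.sum_mem fun l _ => I.mul_mem_left _ (hyI _ _)

end Lattice

end Fermat.Agent.PseudoRep
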