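import Mathlib
import Fermat.Prelude.Def_GaloisRep_Adic
import Fermat.Agent.QbarInst
import Fermat.Agent.PseudoRep

set_option autoImplicit false

namespace Fermat.Agent.PseudoRep

open Polynomial IsLocalRing

local notation "Γℚ" => (AlgebraicClosure ℚ ≃ₐ[ℚ] AlgebraicClosure ℚ)

/-- A nonzero element of a discrete valuation ring divides everything in a large power of the
maximal ideal. -/
theorem exists_pow_le {𝒪 : Type*} [CommRing 𝒪] [IsDomain 𝒪] [IsDiscreteValuationRing 𝒪]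
    {J : Ideal 𝒪} (hJ : J ≠ ⊥) : ∃ k : ℕ, maximalIdeal 𝒪 ^ k ≤ J := by
  obtain ⟨ϖ, hϖ⟩ := IsDiscreteValuationRing.exists_irreducible 𝒪
  obtain ⟨k, hk⟩ := IsDiscreteValuationRing.ideal_eq_span_pow_irreducible hJ hϖ
  refine ⟨k, ?_⟩
  rw [hk, hϖ.maximalIdeal_eq, Ideal.span_singleton_pow]

/-- A continuous two dimensional pseudo-representation of `G_ℚ` with values in a discrete valuation
ring, odd in the sense that `D c = -1` for some involution `c`, comes from an adic Galois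
representation. -/
theorem exists_galoisRepAdic {𝒪 : Type} [CommRing 𝒪] [IsDomain 𝒪] [IsDiscreteValuationRing 𝒪]
    (h2 : (2 : 𝒪) ≠ 0) {T : Γℚ → 𝒪} {D : Γℚ →* 𝒪} {c : Γℚ}
    (hc : c * c = 1) (H : IsPseudoRep T D) (hDc : D c = -1)
    (hcont : ∀ n : ℕ, ∃ L : IntermediateField ℚ (AlgebraicClosure ℚ), FiniteDimensional ℚ L ∧
      ∀ σ : Γℚ, (∀ x ∈ L, σ x = x) → ∀ h, T (σ * h) - T h ∈ maximalIdeal 𝒪 ^ n) :
    ∃ ρ : GaloisRepAdic 𝒪,
      (∀ g, LinearMap.charpoly (ρ.ρ g) = X ^ 2 - C (T g) * X + C (D g)) ∧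
      ∀ g, (∀ h, T (g * h) = T h) → ρ.ρ g = 1 := by
  classical
  obtain ⟨N, δ, hδ, htr, hdet, hbd⟩ := exists_integral_rep h2 hc H hDc
  let ρ : Γℚ →* Module.End 𝒪 (Fin 2 → 𝒪) :=
    (Matrix.toLinAlgEquiv' : Matrix (Fin 2) (Fin 2) 𝒪 ≃ₐ[𝒪] _).toAlgHom.toRingHom.toMonoidHom.comp N
  have hρ : ∀ g, ρ g = Matrix.toLin' (N g) := fun g => rfl
  have hcont' : GaloisActionIsAdicContinuous 𝒪 ρ := by
    intro n
    have hJ : Ideal.span {δ} * maximalIdeal 𝒪 ^ n ≠ ⊥ := by
      obtain ⟨ϖ, hϖ⟩ := IsDiscreteValuationRing.exists_irreducible 𝒪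
      intro h
      have hmem : δ * ϖ ^ n ∈ Ideal.span {δ} * maximalIdeal 𝒪 ^ n :=
        Ideal.mul_mem_mul (Ideal.mem_span_singleton_self δ)
          (Ideal.pow_mem_pow (by rw [hϖ.maximalIdeal_eq]; exact Ideal.mem_span_singleton_self ϖ) n)
      rw [h, Ideal.mem_bot] at hmem
      exact (mul_ne_zero hδ (pow_ne_zero n hϖ.ne_zero)) hmem
    obtain ⟨k, hk⟩ := exists_pow_le hJ
    obtain ⟨L, hL, h⟩ := hcont k
    refine ⟨L, hL, fun σ hσ v => ?_⟩
    have hb := hbd _ σ (fun h' => hk (h σ hσ h'))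
    have hb' : ∀ i j, (N σ - 1) i j ∈ maximalIdeal 𝒪 ^ n := by
      intro i j
      obtain ⟨y, hy, hy'⟩ := Ideal.mem_span_singleton_mul.mp (hb i j)
      rwa [← mul_left_cancel₀ hδ hy']
    have e : ρ σ v - v = Matrix.toLin' (N σ - 1) v := by
      rw [hρ, map_sub, Matrix.toLin'_one, LinearMap.sub_apply, LinearMap.id_apply]
    rw [e]
    have e2 : ∀ w : Fin 2 → 𝒪, (∀ i, w i ∈ maximalIdeal 𝒪 ^ n) →
        w ∈ (maximalIdeal 𝒪 ^ n) • (⊤ : Submodule 𝒪 (Fin 2 → 𝒪)) := by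
      intro w hw
      have : w = ∑ i, w i • (Pi.single i 1 : Fin 2 → 𝒪) := by
        ext j; simp [Finset.sum_apply, Pi.single_apply]
      rw [this]
      exact Submodule.sum_mem _ fun i _ => Submodule.smul_mem_smul (hw i) Submodule.mem_top
    apply e2
    intro i
    rw [Matrix.toLin'_apply, Matrix.mulVec, dotProduct]
    exact Ideal.sum_mem _ fun j _ => Ideal.mul_mem_right _ _ (hb' i j)
  refine ⟨{ V := Fin 2 → 𝒪
            finrank_eq := by simp
            ρ := ρ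
            isAdicContinuous := hcont' }, ?_, ?_⟩
  · intro g
    change LinearMap.charpoly (Matrix.toLin' (N g)) = _
    rw [Matrix.charpoly_toLin', Matrix.charpoly_fin_two, htr, hdet]
  · intro g hg
    change Matrix.toLin' (N g) = 1
    have : N g = 1 := by
      have hb := hbd ⊥ g (fun h => by rw [hg h, sub_self]; exact Submodule.zero_mem _)
      ext i j
      have h1 := hb i j
      rw [Ideal.mem_bot] at h1
      have h3 := (mul_eq_zero.mp h1).resolve_left hδ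
      rw [Matrix.sub_apply, sub_eq_zero] at h3
      exact h3
    rw [this, Matrix.toLin'_one]
    rfl

end Fermat.Agent.PseudoRep
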