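import Mathlib
import Fermat.Prelude.Def_GaloisRep_Adic
import Fermat.Prelude.Def_GaloisRep_ComplexConjugation
import Fermat.Agent.QbarInst
import Fermat.Agent.PseudoRepGal
import Fermat.Agent.Lib.Cyclotomic
import Fermat.Agent.InvolutionCyc
import Fermat.Agent.FrobeniusDensity

/-!
# From Hecke-Galois modules to adic Galois representations

`exists_galoisRepAdic_of_heckeModule`: let `M` be an abelian group with commuting actions of `G_ℚ`
and of a commutative ring `A`, such that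

* the action of `G_ℚ` on `M[p^n]` is of finite level,
* it is unramified at all `q` not dividing `N p`,
* Frobenius elements at `ℓ ∉ S` satisfy the Eichler-Shimura relation
  `F² - X_ℓ F + ℓ = 0` on `M[p^∞]`,

and let `χ : A → 𝒪` be a ring homomorphism to a complete discrete valuation ring of residue
characteristic `p` such that every `a : A` killing `M[p^n]` has `p^n ∣ χ a`. Then there is an adic
Galois representation over `𝒪` with `charpoly (Frob_ℓ) = X² - χ(X_ℓ) X + ℓ` for `ℓ ∉ S`, unramified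
outside `N p`.
-/

set_option autoImplicit false
set_option linter.unusedSectionVars false

namespace Fermat.Agent.S30Assembly

open Polynomial IsLocalRing Fermat.Agent.PseudoRep Fermat.Agent.Cyclotomic

local notation "Qbar" => AlgebraicClosure ℚ
local notation "Γℚ" => (AlgebraicClosure ℚ ≃ₐ[ℚ] AlgebraicClosure ℚ)

section Limit

/-- `R` is `p`-adically separated and complete (elementary formulation). -/
structure PComplete (p : ℕ) (R : Type*) [CommRing R] : Prop where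
  separated : ∀ x : R, (∀ n : ℕ, (p : R) ^ n ∣ x) → x = 0
  complete : ∀ u : ℕ → R, (∀ n, (p : R) ^ n ∣ u (n + 1) - u n) → ∃ x, ∀ n, (p : R) ^ n ∣ x - u n

theorem pow_dvd_of_zmod_eq {R : Type*} [CommRing R] {p : ℕ} {n : ℕ} {a b : ℕ}
    (h : (a : ZMod (p ^ n)) = b) : (p : R) ^ n ∣ (a : R) - b := by
  rw [ZMod.natCast_eq_natCast_iff] at h
  obtain ⟨d, hd⟩ := Nat.modEq_iff_dvd.mp h.symm
  refine ⟨(d : R), ?_⟩
  have := congrArg (Int.cast : ℤ → R) hd
  push_cast at this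
  exact this

variable {𝒪 : Type*} [CommRing 𝒪] [IsDomain 𝒪] [IsDiscreteValuationRing 𝒪]
  [IsAdicComplete (maximalIdeal 𝒪) 𝒪] [CharZero 𝒪] {p : ℕ}

omit [CharZero 𝒪] in
theorem pow_mem (hp : (p : 𝒪) ∈ maximalIdeal 𝒪) {n : ℕ} {x : 𝒪} (hx : (p : 𝒪) ^ n ∣ x) :
    x ∈ maximalIdeal 𝒪 ^ n := by
  obtain ⟨y, rfl⟩ := hx
  exact Ideal.mul_mem_right _ _ (Ideal.pow_mem_pow hp n)

omit [CharZero 𝒪] in
theorem eq_zero_of_forall_dvd (hp : (p : 𝒪) ∈ maximalIdeal 𝒪) {x : 𝒪}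
    (hx : ∀ n : ℕ, (p : 𝒪) ^ n ∣ x) : x = 0 := by
  refine IsHausdorff.haus (I := maximalIdeal 𝒪) inferInstance x fun n => ?_
  rw [SModEq.zero, smul_eq_mul, Ideal.mul_top]
  exact pow_mem hp (hx n)

omit [CharZero 𝒪] in
theorem exists_limit (hp0 : (p : 𝒪) ≠ 0) (hp : (p : 𝒪) ∈ maximalIdeal 𝒪) (u : ℕ → 𝒪)
    (hu : ∀ n, (p : 𝒪) ^ n ∣ u (n + 1) - u n) : ∃ x, ∀ n, (p : 𝒪) ^ n ∣ x - u n := by
  have hmono : ∀ m n, m ≤ n → (p : 𝒪) ^ m ∣ u n - u m := by
    intro m n hmn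
    induction n, hmn using Nat.le_induction with
    | base => simp
    | succ k hk ih =>
      have h1 : (p : 𝒪) ^ m ∣ u (k + 1) - u k := (pow_dvd_pow _ hk).trans (hu k)
      have : u (k + 1) - u m = (u (k + 1) - u k) + (u k - u m) := by ring
      rw [this]
      exact dvd_add h1 ih
  obtain ⟨x, hx⟩ := IsPrecomplete.prec' (I := maximalIdeal 𝒪) (M := 𝒪) u (by
    intro m n hmn
    rw [SModEq.comm, SModEq.sub_mem, smul_eq_mul, Ideal.mul_top]
    exact pow_mem hp (hmono m n hmn))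
  refine ⟨x, fun n => ?_⟩
  have hne : Ideal.span {(p : 𝒪) ^ n} ≠ ⊥ := by
    rw [Ne, Ideal.span_singleton_eq_bot]
    exact pow_ne_zero n hp0
  obtain ⟨k, hk⟩ := exists_pow_le hne
  have h1 : x - u (max k n) ∈ maximalIdeal 𝒪 ^ k := by
    have := hx (max k n)
    rw [SModEq.comm, SModEq.sub_mem, smul_eq_mul, Ideal.mul_top] at this
    exact Ideal.pow_le_pow_right (le_max_left k n) this
  have h2 : (p : 𝒪) ^ n ∣ x - u (max k n) := Ideal.mem_span_singleton.mp (hk h1)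
  have h3 : (p : 𝒪) ^ n ∣ u (max k n) - u n := hmono n _ (le_max_right k n)
  have : x - u n = (x - u (max k n)) + (u (max k n) - u n) := by ring
  rw [this]
  exact dvd_add h2 h3

/-- A complete discrete valuation ring of characteristic zero and residue characteristic `p` is
`p`-adically complete. -/
theorem PComplete.of_dvr (hp0 : p ≠ 0) (hp : (p : 𝒪) ∈ maximalIdeal 𝒪) : PComplete p 𝒪 :=
  ⟨fun _ hx => eq_zero_of_forall_dvd hp hx, exists_limit (by exact_mod_cast hp0) hp⟩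

/-- A ring in which `p = 0` is `p`-adically complete. -/
theorem PComplete.of_eq_zero {R : Type*} [CommRing R] {p : ℕ} (hp : (p : R) = 0) :
    PComplete p R := by
  refine ⟨fun x hx => ?_, fun u hu => ⟨u 1, fun n => ?_⟩⟩
  · have := hx 1
    rw [pow_one, hp, zero_dvd_iff] at this
    exact this
  · rcases Nat.eq_zero_or_pos n with rfl | hn
    · rw [pow_zero]; exact one_dvd _
    · have h1 : ∀ k, 1 ≤ k → u k = u 1 := by
        intro k hk
        induction k, hk using Nat.le_induction with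
        | base => rfl
        | succ j hj ih =>
          have := hu j
          rw [hp, zero_pow (Nat.pos_iff_ne_zero.mp hj), zero_dvd_iff, sub_eq_zero] at this
          rw [this, ih]
      rw [h1 n hn, sub_self]
      exact dvd_zero _

/-- A complete discrete valuation ring of residue characteristic `p` is `p`-adically complete. -/
theorem PComplete.of_dvr' {𝒪 : Type*} [CommRing 𝒪] [IsDomain 𝒪] [IsDiscreteValuationRing 𝒪]
    [IsAdicComplete (maximalIdeal 𝒪) 𝒪] {p : ℕ} (hp : (p : 𝒪) ∈ maximalIdeal 𝒪) :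
    PComplete p 𝒪 := by
  by_cases h0 : (p : 𝒪) = 0
  · exact PComplete.of_eq_zero h0
  · exact ⟨fun _ hx => eq_zero_of_forall_dvd hp hx, exists_limit h0 hp⟩

/-- A finite free algebra over a `p`-adically complete ring is `p`-adically complete. -/
theorem PComplete.of_finite_free {R S : Type*} [CommRing R] [CommRing S] [Algebra R S]
    [Module.Finite R S] [Module.Free R S] {p : ℕ} (h : PComplete p R) : PComplete p S := by
  classical
  obtain _ | _ := subsingleton_or_nontrivial R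
  · have : Subsingleton S := Module.subsingleton R S
    exact ⟨fun x _ => Subsingleton.elim _ _, fun u _ => ⟨0, fun n => by
      rw [Subsingleton.elim (0 - u n) 0]; exact dvd_zero _⟩⟩
  let b := Module.Free.chooseBasis R S
  have hdvd : ∀ (n : ℕ) (x : S), ((p : S) ^ n ∣ x) ↔ ∀ i, (p : R) ^ n ∣ b.repr x i := by
    intro n x
    constructor
    · rintro ⟨y, rfl⟩ i
      refine ⟨b.repr y i, ?_⟩
      have e1 : (p : S) ^ n * y = ((p : R) ^ n) • y := by
        rw [Algebra.smul_def, map_pow, map_natCast]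
      rw [e1, map_smul, Finsupp.smul_apply, smul_eq_mul]
    · intro hx
      choose y hy using hx
      refine ⟨∑ i, y i • b i, ?_⟩
      have e1 : ∀ z : S, (p : S) ^ n * z = ((p : R) ^ n) • z := fun z => by
        rw [Algebra.smul_def, map_pow, map_natCast]
      rw [e1, Finset.smul_sum]
      conv_lhs => rw [← b.sum_repr x]
      exact Finset.sum_congr rfl fun i _ => by rw [smul_smul, ← hy]
  refine ⟨fun x hx => ?_, fun u hu => ?_⟩
  · apply b.repr.injective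
    rw [map_zero]
    ext i
    exact h.separated _ fun n => (hdvd n x).mp (hx n) i
  · have := fun i => h.complete (fun n => b.repr (u n) i) fun n => by
      have := (hdvd n _).mp (hu n) i
      rwa [map_sub, Finsupp.sub_apply] at this
    choose x hx using this
    refine ⟨∑ i, x i • b i, fun n => (hdvd n _).mpr fun i => ?_⟩
    rw [map_sub, Finsupp.sub_apply]
    have e1 : b.repr (∑ i, x i • b i) i = x i := by
      rw [map_sum, Finsupp.coe_finsetSum, Finset.sum_apply]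
      simp [Finsupp.single_apply]
    rw [e1]
    exact hx i n

/-- Products of `p`-adically complete rings are `p`-adically complete. -/
theorem PComplete.pi {ι : Type*} {R : ι → Type*} [∀ i, CommRing (R i)] {p : ℕ}
    (h : ∀ i, PComplete p (R i)) : PComplete p (∀ i, R i) := by
  have hdvd : ∀ (n : ℕ) (x : ∀ i, R i), ((p : ∀ i, R i) ^ n ∣ x) ↔ ∀ i, (p : R i) ^ n ∣ x i := by
    intro n x
    constructor
    · rintro ⟨y, rfl⟩ i
      exact ⟨y i, rfl⟩
    · intro hx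
      choose y hy using hx
      exact ⟨y, funext hy⟩
  refine ⟨fun x hx => funext fun i => (h i).separated _ fun n => (hdvd n x).mp (hx n) i,
    fun u hu => ?_⟩
  have := fun i => (h i).complete (fun n => u n i) fun n => (hdvd n _).mp (hu n) i
  choose x hx using this
  exact ⟨x, fun n => (hdvd n _).mpr fun i => hx i n⟩

end Limit

section Cyc

variable (p : ℕ) [Fact p.Prime]

instance (n : ℕ) : NeZero (p ^ n) := ⟨pow_ne_zero n (Fact.out : p.Prime).ne_zero⟩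

/-- a natural number representing the value of the mod `p^n` cyclotomic character. -/
noncomputable def e (n : ℕ) (g : Γℚ) : ℕ := (cyc (p ^ n) g : ZMod (p ^ n)).val

theorem e_cast (n : ℕ) (g : Γℚ) : ((e p n g : ℕ) : ZMod (p ^ n)) = (cyc (p ^ n) g : ZMod (p ^ n)) :=
  ZMod.natCast_zmod_val _

theorem e_succ (n : ℕ) (g : Γℚ) : ((e p (n + 1) g : ℕ) : ZMod (p ^ n)) = (e p n g : ℕ) := by
  rw [e_cast]
  symm
  refine cyc_unique_nat (p ^ n) g fun ζ hζ => ?_
  refine cyc_spec (p ^ (n + 1)) g ?_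
  rw [pow_succ, pow_mul, hζ, one_pow]

theorem e_mul (n : ℕ) (g h : Γℚ) :
    ((e p n (g * h) : ℕ) : ZMod (p ^ n)) = ((e p n g * e p n h : ℕ) : ZMod (p ^ n)) := by
  rw [e_cast, map_mul, Nat.cast_mul, e_cast, e_cast, Units.val_mul]

theorem e_one (n : ℕ) : ((e p n 1 : ℕ) : ZMod (p ^ n)) = ((1 : ℕ) : ZMod (p ^ n)) := by
  rw [e_cast, map_one, Units.val_one, Nat.cast_one]

theorem exists_D {R : Type*} [CommRing R] (hR : PComplete p R) :
    ∃ D : Γℚ →* R, ∀ g n, (p : R) ^ n ∣ D g - (e p n g : R) := by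
  have h : ∀ g : Γℚ, ∃ x : R, ∀ n, (p : R) ^ n ∣ x - (e p n g : R) := fun g =>
    hR.complete (fun n => (e p n g : R)) fun n => pow_dvd_of_zmod_eq (e_succ p n g)
  choose D hD using h
  refine ⟨{ toFun := D, map_one' := ?_, map_mul' := ?_ }, hD⟩
  · rw [← sub_eq_zero]
    refine hR.separated _ fun n => ?_
    have h1 := hD 1 n
    have h2 : (p : R) ^ n ∣ (e p n 1 : R) - ((1 : ℕ) : R) := pow_dvd_of_zmod_eq (e_one p n)
    have h3 := dvd_add h1 h2
    simpa using h3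
  · intro g h
    rw [← sub_eq_zero]
    refine hR.separated _ fun n => ?_
    have h1 := hD (g * h) n
    have h2 : (p : R) ^ n ∣ (e p n (g * h) : R) - ((e p n g * e p n h : ℕ) : R) :=
      pow_dvd_of_zmod_eq (e_mul p n g h)
    have h3 := hD g n
    have h4 := hD h n
    have : D (g * h) - D g * D h = (D (g * h) - (e p n (g * h) : R)) +
        ((e p n (g * h) : R) - ((e p n g * e p n h : ℕ) : R)) -
        (D g - (e p n g : R)) * D h - (e p n g : R) * (D h - (e p n h : R)) := by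
      push_cast
      ring
    rw [this]
    exact dvd_sub (dvd_sub (dvd_add h1 h2) (h3.mul_right _)) (h4.mul_left _)

end Cyc

section Conj

/-- There is an involution in `G_ℚ`. -/
theorem exists_involution : ∃ c : Γℚ, c * c = 1 ∧ c ≠ 1 := by
  refine ⟨complexConjugation, complexConjugation_mul_self, ?_⟩
  intro h
  obtain ⟨x, hx⟩ : ∃ x : Qbar, x ^ 2 = -1 := IsAlgClosed.exists_pow_nat_eq _ (by norm_num)
  have h1 := complexEmbedding_complexConjugation x
  rw [h, AlgEquiv.one_apply] at h1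
  have h2 : (complexEmbedding x) ^ 2 = -1 := by rw [← map_pow, hx, map_neg, map_one]
  have h3 := (Complex.conj_eq_iff_real.mp h1.symm)
  obtain ⟨r, hr⟩ := h3
  rw [hr] at h2
  have h4 : r ^ 2 = -1 := by exact_mod_cast h2
  nlinarith [sq_nonneg r]

end Conj

section Abstract

variable {A M : Type*} [CommRing A] [AddCommGroup M] [Module A M] [DistribMulAction Γℚ M]
  [SMulCommClass Γℚ A M] {p : ℕ} [Fact p.Prime]

theorem nsmul_congr {M : Type*} [AddCommGroup M] {n : ℕ} {a b : ℕ} (h : (a : ZMod (p ^ n)) = b)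
    {m : M} (hm : p ^ n • m = 0) : a • m = b • m := by
  rw [ZMod.natCast_eq_natCast_iff] at h
  have key : ∀ c : ℕ, c • m = (c % p ^ n) • m := by
    intro c
    conv_lhs => rw [← Nat.div_add_mod c (p ^ n), add_smul, mul_comm, mul_smul, hm, smul_zero,
      zero_add]
  rw [key a, key b, h]

theorem gal_nsmul (g : Γℚ) (k : ℕ) (m : M) : g • (k • m) = k • (g • m) :=
  map_nsmul (DistribSMul.toAddMonoidHom M g) k m

variable (M p) in
/-- `a` represents the operator `g + ε(g) g⁻¹` on `M[p^n]`. -/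
def Represents (n : ℕ) (g : Γℚ) (a : A) : Prop :=
  ∀ m : M, p ^ n • m = 0 → a • m = g • m + e p n g • (g⁻¹ • m)

theorem nsmul_smul_gal {n : ℕ} {g : Γℚ} {m : M} (hm : p ^ n • m = 0) : p ^ n • (g • m) = 0 := by
  rw [← gal_nsmul, hm, smul_zero]

theorem Represents.succ {n : ℕ} {g : Γℚ} {a : A} (h : Represents M p (n + 1) g a) :
    Represents M p n g a := by
  intro m hm
  rw [h m (by rw [pow_succ', mul_smul, hm, smul_zero]),
    nsmul_congr (e_succ p n g) (nsmul_smul_gal hm)]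

theorem Represents.sub_kills {n : ℕ} {g : Γℚ} {a b : A} (ha : Represents M p n g a)
    (hb : Represents M p n g b) (m : M) (hm : p ^ n • m = 0) : (a - b) • m = 0 := by
  rw [sub_smul, ha m hm, hb m hm, sub_self]

theorem Represents.one (n : ℕ) : Represents M p n 1 (2 : A) := by
  intro m hm
  rw [inv_one, one_smul, nsmul_congr (e_one p n) hm, one_smul]
  have : (2 : A) • m = (1 + 1 : A) • m := by norm_num
  rw [this, add_smul, one_smul]

theorem Represents.comm {n : ℕ} {g h : Γℚ} {a : A} (H : Represents M p n (g * h) a) :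
    Represents M p n (h * g) a := by
  intro m hm
  have h1 := H (h⁻¹ • m) (nsmul_smul_gal hm)
  have h2 := congrArg (fun x => h • x) h1
  simp only [smul_add] at h2
  rw [smul_comm h a (h⁻¹ • m), smul_inv_smul] at h2
  rw [h2]
  have e1 : h • (g * h) • h⁻¹ • m = (h * g) • m := by
    rw [smul_smul, smul_smul]; congr 1; group
  have e2 : (e p n (g * h) : ZMod (p ^ n)) = e p n (h * g) := by
    rw [e_mul, e_mul, mul_comm]
  rw [e1, gal_nsmul]
  have e3 : h • (g * h)⁻¹ • h⁻¹ • m = (h * g)⁻¹ • m := by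
    rw [smul_smul, smul_smul]; congr 1; group
  rw [e3, nsmul_congr e2 (nsmul_smul_gal hm)]

/-- The pseudo-character relation at finite level. -/
theorem Represents.mul_kills {n : ℕ} {g h : Γℚ} {a b c d : A} (ha : Represents M p n g a)
    (hb : Represents M p n h b) (hc : Represents M p n (g * h) c)
    (hd : Represents M p n (g * h⁻¹) d) (m : M) (hm : p ^ n • m = 0) :
    (c + (e p n h : A) * d - a * b) • m = 0 := by
  have hbm : p ^ n • (b • m) = 0 := by rw [smul_comm, hm, smul_zero]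
  have h1 : (a * b) • m = g • (b • m) + e p n g • (g⁻¹ • (b • m)) := by
    rw [mul_smul, ha _ hbm]
  have h2 : g • (b • m) = (g * h) • m + e p n h • ((g * h⁻¹) • m) := by
    rw [hb m hm, smul_add, smul_smul, gal_nsmul, smul_smul]
  have h3 : g⁻¹ • (b • m) = (h * g⁻¹) • m + e p n h • ((g * h)⁻¹ • m) := by
    rw [smul_comm, hb _ (nsmul_smul_gal hm), smul_smul, smul_smul, mul_inv_rev]
  have h4 : c • m = (g * h) • m + (e p n g * e p n h) • ((g * h)⁻¹ • m) := by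
    rw [hc m hm, nsmul_congr (e_mul p n g h) (nsmul_smul_gal hm)]
  have h5 : ((e p n h : A) * d) • m = e p n h • ((g * h⁻¹) • m) +
      e p n g • ((h * g⁻¹) • m) := by
    rw [mul_smul, Nat.cast_smul_eq_nsmul, hd m hm, smul_add, smul_smul]
    congr 1
    have e1 : (g * h⁻¹)⁻¹ = h * g⁻¹ := by group
    rw [e1]
    apply nsmul_congr _ (nsmul_smul_gal hm)
    have e2 := e_mul p n (g * h⁻¹) h
    rw [inv_mul_cancel_right] at e2
    rw [e2, mul_comm]
  rw [sub_smul, add_smul, h1, h2, h3, h4, h5]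
  rw [smul_add, smul_smul]
  abel

theorem Represents.of_trivial {n : ℕ} {τ h : Γℚ} {a : A} (H : Represents M p n h a)
    (hτ : ∀ m : M, p ^ n • m = 0 → τ • m = m) (hτc : cyc (p ^ n) τ = 1) :
    Represents M p n (τ * h) a := by
  intro m hm
  have e2 : (e p n h : ZMod (p ^ n)) = e p n (τ * h) := by
    rw [e_cast, e_cast, map_mul, hτc, one_mul]
  have hτ' : τ⁻¹ • m = m := by
    rw [inv_smul_eq_iff, hτ m hm]
  rw [H m hm, mul_smul, hτ _ (nsmul_smul_gal hm), mul_inv_rev, mul_smul, hτ',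
    nsmul_congr e2 (nsmul_smul_gal hm)]

/-- Powers: the Lucas sequence. -/
theorem exists_lucas (n : ℕ) {σ : Γℚ} {x : A} {ℓ : ℕ}
    (hσ : ∀ m : M, p ^ n • m = 0 → x • m = σ • m + ℓ • (σ⁻¹ • m)) (k : ℕ) :
    ∃ a b : A, (∀ m : M, p ^ n • m = 0 → a • m = σ ^ k • m + ℓ ^ k • ((σ ^ k)⁻¹ • m)) ∧
      (∀ m : M, p ^ n • m = 0 → b • m = σ ^ (k + 1) • m + ℓ ^ (k + 1) • ((σ ^ (k + 1))⁻¹ • m)) := by
  induction k with
  | zero =>
    refine ⟨2, x, fun m _ => ?_, fun m hm => ?_⟩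
    · have : (2 : A) • m = (1 + 1 : A) • m := by norm_num
      rw [this, add_smul]
      simp
    · simpa using hσ m hm
  | succ k ih =>
    obtain ⟨a, b, ha, hb⟩ := ih
    refine ⟨b, x * b - (ℓ : A) * a, hb, fun m hm => ?_⟩
    have hbm : p ^ n • (b • m) = 0 := by rw [smul_comm, hm, smul_zero]
    rw [sub_smul, mul_smul, mul_smul, Nat.cast_smul_eq_nsmul, hσ _ hbm, ha m hm, hb m hm]
    have e1 : σ • σ ^ (k + 1) • m = σ ^ (k + 1 + 1) • m := by rw [smul_smul, ← pow_succ']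
    have e2 : σ • (σ ^ (k + 1))⁻¹ • m = (σ ^ k)⁻¹ • m := by
      rw [smul_smul]; congr 1; group
    have e3 : σ⁻¹ • σ ^ (k + 1) • m = σ ^ k • m := by
      rw [pow_succ', mul_smul, inv_smul_smul]
    have e4 : σ⁻¹ • (σ ^ (k + 1))⁻¹ • m = (σ ^ (k + 1 + 1))⁻¹ • m := by
      rw [smul_smul, ← mul_inv_rev, ← pow_succ]
    rw [smul_add, smul_add, gal_nsmul, gal_nsmul, e1, e2, e3, e4, smul_add, smul_add, smul_smul,
      smul_smul, ← pow_succ', ← pow_succ']
    abel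

end Abstract

section Main

variable {A M : Type*} [CommRing A] [AddCommGroup M] [Module A M] [DistribMulAction Γℚ M]
  [SMulCommClass Γℚ A M] {p : ℕ} [Fact p.Prime]

/-- Every `g` is represented by an element of `A`, by Frobenius density. -/
theorem exists_represents (S : Finset ℕ) (x : ℕ → A)
    (hlev : ∀ n : ℕ, ∃ L : IntermediateField ℚ Qbar, FiniteDimensional ℚ L ∧
      ∀ σ : Γℚ, (∀ y ∈ L, σ y = y) → ∀ m : M, p ^ n • m = 0 → σ • m = m)
    (hfrob : ∀ ℓ : ℕ, ℓ.Prime → ℓ ∉ S → ∀ B : ValuationSubring Qbar, B.LiesOverPrime ℓ →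
      ∀ σ : Γℚ, B.IsFrobeniusAt σ ℓ → ∀ m : M, (∃ n : ℕ, p ^ n • m = 0) →
        σ • σ • m - x ℓ • (σ • m) + ℓ • m = 0)
    (n : ℕ) (g : Γℚ) : ∃ a : A, Represents M p n g a := by
  obtain ⟨L₁, hL₁, h₁⟩ := hlev n
  obtain ⟨L₂, hL₂, h₂⟩ := cyc_finite_level (p ^ n)
  have hfd : FiniteDimensional ℚ (L₁ ⊔ L₂ : IntermediateField ℚ Qbar) :=
    IntermediateField.finiteDimensional_sup L₁ L₂
  obtain ⟨ℓ, hℓ, hℓS, B, σ, hB, hσ, ⟨k, hk⟩, -⟩ :=
    FrobDensity.frobenius_density (L₁ ⊔ L₂) (S ∪ {p}) g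
  rw [Finset.mem_union, Finset.mem_singleton, not_or] at hℓS
  have hℓp : ¬ ℓ ∣ p ^ n := fun h => hℓS.2 ((Nat.prime_dvd_prime_iff_eq hℓ Fact.out).mp
    (hℓ.dvd_of_dvd_pow h))
  -- the relation for `σ`
  have hσ1 : ∀ m : M, p ^ n • m = 0 → x ℓ • m = σ • m + ℓ • (σ⁻¹ • m) := by
    intro m hm
    have h := hfrob ℓ hℓ hℓS.1 B hB σ hσ (σ⁻¹ • m) ⟨n, nsmul_smul_gal hm⟩
    rw [smul_inv_smul] at h
    rw [sub_add_eq_add_sub, sub_eq_zero] at h
    exact h.symm
  obtain ⟨a, -, ha, -⟩ := exists_lucas n hσ1 k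
  -- `g` and `σ ^ k` agree at level `L₁ ⊔ L₂`
  have hfix : ∀ y ∈ (L₁ ⊔ L₂ : IntermediateField ℚ Qbar), ((σ ^ k)⁻¹ * g) y = y := by
    intro y hy
    rw [AlgEquiv.mul_apply, hk y hy, ← AlgEquiv.mul_apply, inv_mul_cancel, AlgEquiv.one_apply]
  have hM : ∀ m : M, p ^ n • m = 0 → g • m = σ ^ k • m := by
    intro m hm
    have := h₁ _ (fun y hy => hfix y ((le_sup_left : L₁ ≤ L₁ ⊔ L₂) hy)) m hm
    rw [mul_smul, inv_smul_eq_iff] at this
    exact this
  have hM' : ∀ m : M, p ^ n • m = 0 → g⁻¹ • m = (σ ^ k)⁻¹ • m := by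
    intro m hm
    rw [inv_smul_eq_iff, hM _ (nsmul_smul_gal hm), smul_inv_smul]
  have hC : cyc (p ^ n) g = cyc (p ^ n) (σ ^ k) := by
    have := h₂ _ (fun y hy => hfix y ((le_sup_right : L₂ ≤ L₁ ⊔ L₂) hy))
    rw [map_mul, map_inv, inv_mul_eq_one] at this
    exact this.symm
  have hC' : ((e p n g : ℕ) : ZMod (p ^ n)) = ((ℓ ^ k : ℕ) : ZMod (p ^ n)) := by
    rw [e_cast, hC, map_pow, Units.val_pow_eq_pow_val, cyc_frobenius hℓ hℓp B hB hσ]
    push_cast
    rfl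
  refine ⟨a, fun m hm => ?_⟩
  rw [ha m hm, hM m hm, hM' m hm, nsmul_congr hC' (nsmul_smul_gal hm)]

/-- Hecke-Galois modules give continuous pseudo-representations over any `p`-adically complete
coefficient ring `R` (version with a bounded defect `c` in the support condition). -/
theorem exists_pseudoRep_of_heckeModule_shift (N : ℕ) (S : Finset ℕ)
    (hpS : p ∈ S) (x : ℕ → A)
    (hlev : ∀ n : ℕ, ∃ L : IntermediateField ℚ Qbar, FiniteDimensional ℚ L ∧
      ∀ σ : Γℚ, (∀ y ∈ L, σ y = y) → ∀ m : M, p ^ n • m = 0 → σ • m = m)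
    (hunr : ∀ q : ℕ, q.Prime → ¬ q ∣ N → q ≠ p → ∀ B : ValuationSubring Qbar,
      B.LiesOverPrime q → ∀ σ ∈ B.inertiaSubgroupIn ℚ, ∀ m : M, (∃ n : ℕ, p ^ n • m = 0) →
        σ • m = m)
    (hfrob : ∀ ℓ : ℕ, ℓ.Prime → ℓ ∉ S → ∀ B : ValuationSubring Qbar, B.LiesOverPrime ℓ →
      ∀ σ : Γℚ, B.IsFrobeniusAt σ ℓ → ∀ m : M, (∃ n : ℕ, p ^ n • m = 0) →
        σ • σ • m - x ℓ • (σ • m) + ℓ • m = 0)
    {R : Type*} [CommRing R] (hR : PComplete p R) (χ : A →+* R)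
    (s : ℕ)
    (hsupp : ∀ (n : ℕ) (a : A), (∀ m : M, p ^ (n + s) • m = 0 → a • m = 0) → (p : R) ^ n ∣ χ a) :
    ∃ (T : Γℚ → R) (D : Γℚ →* R), IsPseudoRep T D ∧
      (∀ c : Γℚ, c * c = 1 → c ≠ 1 → D c = -1) ∧
      (∀ g n, (p : R) ^ n ∣ D g - (e p n g : R)) ∧
      (∀ n : ℕ, ∃ L : IntermediateField ℚ Qbar, FiniteDimensional ℚ L ∧
        ∀ σ : Γℚ, (∀ y ∈ L, σ y = y) →
          (∀ h, (p : R) ^ n ∣ T (σ * h) - T h) ∧ (p : R) ^ n ∣ D σ - 1) ∧
      (∀ ℓ : ℕ, ℓ.Prime → ℓ ∉ S → ∀ B : ValuationSubring Qbar, B.LiesOverPrime ℓ →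
        ∀ σ : Γℚ, B.IsFrobeniusAt σ ℓ → T σ = χ (x ℓ) ∧ D σ = (ℓ : R)) ∧
      (∀ q : ℕ, q.Prime → ¬ q ∣ N → q ≠ p → ∀ B : ValuationSubring Qbar, B.LiesOverPrime q →
        ∀ σ ∈ B.inertiaSubgroupIn ℚ, (∀ h, T (σ * h) = T h) ∧ D σ = 1) := by
  have hp0 : p ≠ 0 := (Fact.out : p.Prime).ne_zero
  -- the representatives
  have hrep := exists_represents (M := M) (p := p) S x hlev hfrob
  choose a₀ ha₀ using hrep
  let a : ℕ → Γℚ → A := fun n g => a₀ (n + s) g
  have ha : ∀ n g, Represents M p (n + s) g (a n g) := fun n g => ha₀ (n + s) g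
  -- the traces
  have hT : ∀ g : Γℚ, ∃ t : R, ∀ n, (p : R) ^ n ∣ t - χ (a n g) := fun g =>
    hR.complete (fun n => χ (a n g)) fun n => by
      rw [← map_sub]
      have h1 : Represents M p (n + s + 1) g (a (n + 1) g) := by
        have := ha (n + 1) g
        rwa [show n + 1 + s = n + s + 1 by ring] at this
      exact hsupp n _ (h1.succ.sub_kills (ha n g))
  choose T hT using hT
  have hT' : ∀ g n b, Represents M p (n + s) g b → (p : R) ^ n ∣ T g - χ b := by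
    intro g n b hb
    have h1 := hT g n
    have h2 : (p : R) ^ n ∣ χ (a n g - b) := hsupp n _ ((ha n g).sub_kills hb)
    have : T g - χ b = (T g - χ (a n g)) + χ (a n g - b) := by rw [map_sub]; ring
    rw [this]
    exact dvd_add h1 h2
  have hTuniq : ∀ g (t : R), (∀ n, ∃ b, Represents M p (n + s) g b ∧ (p : R) ^ n ∣ t - χ b) →
      T g = t := by
    intro g t ht
    rw [← sub_eq_zero]
    refine hR.separated _ fun n => ?_
    obtain ⟨b, hb, hb'⟩ := ht n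
    have : T g - t = (T g - χ b) - (t - χ b) := by ring
    rw [this]
    exact dvd_sub (hT' g n b hb) hb'
  -- the determinant
  obtain ⟨D, hD⟩ := exists_D p hR
  have hDs : ∀ g n, (p : R) ^ n ∣ D g - (e p (n + s) g : R) := fun g n =>
    (pow_dvd_pow _ (Nat.le_add_right n s)).trans (hD g (n + s))
  -- triviality
  have htriv : ∀ τ : Γℚ, (∀ n, (∀ m : M, p ^ n • m = 0 → τ • m = m) ∧ cyc (p ^ n) τ = 1) →
      (∀ h, T (τ * h) = T h) ∧ D τ = 1 := by
    intro τ hτ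
    constructor
    · intro h
      exact hTuniq _ _ fun n => ⟨a n h, (ha n h).of_trivial (hτ (n + s)).1 (hτ (n + s)).2, hT h n⟩
    · rw [← sub_eq_zero]
      refine hR.separated _ fun n => ?_
      have h1 := hD τ n
      have h2 : ((e p n τ : ℕ) : ZMod (p ^ n)) = ((1 : ℕ) : ZMod (p ^ n)) := by
        rw [e_cast, (hτ n).2, Units.val_one, Nat.cast_one]
      have h3 : (p : R) ^ n ∣ ((e p n τ : ℕ) : R) - ((1 : ℕ) : R) := pow_dvd_of_zmod_eq h2
      have := dvd_add h1 h3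
      simpa using this
  refine ⟨T, D, ⟨?_, ?_, ?_⟩, ?_, hD, ?_, ?_, ?_⟩
  · exact hTuniq 1 2 fun n => ⟨2, Represents.one (n + s), by
      rw [map_ofNat, sub_self]; exact dvd_zero _⟩
  · intro g h
    exact hTuniq _ _ fun n => ⟨a n (h * g), (ha n (h * g)).comm, hT (h * g) n⟩
  · intro g h
    rw [← sub_eq_zero]
    refine hR.separated _ fun n => ?_
    have h0 : (p : R) ^ n ∣ χ (a n (g * h) + (e p (n + s) h : A) * a n (g * h⁻¹) -
        a n g * a n h) :=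
      hsupp n _ ((ha n g).mul_kills (ha n h) (ha n (g * h)) (ha n (g * h⁻¹)))
    have e1 := hT (g * h) n
    have e2 := hT (g * h⁻¹) n
    have e3 := hT g n
    have e4 := hT h n
    have e5 := hDs h n
    rw [map_sub, map_add, map_mul, map_mul, map_natCast] at h0
    have : T (g * h) + D h * T (g * h⁻¹) - T g * T h =
        (T (g * h) - χ (a n (g * h))) +
        (D h - (e p (n + s) h : R)) * T (g * h⁻¹) +
        (e p (n + s) h : R) * (T (g * h⁻¹) - χ (a n (g * h⁻¹))) -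
        (T g - χ (a n g)) * T h - χ (a n g) * (T h - χ (a n h)) +
        (χ (a n (g * h)) + (e p (n + s) h : R) * χ (a n (g * h⁻¹)) -
          χ (a n g) * χ (a n h)) := by
      ring
    rw [this]
    exact dvd_add (dvd_sub (dvd_sub (dvd_add (dvd_add e1 (e5.mul_right _)) (e2.mul_left _))
      (e3.mul_right _)) (e4.mul_left _)) h0
  · -- complex conjugation
    intro c hc hc1
    rw [← sub_eq_zero]
    refine hR.separated _ fun n => ?_
    have h1 := hD c n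
    have h2 : ((e p n c : ℕ) : ZMod (p ^ n)) = ((p ^ n - 1 : ℕ) : ZMod (p ^ n)) := by
      rw [e_cast, InvolutionCyc.cyc_involution (p ^ n) c hc hc1,
        Nat.cast_sub (Nat.pos_of_ne_zero (pow_ne_zero n hp0)), ZMod.natCast_self,
        Units.val_neg, Units.val_one, Nat.cast_one, zero_sub]
    have h3 : (p : R) ^ n ∣ ((e p n c : ℕ) : R) - ((p ^ n - 1 : ℕ) : R) := pow_dvd_of_zmod_eq h2
    have h4 : D c - -1 = (D c - (e p n c : R)) + (((e p n c : ℕ) : R) - ((p ^ n - 1 : ℕ) : R)) +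
        (p : R) ^ n := by
      rw [Nat.cast_sub (Nat.pos_of_ne_zero (pow_ne_zero n hp0))]
      push_cast
      ring
    rw [h4]
    exact dvd_add (dvd_add h1 h3) dvd_rfl
  · -- continuity
    intro n
    obtain ⟨L₁, hL₁, h₁⟩ := hlev (n + s)
    obtain ⟨L₂, hL₂, h₂⟩ := cyc_finite_level (p ^ (n + s))
    have hfd : FiniteDimensional ℚ (L₁ ⊔ L₂ : IntermediateField ℚ Qbar) :=
      IntermediateField.finiteDimensional_sup L₁ L₂
    refine ⟨L₁ ⊔ L₂, hfd, fun σ hσ => ?_⟩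
    have hσ₂ : cyc (p ^ (n + s)) σ = 1 := h₂ σ fun y hy => hσ y ((le_sup_right : L₂ ≤ L₁ ⊔ L₂) hy)
    constructor
    · intro h
      have h3 : Represents M p (n + s) (σ * h) (a n h) := (ha n h).of_trivial
        (h₁ σ fun y hy => hσ y ((le_sup_left : L₁ ≤ L₁ ⊔ L₂) hy)) hσ₂
      have h4 := hT' _ _ _ h3
      have h5 := hT h n
      have : T (σ * h) - T h = (T (σ * h) - χ (a n h)) - (T h - χ (a n h)) := by ring
      rw [this]
      exact dvd_sub h4 h5
    · have h1 := hD σ (n + s)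
      have h2 : ((e p (n + s) σ : ℕ) : ZMod (p ^ (n + s))) = ((1 : ℕ) : ZMod (p ^ (n + s))) := by
        rw [e_cast, hσ₂, Units.val_one, Nat.cast_one]
      have h3 : (p : R) ^ (n + s) ∣ ((e p (n + s) σ : ℕ) : R) - ((1 : ℕ) : R) :=
        pow_dvd_of_zmod_eq h2
      have := dvd_add h1 h3
      refine (pow_dvd_pow _ (Nat.le_add_right n s)).trans ?_
      simpa using this
  · -- Frobenius
    intro ℓ hℓ hℓS B hB σ hσ
    have hℓp : ∀ n, ¬ ℓ ∣ p ^ n := fun n h => by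
      have : ℓ = p := (Nat.prime_dvd_prime_iff_eq hℓ Fact.out).mp (hℓ.dvd_of_dvd_pow h)
      rw [this] at hℓS
      exact hℓS hpS
    have he : ∀ n, ((e p n σ : ℕ) : ZMod (p ^ n)) = ((ℓ : ℕ) : ZMod (p ^ n)) := fun n => by
      rw [e_cast, cyc_frobenius hℓ (hℓp n) B hB hσ]
    constructor
    · refine hTuniq _ _ fun n => ⟨x ℓ, fun m hm => ?_, by simp⟩
      have h := hfrob ℓ hℓ hℓS B hB σ hσ (σ⁻¹ • m) ⟨n + s, nsmul_smul_gal hm⟩
      rw [smul_inv_smul] at h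
      rw [sub_add_eq_add_sub, sub_eq_zero] at h
      rw [← h, nsmul_congr (he (n + s)) (nsmul_smul_gal hm)]
    · rw [← sub_eq_zero]
      refine hR.separated _ fun n => ?_
      have h1 := hD σ n
      have h3 : (p : R) ^ n ∣ ((e p n σ : ℕ) : R) - ((ℓ : ℕ) : R) := pow_dvd_of_zmod_eq (he n)
      have : D σ - (ℓ : R) = (D σ - (e p n σ : R)) + (((e p n σ : ℕ) : R) - ((ℓ : ℕ) : R)) := by
        ring
      rw [this]
      exact dvd_add h1 h3
  · -- inertia
    intro q hq hqN hqp B hB σ hσ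
    refine htriv σ fun n => ⟨fun m hm => hunr q hq hqN hqp B hB σ hσ m ⟨n, hm⟩, ?_⟩
    exact cyc_inertia hq (fun h => hqp ((Nat.prime_dvd_prime_iff_eq hq Fact.out).mp
      (hq.dvd_of_dvd_pow h))) B hB hσ

/-- Hecke-Galois modules give continuous pseudo-representations over any `p`-adically complete
coefficient ring `R`. -/
theorem exists_pseudoRep_of_heckeModule (N : ℕ) (S : Finset ℕ)
    (hpS : p ∈ S) (x : ℕ → A)
    (hlev : ∀ n : ℕ, ∃ L : IntermediateField ℚ Qbar, FiniteDimensional ℚ L ∧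
      ∀ σ : Γℚ, (∀ y ∈ L, σ y = y) → ∀ m : M, p ^ n • m = 0 → σ • m = m)
    (hunr : ∀ q : ℕ, q.Prime → ¬ q ∣ N → q ≠ p → ∀ B : ValuationSubring Qbar,
      B.LiesOverPrime q → ∀ σ ∈ B.inertiaSubgroupIn ℚ, ∀ m : M, (∃ n : ℕ, p ^ n • m = 0) →
        σ • m = m)
    (hfrob : ∀ ℓ : ℕ, ℓ.Prime → ℓ ∉ S → ∀ B : ValuationSubring Qbar, B.LiesOverPrime ℓ →
      ∀ σ : Γℚ, B.IsFrobeniusAt σ ℓ → ∀ m : M, (∃ n : ℕ, p ^ n • m = 0) →
        σ • σ • m - x ℓ • (σ • m) + ℓ • m = 0)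
    {R : Type*} [CommRing R] (hR : PComplete p R) (χ : A →+* R)
    (hsupp : ∀ (n : ℕ) (a : A), (∀ m : M, p ^ n • m = 0 → a • m = 0) → (p : R) ^ n ∣ χ a) :
    ∃ (T : Γℚ → R) (D : Γℚ →* R), IsPseudoRep T D ∧
      (∀ c : Γℚ, c * c = 1 → c ≠ 1 → D c = -1) ∧
      (∀ g n, (p : R) ^ n ∣ D g - (e p n g : R)) ∧
      (∀ n : ℕ, ∃ L : IntermediateField ℚ Qbar, FiniteDimensional ℚ L ∧
        ∀ σ : Γℚ, (∀ y ∈ L, σ y = y) →
          (∀ h, (p : R) ^ n ∣ T (σ * h) - T h) ∧ (p : R) ^ n ∣ D σ - 1) ∧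
      (∀ ℓ : ℕ, ℓ.Prime → ℓ ∉ S → ∀ B : ValuationSubring Qbar, B.LiesOverPrime ℓ →
        ∀ σ : Γℚ, B.IsFrobeniusAt σ ℓ → T σ = χ (x ℓ) ∧ D σ = (ℓ : R)) ∧
      (∀ q : ℕ, q.Prime → ¬ q ∣ N → q ≠ p → ∀ B : ValuationSubring Qbar, B.LiesOverPrime q →
        ∀ σ ∈ B.inertiaSubgroupIn ℚ, (∀ h, T (σ * h) = T h) ∧ D σ = 1) :=
  exists_pseudoRep_of_heckeModule_shift N S hpS x hlev hunr hfrob hR χ 0 hsupp

/-- **Main assembly theorem**: Hecke-Galois modules give adic Galois representations. -/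
theorem exists_galoisRepAdic_of_heckeModule_shift (N : ℕ) (S : Finset ℕ)
    (hpS : p ∈ S) (x : ℕ → A)
    (hlev : ∀ n : ℕ, ∃ L : IntermediateField ℚ Qbar, FiniteDimensional ℚ L ∧
      ∀ σ : Γℚ, (∀ y ∈ L, σ y = y) → ∀ m : M, p ^ n • m = 0 → σ • m = m)
    (hunr : ∀ q : ℕ, q.Prime → ¬ q ∣ N → q ≠ p → ∀ B : ValuationSubring Qbar,
      B.LiesOverPrime q → ∀ σ ∈ B.inertiaSubgroupIn ℚ, ∀ m : M, (∃ n : ℕ, p ^ n • m = 0) →
        σ • m = m)
    (hfrob : ∀ ℓ : ℕ, ℓ.Prime → ℓ ∉ S → ∀ B : ValuationSubring Qbar, B.LiesOverPrime ℓ →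
      ∀ σ : Γℚ, B.IsFrobeniusAt σ ℓ → ∀ m : M, (∃ n : ℕ, p ^ n • m = 0) →
        σ • σ • m - x ℓ • (σ • m) + ℓ • m = 0)
    {𝒪 : Type} [CommRing 𝒪] [IsDomain 𝒪] [IsDiscreteValuationRing 𝒪]
    [IsAdicComplete (maximalIdeal 𝒪) 𝒪] [CharZero 𝒪] (hp : (p : 𝒪) ∈ maximalIdeal 𝒪)
    (χ : A →+* 𝒪)
    (s : ℕ)
    (hsupp : ∀ (n : ℕ) (a : A), (∀ m : M, p ^ (n + s) • m = 0 → a • m = 0) → (p : 𝒪) ^ n ∣ χ a) :
    ∃ ρ : GaloisRepAdic 𝒪,
      (∀ ℓ : ℕ, ℓ.Prime → ℓ ∉ S → ∀ B : ValuationSubring Qbar, B.LiesOverPrime ℓ →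
        ∀ σ : Γℚ, B.IsFrobeniusAt σ ℓ →
          LinearMap.charpoly (ρ.ρ σ) = X ^ 2 - C (χ (x ℓ)) * X + C ((ℓ : 𝒪))) ∧
      (∀ q : ℕ, q.Prime → ¬ q ∣ N → q ≠ p → ρ.IsUnramifiedAt q) := by
  have hp0 : p ≠ 0 := (Fact.out : p.Prime).ne_zero
  obtain ⟨T, D, H, hDc, -, hcont, hfr, hin⟩ := exists_pseudoRep_of_heckeModule_shift N S hpS x hlev
    hunr hfrob (PComplete.of_dvr hp0 hp) χ s hsupp
  obtain ⟨c, hc, hc1⟩ := exists_involution
  have h2 : (2 : 𝒪) ≠ 0 := two_ne_zero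
  obtain ⟨ρ, hρ1, hρ2⟩ := exists_galoisRepAdic h2 hc H (hDc c hc hc1) (fun n => by
    obtain ⟨L, hL, h⟩ := hcont n
    exact ⟨L, hL, fun σ hσ h' => pow_mem hp ((h σ hσ).1 h')⟩)
  refine ⟨ρ, ?_, ?_⟩
  · intro ℓ hℓ hℓS B hB σ hσ
    rw [hρ1, (hfr ℓ hℓ hℓS B hB σ hσ).1, (hfr ℓ hℓ hℓS B hB σ hσ).2]
  · intro q hq hqN hqp B hB σ hσ
    exact hρ2 σ (hin q hq hqN hqp B hB σ hσ).1

/-- The version without shift. -/
theorem exists_galoisRepAdic_of_heckeModule (N : ℕ) (S : Finset ℕ)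
    (hpS : p ∈ S) (x : ℕ → A)
    (hlev : ∀ n : ℕ, ∃ L : IntermediateField ℚ Qbar, FiniteDimensional ℚ L ∧
      ∀ σ : Γℚ, (∀ y ∈ L, σ y = y) → ∀ m : M, p ^ n • m = 0 → σ • m = m)
    (hunr : ∀ q : ℕ, q.Prime → ¬ q ∣ N → q ≠ p → ∀ B : ValuationSubring Qbar,
      B.LiesOverPrime q → ∀ σ ∈ B.inertiaSubgroupIn ℚ, ∀ m : M, (∃ n : ℕ, p ^ n • m = 0) →
        σ • m = m)
    (hfrob : ∀ ℓ : ℕ, ℓ.Prime → ℓ ∉ S → ∀ B : ValuationSubring Qbar, B.LiesOverPrime ℓ →
      ∀ σ : Γℚ, B.IsFrobeniusAt σ ℓ → ∀ m : M, (∃ n : ℕ, p ^ n • m = 0) →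
        σ • σ • m - x ℓ • (σ • m) + ℓ • m = 0)
    {𝒪 : Type} [CommRing 𝒪] [IsDomain 𝒪] [IsDiscreteValuationRing 𝒪]
    [IsAdicComplete (maximalIdeal 𝒪) 𝒪] [CharZero 𝒪] (hp : (p : 𝒪) ∈ maximalIdeal 𝒪)
    (χ : A →+* 𝒪)
    (hsupp : ∀ (n : ℕ) (a : A), (∀ m : M, p ^ n • m = 0 → a • m = 0) → (p : 𝒪) ^ n ∣ χ a) :
    ∃ ρ : GaloisRepAdic 𝒪,
      (∀ ℓ : ℕ, ℓ.Prime → ℓ ∉ S → ∀ B : ValuationSubring Qbar, B.LiesOverPrime ℓ →
        ∀ σ : Γℚ, B.IsFrobeniusAt σ ℓ →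
          LinearMap.charpoly (ρ.ρ σ) = X ^ 2 - C (χ (x ℓ)) * X + C ((ℓ : 𝒪))) ∧
      (∀ q : ℕ, q.Prime → ¬ q ∣ N → q ≠ p → ρ.IsUnramifiedAt q) :=
  exists_galoisRepAdic_of_heckeModule_shift N S hpS x hlev hunr hfrob hp χ 0 hsupp

end Main

end Fermat.Agent.S30Assembly
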