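import Fermat.Prelude.Def_CuspForm_HeckeGaloisRepDatum
import Fermat.Prelude.Def_ModularCurve_HeckeModule
import Fermat.Agent.S30Assembly

/-!
# S30 from explicit inputs on `J₀(N)`
-/

set_option autoImplicit false
set_option linter.unusedSectionVars false
set_option linter.overlappingInstances false
set_option linter.style.haveILetI false

open Polynomial

namespace Fermat.Agent.S30Wiring

open ModularCurve IsLocalRing Fermat.Agent.S30Assembly

local notation "Qbar" => AlgebraicClosure ℚ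
local notation "Γℚ" => (AlgebraicClosure ℚ ≃ₐ[ℚ] AlgebraicClosure ℚ)

section General

variable {N p : ℕ} {J : Type} [AddCommGroup J] [Module HeckeAlg J] [DistribMulAction Γℚ J]
  [SMulCommClass Γℚ HeckeAlg J]

theorem pow_smul_gal {n : ℕ} (g : Γℚ) {x : J} (hx : p ^ n • x = 0) : p ^ n • (g • x) = 0 := by
  rw [← gal_nsmul, hx, smul_zero]

theorem nsmul_hecke (T : HeckeAlg) (k : ℕ) (x : J) : k • (T • x) = T • (k • x) :=
  smul_comm k T x

theorem sub_torsion {n m : ℕ} {x y : J} (hx : p ^ n • x = 0) (hy : p ^ m • y = 0) :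
    p ^ (n + m) • (x - y) = 0 := by
  rw [smul_sub, pow_add, mul_smul (p ^ n) (p ^ m) y, hy, smul_zero, mul_comm, mul_smul, hx,
    smul_zero, sub_zero]

/-- Unramifiedness of the `p`-power torsion from `SpecializationExists`. -/
theorem unramifiedOutside_of_specialization
    (H : SpecializationExists (K := ℚ) (L := Qbar) N p J) :
    UnramifiedOutside (K := ℚ) (L := Qbar) N p J := by
  intro ℓ hℓ hℓN A hA σ hσ x ⟨n, hx⟩
  obtain ⟨J', _, _, sp, F, hsp, -⟩ := H ℓ hℓ hℓN A hA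
  have h1 := hsp.inertia_comm σ hσ x
  have h2 := hsp.injective_torsion (σ • x - x) ⟨n + n, sub_torsion (pow_smul_gal σ hx) hx⟩
    (by rw [map_sub, h1, sub_self])
  exact sub_eq_zero.mp h2

/-- The Eichler-Shimura relation on the `p`-power torsion from `SpecializationExists`. -/
theorem frobeniusQuadratic_of_specialization
    (H : SpecializationExists (K := ℚ) (L := Qbar) N p J) :
    FrobeniusQuadratic (K := ℚ) (L := Qbar) N p J := by
  intro ℓ hℓ hℓN A hA σ hσ x ⟨n, hx⟩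
  obtain ⟨J', _, _, sp, F, hsp, hrel⟩ := H ℓ hℓ hℓN A hA
  have hfr := hsp.frobenius_comm σ hσ
  refine hsp.injective_torsion _ ⟨n, ?_⟩ ?_
  · rw [smul_add, smul_sub, nsmul_hecke, pow_smul_gal σ (pow_smul_gal σ hx), pow_smul_gal σ hx,
      smul_zero, sub_zero, zero_add, smul_comm, hx, smul_zero]
  · rw [map_add, map_sub, map_nsmul, hfr, hfr, hsp.hecke_comm, hfr]
    exact hrel (sp x)

/-- A smooth action with finite `p^n`-torsion is of finite level on `J[p^n]`. -/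
theorem finite_level_of_smooth
    (hsm : ∀ x : J, ∃ L : IntermediateField ℚ Qbar, FiniteDimensional ℚ L ∧
      ∀ g : Γℚ, (∀ y ∈ L, g y = y) → g • x = x)
    (n : ℕ) (hfin : {x : J | p ^ n • x = 0}.Finite) :
    ∃ L : IntermediateField ℚ Qbar, FiniteDimensional ℚ L ∧
      ∀ σ : Γℚ, (∀ y ∈ L, σ y = y) → ∀ x : J, p ^ n • x = 0 → σ • x = x := by
  choose Lf hLf1 hLf2 using hsm
  have : Finite {x : J | p ^ n • x = 0} := hfin
  refine ⟨⨆ x : {x : J | p ^ n • x = 0}, Lf x, ?_, ?_⟩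
  · have : ∀ x : {x : J | p ^ n • x = 0}, FiniteDimensional ℚ (Lf x) := fun x => hLf1 _
    exact IntermediateField.finiteDimensional_iSup_of_finite
  · intro σ hσ x hx
    exact hLf2 x σ fun y hy => hσ y (le_iSup (fun x : {x : J | p ^ n • x = 0} => Lf x) ⟨x, hx⟩ hy)

end General

section Wiring

/-- The anemic abstract Hecke algebra: polynomials in the `T_ℓ`, `ℓ ∉ S`. -/
abbrev AnemicAlg (S : Finset ℕ) : Type := MvPolynomial {ℓ : Nat.Primes // (ℓ : ℕ) ∉ S} ℤ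

/-- The inclusion of the anemic algebra in the full abstract Hecke algebra. -/
noncomputable def anemicIncl (S : Finset ℕ) : AnemicAlg S →ₐ[ℤ] HeckeAlg :=
  MvPolynomial.rename Subtype.val

/-- The evaluation of the anemic abstract Hecke algebra in the Hecke algebra of forms. -/
noncomputable def anemicEval {N : ℕ} [NeZero N] {S : Finset ℕ}
    (hNS : ∀ q : ℕ, q.Prime → q ∣ N → q ∈ S) :
    AnemicAlg S →ₐ[ℤ] CuspForm.heckeAlgebra N 2 (↑S : Set ℕ) :=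
  MvPolynomial.aeval fun ℓ => CuspForm.heckeAlgebra.T (S := (↑S : Set ℕ)) (k := 2) ℓ.1.2
    (fun h => ℓ.2 (hNS _ ℓ.1.2 h)) (fun h => ℓ.2 (Finset.mem_coe.mp h))

/-- **Support input**: if a Hecke polynomial in the `T_ℓ`, `ℓ ∉ S`, kills `J₀(N)[p^n]`, then its
image under every character of the Hecke algebra of forms with values in a complete discrete
valuation ring of characteristic zero is divisible by `p^n`. -/
def SupportInput (N p : ℕ) [NeZero N] (S : Finset ℕ) : Prop :=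
  ∀ (hNS : ∀ q : ℕ, q.Prime → q ∣ N → q ∈ S)
    (𝒪' : Type) [CommRing 𝒪'] [IsDomain 𝒪'] [IsDiscreteValuationRing 𝒪'] [CharZero 𝒪']
    (χ : CuspForm.heckeAlgebra N 2 (↑S : Set ℕ) →+* 𝒪') (n : ℕ) (a : AnemicAlg S),
    (∀ x : JZero N, p ^ n • x = 0 → (letI := heckeModuleBar N; anemicIncl S a • x = 0)) →
      (p : 𝒪') ^ n ∣ χ (anemicEval hNS a)

/-- **Smoothness input**: every point of `J₀(N)` is fixed by an open subgroup of `G_ℚ`. -/
def SmoothInput (N : ℕ) [NeZero N] : Prop :=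
  ∀ x : JZero N, ∃ L : IntermediateField ℚ Qbar, FiniteDimensional ℚ L ∧
    ∀ g : Γℚ, (∀ y ∈ L, g y = y) → g • x = x

/-- **Finiteness input**: the `p^n`-torsion of `J₀(N)` is finite. -/
def FiniteTorsionInput (N p : ℕ) [NeZero N] : Prop :=
  ∀ n : ℕ, {x : JZero N | p ^ n • x = 0}.Finite

/-- **Commutation input**: the Galois action commutes with the Hecke action. -/
def GaloisHeckeCommInput (N : ℕ) [NeZero N] : Prop :=
  letI := heckeModuleBar N
  SMulCommClass Γℚ HeckeAlg (JZero N)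

/-- **Specialization input** (the conclusion of S37). -/
def SpecializationInput (N p : ℕ) [NeZero N] : Prop :=
  letI := heckeModuleBar N
  ∀ (_ : SMulCommClass Γℚ HeckeAlg (JZero N)),
    SpecializationExists (K := ℚ) (L := Qbar) N p (JZero N)

/-- All inputs of S30 about `J₀(N)`. -/
structure Inputs (N p : ℕ) [NeZero N] (S : Finset ℕ) : Prop where
  galois_hecke : GaloisHeckeCommInput N
  specialization : SpecializationInput N p
  smooth : SmoothInput N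
  finite : FiniteTorsionInput N p
  support : SupportInput N p S

/-- S30 over `𝒪'` itself, from the inputs. -/
theorem exists_galoisRepAdic_of_point {p : ℕ} [Fact p.Prime] {N : ℕ} [NeZero N] {S : Finset ℕ}
    (hpS : p ∈ S) (hNS : ∀ q : ℕ, q.Prime → q ∣ N → q ∈ S) (I : Inputs N p S)
    (𝒪' : Type) [CommRing 𝒪'] [IsDomain 𝒪'] [IsDiscreteValuationRing 𝒪']
    [IsAdicComplete (IsLocalRing.maximalIdeal 𝒪') 𝒪'] [CharZero 𝒪']
    (hp𝒪' : (p : 𝒪') ∈ IsLocalRing.maximalIdeal 𝒪')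
    (χ : CuspForm.heckeAlgebra N 2 (↑S : Set ℕ) →+* 𝒪') :
    ∃ ρ : GaloisRepAdic 𝒪',
      (∀ (ℓ : ℕ) (hℓ : ℓ.Prime) (hℓN : ¬ ℓ ∣ N) (hℓS : ℓ ∉ (↑S : Set ℕ)),
        ∀ A : ValuationSubring (AlgebraicClosure ℚ), A.LiesOverPrime ℓ →
          ∀ σ : AlgebraicClosure ℚ ≃ₐ[ℚ] AlgebraicClosure ℚ, A.IsFrobeniusAt σ ℓ →
            LinearMap.charpoly (ρ.ρ σ) =
              X ^ 2 - C (χ (CuspForm.heckeAlgebra.T hℓ hℓN hℓS)) * X + C ((ℓ : 𝒪'))) ∧
      (∀ q : ℕ, q.Prime → ¬ q ∣ N → q ≠ p → ρ.IsUnramifiedAt q) := by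
  letI := heckeModuleBar N
  haveI : SMulCommClass Γℚ HeckeAlg (JZero N) := I.galois_hecke
  letI : Module (AnemicAlg S) (JZero N) := Module.compHom (JZero N) (anemicIncl S).toRingHom
  have hsmul : ∀ (a : AnemicAlg S) (x : JZero N), a • x = anemicIncl S a • x := fun _ _ => rfl
  haveI : SMulCommClass Γℚ (AnemicAlg S) (JZero N) :=
    ⟨fun g a x => by rw [hsmul, hsmul, smul_comm]⟩
  have hspec : SpecializationExists (K := ℚ) (L := Qbar) N p (JZero N) := I.specialization I.galois_hecke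
  have hunr := unramifiedOutside_of_specialization hspec
  have hfrob := frobeniusQuadratic_of_specialization hspec
  let χ' : AnemicAlg S →+* 𝒪' := χ.comp (anemicEval hNS).toRingHom
  have hsm : ∀ x : JZero N, ∃ L : IntermediateField ℚ Qbar, FiniteDimensional ℚ L ∧
      ∀ g : Γℚ, (∀ y ∈ L, g y = y) → g • x = x := I.smooth
  -- the generators
  let x : ℕ → AnemicAlg S := fun ℓ =>
    if h : ∃ hℓ : ℓ.Prime, ((⟨ℓ, hℓ⟩ : Nat.Primes) : ℕ) ∉ S then
      MvPolynomial.X ⟨⟨ℓ, h.choose⟩, h.choose_spec⟩ else 0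
  have hx : ∀ (ℓ : ℕ) (hℓ : ℓ.Prime) (hℓS : ℓ ∉ S), x ℓ = MvPolynomial.X ⟨⟨ℓ, hℓ⟩, hℓS⟩ :=
    fun ℓ hℓ hℓS => dif_pos ⟨hℓ, hℓS⟩
  have hdvd : ∀ ℓ : ℕ, ℓ.Prime → ℓ ∉ S → ¬ ℓ ∣ N * p := by
    intro ℓ hℓ hℓS h
    rcases (Nat.Prime.dvd_mul hℓ).mp h with h | h
    · exact hℓS (hNS ℓ hℓ h)
    · rw [(Nat.prime_dvd_prime_iff_eq hℓ Fact.out).mp h] at hℓS
      exact hℓS hpS
  obtain ⟨ρ, hρ1, hρ2⟩ := exists_galoisRepAdic_of_heckeModule (A := AnemicAlg S) (M := JZero N)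
    N S hpS x
    (fun n => finite_level_of_smooth (J := JZero N) hsm n (I.finite n))
    (fun q hq hqN hqp B hB σ hσ m hm => hunr q hq (fun h => by
      rcases (Nat.Prime.dvd_mul hq).mp h with h | h
      · exact hqN h
      · exact hqp ((Nat.prime_dvd_prime_iff_eq hq Fact.out).mp h)) B hB σ hσ m hm)
    (fun ℓ hℓ hℓS B hB σ hσ m hm => by
      have h := hfrob ℓ hℓ (hdvd ℓ hℓ hℓS) B hB σ hσ m hm
      rw [hx ℓ hℓ hℓS, hsmul, anemicIncl, MvPolynomial.rename_X]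
      exact h)
    hp𝒪' χ' (fun n a ha => I.support hNS 𝒪' χ n a ha)
  refine ⟨ρ, fun ℓ hℓ hℓN hℓS A hA σ hσ => ?_, hρ2⟩
  have hℓS' : ℓ ∉ S := fun h => hℓS (Finset.mem_coe.mpr h)
  have hχ : χ' (MvPolynomial.X ⟨⟨ℓ, hℓ⟩, hℓS'⟩) = χ (CuspForm.heckeAlgebra.T hℓ hℓN hℓS) := by
    change χ (anemicEval hNS (MvPolynomial.X _)) = _
    rw [anemicEval, MvPolynomial.aeval_X]
  rw [hρ1 ℓ hℓ hℓS' A hA σ hσ, hx ℓ hℓ hℓS', hχ]

/-- **S30 from the inputs.** -/
theorem s30_of_inputs (HI : ∀ (p : ℕ) [Fact p.Prime] (N : ℕ) [NeZero N] (S : Finset ℕ),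
      p ∈ S → (∀ q : ℕ, q.Prime → q ∣ N → q ∈ S) → Inputs N p S) :
    ∀ (p : ℕ) [Fact p.Prime] (N : ℕ) [NeZero N] (S : Finset ℕ)
      (_hpS : p ∈ S) (_hNS : ∀ q : ℕ, q.Prime → q ∣ N → q ∈ S)
      (𝒪' : Type) [CommRing 𝒪'] [IsDomain 𝒪'] [IsDiscreteValuationRing 𝒪']
      [IsAdicComplete (IsLocalRing.maximalIdeal 𝒪') 𝒪'] [Finite (IsLocalRing.ResidueField 𝒪')]
      [CharZero 𝒪'] (_hp𝒪' : (p : 𝒪') ∈ IsLocalRing.maximalIdeal 𝒪')
      (χ : CuspForm.heckeAlgebra N 2 (↑S : Set ℕ) →+* 𝒪'),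
      ∃ (𝒪'' : Type) (_ : CommRing 𝒪'') (_ : IsDomain 𝒪'') (_ : IsDiscreteValuationRing 𝒪'')
        (_ : IsAdicComplete (IsLocalRing.maximalIdeal 𝒪'') 𝒪'')
        (_ : Finite (IsLocalRing.ResidueField 𝒪'')) (_ : CharZero 𝒪'')
        (_ : Algebra 𝒪' 𝒪'') (_ : Module.Finite 𝒪' 𝒪'') (_ : IsLocalHom (algebraMap 𝒪' 𝒪'')),
      Function.Injective (algebraMap 𝒪' 𝒪'') ∧
      ∃ ρ : GaloisRepAdic 𝒪'',
        (∀ (ℓ : ℕ) (hℓ : ℓ.Prime) (hℓN : ¬ ℓ ∣ N) (hℓS : ℓ ∉ (↑S : Set ℕ)),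
          ∀ A : ValuationSubring (AlgebraicClosure ℚ), A.LiesOverPrime ℓ →
            ∀ σ : AlgebraicClosure ℚ ≃ₐ[ℚ] AlgebraicClosure ℚ, A.IsFrobeniusAt σ ℓ →
              LinearMap.charpoly (ρ.ρ σ) =
                X ^ 2 - C (algebraMap 𝒪' 𝒪'' (χ (CuspForm.heckeAlgebra.T hℓ hℓN hℓS))) * X
                  + C ((ℓ : 𝒪''))) ∧
        (∀ q : ℕ, q.Prime → ¬ q ∣ N → q ≠ p → ρ.IsUnramifiedAt q) := by
  intro p _ N _ S hpS hNS 𝒪' _ _ _ _ _ _ hp𝒪' χ
  obtain ⟨ρ, h1, h2⟩ := exists_galoisRepAdic_of_point hpS hNS (HI p N S hpS hNS) 𝒪' hp𝒪' χ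
  refine ⟨𝒪', inferInstance, inferInstance, inferInstance, inferInstance, inferInstance,
    inferInstance, Algebra.id 𝒪', Module.Finite.self 𝒪', ⟨fun a ha => ha⟩,
    fun a b h => h, ρ, ?_, h2⟩
  exact h1

end Wiring

end Fermat.Agent.S30Wiring
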