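import Mathlib
import Fermat.Prelude.Def_ModularCurve_GenusNumerics

/-!
# Counting on `X = SL(2, ℤ) ⧸ Γ₀(N)` (i.e. on `ℙ¹(ℤ/N)`)
-/

set_option autoImplicit false

namespace Fermat.Agent.Gamma0Count

open Matrix SpecialLinearGroup CongruenceSubgroup ModularCurve
open scoped MatrixGroups

/-- Coset criterion for `Γ₀(N)`: `g Γ₀(N) = h Γ₀(N)` iff `N ∣ a_g c_h - c_g a_h`. -/
theorem mk_eq_mk_iff (N : ℕ) (g h : SL(2, ℤ)) :
    ((g : SL(2, ℤ) ⧸ Gamma0 N) = (h : SL(2, ℤ) ⧸ Gamma0 N)) ↔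
      (N : ℤ) ∣ g 0 0 * h 1 0 - g 1 0 * h 0 0 := by
  rw [QuotientGroup.eq, Gamma0_mem]
  have e : (g⁻¹ * h) 1 0 = g 0 0 * h 1 0 - g 1 0 * h 0 0 := by
    rw [Matrix.SpecialLinearGroup.coe_mul, Matrix.SpecialLinearGroup.SL2_inv_expl,
      Matrix.mul_apply, Fin.sum_univ_two]
    simp
    ring
  rw [e, ZMod.intCast_zmod_eq_zero_iff_dvd]

theorem isCoprime_col (g : SL(2, ℤ)) : IsCoprime (g 0 0) (g 1 0) := by
  have h := g.det_coe
  rw [Matrix.det_fin_two] at h
  exact ⟨g 1 1, -g 0 1, by linear_combination h⟩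

/-- Every coprime pair is the first column of a matrix in `SL(2, ℤ)`. -/
theorem exists_col {a c : ℤ} (h : IsCoprime a c) : ∃ g : SL(2, ℤ), g 0 0 = a ∧ g 1 0 = c := by
  obtain ⟨x, y, hxy⟩ := h
  exact ⟨⟨!![a, -y; c, x], by rw [Matrix.det_fin_two_of]; linear_combination hxy⟩, rfl, rfl⟩

/-- Lifting of coprimality: if `gcd (a, c, N) = 1` one can modify `a` by a multiple of `N` so that
it becomes coprime to `c` (`c ≠ 0`). -/
theorem exists_isCoprime_add_mul {a c N : ℤ} (hc : c ≠ 0)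
    (h : ∀ p : ℕ, p.Prime → (p : ℤ) ∣ a → (p : ℤ) ∣ c → ¬ (p : ℤ) ∣ N) :
    ∃ k : ℤ, IsCoprime (a + k * N) c := by
  classical
  let s : Finset ℕ := c.natAbs.primeFactors.filter fun p => ¬ (p : ℤ) ∣ a
  refine ⟨∏ p ∈ s, (p : ℤ), ?_⟩
  rw [Int.isCoprime_iff_gcd_eq_one]
  by_contra hne
  obtain ⟨p, hp, hpd⟩ := Nat.exists_prime_and_dvd hne
  have hpd' : (p : ℤ) ∣ (Int.gcd (a + (∏ p ∈ s, (p : ℤ)) * N) c : ℤ) := by exact_mod_cast hpd
  have h1 : (p : ℤ) ∣ a + (∏ p ∈ s, (p : ℤ)) * N := hpd'.trans (Int.gcd_dvd_left _ _)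
  have h2 : (p : ℤ) ∣ c := hpd'.trans (Int.gcd_dvd_right _ _)
  have hpp : Prime (p : ℤ) := Nat.prime_iff_prime_int.mp hp
  by_cases hpa : (p : ℤ) ∣ a
  · have h3 : (p : ℤ) ∣ (∏ p ∈ s, (p : ℤ)) * N := (Int.dvd_add_right hpa).mp h1
    rcases hpp.dvd_or_dvd h3 with h4 | h4
    · obtain ⟨q, hq, hpq⟩ := (Prime.dvd_finsetProd_iff hpp _).mp h4
      have hq' := Finset.mem_filter.mp hq
      have hqp : q.Prime := Nat.prime_of_mem_primeFactors hq'.1
      have : p = q := (Nat.prime_dvd_prime_iff_eq hp hqp).mp (by exact_mod_cast hpq)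
      subst this
      exact hq'.2 hpa
    · exact h p hp hpa h2 h4
  · have hps : p ∈ s := by
      refine Finset.mem_filter.mpr ⟨?_, hpa⟩
      rw [Nat.mem_primeFactors]
      exact ⟨hp, by simpa [Int.natCast_dvd] using h2, by simpa using hc⟩
    have h3 : (p : ℤ) ∣ (∏ p ∈ s, (p : ℤ)) * N :=
      Dvd.dvd.mul_right (Finset.dvd_prod_of_mem (fun q : ℕ => (q : ℤ)) hps) _
    exact hpa ((Int.dvd_add_left h3).mp h1)

/-- Unimodular pairs modulo `N`. -/
def UPair (N : ℕ) : Type := {v : ZMod N × ZMod N // IsCoprime v.1 v.2}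

instance (N : ℕ) [NeZero N] : Finite (UPair N) := by unfold UPair; infer_instance

/-- Every unimodular pair modulo `N` is the reduction of the first column of a matrix
in `SL(2, ℤ)`. -/
theorem exists_col_zmod {N : ℕ} [NeZero N] {a c : ZMod N} (h : IsCoprime a c) :
    ∃ g : SL(2, ℤ), ((g 0 0 : ℤ) : ZMod N) = a ∧ ((g 1 0 : ℤ) : ZMod N) = c := by
  obtain ⟨x, y, hxy⟩ := h
  obtain ⟨a, rfl⟩ := ZMod.intCast_surjective a
  obtain ⟨c, rfl⟩ := ZMod.intCast_surjective c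
  obtain ⟨x, rfl⟩ := ZMod.intCast_surjective x
  obtain ⟨y, rfl⟩ := ZMod.intCast_surjective y
  have hN : (N : ℤ) ≠ 0 := by exact_mod_cast NeZero.ne N
  -- replace `c` by a non-zero representative
  obtain ⟨c', hc', hcc'⟩ : ∃ c' : ℤ, c' ≠ 0 ∧ (c' : ZMod N) = c := by
    by_cases hc : c = 0
    · exact ⟨N, hN, by simp [hc]⟩
    · exact ⟨c, hc, rfl⟩
  rw [← hcc'] at hxy ⊢
  have hdvd : (N : ℤ) ∣ x * a + y * c' - 1 := by
    rw [← ZMod.intCast_zmod_eq_zero_iff_dvd]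
    push_cast
    rw [hxy, sub_self]
  obtain ⟨k, hk⟩ := exists_isCoprime_add_mul (a := a) (c := c') (N := N) hc' (by
    intro p hp hpa hpc hpN
    have h1 : (p : ℤ) ∣ x * a + y * c' := dvd_add (hpa.mul_left _) (hpc.mul_left _)
    have h2 : (p : ℤ) ∣ x * a + y * c' - 1 := hpN.trans hdvd
    have h3 : (p : ℤ) ∣ 1 := by simpa using dvd_sub h1 h2
    have h4 : p ∣ 1 := by exact_mod_cast h3
    exact hp.one_lt.ne' (Nat.dvd_one.mp h4))
  obtain ⟨g, hg0, hg1⟩ := exists_col hk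
  exact ⟨g, by rw [hg0]; push_cast; simp, by rw [hg1]⟩

/-- The column map. -/
def toUPair (N : ℕ) (g : SL(2, ℤ)) : UPair N :=
  ⟨(((g 0 0 : ℤ) : ZMod N), ((g 1 0 : ℤ) : ZMod N)), by
    have := (isCoprime_col g).map (Int.castRingHom (ZMod N))
    simpa using this⟩

theorem card_quotient_mul_totient (N : ℕ) [NeZero N] :
    Nat.card (SL(2, ℤ) ⧸ Gamma0 N) * Nat.totient N = Nat.card (UPair N) := by
  have hu : Nat.card (ZMod N)ˣ = Nat.totient N := by
    rw [Nat.card_eq_fintype_card, ZMod.card_units_eq_totient]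
  rw [← hu, ← Nat.card_prod]
  let F : (SL(2, ℤ) ⧸ Gamma0 N) × (ZMod N)ˣ → UPair N := fun p =>
    ⟨((p.2 : ZMod N) * (toUPair N p.1.out).1.1, (p.2 : ZMod N) * (toUPair N p.1.out).1.2), by
      obtain ⟨x, y, h⟩ := (toUPair N p.1.out).2
      refine ⟨x * ((p.2⁻¹ : (ZMod N)ˣ) : ZMod N), y * ((p.2⁻¹ : (ZMod N)ˣ) : ZMod N), ?_⟩
      have h2 : ((p.2⁻¹ : (ZMod N)ˣ) : ZMod N) * (p.2 : ZMod N) = 1 := by simp
      linear_combination h + (x * (toUPair N p.1.out).1.1 + y * (toUPair N p.1.out).1.2) * h2⟩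
  refine Nat.card_congr (Equiv.ofBijective F ⟨?_, ?_⟩)
  · rintro ⟨q, u⟩ ⟨q', u'⟩ h
    have h0 : (u : ZMod N) * ((q.out 0 0 : ℤ) : ZMod N) = (u' : ZMod N) * ((q'.out 0 0 : ℤ) : ZMod N) :=
      congrArg (fun v : UPair N => v.1.1) h
    have h1 : (u : ZMod N) * ((q.out 1 0 : ℤ) : ZMod N) = (u' : ZMod N) * ((q'.out 1 0 : ℤ) : ZMod N) :=
      congrArg (fun v : UPair N => v.1.2) h
    have hqq' : q = q' := by
      rw [← QuotientGroup.out_eq' q, ← QuotientGroup.out_eq' q', mk_eq_mk_iff,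
        ← ZMod.intCast_zmod_eq_zero_iff_dvd]
      have hunit : IsUnit ((u : ZMod N) * (u' : ZMod N)) := u.isUnit.mul u'.isUnit
      rw [← hunit.mul_right_eq_zero]
      push_cast
      linear_combination (u' : ZMod N) * ((q'.out 1 0 : ℤ) : ZMod N) * h0
        - (u' : ZMod N) * ((q'.out 0 0 : ℤ) : ZMod N) * h1
    subst hqq'
    obtain ⟨x, y, hxy⟩ := (toUPair N q.out).2
    have hxy' : x * ((q.out 0 0 : ℤ) : ZMod N) + y * ((q.out 1 0 : ℤ) : ZMod N) = 1 := hxy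
    have : u = u' := by
      ext
      linear_combination x * h0 + y * h1 - ((u : ZMod N) - u') * hxy'
    rw [this]
  · rintro ⟨⟨a, c⟩, hac⟩
    obtain ⟨g, hg0, hg1⟩ := exists_col_zmod hac
    set q : SL(2, ℤ) ⧸ Gamma0 N := (g : SL(2, ℤ) ⧸ Gamma0 N) with hq
    have hrel : (N : ℤ) ∣ g 0 0 * q.out 1 0 - g 1 0 * q.out 0 0 := by
      rw [← mk_eq_mk_iff, QuotientGroup.out_eq']
    rw [← ZMod.intCast_zmod_eq_zero_iff_dvd] at hrel
    push_cast at hrel
    rw [hg0, hg1] at hrel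
    obtain ⟨x, y, hxy⟩ := (toUPair N q.out).2
    have hxy' : x * ((q.out 0 0 : ℤ) : ZMod N) + y * ((q.out 1 0 : ℤ) : ZMod N) = 1 := hxy
    obtain ⟨z, w, hzw⟩ := hac
    simp only at hzw
    have e0 : (x * a + y * c) * ((q.out 0 0 : ℤ) : ZMod N) = a := by
      linear_combination a * hxy' - y * hrel
    have e1 : (x * a + y * c) * ((q.out 1 0 : ℤ) : ZMod N) = c := by
      linear_combination c * hxy' + x * hrel
    have hunit : IsUnit (x * a + y * c) := by
      refine IsUnit.of_mul_eq_one (z * ((q.out 0 0 : ℤ) : ZMod N) + w * ((q.out 1 0 : ℤ) : ZMod N)) ?_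
      linear_combination hzw + z * e0 + w * e1
    refine ⟨(q, hunit.unit), ?_⟩
    apply Subtype.ext
    exact Prod.ext e0 e1

/-! ### Counting unimodular pairs -/

theorem card_UPair_mul {m n : ℕ} (h : m.Coprime n) :
    Nat.card (UPair (m * n)) = Nat.card (UPair m) * Nat.card (UPair n) := by
  rw [← Nat.card_prod]
  let e := ZMod.chineseRemainder h
  refine Nat.card_congr
    { toFun := fun v =>
        (⟨((e v.1.1).1, (e v.1.2).1), by
            simpa using (v.2.map e.toRingHom).map (RingHom.fst (ZMod m) (ZMod n))⟩,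
          ⟨((e v.1.1).2, (e v.1.2).2), by
            simpa using (v.2.map e.toRingHom).map (RingHom.snd (ZMod m) (ZMod n))⟩)
      invFun := fun w => ⟨(e.symm (w.1.1.1, w.2.1.1), e.symm (w.1.1.2, w.2.1.2)), by
        obtain ⟨x, y, hxy⟩ := w.1.2
        obtain ⟨x', y', hxy'⟩ := w.2.2
        refine ⟨e.symm (x, x'), e.symm (y, y'), ?_⟩
        rw [← map_mul, ← map_mul, ← map_add, Prod.mk_mul_mk, Prod.mk_mul_mk, Prod.mk_add_mk,
          hxy, hxy', ← Prod.one_eq_mk, map_one]⟩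
      left_inv := fun v => by
        apply Subtype.ext
        simp
      right_inv := fun w => by
        refine Prod.ext (Subtype.ext ?_) (Subtype.ext ?_) <;> simp }

theorem castHom_eq_zero_of_not_isUnit {p k : ℕ} (hp : p.Prime) (hk : k ≠ 0) {a : ZMod (p ^ k)}
    (ha : ¬ IsUnit a) : ZMod.castHom (dvd_pow_self p hk) (ZMod p) a = 0 := by
  have : NeZero (p ^ k) := ⟨(pow_pos hp.pos k).ne'⟩
  rw [← ZMod.natCast_zmod_val a, ZMod.isUnit_iff_coprime, Nat.coprime_pow_right_iff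
    (Nat.pos_of_ne_zero hk), Nat.coprime_comm, hp.coprime_iff_not_dvd, not_not] at ha
  rw [← ZMod.natCast_zmod_val a, map_natCast, ZMod.natCast_eq_zero_iff]
  exact ha

theorem isCoprime_zmod_prime_pow_iff {p k : ℕ} (hp : p.Prime) (hk : k ≠ 0)
    (a c : ZMod (p ^ k)) : IsCoprime a c ↔ IsUnit a ∨ IsUnit c := by
  constructor
  · rintro ⟨x, y, h⟩
    by_contra hcon
    push Not at hcon
    have h1 := congrArg (ZMod.castHom (dvd_pow_self p hk) (ZMod p)) h
    rw [map_add, map_mul, map_mul, castHom_eq_zero_of_not_isUnit hp hk hcon.1,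
      castHom_eq_zero_of_not_isUnit hp hk hcon.2, map_one] at h1
    have : Fact p.Prime := ⟨hp⟩
    simp at h1
  · rintro (⟨u, rfl⟩ | ⟨u, rfl⟩)
    · exact ⟨((u⁻¹ : (ZMod (p ^ k))ˣ) : ZMod (p ^ k)), 0, by simp⟩
    · exact ⟨0, ((u⁻¹ : (ZMod (p ^ k))ˣ) : ZMod (p ^ k)), by simp⟩

theorem card_UPair_prime_pow {p k : ℕ} (hp : p.Prime) :
    Nat.card (UPair (p ^ (k + 1))) = Nat.totient (p ^ (k + 1)) * (p ^ (k + 1) + p ^ k) := by
  classical
  set n := p ^ (k + 1) with hn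
  have : NeZero n := ⟨(pow_pos hp.pos _).ne'⟩
  have hφ : (Finset.univ.filter fun x : ZMod n => IsUnit x).card = Nat.totient n := by
    rw [← ZMod.card_units_eq_totient, ← Fintype.card_subtype]
    exact Fintype.card_congr (Equiv.ofBijective
      (fun u : (ZMod n)ˣ => (⟨u, u.isUnit⟩ : {x : ZMod n // IsUnit x}))
      ⟨fun u v h => Units.ext (congrArg Subtype.val h),
        fun ⟨x, hx⟩ => ⟨hx.unit, Subtype.ext rfl⟩⟩).symm
  have hnon : (Finset.univ.filter fun x : ZMod n => ¬ IsUnit x).card = p ^ k := by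
    have h1 := Finset.card_filter_add_card_filter_not (s := (Finset.univ : Finset (ZMod n)))
      (fun x => IsUnit x)
    rw [hφ, Finset.card_univ, ZMod.card] at h1
    have h1' : Nat.totient n = p ^ k * (p - 1) := Nat.totient_prime_pow_succ hp k
    have h2 : p ^ k * (p - 1) + p ^ k = p ^ (k + 1) := by
      obtain ⟨q, rfl⟩ : ∃ q, p = q + 1 := ⟨p - 1, (Nat.succ_pred_prime hp).symm⟩
      simp [pow_succ]; ring
    rw [h1'] at h1
    omega
  have h3 : (Finset.univ.filter fun v : ZMod n × ZMod n => ¬ (IsUnit v.1 ∨ IsUnit v.2)).card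
      = p ^ k * p ^ k := by
    rw [show (Finset.univ.filter fun v : ZMod n × ZMod n => ¬ (IsUnit v.1 ∨ IsUnit v.2)) =
      (Finset.univ.filter fun x : ZMod n => ¬ IsUnit x) ×ˢ
        (Finset.univ.filter fun x : ZMod n => ¬ IsUnit x) by
        ext v; simp [Finset.mem_product], Finset.card_product, hnon]
  have h4 := Finset.card_filter_add_card_filter_not (s := (Finset.univ : Finset (ZMod n × ZMod n)))
      (fun v => IsUnit v.1 ∨ IsUnit v.2)
  rw [h3, Finset.card_univ, Fintype.card_prod, ZMod.card] at h4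
  have h5 : Nat.card (UPair n) =
      (Finset.univ.filter fun v : ZMod n × ZMod n => IsUnit v.1 ∨ IsUnit v.2).card := by
    rw [← Fintype.card_subtype, ← Nat.card_eq_fintype_card]
    exact Nat.card_congr (Equiv.subtypeEquivRight fun v =>
      isCoprime_zmod_prime_pow_iff hp (Nat.succ_ne_zero k) v.1 v.2)
  rw [h5]
  have h6 : Nat.totient n + p ^ k = n := by
    rw [hn, Nat.totient_prime_pow_succ hp]
    obtain ⟨q, rfl⟩ : ∃ q, p = q + 1 := ⟨p - 1, (Nat.succ_pred_prime hp).symm⟩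
    simp [pow_succ]; ring
  have h7 : Nat.totient n * (n + p ^ k) + p ^ k * p ^ k = n * n := by
    conv_rhs => rw [← h6]
    nth_rewrite 2 [← h6]
    ring
  omega

/-! ### The Dedekind psi function -/

/-- The indicator function of squarefree numbers. -/
noncomputable def sqfInd : ArithmeticFunction ℕ :=
  ⟨fun n => by classical exact if Squarefree n then 1 else 0, by simp⟩

open Classical in
theorem sqfInd_apply (n : ℕ) : sqfInd n = if Squarefree n then 1 else 0 := by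
  simp [sqfInd]

theorem isMultiplicative_sqfInd : sqfInd.IsMultiplicative := by
  refine ⟨by simp [sqfInd_apply], fun {m n} h => ?_⟩
  rw [sqfInd_apply, sqfInd_apply, sqfInd_apply]
  simp only [Nat.squarefree_mul h]
  by_cases h1 : Squarefree m <;> by_cases h2 : Squarefree n <;> simp [h1, h2]

theorem dedekindPsi_eq (N : ℕ) : dedekindPsi N = (sqfInd * ArithmeticFunction.id) N := by
  classical
  rw [ArithmeticFunction.mul_apply, dedekindPsi, Nat.sum_divisorsAntidiagonal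
    (f := fun x y => sqfInd x * ArithmeticFunction.id y), Finset.sum_filter]
  refine Finset.sum_congr rfl fun d _ => ?_
  rw [sqfInd_apply, ArithmeticFunction.id_apply]
  split_ifs <;> simp

theorem dedekindPsi_mul {m n : ℕ} (h : m.Coprime n) :
    dedekindPsi (m * n) = dedekindPsi m * dedekindPsi n := by
  rw [dedekindPsi_eq, dedekindPsi_eq, dedekindPsi_eq]
  exact (isMultiplicative_sqfInd.mul ArithmeticFunction.isMultiplicative_id).map_mul_of_coprime h

theorem dedekindPsi_prime_pow {p k : ℕ} (hp : p.Prime) :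
    dedekindPsi (p ^ (k + 1)) = p ^ (k + 1) + p ^ k := by
  classical
  have h1 : (p ^ (k + 1)).divisors.filter Squarefree = {1, p} := by
    ext d
    rw [Finset.mem_filter, Nat.mem_divisors, Nat.dvd_prime_pow hp, Finset.mem_insert,
      Finset.mem_singleton]
    constructor
    · rintro ⟨⟨⟨j, hj, rfl⟩, -⟩, hsq⟩
      by_cases h0 : j = 0
      · left; simp [h0]
      · by_cases h1 : j = 1
        · right; simp [h1]
        · have := (Nat.squarefree_pow_iff hp.ne_one h0).mp hsq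
          exact absurd this.2 h1
    · rintro (rfl | rfl)
      · exact ⟨⟨⟨0, by omega, by simp⟩, (pow_pos hp.pos _).ne'⟩, squarefree_one⟩
      · exact ⟨⟨⟨1, by omega, by simp⟩, (pow_pos hp.pos _).ne'⟩, hp.squarefree⟩
  rw [dedekindPsi, h1, Finset.sum_pair hp.one_lt.ne]
  simp [pow_succ, hp.pos]

theorem card_UPair (N : ℕ) [NeZero N] :
    Nat.card (UPair N) = Nat.totient N * dedekindPsi N := by
  obtain ⟨hN⟩ := ‹NeZero N›
  induction N using Nat.recOnPosPrimePosCoprime with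
  | prime_pow p n hp hn =>
    obtain ⟨k, rfl⟩ : ∃ k, n = k + 1 := ⟨n - 1, by omega⟩
    rw [card_UPair_prime_pow hp, dedekindPsi_prime_pow hp]
  | zero => exact absurd rfl hN
  | one =>
    rw [dedekindPsi_one, Nat.totient_one]
    have : Subsingleton (UPair 1) := by unfold UPair; infer_instance
    have : Nonempty (UPair 1) := ⟨toUPair 1 1⟩
    exact Nat.card_unique
  | coprime a b ha hb hab iha ihb =>
    rw [card_UPair_mul hab, iha (by omega), ihb (by omega), Nat.totient_mul hab,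
      dedekindPsi_mul hab]
    ring

/-- The index of `Γ₀(N)` in `SL(2, ℤ)` is the Dedekind psi function. -/
theorem card_quotient (N : ℕ) [NeZero N] :
    Nat.card (SL(2, ℤ) ⧸ Gamma0 N) = dedekindPsi N := by
  have h := card_quotient_mul_totient N
  rw [card_UPair, mul_comm] at h
  exact Nat.eq_of_mul_eq_mul_left (Nat.totient_pos.mpr (Nat.pos_of_ne_zero (NeZero.ne N))) h

theorem index_Gamma0 (N : ℕ) [NeZero N] : (Gamma0 N).index = dedekindPsi N :=
  card_quotient N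

/-! ### Fixed points of `S` and `ST` -/

open ModularGroup

theorem S_mul_zero_zero (g : SL(2, ℤ)) : (S * g) 0 0 = - g 1 0 := by
  rw [Matrix.SpecialLinearGroup.coe_mul, Matrix.mul_apply, Fin.sum_univ_two]
  simp [S]

theorem S_mul_one_zero (g : SL(2, ℤ)) : (S * g) 1 0 = g 0 0 := by
  rw [Matrix.SpecialLinearGroup.coe_mul, Matrix.mul_apply, Fin.sum_univ_two]
  simp [S]

theorem T_zpow_mul_zero_zero (n : ℤ) (g : SL(2, ℤ)) : (T ^ n * g) 0 0 = g 0 0 + n * g 1 0 := by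
  rw [Matrix.SpecialLinearGroup.coe_mul, Matrix.mul_apply, Fin.sum_univ_two, coe_T_zpow]
  simp

theorem T_zpow_mul_one_zero (n : ℤ) (g : SL(2, ℤ)) : (T ^ n * g) 1 0 = g 1 0 := by
  rw [Matrix.SpecialLinearGroup.coe_mul, Matrix.mul_apply, Fin.sum_univ_two, coe_T_zpow]
  simp

theorem T_mul_zero_zero (g : SL(2, ℤ)) : (T * g) 0 0 = g 0 0 + g 1 0 := by
  have := T_zpow_mul_zero_zero 1 g
  rwa [zpow_one, one_mul] at this

theorem T_mul_one_zero (g : SL(2, ℤ)) : (T * g) 1 0 = g 1 0 := by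
  have := T_zpow_mul_one_zero 1 g
  rwa [zpow_one] at this

/-- The "affine" point `(m : 1)` of `X`. -/
def aff (N : ℕ) (m : ℤ) : SL(2, ℤ) ⧸ Gamma0 N := ((T ^ m * S : SL(2, ℤ)) : SL(2, ℤ) ⧸ Gamma0 N)

theorem T_zpow_mul_S_zero_zero (m : ℤ) : (T ^ m * S) 0 0 = m := by
  rw [T_zpow_mul_zero_zero]; simp [S]

theorem T_zpow_mul_S_one_zero (m : ℤ) : (T ^ m * S) 1 0 = 1 := by
  rw [T_zpow_mul_one_zero]; simp [S]

theorem mk_eq_aff_iff (N : ℕ) (g : SL(2, ℤ)) (m : ℤ) :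
    (g : SL(2, ℤ) ⧸ Gamma0 N) = aff N m ↔ (N : ℤ) ∣ g 0 0 - g 1 0 * m := by
  rw [aff, mk_eq_mk_iff, T_zpow_mul_S_zero_zero, T_zpow_mul_S_one_zero, mul_one]

theorem aff_eq_aff_iff (N : ℕ) (m n : ℤ) : aff N m = aff N n ↔ (N : ℤ) ∣ m - n := by
  rw [aff, mk_eq_aff_iff, T_zpow_mul_S_zero_zero, T_zpow_mul_S_one_zero, one_mul]

theorem S_smul_mk_eq_iff (N : ℕ) (g : SL(2, ℤ)) :
    S • (g : SL(2, ℤ) ⧸ Gamma0 N) = g ↔ (N : ℤ) ∣ g 0 0 ^ 2 + g 1 0 ^ 2 := by
  rw [MulAction.Quotient.smul_mk, smul_eq_mul, mk_eq_mk_iff, S_mul_zero_zero, S_mul_one_zero,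
    ← dvd_neg]
  ring_nf

theorem ST_smul_mk_eq_iff (N : ℕ) (g : SL(2, ℤ)) :
    (S * T) • (g : SL(2, ℤ) ⧸ Gamma0 N) = g ↔
      (N : ℤ) ∣ g 0 0 ^ 2 + g 0 0 * g 1 0 + g 1 0 ^ 2 := by
  rw [MulAction.Quotient.smul_mk, smul_eq_mul, mk_eq_mk_iff, mul_assoc, S_mul_zero_zero,
    S_mul_one_zero, T_mul_zero_zero, T_mul_one_zero, ← dvd_neg]
  ring_nf

/-- The number of fixed points of `S` on `SL(2, ℤ) ⧸ Γ₀(N)` is `ν₂(N)`. -/
theorem card_fixed_S (N : ℕ) [NeZero N] :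
    Nat.card {q : SL(2, ℤ) ⧸ Gamma0 N // S • q = q} = nuTwo N := by
  rw [nuTwo]
  refine (Nat.card_congr (Equiv.ofBijective
    (fun x : {x : ZMod N // x ^ 2 + 1 = 0} =>
      (⟨aff N (x.1.cast : ℤ), ?_⟩ : {q : SL(2, ℤ) ⧸ Gamma0 N // S • q = q})) ⟨?_, ?_⟩)).symm
  · rw [aff, S_smul_mk_eq_iff, T_zpow_mul_S_zero_zero, T_zpow_mul_S_one_zero,
      ← ZMod.intCast_zmod_eq_zero_iff_dvd]
    push_cast
    rw [x.2]
  · rintro ⟨x, hx⟩ ⟨y, hy⟩ h
    have h' := (aff_eq_aff_iff N _ _).mp (congrArg Subtype.val h)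
    rw [← ZMod.intCast_zmod_eq_zero_iff_dvd] at h'
    push_cast at h'
    rw [sub_eq_zero] at h'
    exact Subtype.ext h'
  · rintro ⟨q, hq⟩
    induction q using QuotientGroup.induction_on with
    | H g =>
      rw [S_smul_mk_eq_iff, ← ZMod.intCast_zmod_eq_zero_iff_dvd] at hq
      push_cast at hq
      set a : ZMod N := ((g 0 0 : ℤ) : ZMod N) with ha
      set c : ZMod N := ((g 1 0 : ℤ) : ZMod N) with hc
      obtain ⟨x, y, hxy⟩ := (toUPair N g).2
      have hxy' : x * a + y * c = 1 := hxy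
      have hcu : IsUnit c := by
        refine IsUnit.of_mul_eq_one (-x ^ 2 * c + 2 * x * y * a + y ^ 2 * c) ?_
        linear_combination (x * a + y * c + 1) * hxy' - x ^ 2 * hq
      obtain ⟨u, hu⟩ := hcu
      have huv : ((u⁻¹ : (ZMod N)ˣ) : ZMod N) * c = 1 := by rw [← hu]; simp
      refine ⟨⟨a * ((u⁻¹ : (ZMod N)ˣ) : ZMod N), ?_⟩, ?_⟩
      · have : (a * ((u⁻¹ : (ZMod N)ˣ) : ZMod N)) ^ 2 + 1 =
            ((u⁻¹ : (ZMod N)ˣ) : ZMod N) ^ 2 * (a ^ 2 + c ^ 2)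
              + (1 - (((u⁻¹ : (ZMod N)ˣ) : ZMod N) * c) ^ 2) := by ring
        rw [this, hq, huv]; ring
      · apply Subtype.ext
        symm
        simp only
        rw [mk_eq_aff_iff, ← ZMod.intCast_zmod_eq_zero_iff_dvd]
        push_cast
        linear_combination -a * huv

/-- The number of fixed points of `ST` on `SL(2, ℤ) ⧸ Γ₀(N)` is `ν₃(N)`. -/
theorem card_fixed_ST (N : ℕ) [NeZero N] :
    Nat.card {q : SL(2, ℤ) ⧸ Gamma0 N // (S * T) • q = q} = nuThree N := by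
  rw [nuThree]
  refine (Nat.card_congr (Equiv.ofBijective
    (fun x : {x : ZMod N // x ^ 2 + x + 1 = 0} =>
      (⟨aff N (x.1.cast : ℤ), ?_⟩ : {q : SL(2, ℤ) ⧸ Gamma0 N // (S * T) • q = q})) ⟨?_, ?_⟩)).symm
  · rw [aff, ST_smul_mk_eq_iff, T_zpow_mul_S_zero_zero, T_zpow_mul_S_one_zero,
      ← ZMod.intCast_zmod_eq_zero_iff_dvd]
    push_cast
    rw [mul_one, x.2]
  · rintro ⟨x, hx⟩ ⟨y, hy⟩ h
    have h' := (aff_eq_aff_iff N _ _).mp (congrArg Subtype.val h)
    rw [← ZMod.intCast_zmod_eq_zero_iff_dvd] at h'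
    push_cast at h'
    rw [sub_eq_zero] at h'
    exact Subtype.ext h'
  · rintro ⟨q, hq⟩
    induction q using QuotientGroup.induction_on with
    | H g =>
      rw [ST_smul_mk_eq_iff, ← ZMod.intCast_zmod_eq_zero_iff_dvd] at hq
      push_cast at hq
      set a : ZMod N := ((g 0 0 : ℤ) : ZMod N) with ha
      set c : ZMod N := ((g 1 0 : ℤ) : ZMod N) with hc
      obtain ⟨x, y, hxy⟩ := (toUPair N g).2
      have hxy' : x * a + y * c = 1 := hxy
      have hcu : IsUnit c := by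
        refine IsUnit.of_mul_eq_one (-x ^ 2 * (a + c) + 2 * x * y * a + y ^ 2 * c) ?_
        linear_combination (x * a + y * c + 1) * hxy' - x ^ 2 * hq
      obtain ⟨u, hu⟩ := hcu
      have huv : ((u⁻¹ : (ZMod N)ˣ) : ZMod N) * c = 1 := by rw [← hu]; simp
      refine ⟨⟨a * ((u⁻¹ : (ZMod N)ˣ) : ZMod N), ?_⟩, ?_⟩
      · have : (a * ((u⁻¹ : (ZMod N)ˣ) : ZMod N)) ^ 2 + (a * ((u⁻¹ : (ZMod N)ˣ) : ZMod N)) + 1 =
            ((u⁻¹ : (ZMod N)ˣ) : ZMod N) ^ 2 * (a ^ 2 + a * c + c ^ 2)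
              + (1 - (((u⁻¹ : (ZMod N)ˣ) : ZMod N) * c) ^ 2)
              + a * ((u⁻¹ : (ZMod N)ˣ) : ZMod N) * (1 - ((u⁻¹ : (ZMod N)ˣ) : ZMod N) * c) := by
          ring
        rw [this, hq, huv]; ring
      · apply Subtype.ext
        symm
        simp only
        rw [mk_eq_aff_iff, ← ZMod.intCast_zmod_eq_zero_iff_dvd]
        push_cast
        linear_combination -a * huv

/-! ### Orbits of `T` (cusps) -/

/-- Two cosets lie in the same `T`-orbit iff a congruence is solvable. -/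
theorem T_zpow_smul_mk_eq_iff (N : ℕ) (n : ℤ) (g h : SL(2, ℤ)) :
    (T ^ n) • (g : SL(2, ℤ) ⧸ Gamma0 N) = (h : SL(2, ℤ) ⧸ Gamma0 N) ↔
      (N : ℤ) ∣ (g 0 0 + n * g 1 0) * h 1 0 - g 1 0 * h 0 0 := by
  rw [MulAction.Quotient.smul_mk, smul_eq_mul, mk_eq_mk_iff, T_zpow_mul_zero_zero,
    T_zpow_mul_one_zero]

theorem gcd_dvd_of_T_zpow_smul {N : ℕ} {n : ℤ} {g h : SL(2, ℤ)}
    (H : (T ^ n) • (g : SL(2, ℤ) ⧸ Gamma0 N) = (h : SL(2, ℤ) ⧸ Gamma0 N)) :
    Int.gcd (g 1 0) N ∣ Int.gcd (h 1 0) N := by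
  rw [T_zpow_smul_mk_eq_iff] at H
  refine Int.dvd_gcd ?_ (Int.gcd_dvd_right _ _)
  have hN : ((Int.gcd (g 1 0) N : ℕ) : ℤ) ∣ (N : ℤ) := Int.gcd_dvd_right _ _
  have hc : ((Int.gcd (g 1 0) N : ℕ) : ℤ) ∣ g 1 0 := Int.gcd_dvd_left _ _
  have h1 : ((Int.gcd (g 1 0) N : ℕ) : ℤ) ∣ g 0 0 * h 1 0 := by
    have h2 := hN.trans H
    have h3 : (g 0 0 + n * g 1 0) * h 1 0 - g 1 0 * h 0 0 =
      g 0 0 * h 1 0 + g 1 0 * (n * h 1 0 - h 0 0) := by ring
    rw [h3] at h2
    exact (Int.dvd_add_left (hc.mul_right _)).mp h2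
  exact (IsCoprime.of_isCoprime_of_dvd_right (isCoprime_col g) hc).symm.dvd_of_dvd_mul_left h1

theorem gcd_eq_of_T_zpow_smul {N : ℕ} {n : ℤ} {g h : SL(2, ℤ)}
    (H : (T ^ n) • (g : SL(2, ℤ) ⧸ Gamma0 N) = (h : SL(2, ℤ) ⧸ Gamma0 N)) :
    Int.gcd (g 1 0) N = Int.gcd (h 1 0) N := by
  refine Nat.dvd_antisymm (gcd_dvd_of_T_zpow_smul H) (gcd_dvd_of_T_zpow_smul (n := -n) ?_)
  rw [← H, smul_smul, ← _root_.zpow_add, neg_add_cancel, zpow_zero, one_smul]

/-- Orbit criterion: `g Γ₀(N)` and `h Γ₀(N)` with `c_g = d c₁`, `c_h = d c₂`, `N = d e`,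
`gcd(c₁, e) = gcd(c₂, e) = 1` are in the same `T`-orbit iff `gcd(d, e) ∣ a_g c₂ - a_h c₁`. -/
theorem exists_T_zpow_smul_iff {N : ℕ} {g h : SL(2, ℤ)} {d e c₁ c₂ : ℤ} (hd : d ≠ 0)
    (hN : (N : ℤ) = d * e) (hg : g 1 0 = d * c₁) (hh : h 1 0 = d * c₂)
    (h₁ : IsCoprime c₁ e) (h₂ : IsCoprime c₂ e) :
    (∃ n : ℤ, (T ^ n) • (g : SL(2, ℤ) ⧸ Gamma0 N) = (h : SL(2, ℤ) ⧸ Gamma0 N)) ↔
      (Int.gcd d e : ℤ) ∣ g 0 0 * c₂ - h 0 0 * c₁ := by
  have key : ∀ n : ℤ, (T ^ n) • (g : SL(2, ℤ) ⧸ Gamma0 N) = (h : SL(2, ℤ) ⧸ Gamma0 N) ↔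
      e ∣ (g 0 0 * c₂ - h 0 0 * c₁) + n * d * (c₁ * c₂) := by
    intro n
    rw [T_zpow_smul_mk_eq_iff, hN, hg, hh,
      show (g 0 0 + n * (d * c₁)) * (d * c₂) - d * c₁ * h 0 0 =
        d * ((g 0 0 * c₂ - h 0 0 * c₁) + n * d * (c₁ * c₂)) by ring]
    exact mul_dvd_mul_iff_left hd
  simp only [key]
  constructor
  · rintro ⟨n, hn⟩
    have h3 : (Int.gcd d e : ℤ) ∣ (g 0 0 * c₂ - h 0 0 * c₁) + n * d * (c₁ * c₂) :=
      (Int.gcd_dvd_right _ _).trans hn
    have h4 : (Int.gcd d e : ℤ) ∣ n * d * (c₁ * c₂) :=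
      ((Int.gcd_dvd_left d e).mul_left n).mul_right _
    exact (Int.dvd_add_left h4).mp h3
  · rintro ⟨s, hs⟩
    obtain ⟨u, v, huv⟩ := h₁.mul_left h₂
    have hb := Int.gcd_eq_gcd_ab d e
    refine ⟨-s * Int.gcdA d e * u, ?_⟩
    rw [hs, hb]
    refine ⟨s * Int.gcdB d e + s * Int.gcdA d e * d * v, ?_⟩
    linear_combination -s * d * Int.gcdA d e * huv

/-- The number of orbits of `T` on `SL(2, ℤ) ⧸ Γ₀(N)` is the number of cusps
`∑_{d ∣ N} φ(gcd(d, N/d))`. -/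
theorem card_T_orbits (N : ℕ) [NeZero N] :
    Nat.card (MulAction.orbitRel.Quotient (Subgroup.zpowers T) (SL(2, ℤ) ⧸ Gamma0 N)) =
      cuspCount N := by
  classical
  have hN0 : N ≠ 0 := NeZero.ne N
  -- representatives
  have hrep : ∀ (d : N.divisors) (r : (ZMod (Nat.gcd (d : ℕ) (N / d)))ˣ),
      ∃ g : SL(2, ℤ), ((g 0 0 : ℤ) : ZMod (Nat.gcd (d : ℕ) (N / d))) = r ∧
        g 1 0 = ((d : ℕ) : ℤ) := by
    rintro ⟨d, hd⟩ r
    have hdN : d ∣ N := Nat.dvd_of_mem_divisors hd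
    have hd0 : d ≠ 0 := (Nat.pos_of_mem_divisors hd).ne'
    have : NeZero d := ⟨hd0⟩
    obtain ⟨u, hu⟩ := ZMod.unitsMap_surjective (Nat.gcd_dvd_left d (N / d)) r
    have hcop : Nat.Coprime (u : ZMod d).val d := ZMod.val_coe_unit_coprime u
    obtain ⟨g, hg0, hg1⟩ := exists_col (Nat.isCoprime_iff_coprime.mpr hcop)
    refine ⟨g, ?_, hg1⟩
    rw [hg0, ← hu]
    simp [ZMod.unitsMap]
  choose rep hrep0 hrep1 using hrep
  let Ψ : (Σ d : N.divisors, (ZMod (Nat.gcd (d : ℕ) (N / d)))ˣ) →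
      MulAction.orbitRel.Quotient (Subgroup.zpowers T) (SL(2, ℤ) ⧸ Gamma0 N) :=
    fun x => Quotient.mk _ ((rep x.1 x.2 : SL(2, ℤ)) : SL(2, ℤ) ⧸ Gamma0 N)
  have hrel : ∀ q q' : SL(2, ℤ) ⧸ Gamma0 N,
      (Quotient.mk (MulAction.orbitRel (Subgroup.zpowers T) (SL(2, ℤ) ⧸ Gamma0 N)) q =
        Quotient.mk _ q') ↔ ∃ n : ℤ, (T ^ n) • q' = q := by
    intro q q'
    rw [Quotient.eq, MulAction.orbitRel_apply, MulAction.mem_orbit_iff]
    constructor
    · rintro ⟨⟨t, ht⟩, h⟩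
      obtain ⟨n, rfl⟩ := Subgroup.mem_zpowers_iff.mp ht
      exact ⟨n, h⟩
    · rintro ⟨n, h⟩
      exact ⟨⟨T ^ n, Subgroup.mem_zpowers_iff.mpr ⟨n, rfl⟩⟩, h⟩
  have hbij : Function.Bijective Ψ := by
    constructor
    · rintro ⟨d, r⟩ ⟨d', r'⟩ h
      obtain ⟨n, hn⟩ := (hrel _ _).mp h
      have hgcd := gcd_eq_of_T_zpow_smul hn
      have hdd : (d' : ℕ) = d := by
        rw [hrep1, hrep1] at hgcd
        simpa [Nat.gcd_eq_left (Nat.dvd_of_mem_divisors d.2),
          Nat.gcd_eq_left (Nat.dvd_of_mem_divisors d'.2)] using hgcd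
      obtain rfl : d' = d := Subtype.ext hdd
      have hd0 : ((d' : ℕ) : ℤ) ≠ 0 := by exact_mod_cast (Nat.pos_of_mem_divisors d'.2).ne'
      have h1 := (exists_T_zpow_smul_iff (N := N) (g := rep d' r') (h := rep d' r)
        (d := ((d' : ℕ) : ℤ)) (e := ((N / d' : ℕ) : ℤ)) (c₁ := 1) (c₂ := 1) hd0
        (by exact_mod_cast (Nat.mul_div_cancel' (Nat.dvd_of_mem_divisors d'.2)).symm)
        (by rw [hrep1, mul_one]) (by rw [hrep1, mul_one]) isCoprime_one_left
        isCoprime_one_left).mp ⟨n, hn⟩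
      rw [Int.gcd_natCast_natCast, ← ZMod.intCast_zmod_eq_zero_iff_dvd] at h1
      push_cast at h1
      rw [mul_one, mul_one, hrep0, hrep0, sub_eq_zero] at h1
      obtain rfl : r' = r := Units.ext h1
      rfl
    · intro q
      induction q using Quotient.inductionOn with
      | h q =>
      induction q using QuotientGroup.induction_on with
      | H g =>
        set d : ℕ := Int.gcd (g 1 0) N with hd
        have hd0 : d ≠ 0 := by
          rw [hd]; simp [Int.gcd_eq_zero_iff, hN0]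
        have hdN : d ∣ N := by
          have : ((Int.gcd (g 1 0) N : ℕ) : ℤ) ∣ (N : ℤ) := Int.gcd_dvd_right _ _
          exact_mod_cast this
        have hdc : (d : ℤ) ∣ g 1 0 := Int.gcd_dvd_left _ _
        obtain ⟨c₁, hc₁⟩ := hdc
        have hNe : (N : ℤ) = (d : ℤ) * ((N / d : ℕ) : ℤ) := by
          exact_mod_cast (Nat.mul_div_cancel' hdN).symm
        have hcop : IsCoprime c₁ ((N / d : ℕ) : ℤ) := by
          rw [Int.isCoprime_iff_gcd_eq_one]
          have h1 : Int.gcd (g 1 0) N = d * Int.gcd c₁ ((N / d : ℕ) : ℤ) := by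
            conv_lhs => rw [hc₁, hNe]
            rw [Int.gcd_mul_left]; simp
          rw [← hd] at h1
          exact (Nat.eq_of_mul_eq_mul_left (Nat.pos_of_ne_zero hd0) ((mul_one d).trans h1)).symm
        -- the residue class
        let m := Nat.gcd d (N / d)
        have hmd : (m : ℤ) ∣ (d : ℤ) := by exact_mod_cast Nat.gcd_dvd_left d (N / d)
        have hme : (m : ℤ) ∣ ((N / d : ℕ) : ℤ) := by exact_mod_cast Nat.gcd_dvd_right d (N / d)
        have hu1 : IsUnit ((c₁ : ℤ) : ZMod m) := by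
          obtain ⟨x, y, hxy⟩ := IsCoprime.of_isCoprime_of_dvd_right hcop hme
          refine IsUnit.of_mul_eq_one (x : ZMod m) ?_
          have := congrArg (fun z : ℤ => (z : ZMod m)) hxy
          push_cast at this
          rw [ZMod.natCast_self, mul_zero, add_zero] at this
          rw [mul_comm]; exact this
        have hu2 : IsUnit ((g 0 0 : ℤ) : ZMod m) := by
          have h3 : (m : ℤ) ∣ g 1 0 := hmd.trans (Int.gcd_dvd_left _ _)
          obtain ⟨x, y, hxy⟩ := IsCoprime.of_isCoprime_of_dvd_right (isCoprime_col g) h3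
          refine IsUnit.of_mul_eq_one (x : ZMod m) ?_
          have := congrArg (fun z : ℤ => (z : ZMod m)) hxy
          push_cast at this
          rw [ZMod.natCast_self, mul_zero, add_zero] at this
          rw [mul_comm]; exact this
        let D : N.divisors := ⟨d, Nat.mem_divisors.mpr ⟨hdN, hN0⟩⟩
        let r : (ZMod (Nat.gcd (D : ℕ) (N / D)))ˣ := hu2.unit * hu1.unit⁻¹
        refine ⟨⟨D, r⟩, ?_⟩
        symm
        rw [hrel]
        rw [exists_T_zpow_smul_iff (N := N) (g := rep D r) (h := g)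
          (d := (d : ℤ)) (e := ((N / d : ℕ) : ℤ)) (c₁ := 1) (c₂ := c₁) (by exact_mod_cast hd0)
          hNe (by rw [hrep1, mul_one]) hc₁ isCoprime_one_left hcop,
          Int.gcd_natCast_natCast, ← ZMod.intCast_zmod_eq_zero_iff_dvd]
        push_cast
        have h5 := hrep0 D r
        have h6 : ((r : (ZMod m)ˣ) : ZMod m) * ((c₁ : ℤ) : ZMod m) = ((g 0 0 : ℤ) : ZMod m) := by
          show ((hu2.unit * hu1.unit⁻¹ : (ZMod m)ˣ) : ZMod m) * ((c₁ : ℤ) : ZMod m) = _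
          have h7 : ((hu1.unit⁻¹ : (ZMod m)ˣ) : ZMod m) * ((c₁ : ℤ) : ZMod m) = 1 :=
            hu1.val_inv_mul
          rw [Units.val_mul, mul_assoc, h7, mul_one]
          rfl
        rw [mul_one, sub_eq_zero, ← h6]
        exact congrArg (· * ((c₁ : ℤ) : ZMod m)) h5
  rw [← Nat.card_congr (Equiv.ofBijective Ψ hbij)]
  have hne : ∀ d : N.divisors, NeZero (Nat.gcd (d : ℕ) (N / d)) := fun d =>
    ⟨(Nat.gcd_pos_of_pos_left _ (Nat.pos_of_mem_divisors d.2)).ne'⟩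
  have := hne
  rw [Nat.card_sigma, cuspCount,
    ← Finset.sum_coe_sort N.divisors (fun d => Nat.totient (Nat.gcd d (N / d)))]
  refine Finset.sum_congr rfl fun d _ => ?_
  rw [Nat.card_eq_fintype_card, ZMod.card_units_eq_totient]

/-! ### Orbits of `S` and of `ST` -/

/-- Orbit count for an element whose `p`-th power (`p` prime) acts trivially. -/
theorem card_orbits_zpowers_of_pow {G X : Type*} [Group G] [MulAction G X] [Finite X] (g : G)
    {p : ℕ} (hp : p.Prime) (hg : ∀ x : X, g ^ p • x = x) :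
    p * Nat.card (MulAction.orbitRel.Quotient (Subgroup.zpowers g) X) =
      Nat.card X + (p - 1) * Nat.card {x : X // g • x = x} := by
  classical
  let Ω := MulAction.orbitRel.Quotient (Subgroup.zpowers g) X
  have : Finite Ω := Quotient.finite _
  have : Fintype Ω := Fintype.ofFinite Ω
  have hper : ∀ x : X, Function.minimalPeriod (g • ·) x = 1 ∨
      Function.minimalPeriod (g • ·) x = p := by
    intro x
    refine (Nat.dvd_prime hp).mp ?_
    refine Function.IsPeriodicPt.minimalPeriod_dvd ?_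
    show (g • ·)^[p] x = x
    rw [smul_iterate]
    exact hg x
  have hcard : ∀ x : X, Nat.card (MulAction.orbit (Subgroup.zpowers g) x) =
      Function.minimalPeriod (g • ·) x := fun x => by
    have : Fintype (MulAction.orbit (Subgroup.zpowers g) x) := Fintype.ofFinite _
    rw [MulAction.minimalPeriod_eq_card, Nat.card_eq_fintype_card]
  have h1 : Nat.card X = ∑ ω : Ω, Function.minimalPeriod (g • ·) ω.out := by
    rw [Nat.card_congr (MulAction.selfEquivSigmaOrbits (Subgroup.zpowers g) X), Nat.card_sigma]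
    exact Finset.sum_congr rfl fun ω _ => hcard _
  have hfix : ∀ x : X, Function.minimalPeriod (g • ·) x = 1 ↔ g • x = x := by
    intro x
    rw [Function.minimalPeriod_eq_one_iff_isFixedPt]
    rfl
  have h2 : Nat.card {x : X // g • x = x} =
      ∑ ω : Ω, if Function.minimalPeriod (g • ·) ω.out = 1 then 1 else 0 := by
    rw [Finset.sum_boole, Nat.cast_id, ← Fintype.card_subtype, ← Nat.card_eq_fintype_card]
    have horb : ∀ x y : X, g • x = x →
        (Quotient.mk (MulAction.orbitRel (Subgroup.zpowers g) X) y = Quotient.mk _ x) → y = x := by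
      intro x y hx h
      rw [Quotient.eq, MulAction.orbitRel_apply, MulAction.mem_orbit_iff] at h
      obtain ⟨⟨t, ht⟩, h⟩ := h
      obtain ⟨n, rfl⟩ := Subgroup.mem_zpowers_iff.mp ht
      rw [← h]
      have : ∀ n : ℤ, g ^ n • x = x := by
        intro n
        have h3 : g ∈ MulAction.stabilizer G x := hx
        exact Subgroup.zpow_mem _ h3 n
      exact this n
    refine Nat.card_congr (Equiv.ofBijective
      (fun x : {x : X // g • x = x} => (⟨Quotient.mk _ x.1, ?_⟩ :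
        {ω : Ω // Function.minimalPeriod (g • ·) ω.out = 1})) ⟨?_, ?_⟩)
    · rw [hfix, horb x.1 _ x.2 (Quotient.out_eq _)]
      exact x.2
    · rintro ⟨x, hx⟩ ⟨y, hy⟩ h
      exact Subtype.ext (horb y x hy (congrArg Subtype.val h))
    · rintro ⟨ω, hω⟩
      exact ⟨⟨ω.out, (hfix _).mp hω⟩, Subtype.ext (Quotient.out_eq _)⟩
  rw [h1, h2, Nat.card_eq_fintype_card, Finset.mul_sum, ← Finset.sum_add_distrib]
  rw [show p * Fintype.card Ω = ∑ ω : Ω, p by simp [mul_comm]]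
  refine Finset.sum_congr rfl fun ω _ => ?_
  rcases hper ω.out with h | h
  · rw [h]; simp; have := hp.pos; omega
  · rw [h, if_neg hp.ne_one]; simp

theorem S_pow_two_smul (N : ℕ) (q : SL(2, ℤ) ⧸ Gamma0 N) : S ^ 2 • q = q := by
  induction q using QuotientGroup.induction_on with
  | H g =>
    rw [MulAction.Quotient.smul_mk, smul_eq_mul, mk_eq_mk_iff, pow_two]
    simp only [mul_assoc, S_mul_zero_zero, S_mul_one_zero]
    exact ⟨0, by ring⟩

theorem ST_pow_three_smul (N : ℕ) (q : SL(2, ℤ) ⧸ Gamma0 N) : (S * T) ^ 3 • q = q := by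
  induction q using QuotientGroup.induction_on with
  | H g =>
    rw [MulAction.Quotient.smul_mk, smul_eq_mul, mk_eq_mk_iff, pow_succ, pow_two]
    simp only [mul_assoc, S_mul_zero_zero, S_mul_one_zero, T_mul_zero_zero, T_mul_one_zero]
    exact ⟨0, by ring⟩

instance finite_quotient (N : ℕ) [NeZero N] : Finite (SL(2, ℤ) ⧸ Gamma0 N) :=
  inferInstance

/-- `2 * #(S-orbits) = ψ(N) + ν₂(N)`. -/
theorem card_S_orbits (N : ℕ) [NeZero N] :
    2 * Nat.card (MulAction.orbitRel.Quotient (Subgroup.zpowers S) (SL(2, ℤ) ⧸ Gamma0 N)) =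
      dedekindPsi N + nuTwo N := by
  have h := card_orbits_zpowers_of_pow S Nat.prime_two (S_pow_two_smul N)
  rw [card_quotient, card_fixed_S, show 2 - 1 = 1 from rfl, one_mul] at h
  exact h

/-- `3 * #(ST-orbits) = ψ(N) + 2 ν₃(N)`. -/
theorem card_ST_orbits (N : ℕ) [NeZero N] :
    3 * Nat.card (MulAction.orbitRel.Quotient (Subgroup.zpowers (S * T))
      (SL(2, ℤ) ⧸ Gamma0 N)) = dedekindPsi N + 2 * nuThree N := by
  have h := card_orbits_zpowers_of_pow (S * T) Nat.prime_three (ST_pow_three_smul N)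
  rw [card_quotient, card_fixed_ST] at h
  exact h

end Fermat.Agent.Gamma0Count
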