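import Fermat.Prelude.Def_CuspForm_Newforms
import Fermat.Prelude.Def_CuspForm_HeckeAlgebra
import Fermat.Prelude.Thm_UpperHalfPlane_qCoeff_heckeU
import Fermat.Prelude.Thm_UpperHalfPlane_qCoeff_heckeT
import Fermat.Prelude.Thm_ModularFormClass_qCoeff_heckeT
import Fermat.Prelude.Thm_ModularFormClass_qCoeff_heckeU
import Fermat.Prelude.Thm_CongruenceSubgroup_one_mem_strictPeriods_Gamma0
import Fermat.Prelude.Thm_ModularForm_periodic_heckeT_comp_ofComplex
import Fermat.Prelude.Thm_ModularForm_periodic_heckeU_comp_ofComplex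
import Fermat.Prelude.Thm_ModularForm_isBoundedAtImInfty_heckeT
import Fermat.Prelude.Thm_ModularForm_isBoundedAtImInfty_heckeU

/-!
# Oldforms: raising the level of (eigen)forms

* `Fermat.Agent.Oldform.incl` : `S_k(Γ₀(M)) → S_k(Γ₀(N))` for `M ∣ N`;
* `Fermat.Agent.Oldform.diag` : `f ↦ f ∣[k] diag(q,1)` (`= q^{k-1} f(qτ)`), level `M → N`, `M * q ∣ N`;
* `Fermat.Agent.Oldform.exists_isNormalizedEigenform_of_dvd` : a normalised weight-2 eigenform of
  level `M ∣ N` gives a normalised eigenform of level `N` with the same `n`-th coefficients for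
  all `n` coprime to `N / M`;
* `Fermat.Agent.Oldform.exists_isNewform` : the "newform" behind a normalised eigenform.
-/

set_option autoImplicit false

noncomputable section

open UpperHalfPlane ModularForm ModularFormClass CongruenceSubgroup
open scoped MatrixGroups

namespace Fermat.Agent.Oldform

/-! ## Basic facts about `Γ₀` -/

theorem gamma0_le_of_dvd {M N : ℕ} (h : M ∣ N) : Gamma0 N ≤ Gamma0 M := by
  intro g hg
  rw [Gamma0_mem] at hg ⊢
  rw [ZMod.intCast_zmod_eq_zero_iff_dvd] at hg ⊢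
  exact (Int.natCast_dvd_natCast.mpr h).trans hg

theorem map_gamma0_le_of_dvd {M N : ℕ} (h : M ∣ N) :
    (Gamma0 N : Subgroup (GL (Fin 2) ℝ)) ≤ (Gamma0 M : Subgroup (GL (Fin 2) ℝ)) :=
  Subgroup.map_mono (gamma0_le_of_dvd h)

theorem exists_ratGL_heckeDiagMatrix (p : ℕ) :
    ∃ g : GL (Fin 2) ℚ, heckeDiagMatrix p = Matrix.GeneralLinearGroup.map (Rat.castHom ℝ) g := by
  rcases eq_or_ne p 0 with rfl | hp
  · exact ⟨1, by rw [heckeDiagMatrix_zero, map_one]⟩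
  · refine ⟨Matrix.GeneralLinearGroup.mkOfDetNeZero !![(p : ℚ), 0; 0, 1] (by
      rw [Matrix.det_fin_two_of, mul_one, zero_mul, sub_zero]; exact_mod_cast hp), ?_⟩
    ext i j
    fin_cases i <;> fin_cases j <;>
      simp [heckeDiagMatrix, hp, upperTriangularGL, Matrix.GeneralLinearGroup.mkOfDetNeZero]

theorem isCusp_ratGL_smul {Γ : Subgroup (GL (Fin 2) ℝ)} [Γ.IsArithmetic] {c : OnePoint ℝ}
    (hc : IsCusp c Γ) (g : GL (Fin 2) ℚ) :
    IsCusp (Matrix.GeneralLinearGroup.map (Rat.castHom ℝ) g • c) Γ := by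
  rw [Subgroup.IsArithmetic.isCusp_iff_isCusp_SL2Z, isCusp_SL2Z_iff] at hc ⊢
  obtain ⟨c, rfl⟩ := hc
  exact ⟨g • c, by rw [← Rat.coe_castHom, OnePoint.map_smul]⟩

/-! ## The inclusion `S_k(Γ₀(M)) → S_k(Γ₀(N))` -/

/-- The inclusion `S_k(Γ₀(M)) → S_k(Γ₀(N))` for `M ∣ N`, `N ≠ 0`. -/
def incl {M N : ℕ} (k : ℤ) (h : M ∣ N) :
    CuspForm (Gamma0 M) k →ₗ[ℂ] CuspForm (Gamma0 N) k where
  toFun f :=
    { toFun := f
      slash_action_eq' := fun γ hγ => SlashInvariantFormClass.slash_action_eq f γ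
        (map_gamma0_le_of_dvd h hγ)
      holo' := CuspFormClass.holo f
      zero_at_cusps' := fun hc => CuspFormClass.zero_at_cusps f (hc.mono (map_gamma0_le_of_dvd h)) }
  map_add' _ _ := DFunLike.coe_injective rfl
  map_smul' _ _ := DFunLike.coe_injective rfl

@[simp] theorem coe_incl {M N : ℕ} (k : ℤ) (h : M ∣ N) (f : CuspForm (Gamma0 M) k) :
    ⇑(incl k h f) = ⇑f := rfl

@[simp] theorem qCoeff_incl {M N : ℕ} (k : ℤ) (h : M ∣ N) (f : CuspForm (Gamma0 M) k) (n : ℕ) :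
    qCoeff (incl k h f) n = qCoeff f n := rfl

/-! ## The operator `f ↦ f ∣[k] diag(q, 1)` -/

theorem heckeDiagMatrix_mul_mapGL {M N q : ℕ} (hq : q ≠ 0) (h : M * q ∣ N) (g : SL(2, ℤ))
    (hg : g ∈ Gamma0 N) :
    ∃ g' : SL(2, ℤ), g' ∈ Gamma0 M ∧
      heckeDiagMatrix q * Matrix.SpecialLinearGroup.mapGL ℝ g =
        Matrix.SpecialLinearGroup.mapGL ℝ g' * heckeDiagMatrix q := by
  rw [Gamma0_mem, ZMod.intCast_zmod_eq_zero_iff_dvd] at hg
  obtain ⟨e, he⟩ := (Int.natCast_dvd_natCast.mpr h).trans hg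
  push_cast at he
  obtain ⟨g', hg', hmul⟩ := P2MW.S_ModularForm_heckeT_slash_eq_self_of_mem_Gamma0.ModularForm.HeckeSlashInvariance.heckeDiagMatrix_mul_of_eq'
    hq g (M * e) (by rw [he]; ring)
  exact ⟨g', Gamma0_mem.mpr ((ZMod.intCast_zmod_eq_zero_iff_dvd _ _).mpr ⟨e, hg'⟩), hmul⟩

theorem slash_heckeDiagMatrix_slash_eq {M N q : ℕ} (k : ℤ) (hq : q ≠ 0) (h : M * q ∣ N)
    {f : ℍ → ℂ} (hf : ∀ γ ∈ (Gamma0 M : Subgroup (GL (Fin 2) ℝ)), f ∣[k] γ = f)
    (γ : GL (Fin 2) ℝ) (hγ : γ ∈ (Gamma0 N : Subgroup (GL (Fin 2) ℝ))) :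
    (f ∣[k] heckeDiagMatrix q) ∣[k] γ = f ∣[k] heckeDiagMatrix q := by
  obtain ⟨g, hg, rfl⟩ := hγ
  obtain ⟨g', hg', hmul⟩ := heckeDiagMatrix_mul_mapGL hq h g hg
  rw [← SlashAction.slash_mul, hmul, SlashAction.slash_mul,
    hf _ (Subgroup.mem_map_of_mem (Matrix.SpecialLinearGroup.mapGL ℝ) hg')]

/-- The operator `f ↦ f ∣[k] diag(q, 1)`, `S_k(Γ₀(M)) → S_k(Γ₀(N))` for `M * q ∣ N`, `N ≠ 0`. -/
def diag {M N : ℕ} (k : ℤ) [NeZero N] {q : ℕ} (hq : q ≠ 0) (h : M * q ∣ N) :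
    CuspForm (Gamma0 M) k →ₗ[ℂ] CuspForm (Gamma0 N) k where
  toFun f :=
    haveI : NeZero M := ⟨fun h0 => NeZero.ne N (by rw [h0, zero_mul, zero_dvd_iff] at h; exact h)⟩
    { toFun := ⇑f ∣[k] heckeDiagMatrix q
      slash_action_eq' := fun γ hγ => slash_heckeDiagMatrix_slash_eq k hq h
        (fun γ hγ => SlashInvariantFormClass.slash_action_eq f γ hγ) γ hγ
      holo' := (CuspFormClass.holo f).slash k _
      zero_at_cusps' := fun {c} hc => by
        obtain ⟨g, hg⟩ := exists_ratGL_heckeDiagMatrix q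
        rw [hg]
        have hc' : IsCusp c (Gamma0 M : Subgroup (GL (Fin 2) ℝ)) :=
          hc.mono (map_gamma0_le_of_dvd ((Dvd.intro _ rfl).trans h))
        exact OnePoint.IsZeroAt.smul_iff.mp
          (CuspFormClass.zero_at_cusps f (isCusp_ratGL_smul hc' g)) }
  map_add' f g := DFunLike.coe_injective <|
    show (⇑(f + g)) ∣[k] heckeDiagMatrix q = (⇑f ∣[k] heckeDiagMatrix q) + (⇑g ∣[k] heckeDiagMatrix q) by
      rw [FunLike.coe_add, SlashAction.add_slash]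
  map_smul' c f := DFunLike.coe_injective <|
    show (⇑(c • f)) ∣[k] heckeDiagMatrix q = c • (⇑f ∣[k] heckeDiagMatrix q) by
      rw [FunLike.coe_smul, ModularForm.smul_slash, σ_heckeDiagMatrix]
      rfl

theorem coe_diag {M N : ℕ} (k : ℤ) [NeZero N] {q : ℕ} (hq : q ≠ 0) (h : M * q ∣ N)
    (f : CuspForm (Gamma0 M) k) : ⇑(diag k hq h f) = ⇑f ∣[k] heckeDiagMatrix q := rfl

theorem analyticAt_cuspFunction {M : ℕ} {k : ℤ} (f : CuspForm (Gamma0 M) k) :
    AnalyticAt ℂ (cuspFunction 1 ⇑f) 0 := by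
  have h1 := one_mem_strictPeriods_Gamma0 M
  have : Fact (IsCusp OnePoint.infty (Gamma0 M : Subgroup (GL (Fin 2) ℝ))) :=
    ⟨Subgroup.isCusp_of_mem_strictPeriods one_pos h1⟩
  exact analyticAt_cuspFunction_zero one_pos
    (SlashInvariantFormClass.periodic_comp_ofComplex f h1) (CuspFormClass.holo f)
    (ModularFormClass.bdd_at_infty f)

theorem qCoeff_add' {M : ℕ} {k : ℤ} (f g : CuspForm (Gamma0 M) k) (n : ℕ) :
    qCoeff ⇑(f + g) n = qCoeff f n + qCoeff g n := by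
  change (qExpansion 1 (⇑f + ⇑g)).coeff n = _
  rw [UpperHalfPlane.qExpansion_add (analyticAt_cuspFunction f)
    (analyticAt_cuspFunction g), map_add]
  rfl

theorem qCoeff_sub' {M : ℕ} {k : ℤ} (f g : CuspForm (Gamma0 M) k) (n : ℕ) :
    qCoeff ⇑(f - g) n = qCoeff f n - qCoeff g n := by
  change (qExpansion 1 (⇑f - ⇑g)).coeff n = _
  rw [UpperHalfPlane.qExpansion_sub (analyticAt_cuspFunction f)
    (analyticAt_cuspFunction g), map_sub]
  rfl

theorem qCoeff_smul' {M : ℕ} {k : ℤ} (c : ℂ) (f : CuspForm (Gamma0 M) k) (n : ℕ) :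
    qCoeff ⇑(c • f) n = c * qCoeff f n := by
  change (qExpansion 1 (c • ⇑f)).coeff n = _
  rw [UpperHalfPlane.qExpansion_smul (analyticAt_cuspFunction f)]
  rfl

theorem qCoeff_diag {M N : ℕ} (k : ℤ) [NeZero N] {q : ℕ} (hq : q ≠ 0) (h : M * q ∣ N)
    (f : CuspForm (Gamma0 M) k) (n : ℕ) :
    qCoeff (diag k hq h f) n = if q ∣ n then (q : ℂ) ^ (k - 1) * qCoeff f (n / q) else 0 := by
  have h1 := one_mem_strictPeriods_Gamma0 M
  have : Fact (IsCusp OnePoint.infty (Gamma0 M : Subgroup (GL (Fin 2) ℝ))) :=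
    ⟨Subgroup.isCusp_of_mem_strictPeriods one_pos h1⟩
  have hper := SlashInvariantFormClass.periodic_comp_ofComplex f h1
  have hhol := CuspFormClass.holo f
  have hbdd := ModularFormClass.bdd_at_infty f
  have hT : AnalyticAt ℂ (cuspFunction 1 (heckeT k q ⇑f)) 0 :=
    analyticAt_cuspFunction_zero one_pos
      (by exact_mod_cast ModularForm.periodic_heckeT_comp_ofComplex (by exact_mod_cast hper) k q)
      (ModularForm.mdifferentiable_heckeT hhol k q)
      (ModularForm.isBoundedAtImInfty_heckeT hbdd k q)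
  have hU : AnalyticAt ℂ (cuspFunction 1 (heckeU k q ⇑f)) 0 :=
    analyticAt_cuspFunction_zero one_pos
      (by exact_mod_cast ModularForm.periodic_heckeU_comp_ofComplex (by exact_mod_cast hper) k q)
      (ModularForm.mdifferentiable_heckeU hhol k q)
      (ModularForm.isBoundedAtImInfty_heckeU hbdd k q)
  have hdiff : ⇑(diag k hq h f) = heckeT k q ⇑f - heckeU k q ⇑f := by
    rw [coe_diag, heckeT_eq_heckeU_add, add_sub_cancel_left]
  have key : qCoeff (diag k hq h f) n = qCoeff (heckeT k q ⇑f) n - qCoeff (heckeU k q ⇑f) n := by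
    unfold qCoeff
    rw [hdiff, UpperHalfPlane.qExpansion_sub hT hU, map_sub]
  rw [key, ModularFormClass.qCoeff_heckeT f h1 hq, ModularFormClass.qCoeff_heckeU f h1 hq,
    coeffHeckeT_eq_coeffHeckeU_add, add_sub_cancel_left]

/-! ## Eigenforms -/

open CuspForm

/-- If `M ∣ N` have the same prime factors, a normalised eigenform of level `M` is one of level `N`. -/
theorem isNormalizedEigenform_incl {M N : ℕ} (h : M ∣ N) (hp : ∀ p : ℕ, p.Prime → p ∣ N → p ∣ M)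
    {g : CuspForm (Gamma0 M) 2} (hg : g.IsNormalizedEigenform) :
    (incl 2 h g).IsNormalizedEigenform where
  qCoeff_one := hg.qCoeff_one
  qCoeff_mul_of_coprime := hg.qCoeff_mul_of_coprime
  qCoeff_prime_pow_of_not_dvd p r hpp hpN :=
    hg.qCoeff_prime_pow_of_not_dvd p r hpp fun h' => hpN (h'.trans h)
  qCoeff_prime_pow_of_dvd p r hpp hpN := hg.qCoeff_prime_pow_of_dvd p r hpp (hp p hpp hpN)

/-- The `q`-stabilisation `g(τ) - β g(qτ)` of level `M * q`. -/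
def stabilize {M q : ℕ} [NeZero (M * q)] (hq : q ≠ 0) (β : ℂ) (g : CuspForm (Gamma0 M) 2) :
    CuspForm (Gamma0 (M * q)) 2 :=
  incl 2 (Dvd.intro _ rfl) g - (β / q) • diag 2 hq dvd_rfl g

theorem qCoeff_stabilize {M q : ℕ} [NeZero (M * q)] (hq : q ≠ 0) (β : ℂ)
    (g : CuspForm (Gamma0 M) 2) (n : ℕ) :
    qCoeff (stabilize hq β g) n = qCoeff g n - if q ∣ n then β * qCoeff g (n / q) else 0 := by
  rw [stabilize, qCoeff_sub', qCoeff_smul', qCoeff_incl, qCoeff_diag]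
  congr 1
  have hq' : (q : ℂ) ≠ 0 := by exact_mod_cast hq
  split_ifs with h
  · rw [show (2 : ℤ) - 1 = 1 by norm_num, zpow_one]
    field_simp
  · rw [mul_zero]

theorem qCoeff_stabilize_of_not_dvd {M q : ℕ} [NeZero (M * q)] (hq : q ≠ 0) (β : ℂ)
    (g : CuspForm (Gamma0 M) 2) {n : ℕ} (hn : ¬ q ∣ n) :
    qCoeff (stabilize hq β g) n = qCoeff g n := by
  rw [qCoeff_stabilize, if_neg hn, sub_zero]

theorem isNormalizedEigenform_stabilize {M q : ℕ} [NeZero (M * q)] (hq : q.Prime) (hqM : ¬ q ∣ M)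
    {α β : ℂ} {g : CuspForm (Gamma0 M) 2} (hg : g.IsNormalizedEigenform)
    (hsum : α + β = qCoeff g q) (hprod : α * β = q) :
    (stabilize hq.ne_zero β g).IsNormalizedEigenform := by
  have hqq : qCoeff (stabilize hq.ne_zero β g) q = α := by
    rw [qCoeff_stabilize, if_pos dvd_rfl, Nat.div_self hq.pos, hg.qCoeff_one, ← hsum]
    ring
  -- the case `q ∣ m`
  have key : ∀ m n : ℕ, m.Coprime n → q ∣ m →
      qCoeff (stabilize hq.ne_zero β g) (m * n) =
        qCoeff (stabilize hq.ne_zero β g) m * qCoeff (stabilize hq.ne_zero β g) n := by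
    intro m n hmn hqm
    have hqn : ¬ q ∣ n := fun hqn => hq.one_lt.ne' (Nat.dvd_one.mp (hmn ▸ Nat.dvd_gcd hqm hqn))
    obtain ⟨m', rfl⟩ := hqm
    have hmn' : m'.Coprime n := Nat.Coprime.coprime_dvd_left (Dvd.intro_left _ rfl) hmn
    rw [qCoeff_stabilize_of_not_dvd _ _ _ hqn, qCoeff_stabilize, qCoeff_stabilize,
      if_pos (Dvd.intro _ rfl), if_pos (by rw [mul_assoc]; exact Dvd.intro _ rfl),
      hg.qCoeff_mul_of_coprime _ _ hmn, Nat.mul_div_cancel_left _ hq.pos, mul_assoc,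
      Nat.mul_div_cancel_left _ hq.pos, hg.qCoeff_mul_of_coprime _ _ hmn']
    ring
  refine ⟨?_, ?_, ?_, ?_⟩
  · rw [qCoeff_stabilize_of_not_dvd _ _ _ (fun h => hq.one_lt.ne' (Nat.dvd_one.mp h)), hg.qCoeff_one]
  · intro m n hmn
    by_cases hqm : q ∣ m
    · exact key m n hmn hqm
    by_cases hqn : q ∣ n
    · rw [mul_comm m n, key n m hmn.symm hqn, mul_comm]
    · rw [qCoeff_stabilize_of_not_dvd _ _ _ hqm, qCoeff_stabilize_of_not_dvd _ _ _ hqn,
        qCoeff_stabilize_of_not_dvd _ _ _ (hq.prime.not_dvd_mul hqm hqn),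
        hg.qCoeff_mul_of_coprime m n hmn]
  · intro p r hp hpN
    have hpq : p ≠ q := fun h => hpN (h ▸ Dvd.intro_left _ rfl)
    have hnd : ∀ s : ℕ, ¬ q ∣ p ^ s := fun s h =>
      hpq ((Nat.prime_dvd_prime_iff_eq hq hp).mp (hq.dvd_of_dvd_pow h)).symm
    rw [qCoeff_stabilize_of_not_dvd _ _ _ (hnd _), qCoeff_stabilize_of_not_dvd _ _ _ (hnd _),
      qCoeff_stabilize_of_not_dvd _ _ _ (hnd _),
      qCoeff_stabilize_of_not_dvd _ _ _ (by simpa using hnd 1),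
      hg.qCoeff_prime_pow_of_not_dvd p r hp fun h => hpN (h.trans (Dvd.intro _ rfl))]
  · intro p r hp hpN
    by_cases hpq : p = q
    · subst hpq
      rw [hqq, qCoeff_stabilize, qCoeff_stabilize, if_pos (dvd_pow_self _ (by omega)),
        if_pos (dvd_pow_self _ (by omega)), hg.qCoeff_prime_pow_of_not_dvd p r hp hqM,
        show p ^ (r + 2) / p = p ^ (r + 1) by
          rw [show r + 2 = (r + 1) + 1 by ring, pow_succ, Nat.mul_div_cancel _ hp.pos],
        show p ^ (r + 1) / p = p ^ r by rw [pow_succ, Nat.mul_div_cancel _ hp.pos], ← hsum]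
      linear_combination (qCoeff g (p ^ r)) * hprod
    · have hnd : ∀ s : ℕ, ¬ q ∣ p ^ s := fun s h =>
        hpq ((Nat.prime_dvd_prime_iff_eq hq hp).mp (hq.dvd_of_dvd_pow h)).symm
      have hpM : p ∣ M := ((Nat.Prime.dvd_mul hp).mp hpN).resolve_right fun h =>
        hpq ((Nat.prime_dvd_prime_iff_eq hp hq).mp h)
      rw [qCoeff_stabilize_of_not_dvd _ _ _ (hnd _), qCoeff_stabilize_of_not_dvd _ _ _ (hnd _),
        qCoeff_stabilize_of_not_dvd _ _ _ (by simpa using hnd 1),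
        hg.qCoeff_prime_pow_of_dvd p r hp hpM]

/-- Raising the level of a normalised eigenform by a prime `q`. -/
theorem exists_isNormalizedEigenform_mul_prime {M q : ℕ} (hM : M ≠ 0) (hq : q.Prime)
    {g : CuspForm (Gamma0 M) 2} (hg : g.IsNormalizedEigenform) :
    ∃ h : CuspForm (Gamma0 (M * q)) 2, h.IsNormalizedEigenform ∧
      ∀ n : ℕ, ¬ q ∣ n → qCoeff h n = qCoeff g n := by
  have : NeZero (M * q) := ⟨mul_ne_zero hM hq.ne_zero⟩
  by_cases hqM : q ∣ M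
  · refine ⟨incl 2 (Dvd.intro _ rfl) g, isNormalizedEigenform_incl _ ?_ hg, fun n _ => rfl⟩
    intro p hp hpN
    rcases (Nat.Prime.dvd_mul hp).mp hpN with h | h
    · exact h
    · exact ((Nat.prime_dvd_prime_iff_eq hp hq).mp h) ▸ hqM
  · -- choose a root of `X² - a_q X + q`
    obtain ⟨β, hβ⟩ : ∃ β : ℂ, β * β - qCoeff g q * β + q = 0 := by
      obtain ⟨z, hz⟩ := IsAlgClosed.exists_pow_nat_eq (qCoeff g q ^ 2 - 4 * q) (n := 2) (by norm_num)
      exact ⟨(qCoeff g q + z) / 2, by linear_combination hz / 4⟩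
    refine ⟨stabilize hq.ne_zero β g, isNormalizedEigenform_stabilize hq hqM (α := qCoeff g q - β) hg
      (by ring) (by linear_combination -hβ), fun n hn => qCoeff_stabilize_of_not_dvd _ _ _ hn⟩

theorem exists_isNormalizedEigenform_mul {d : ℕ} (hd : d ≠ 0) : ∀ {M : ℕ} (_ : M ≠ 0)
    {g : CuspForm (Gamma0 M) 2} (_ : g.IsNormalizedEigenform),
    ∃ h : CuspForm (Gamma0 (M * d)) 2, h.IsNormalizedEigenform ∧
      ∀ n : ℕ, n.Coprime d → qCoeff h n = qCoeff g n := by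
  induction d using Nat.recOnMul with
  | zero => exact absurd rfl hd
  | one =>
    intro M hM g hg
    rw [mul_one]
    exact ⟨g, hg, fun n _ => rfl⟩
  | prime p hp =>
    intro M hM g hg
    obtain ⟨h, hh, hhn⟩ := exists_isNormalizedEigenform_mul_prime hM hp hg
    exact ⟨h, hh, fun n hn => hhn n fun hpn =>
      hp.one_lt.ne' (Nat.dvd_one.mp (hn ▸ Nat.dvd_gcd hpn dvd_rfl))⟩
  | mul a b iha ihb =>
    intro M hM g hg
    obtain ⟨h₁, hh₁, h1⟩ := iha (left_ne_zero_of_mul hd) hM hg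
    obtain ⟨h₂, hh₂, h2⟩ := ihb (right_ne_zero_of_mul hd)
      (mul_ne_zero hM (left_ne_zero_of_mul hd)) hh₁
    rw [← mul_assoc]
    exact ⟨h₂, hh₂, fun n hn => (h2 n (Nat.Coprime.coprime_mul_left_right hn)).trans
      (h1 n (Nat.Coprime.coprime_mul_right_right hn))⟩

/-- **Raising the level**: a normalised eigenform of level `M ∣ N` (`N ≠ 0`) yields a normalised
eigenform of level `N` with the same coefficients at all `n` prime to `N / M`. -/
theorem exists_isNormalizedEigenform_of_dvd {M N : ℕ} (hN : N ≠ 0) (hMN : M ∣ N)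
    {g : CuspForm (Gamma0 M) 2} (hg : g.IsNormalizedEigenform) :
    ∃ h : CuspForm (Gamma0 N) 2, h.IsNormalizedEigenform ∧
      ∀ n : ℕ, n.Coprime (N / M) → qCoeff h n = qCoeff g n := by
  obtain ⟨d, rfl⟩ := hMN
  have hM : M ≠ 0 := fun h => hN (by rw [h, zero_mul])
  rw [Nat.mul_div_cancel_left _ (Nat.pos_of_ne_zero hM)]
  exact exists_isNormalizedEigenform_mul (right_ne_zero_of_mul hN) hM hg

/-- Version of `exists_isNormalizedEigenform_of_dvd` for prime coefficients away from `N`. -/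
theorem exists_isNormalizedEigenform_of_dvd' {M N : ℕ} (hN : N ≠ 0) (hMN : M ∣ N)
    {g : CuspForm (Gamma0 M) 2} (hg : g.IsNormalizedEigenform) :
    ∃ h : CuspForm (Gamma0 N) 2, h.IsNormalizedEigenform ∧
      ∀ ℓ : ℕ, ℓ.Prime → ¬ ℓ ∣ N → qCoeff h ℓ = qCoeff g ℓ := by
  obtain ⟨h, hh, h1⟩ := exists_isNormalizedEigenform_of_dvd hN hMN hg
  exact ⟨h, hh, fun ℓ hℓ hℓN => h1 ℓ ((Nat.Prime.coprime_iff_not_dvd hℓ).mpr fun h' =>
    hℓN (h'.trans (Nat.div_dvd_of_dvd hMN)))⟩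

/-- A weight-2 modular model of level `M` is one of every multiple `N ≠ 0` of `M`. -/
theorem isModularModelOfLevel_of_dvd {W : WeierstrassCurve ℤ} {M N : ℕ} (hN : N ≠ 0) (hMN : M ∣ N)
    (h : W.IsModularModelOfLevel M) : W.IsModularModelOfLevel N := by
  obtain ⟨g, hg, hga⟩ := h
  obtain ⟨f, hf, hfa⟩ := exists_isNormalizedEigenform_of_dvd' hN hMN hg
  exact ⟨f, hf, fun p hp hpW hpN => (hfa p hp hpN).trans
    (hga p hp hpW fun h' => hpN (h'.trans hMN))⟩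

/-- Residual modularity of level `M` implies residual modularity of every multiple `N ≠ 0`. -/
theorem isResiduallyModularOfLevel_of_dvd {W : WeierstrassCurve ℤ} {p M N : ℕ} (hN : N ≠ 0)
    (hMN : M ∣ N) (h : W.IsResiduallyModularOfLevel p M) : W.IsResiduallyModularOfLevel p N := by
  obtain ⟨g, 𝔪, hg, h𝔪, hp𝔪, hga⟩ := h
  obtain ⟨f, hf, hfa⟩ := exists_isNormalizedEigenform_of_dvd' hN hMN hg
  refine ⟨f, 𝔪, hf, h𝔪, hp𝔪, fun ℓ hℓ hℓW hℓN hℓp => ?_⟩
  rw [hfa ℓ hℓ hℓN]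
  exact hga ℓ hℓ hℓW (fun h' => hℓN (h'.trans hMN)) hℓp

/-- Same for the Frey package. -/
theorem modularRepOfLevel_of_dvd {P : FreyPackage} {M N : ℕ} (hN : N ≠ 0)
    (hMN : M ∣ N) (h : P.ModularRepOfLevel M) : P.ModularRepOfLevel N := by
  obtain ⟨g, W, 𝔪, hg, hW, h𝔪, hp𝔪, hga⟩ := h
  obtain ⟨f, hf, hfa⟩ := exists_isNormalizedEigenform_of_dvd' hN hMN hg
  refine ⟨f, W, 𝔪, hf, hW, h𝔪, hp𝔪, fun ℓ hℓ hℓW hℓN hℓp => ?_⟩
  rw [hfa ℓ hℓ hℓN]
  exact hga ℓ hℓ hℓW (fun h' => hℓN (h'.trans hMN)) hℓp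

/-! ## The newform behind an eigenform -/

/-- Every normalised eigenform `f` of level `N ≠ 0` has an underlying "newform" `g` of some level
`M ∣ N` (in the sense of `CuspForm.IsNewform`), with the same eigenvalues away from `N`. -/
theorem exists_isNewform {N : ℕ} (hN : N ≠ 0) {f : CuspForm (Gamma0 N) 2}
    (hf : f.IsNormalizedEigenform) :
    ∃ M : ℕ, M ∣ N ∧ ∃ g : CuspForm (Gamma0 M) 2, g.IsNewform ∧
      ∀ ℓ : ℕ, ℓ.Prime → ¬ ℓ ∣ N → qCoeff g ℓ = qCoeff f ℓ := by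
  classical
  have hex : ∃ M : ℕ, M ∣ N ∧ GoodEigensystemOccursAt f M :=
    ⟨N, dvd_rfl, GoodEigensystemOccursAt.refl hf⟩
  obtain ⟨hMN, g, hg, hgf⟩ := Nat.find_spec hex
  refine ⟨Nat.find hex, hMN, g, ⟨hg, fun M' hM' hne hocc => ?_⟩, hgf⟩
  obtain ⟨g', hg', hg'g⟩ := hocc
  have hlt : M' < Nat.find hex :=
    lt_of_le_of_ne (Nat.le_of_dvd (Nat.pos_of_ne_zero fun h0 => hN (by
      rw [h0] at hMN; exact zero_dvd_iff.mp hMN)) hM') hne
  refine Nat.find_min hex hlt ⟨hM'.trans hMN, g', hg', fun ℓ hℓ hℓN => ?_⟩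
  rw [hg'g ℓ hℓ fun h => hℓN (h.trans hMN), hgf ℓ hℓ hℓN]

end Fermat.Agent.Oldform
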