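import Fermat.Agent.BrauerNesbittGalois

/-!
# Comparing representations through Frobenius elements

Consequences of the Frobenius density theorem (taken here as a hypothesis
`Fermat.Agent.FrobCompare.FrobDensity`, see `Fermat/Agent/FrobeniusDensity.lean`): two
two-dimensional representations whose Frobenius characteristic polynomials agree outside a finite
set have the same characteristic polynomials everywhere.
-/

set_option autoImplicit false

open Polynomial IsLocalRing
open scoped TensorProduct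

namespace Fermat.Agent.FrobCompare

local notation "Γℚ" => (AlgebraicClosure ℚ ≃ₐ[ℚ] AlgebraicClosure ℚ)

/-- Frobenius density (weak form of Chebotarev). -/
def FrobDensity : Prop :=
  ∀ (L : IntermediateField ℚ (AlgebraicClosure ℚ)) [FiniteDimensional ℚ L] (g : Γℚ) (S : Finset ℕ),
    ∃ ℓ : ℕ, ℓ.Prime ∧ ℓ ∉ S ∧ ∃ A : ValuationSubring (AlgebraicClosure ℚ), A.LiesOverPrime ℓ ∧
      ∃ σ : Γℚ, A.IsFrobeniusAt σ ℓ ∧ ∃ k : ℕ, ∀ x ∈ L, g x = (σ ^ k) x

/-! ## Powers of a rank two endomorphism -/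

section Power

variable {R V : Type*} [CommRing R] [Nontrivial R] [AddCommGroup V] [Module R V] [Module.Free R V]
  [Module.Finite R V]

theorem cayleyHamilton_two (h : Module.finrank R V = 2) (f : Module.End R V) :
    f ^ 2 = LinearMap.trace R V f • f - LinearMap.det f • (1 : Module.End R V) := by
  have h1 := LinearMap.aeval_self_charpoly f
  rw [BN2.charpoly_eq_of_finrank_two h] at h1
  simp only [map_add, map_sub, map_mul, map_pow, aeval_X, aeval_C] at h1
  rw [Algebra.algebraMap_eq_smul_one, Algebra.algebraMap_eq_smul_one, smul_mul_assoc, one_mul] at h1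
  linear_combination (norm := module) h1

/-- The sequence `s 0 = 2, s 1 = t, s (n+2) = t s (n+1) - d s n` computing `tr f^n`. -/
def powTrace {S : Type*} [CommRing S] (t d : S) : ℕ → S
  | 0 => 2
  | 1 => t
  | (n + 2) => t * powTrace t d (n + 1) - d * powTrace t d n

theorem trace_pow_eq (h : Module.finrank R V = 2) (f : Module.End R V) (n : ℕ) :
    LinearMap.trace R V (f ^ n) = powTrace (LinearMap.trace R V f) (LinearMap.det f) n := by
  induction n using Nat.twoStepInduction with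
  | zero => rw [pow_zero, LinearMap.trace_one, h, powTrace]; norm_num
  | one => rw [pow_one, powTrace]
  | more n ih1 ih2 =>
    rw [powTrace, ← ih1, ← ih2, pow_add, cayleyHamilton_two h, mul_sub, mul_smul_comm, mul_smul_comm,
      mul_one, map_sub, map_smul, map_smul, smul_eq_mul, smul_eq_mul, pow_succ]

theorem map_powTrace {S S' : Type*} [CommRing S] [CommRing S'] (i : S →+* S') (t d : S) (n : ℕ) :
    i (powTrace t d n) = powTrace (i t) (i d) n := by
  induction n using Nat.twoStepInduction with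
  | zero => rw [powTrace, powTrace, map_ofNat]
  | one => rw [powTrace, powTrace]
  | more n ih1 ih2 => rw [powTrace, powTrace, map_sub, map_mul, map_mul, ih1, ih2]

variable {R' V' : Type*} [CommRing R'] [Nontrivial R'] [AddCommGroup V'] [Module R' V']
  [Module.Free R' V'] [Module.Finite R' V']

/-- The charpoly of `f ^ n` only depends on the charpoly of `f` (rank 2). -/
theorem charpoly_pow_map_eq {S : Type*} [CommRing S] (h : Module.finrank R V = 2)
    (h' : Module.finrank R' V' = 2) (i : R →+* S) (i' : R' →+* S) (f : Module.End R V)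
    (f' : Module.End R' V')
    (heq : (LinearMap.charpoly f).map i = (LinearMap.charpoly f').map i') (n : ℕ) :
    (LinearMap.charpoly (f ^ n)).map i = (LinearMap.charpoly (f' ^ n)).map i' := by
  have ht := BN2.trace_eq_of_charpoly_map_eq h h' i i' f f' heq
  have hd := BN2.det_eq_of_charpoly_map_eq h h' i i' f f' heq
  refine BN2.charpoly_map_eq_of_trace_det_eq h h' i i' _ _ ?_ ?_
  · rw [trace_pow_eq h, trace_pow_eq h', map_powTrace, map_powTrace, ht, hd]
  · rw [map_pow, map_pow, map_pow, map_pow, hd]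

end Power

/-! ## Charpolys modulo an ideal -/

section Ideal

variable {R V : Type*} [CommRing R] [AddCommGroup V] [Module R V] [Module.Free R V]
  [Module.Finite R V]

theorem charpoly_map_eq_of_sub_mem {S : Type*} [CommRing S] (i : R →+* S) (I : Ideal R)
    (hI : I ≤ RingHom.ker i) (f f' : Module.End R V)
    (h : ∀ v : V, f v - f' v ∈ I • (⊤ : Submodule R V)) :
    (LinearMap.charpoly f).map i = (LinearMap.charpoly f').map i := by
  classical
  let b := Module.Free.chooseBasis R V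
  rw [← LinearMap.charpoly_toMatrix f b, ← LinearMap.charpoly_toMatrix f' b, ← Matrix.charpoly_map,
    ← Matrix.charpoly_map]
  congr 1
  ext j k
  rw [Matrix.map_apply, Matrix.map_apply,
    LinearMap.toMatrix_apply, LinearMap.toMatrix_apply, ← sub_eq_zero, ← map_sub]
  apply hI
  have h1 : b.repr (f (b k)) j - b.repr (f' (b k)) j = b.repr (f (b k) - f' (b k)) j := by
    rw [map_sub, Finsupp.sub_apply]
  rw [h1]
  have h2 := h (b k)
  refine Submodule.smul_induction_on h2 (fun a ha v _ => ?_) (fun x y hx hy => ?_)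
  · rw [map_smul, Finsupp.smul_apply, smul_eq_mul]
    exact I.mul_mem_right _ ha
  · rw [map_add, Finsupp.add_apply]
    exact I.add_mem hx hy

end Ideal

/-! ## The comparison theorem -/

section Compare

variable {R₁ V₁ : Type*} [CommRing R₁] [Nontrivial R₁] [AddCommGroup V₁] [Module R₁ V₁]
  [Module.Free R₁ V₁] [Module.Finite R₁ V₁]
  {R₂ V₂ : Type*} [CommRing R₂] [Nontrivial R₂] [AddCommGroup V₂] [Module R₂ V₂]
  [Module.Free R₂ V₂] [Module.Finite R₂ V₂] {B : Type*} [CommRing B]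

/-- `σ ↦ charpoly (ρ σ)` (mapped to `B`) only depends on the restriction of `σ` to `L`. -/
def CharpolyConstantOn (ρ : Γℚ →* Module.End R₁ V₁) (i : R₁ →+* B)
    (L : IntermediateField ℚ (AlgebraicClosure ℚ)) : Prop :=
  ∀ g g' : Γℚ, (∀ x ∈ L, g x = g' x) →
    (LinearMap.charpoly (ρ g)).map i = (LinearMap.charpoly (ρ g')).map i

omit [Nontrivial R₁] in
theorem CharpolyConstantOn.mono {ρ : Γℚ →* Module.End R₁ V₁} {i : R₁ →+* B}
    {L L' : IntermediateField ℚ (AlgebraicClosure ℚ)} (h : CharpolyConstantOn ρ i L) (hL : L ≤ L') :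
    CharpolyConstantOn ρ i L' := fun g g' hgg' => h g g' fun x hx => hgg' x (hL hx)

/-- The basic comparison theorem. -/
theorem charpoly_map_eq_of_frobDensity (hD : FrobDensity) (h₁ : Module.finrank R₁ V₁ = 2)
    (h₂ : Module.finrank R₂ V₂ = 2) (ρ₁ : Γℚ →* Module.End R₁ V₁) (ρ₂ : Γℚ →* Module.End R₂ V₂)
    (i₁ : R₁ →+* B) (i₂ : R₂ →+* B)
    (L₁ L₂ : IntermediateField ℚ (AlgebraicClosure ℚ)) [FiniteDimensional ℚ L₁]
    [FiniteDimensional ℚ L₂] (hc₁ : CharpolyConstantOn ρ₁ i₁ L₁) (hc₂ : CharpolyConstantOn ρ₂ i₂ L₂)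
    (S : Finset ℕ)
    (hF : ∀ ℓ : ℕ, ℓ.Prime → ℓ ∉ S → ∀ A : ValuationSubring (AlgebraicClosure ℚ),
      A.LiesOverPrime ℓ → ∀ σ : Γℚ, A.IsFrobeniusAt σ ℓ →
        (LinearMap.charpoly (ρ₁ σ)).map i₁ = (LinearMap.charpoly (ρ₂ σ)).map i₂) (g : Γℚ) :
    (LinearMap.charpoly (ρ₁ g)).map i₁ = (LinearMap.charpoly (ρ₂ g)).map i₂ := by
  obtain ⟨ℓ, hℓ, hℓS, A, hA, σ, hσ, k, hk⟩ := hD (L₁ ⊔ L₂) g S
  have e₁ := hc₁.mono (le_sup_left : L₁ ≤ L₁ ⊔ L₂) g (σ ^ k) hk
  have e₂ := hc₂.mono (le_sup_right : L₂ ≤ L₁ ⊔ L₂) g (σ ^ k) hk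
  rw [e₁, e₂, map_pow, map_pow]
  exact charpoly_pow_map_eq h₁ h₂ i₁ i₂ _ _ (hF ℓ hℓ hℓS A hA σ hσ) k

omit [Nontrivial R₁] in
/-- Representations factoring through a finite level have locally constant charpolys. -/
theorem charpolyConstantOn_of_factors (ρ : Γℚ →* Module.End R₁ V₁) (i : R₁ →+* B)
    (L : IntermediateField ℚ (AlgebraicClosure ℚ))
    (hL : ∀ σ : Γℚ, (∀ x ∈ L, σ x = x) → ρ σ = 1) : CharpolyConstantOn ρ i L := by
  intro g g' h
  have h1 : ρ (g'⁻¹ * g) = 1 := hL _ fun x hx => by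
    rw [AlgEquiv.mul_apply, h x hx]
    change g'.symm (g' x) = x
    exact g'.symm_apply_apply x
  have h2 : ρ g = ρ g' := by
    have : g = g' * (g'⁻¹ * g) := by group
    rw [this, map_mul, h1, mul_one]
  rw [h2]

/-- Adically continuous representations have locally constant charpolys modulo `𝔪^n`. -/
theorem exists_charpolyConstantOn_of_isAdicContinuous {A : Type} [CommRing A] [IsLocalRing A]
    {V : Type} [AddCommGroup V] [Module A V] [Module.Free A V] [Module.Finite A V]
    (ρ : Γℚ →* Module.End A V) (hρ : GaloisActionIsAdicContinuous A ρ) (n : ℕ) (i : A →+* B)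
    (hi : maximalIdeal A ^ n ≤ RingHom.ker i) :
    ∃ L : IntermediateField ℚ (AlgebraicClosure ℚ), FiniteDimensional ℚ L ∧
      CharpolyConstantOn ρ i L := by
  obtain ⟨L, hL, h1⟩ := hρ n
  refine ⟨L, hL, fun g g' h => charpoly_map_eq_of_sub_mem i _ hi _ _ fun v => ?_⟩
  have h2 : ρ g v = ρ g' (ρ (g'⁻¹ * g) v) := by
    rw [← Module.End.mul_apply, ← map_mul]
    congr 2
    group
  rw [h2, ← map_sub]
  have h3 := h1 (g'⁻¹ * g) (fun x hx => by
    rw [AlgEquiv.mul_apply, h x hx]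
    change g'.symm (g' x) = x
    exact g'.symm_apply_apply x) v
  refine Submodule.smul_induction_on h3 (fun a ha w _ => ?_) (fun x y hx hy => ?_)
  · rw [map_smul]
    exact Submodule.smul_mem_smul ha Submodule.mem_top
  · rw [map_add]
    exact Submodule.add_mem _ hx hy

end Compare

/-! ## Residual representations -/

/-- Two residual representations (over possibly different fields) with the same Frobenius charpolys
outside `S` (compared in `K`) have the same charpolys everywhere. -/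
theorem residual_charpoly_map_eq (hD : FrobDensity) {k₁ k₂ : Type} [Field k₁] [Field k₂]
    {K : Type*} [CommRing K] (i₁ : k₁ →+* K) (i₂ : k₂ →+* K) (ρ₁ : ResidualGaloisRep k₁)
    (ρ₂ : ResidualGaloisRep k₂) (S : Finset ℕ)
    (hF : ∀ ℓ : ℕ, ℓ.Prime → ℓ ∉ S → ∀ A : ValuationSubring (AlgebraicClosure ℚ),
      A.LiesOverPrime ℓ → ∀ σ : Γℚ, A.IsFrobeniusAt σ ℓ →
        (LinearMap.charpoly (ρ₁.ρ σ)).map i₁ = (LinearMap.charpoly (ρ₂.ρ σ)).map i₂) (g : Γℚ) :
    (LinearMap.charpoly (ρ₁.ρ g)).map i₁ = (LinearMap.charpoly (ρ₂.ρ g)).map i₂ := by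
  obtain ⟨L₁, hL₁, h₁⟩ := ρ₁.factorsThroughFiniteLevel
  obtain ⟨L₂, hL₂, h₂⟩ := ρ₂.factorsThroughFiniteLevel
  exact charpoly_map_eq_of_frobDensity hD ρ₁.finrank_eq ρ₂.finrank_eq ρ₁.ρ ρ₂.ρ i₁ i₂ L₁ L₂
    (charpolyConstantOn_of_factors _ _ _ h₁) (charpolyConstantOn_of_factors _ _ _ h₂) S hF g

/-! ## Adic representations -/

theorem eq_zero_of_forall_mem_pow {B : Type*} [CommRing B] [IsLocalRing B] [IsNoetherianRing B]
    {x : B} (h : ∀ n, x ∈ maximalIdeal B ^ n) : x = 0 := by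
  have := Ideal.iInf_pow_eq_bot_of_isLocalRing (maximalIdeal B) (Ideal.IsPrime.ne_top inferInstance)
  have hx : x ∈ (⨅ n, maximalIdeal B ^ n : Ideal B) := by
    rw [Ideal.mem_iInf]
    exact h
  rw [this] at hx
  exact hx

/-- Two adic representations whose Frobenius charpolys agree outside `S` in a common noetherian
local ring `B` have the same charpolys (in `B`) everywhere. -/
theorem adic_charpoly_map_eq (hD : FrobDensity) {A₁ A₂ : Type} [CommRing A₁] [IsLocalRing A₁]
    [CommRing A₂] [IsLocalRing A₂] {B : Type*} [CommRing B] [IsLocalRing B] [IsNoetherianRing B]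
    (i₁ : A₁ →+* B) (i₂ : A₂ →+* B) (hi₁ : IsLocalHom i₁) (hi₂ : IsLocalHom i₂)
    (ρ₁ : GaloisRepAdic A₁) (ρ₂ : GaloisRepAdic A₂) (S : Finset ℕ)
    (hF : ∀ ℓ : ℕ, ℓ.Prime → ℓ ∉ S → ∀ A : ValuationSubring (AlgebraicClosure ℚ),
      A.LiesOverPrime ℓ → ∀ σ : Γℚ, A.IsFrobeniusAt σ ℓ →
        (LinearMap.charpoly (ρ₁.ρ σ)).map i₁ = (LinearMap.charpoly (ρ₂.ρ σ)).map i₂) (g : Γℚ) :
    (LinearMap.charpoly (ρ₁.ρ g)).map i₁ = (LinearMap.charpoly (ρ₂.ρ g)).map i₂ := by
  ext j
  rw [← sub_eq_zero]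
  refine eq_zero_of_forall_mem_pow fun n => ?_
  let π := Ideal.Quotient.mk (maximalIdeal B ^ n)
  have hle : ∀ {A : Type} [CommRing A] [IsLocalRing A] (i : A →+* B) (_ : IsLocalHom i),
      maximalIdeal A ^ n ≤ RingHom.ker (π.comp i) := by
    intro A _ _ i hi a ha
    rw [RingHom.mem_ker, RingHom.comp_apply, Ideal.Quotient.eq_zero_iff_mem]
    have h1 : (maximalIdeal A ^ n).map i ≤ maximalIdeal B ^ n := by
      rw [Ideal.map_pow]
      exact Ideal.pow_right_mono (Ideal.map_le_iff_le_comap.mpr fun a ha =>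
        Ideal.mem_comap.mpr (map_nonunit i a ha)) n
    exact h1 (Ideal.mem_map_of_mem i ha)
  obtain ⟨L₁, hL₁, h₁⟩ := exists_charpolyConstantOn_of_isAdicContinuous ρ₁.ρ ρ₁.isAdicContinuous n
    (π.comp i₁) (hle i₁ hi₁)
  obtain ⟨L₂, hL₂, h₂⟩ := exists_charpolyConstantOn_of_isAdicContinuous ρ₂.ρ ρ₂.isAdicContinuous n
    (π.comp i₂) (hle i₂ hi₂)
  have key := charpoly_map_eq_of_frobDensity hD ρ₁.finrank_eq ρ₂.finrank_eq ρ₁.ρ ρ₂.ρ (π.comp i₁)
    (π.comp i₂) L₁ L₂ h₁ h₂ S (fun ℓ hℓ hℓS A hA σ hσ => by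
      rw [← Polynomial.map_map, ← Polynomial.map_map, hF ℓ hℓ hℓS A hA σ hσ]) g
  have h3 := congrArg (fun p => p.coeff j) key
  simp only [← Polynomial.map_map, coeff_map π] at h3
  rw [← Ideal.Quotient.eq_zero_iff_mem, map_sub, sub_eq_zero]
  exact h3

end Fermat.Agent.FrobCompare
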