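import Fermat.Agent.S42Lib.FromS29
import Fermat.Agent.EllTorsion.Frey

set_option autoImplicit false

/-! S42 follows from S29 alone. -/

namespace Fermat.Agent.S42Lib

theorem s42_of_s29' (h29 : S29Prop) (P : FreyPackage) :
    ∀ M : ℕ, 0 < M → P.EigenformResidualAttachmentAt M :=
  s42_of_s29 h29 P (EllTorsion.frey_factorsThroughFiniteLevel P)

end Fermat.Agent.S42Lib
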