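import Fermat.Statements.S37
import Fermat.Agent.JRED.Main
import Fermat.Agent.JRED.ESFinal
import Fermat.Agent.JRED.AtkinLehnerInput

set_option autoImplicit false
open ModularCurve

namespace Fermat.Agent.S37

open Fermat.Agent.JRED Fermat.Agent.JRED.ESFinal in
set_option synthInstance.maxHeartbeats 400000 in
theorem aux (N p : ℕ) [NeZero N] (hcomm : HeckeOperatorsCommuteBar N) :
    letI := heckeModuleBar N
    ∀ (_ : SMulCommClass (AlgebraicClosure ℚ ≃ₐ[ℚ] AlgebraicClosure ℚ) HeckeAlg (JZero N)),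
      SpecializationExists (K := ℚ) (L := AlgebraicClosure ℚ) N p (JZero N) := by
  refine EichlerShimura.s37_of_reduction N p hcomm fun ℓ hℓ hℓN A hA => ?_
  have hπ : Function.Surjective (IsLocalRing.residue A) := IsLocalRing.residue_surjective
  have i1 : CharP (IsLocalRing.ResidueField A) ℓ := charP_of_liesOver hπ hℓ hA
  have i2 : IsAlgClosed (IsLocalRing.ResidueField A) := isAlgClosed_of_surjective hπ
  have : NeZero ℓ := ⟨hℓ.ne_zero⟩
  have hℓN' : ¬ ℓ ∣ N := fun h => hℓN (h.mul_right p)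
  exact exists_reduction N hπ hℓ hℓN hA (degreeInput' (NeZero.ne N) hℓN')
    (goodReduction hπ hℓ (NeZero.ne N) hℓN') (AL.atkinLehnerInput N ℓ hℓ hℓN')

theorem result (N p : ℕ) [NeZero N] (hcomm : ModularCurve.HeckeOperatorsCommuteBar N) : letI := ModularCurve.heckeModuleBar N; ∀ (_ : SMulCommClass (AlgebraicClosure ℚ ≃ₐ[ℚ] AlgebraicClosure ℚ) ModularCurve.HeckeAlg (ModularCurve.JZero N)), ModularCurve.SpecializationExists (K := ℚ) (L := AlgebraicClosure ℚ) N p (ModularCurve.JZero N) :=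
  aux N p hcomm

end Fermat.Agent.S37
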