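import Mathlib

set_option autoImplicit false

namespace Fermat.Agent.QuadraticModules

open Module Polynomial

section Burnside

variable {F : Type*} [Field F] [IsAlgClosed F] {W : Type*} [AddCommGroup W] [Module F W]
  [FiniteDimensional F W] [Nontrivial W]

/-- Burnside's theorem: a subalgebra of `End_F W` (`F` algebraically closed, `W` finite
dimensional, nonzero) acting irreducibly is everything. -/
theorem burnside (B : Subalgebra F (Module.End F W))
    (hirr : ∀ U : Submodule F W, (∀ b ∈ B, ∀ x ∈ U, b x ∈ U) → U = ⊥ ∨ U = ⊤) :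
    B = ⊤ := by
  classical
  have hsimple : IsSimpleModule B W := by
    rw [isSimpleModule_iff]
    refine { toNontrivial := ?_, eq_bot_or_eq_top := ?_ }
    · infer_instance
    · intro U
      have h := hirr (U.restrictScalars F) (fun b hb x hx => U.smul_mem (⟨b, hb⟩ : B) hx)
      rcases h with h | h
      · left
        ext x
        have : x ∈ U.restrictScalars F ↔ x ∈ (⊥ : Submodule F W) := by rw [h]
        simpa using this
      · right
        ext x
        have : x ∈ U.restrictScalars F ↔ x ∈ (⊤ : Submodule F W) := by rw [h]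
        simpa using this
  have hschur := IsSimpleModule.algebraMap_end_bijective_of_isAlgClosed (A := B) (V := W) F
  rw [eq_top_iff]
  intro f _
  -- view f as an endomorphism commuting with End_B W
  let f' : Module.End (Module.End B W) W :=
    { toFun := f
      map_add' := f.map_add
      map_smul' := fun c x => by
        obtain ⟨t, rfl⟩ := hschur.2 c
        simp }
  obtain ⟨s, hs⟩ := (Module.Finite.fg_top (R := F) (M := W))
  obtain ⟨b, hb⟩ := jacobson_density f' s
  have key : ∀ m ∈ (⊤ : Submodule F W), f m = (b : Module.End F W) m := by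
    intro m hm
    rw [← hs] at hm
    induction hm using Submodule.span_induction with
    | mem m hm => exact hb m hm
    | zero => simp
    | add _ _ _ _ h₁ h₂ => rw [map_add, map_add, h₁, h₂]
    | smul g _ _ h => rw [map_smul, map_smul, h]
  have : f = (b : Module.End F W) := LinearMap.ext fun m => key m Submodule.mem_top
  rw [this]
  exact b.2

/-- The span of the image of a group acting irreducibly is everything. -/
theorem span_range_eq_top {G : Type*} [Group G] (σ : G →* Module.End F W)
    (hirr : ∀ U : Submodule F W, (∀ g, ∀ x ∈ U, σ g x ∈ U) → U = ⊥ ∨ U = ⊤) :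
    Submodule.span F (Set.range σ) = ⊤ := by
  have hB : Algebra.adjoin F (Set.range σ) = ⊤ := burnside _ fun U hU =>
    hirr U fun g x hx => hU _ (Algebra.subset_adjoin ⟨g, rfl⟩) x hx
  have h1 : Submodule.span F (Submonoid.closure (Set.range σ) : Set (Module.End F W)) =
      Subalgebra.toSubmodule (Algebra.adjoin F (Set.range σ)) :=
    (Algebra.adjoin_eq_span F _).symm
  have h2 : (Submonoid.closure (Set.range σ) : Set (Module.End F W)) = Set.range σ := by
    have : Set.range σ = (MonoidHom.mrange σ : Set (Module.End F W)) := by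
      ext x; simp
    rw [this, Submonoid.closure_eq]
  rw [h2, hB] at h1
  rw [h1]
  exact Algebra.top_toSubmodule

end Burnside

section Quadratic

variable {F : Type*} [Field F] {W : Type*} [AddCommGroup W] [Module F W]
variable {G : Type*} [Group G]

/-- `QuadRel σ d t`: for every `g`, `σ g + d g • σ g⁻¹ = t g` on `W`. -/
def QuadRel (σ : G →* Module.End F W) (d : G →* F) (t : G → F) : Prop :=
  ∀ g, σ g + d g • σ g⁻¹ = t g • (1 : Module.End F W)

variable {σ : G →* Module.End F W} {d : G →* F} {t : G → F}

theorem map_mul_inv_self (σ : G →* Module.End F W) (g : G) : σ g * σ g⁻¹ = 1 := by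
  rw [← map_mul, mul_inv_cancel, map_one]

theorem map_inv_mul_self (σ : G →* Module.End F W) (g : G) : σ g⁻¹ * σ g = 1 := by
  rw [← map_mul, inv_mul_cancel, map_one]

theorem d_mul_inv (d : G →* F) (g : G) : d g * d g⁻¹ = 1 := by
  rw [← map_mul, mul_inv_cancel, map_one]

theorem d_ne_zero (d : G →* F) (g : G) : d g ≠ 0 := left_ne_zero_of_mul_eq_one (d_mul_inv d g)

/-- Pairs `(x, y)` of endomorphisms spanned by `(σ g, d g • σ g⁻¹)`. -/
def pairSpan (σ : G →* Module.End F W) (d : G →* F) :
    Submodule F (Module.End F W × Module.End F W) :=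
  Submodule.span F (Set.range fun g => (σ g, d g • σ g⁻¹))

theorem pairSpan_swap {x y : Module.End F W} (h : (x, y) ∈ pairSpan σ d) :
    (y, x) ∈ pairSpan σ d := by
  have : ∀ p ∈ pairSpan σ d, (p.2, p.1) ∈ pairSpan σ d := by
    intro p hp
    induction hp using Submodule.span_induction with
    | mem p hp =>
      obtain ⟨g, rfl⟩ := hp
      have h1 : ((σ g⁻¹, d g⁻¹ • σ g⁻¹⁻¹) : Module.End F W × Module.End F W) ∈ pairSpan σ d :=
        Submodule.subset_span ⟨g⁻¹, rfl⟩
      have h2 := (pairSpan σ d).smul_mem (d g) h1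
      convert h2 using 1
      simp only [Prod.smul_mk, inv_inv, smul_smul, d_mul_inv, one_smul]
    | zero => exact (pairSpan σ d).zero_mem
    | add p q _ _ hp hq => exact (pairSpan σ d).add_mem hp hq
    | smul c p _ hp => exact (pairSpan σ d).smul_mem c hp
  exact this (x, y) h

theorem pairSpan_mul {x y x' y' : Module.End F W} (h : (x, y) ∈ pairSpan σ d)
    (h' : (x', y') ∈ pairSpan σ d) : (x * x', y' * y) ∈ pairSpan σ d := by
  have key : ∀ p ∈ pairSpan σ d, ∀ q ∈ pairSpan σ d, (p.1 * q.1, q.2 * p.2) ∈ pairSpan σ d := by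
    intro p hp
    induction hp using Submodule.span_induction with
    | mem p hp =>
      obtain ⟨g, rfl⟩ := hp
      intro q hq
      induction hq using Submodule.span_induction with
      | mem q hq =>
        obtain ⟨h, rfl⟩ := hq
        have : ((σ (g * h), d (g * h) • σ (g * h)⁻¹) : Module.End F W × Module.End F W)
            ∈ pairSpan σ d := Submodule.subset_span ⟨g * h, rfl⟩
        convert this using 1
        simp only [map_mul, mul_inv_rev, smul_mul_smul_comm]
        rw [mul_comm (d h) (d g)]
      | zero => rw [Prod.fst_zero, Prod.snd_zero, mul_zero, zero_mul]; exact (pairSpan σ d).zero_mem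
      | add p q _ _ hp hq =>
        simpa [mul_add, add_mul] using (pairSpan σ d).add_mem hp hq
      | smul c p _ hp =>
        have := (pairSpan σ d).smul_mem c hp
        rwa [Prod.smul_mk, ← mul_smul_comm, ← smul_mul_assoc] at this
    | zero =>
      intro q hq
      rw [Prod.fst_zero, Prod.snd_zero, mul_zero, zero_mul]; exact (pairSpan σ d).zero_mem
    | add p p' _ _ hp hp' =>
      intro q hq
      simpa [mul_add, add_mul] using (pairSpan σ d).add_mem (hp q hq) (hp' q hq)
    | smul c p _ hp => intro q hq; simpa using (pairSpan σ d).smul_mem c (hp q hq)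
  exact key (x, y) h (x', y') h'

theorem pairSpan_add_scalar (hq : QuadRel σ d t) {x y : Module.End F W}
    (h : (x, y) ∈ pairSpan σ d) : ∃ τ : F, x + y = τ • 1 := by
  have : ∀ p ∈ pairSpan σ d, ∃ τ : F, p.1 + p.2 = τ • (1 : Module.End F W) := by
    intro p hp
    induction hp using Submodule.span_induction with
    | mem p hp => obtain ⟨g, rfl⟩ := hp; exact ⟨t g, hq g⟩
    | zero => exact ⟨0, by simp⟩
    | add p q _ _ hp hq =>
      obtain ⟨a, ha⟩ := hp
      obtain ⟨b, hb⟩ := hq
      refine ⟨a + b, ?_⟩
      rw [add_smul, ← ha, ← hb]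
      simp only [Prod.fst_add, Prod.snd_add]
      abel
    | smul c p _ hp =>
      obtain ⟨a, ha⟩ := hp
      exact ⟨c * a, by rw [mul_smul, ← ha]; simp⟩
  exact this (x, y) h

theorem pairSpan_mul_scalar (hq : QuadRel σ d t) {x y : Module.End F W}
    (h : (x, y) ∈ pairSpan σ d) : ∃ ν : F, x * y = ν • 1 := by
  have : ∀ p ∈ pairSpan σ d, ∃ ν : F, p.1 * p.2 = ν • (1 : Module.End F W) := by
    intro p hp
    induction hp using Submodule.span_induction with
    | mem p hp =>
      obtain ⟨g, rfl⟩ := hp
      refine ⟨d g, ?_⟩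
      simp only [mul_smul_comm, map_mul_inv_self]
    | zero => exact ⟨0, by simp⟩
    | add p q hp hq' ihp ihq =>
      obtain ⟨a, ha⟩ := ihp
      obtain ⟨b, hb⟩ := ihq
      have h1 : ((p.1 * q.2, q.1 * p.2) : Module.End F W × Module.End F W) ∈ pairSpan σ d :=
        pairSpan_mul (x := p.1) (y := p.2) (x' := q.2) (y' := q.1) hp (pairSpan_swap hq')
      obtain ⟨c, hc⟩ := pairSpan_add_scalar hq h1
      refine ⟨a + b + c, ?_⟩
      rw [add_smul, add_smul, ← ha, ← hb, ← hc]
      simp only [Prod.fst_add, Prod.snd_add, mul_add, add_mul]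
      abel
    | smul c p _ hp =>
      obtain ⟨a, ha⟩ := hp
      refine ⟨c * c * a, ?_⟩
      rw [mul_smul, ← ha]
      simp [smul_smul]
  exact this (x, y) h

end Quadratic

section Main

variable {F : Type*} [Field F] [IsAlgClosed F] {W : Type*} [AddCommGroup W] [Module F W]
  [FiniteDimensional F W] [Nontrivial W] {G : Type*} [Group G]
  {σ : G →* Module.End F W} {d : G →* F} {t : G → F}

/-- Under irreducibility, every endomorphism satisfies a quadratic equation. -/
theorem exists_quadratic (hq : QuadRel σ d t)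
    (hirr : ∀ U : Submodule F W, (∀ g, ∀ x ∈ U, σ g x ∈ U) → U = ⊥ ∨ U = ⊤)
    (x : Module.End F W) : ∃ τ ν : F, x * x = τ • x - ν • 1 := by
  have hx : x ∈ (⊤ : Submodule F (Module.End F W)) := Submodule.mem_top
  rw [← span_range_eq_top σ hirr] at hx
  have hmap : Submodule.span F (Set.range σ) =
      (pairSpan σ d).map (LinearMap.fst F (Module.End F W) (Module.End F W)) := by
    rw [pairSpan, Submodule.map_span, ← Set.range_comp]
    rfl
  rw [hmap] at hx
  obtain ⟨p, hp, rfl⟩ := hx
  obtain ⟨τ, hτ⟩ := pairSpan_add_scalar (x := p.1) (y := p.2) hq hp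
  obtain ⟨ν, hν⟩ := pairSpan_mul_scalar (x := p.1) (y := p.2) hq hp
  refine ⟨τ, ν, ?_⟩
  have h2 : p.2 = τ • 1 - p.1 := by rw [← hτ]; abel
  rw [h2] at hν
  simp only [LinearMap.fst_apply]
  rw [← hν, mul_sub, mul_smul_comm, mul_one]
  abel

/-- If every endomorphism is quadratic, the dimension is at most two. -/
theorem finrank_le_two_of_quadratic {F W : Type*} [Field F] [AddCommGroup W] [Module F W]
    [FiniteDimensional F W]
    (h : ∀ x : Module.End F W, ∃ τ ν : F, x * x = τ • x - ν • 1) : Module.finrank F W ≤ 2 := by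
  by_contra hlt
  push Not at hlt
  let b := Module.finBasis F W
  let e : Fin 3 → Fin (Module.finrank F W) := fun i => ⟨i, lt_of_lt_of_le i.2 hlt⟩
  have he : Function.Injective e := fun i j hij => by
    simpa [e, Fin.ext_iff] using hij
  -- x : e0 -> e1 -> e2 -> 0
  let x : Module.End F W := b.constr F fun i =>
    if i = e 0 then b (e 1) else if i = e 1 then b (e 2) else 0
  obtain ⟨τ, ν, hx⟩ := h x
  have h0 : x (b (e 0)) = b (e 1) := by
    simp only [x]
    rw [Module.Basis.constr_basis, if_pos rfl]
  have h10 : e 1 ≠ e 0 := fun h => by simpa using he h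
  have h1 : x (b (e 1)) = b (e 2) := by
    simp only [x]
    rw [Module.Basis.constr_basis, if_neg h10, if_pos rfl]
  have h2 := LinearMap.congr_fun hx (b (e 0))
  simp only [Module.End.mul_apply, LinearMap.sub_apply, LinearMap.smul_apply, Module.End.one_apply,
    h0, h1] at h2
  have h3 := congrArg (fun v => b.repr v (e 2)) h2
  have h21 : e 2 ≠ e 1 := fun h => by simpa using he h
  have h20 : e 2 ≠ e 0 := fun h => by simpa using he h
  simp [h21.symm, h20.symm] at h3

/-- An absolutely irreducible two-dimensional matrix representation satisfying the quadratic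
relation has trace `t` and determinant `d`. -/
theorem trace_det_of_span_top {F : Type*} [Field F] {G : Type*} [Group G]
    (M : G →* Matrix (Fin 2) (Fin 2) F) (d : G →* F) (t : G → F)
    (hq : ∀ g, M g + d g • M g⁻¹ = t g • (1 : Matrix (Fin 2) (Fin 2) F))
    (hspan : Submodule.span F (Set.range M) = ⊤) (g : G) :
    (M g).trace = t g ∧ (M g).det = d g := by
  have hMinv : ∀ g, M g * M g⁻¹ = 1 := fun g => by rw [← map_mul, mul_inv_cancel, map_one]
  have hMinv' : ∀ g, M g⁻¹ * M g = 1 := fun g => by rw [← map_mul, inv_mul_cancel, map_one]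
  have hdetne : ∀ g, (M g).det ≠ 0 := fun g h0 => by
    have := congrArg Matrix.det (hMinv g)
    rw [Matrix.det_mul, h0, zero_mul, Matrix.det_one] at this
    exact zero_ne_one this
  -- Cayley-Hamilton
  have hCH : ∀ g, M g + (M g).det • M g⁻¹ = (M g).trace • (1 : Matrix (Fin 2) (Fin 2) F) := by
    intro g
    have h1 : (M g).det • M g⁻¹ = (M g).adjugate := by
      have h := Matrix.adjugate_mul (M g)
      calc (M g).det • M g⁻¹ = ((M g).det • (1 : Matrix (Fin 2) (Fin 2) F)) * M g⁻¹ := by simp
        _ = ((M g).adjugate * M g) * M g⁻¹ := by rw [h]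
        _ = (M g).adjugate := by rw [mul_assoc, hMinv, mul_one]
    rw [h1, Matrix.adjugate_fin_two]
    ext i j
    fin_cases i <;> fin_cases j <;> simp [Matrix.trace, add_comm]
  -- nonscalar case
  have hns : ∀ g, (∀ c : F, M g ≠ c • (1 : Matrix (Fin 2) (Fin 2) F)) →
      (M g).det = d g := by
    intro g hg
    by_contra hne
    have h1 := hq g
    have h2 := hCH g
    have h3 : (d g - (M g).det) • M g⁻¹ = (t g - (M g).trace) • (1 : Matrix (Fin 2) (Fin 2) F) := by
      rw [sub_smul, sub_smul, ← h1, ← h2]; abel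
    have hne' : d g - (M g).det ≠ 0 := sub_ne_zero.mpr (Ne.symm hne)
    have h4 : M g⁻¹ = ((d g - (M g).det)⁻¹ * (t g - (M g).trace)) •
        (1 : Matrix (Fin 2) (Fin 2) F) := by
      rw [mul_smul, ← h3, smul_smul, inv_mul_cancel₀ hne', one_smul]
    set c := (d g - (M g).det)⁻¹ * (t g - (M g).trace) with hc
    have h5 : c • M g = 1 := by
      have := hMinv g
      rw [h4, mul_smul_comm, mul_one] at this
      exact this
    have hc0 : c ≠ 0 := by
      intro h0
      rw [h0, zero_smul] at h5
      exact zero_ne_one h5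
    exact hg c⁻¹ (by rw [← h5, smul_smul, inv_mul_cancel₀ hc0, one_smul])
  -- a nonscalar element exists
  obtain ⟨h, hh⟩ : ∃ h, ∀ c : F, M h ≠ c • (1 : Matrix (Fin 2) (Fin 2) F) := by
    by_contra hcon
    push Not at hcon
    have hle : Submodule.span F (Set.range M) ≤ Submodule.span F {1} := by
      rw [Submodule.span_le]
      rintro _ ⟨g, rfl⟩
      obtain ⟨c, hc⟩ := hcon g
      rw [hc]
      exact Submodule.smul_mem _ c (Submodule.mem_span_singleton_self _)
    rw [hspan, top_le_iff] at hle
    have : (!![0, 1; 0, 0] : Matrix (Fin 2) (Fin 2) F) ∈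
        Submodule.span F {(1 : Matrix (Fin 2) (Fin 2) F)} := by
      rw [hle]; exact Submodule.mem_top
    obtain ⟨c, hc⟩ := Submodule.mem_span_singleton.mp this
    have := congrFun (congrFun hc 0) 1
    simp at this
  have hdet : (M g).det = d g := by
    by_cases hsc : ∀ c : F, M g ≠ c • (1 : Matrix (Fin 2) (Fin 2) F)
    · exact hns g hsc
    · push Not at hsc
      obtain ⟨c, hc⟩ := hsc
      have hc0 : c ≠ 0 := by
        rintro rfl
        have := hdetne g
        rw [hc, zero_smul, Matrix.det_zero] at this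
        exact this rfl
      have h1 : (M (g * h)).det = d (g * h) := by
        refine hns _ fun c' hc' => hh (c⁻¹ * c') ?_
        rw [map_mul, hc, smul_mul_assoc, one_mul] at hc'
        rw [mul_smul, ← hc', smul_smul, inv_mul_cancel₀ hc0, one_smul]
      have h2 := hns h hh
      rw [map_mul, Matrix.det_mul, map_mul, h2] at h1
      refine mul_right_cancel₀ ?_ h1
      rw [← h2]; exact hdetne h
  refine ⟨?_, hdet⟩
  have h1 := hq g
  have h2 := hCH g
  rw [hdet, h1] at h2
  have := congrFun (congrFun h2 0) 0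
  simpa using this.symm

end Main

section Final

variable {F : Type*} [Field F] [IsAlgClosed F] {W : Type*} [AddCommGroup W] [Module F W]
  [FiniteDimensional F W] [Nontrivial W] {G : Type*} [Group G]
  {σ : G →* Module.End F W} {d : G →* F} {t : G → F}

/-- The irreducible case. -/
theorem exists_matrixRep_of_irreducible (hq : QuadRel σ d t)
    (hirr : ∀ U : Submodule F W, (∀ g, ∀ x ∈ U, σ g x ∈ U) → U = ⊥ ∨ U = ⊤) :
    ∃ M : G →* Matrix (Fin 2) (Fin 2) F,
      (∀ g, (M g).trace = t g ∧ (M g).det = d g) ∧ (∀ g, σ g = 1 → d g = 1 → M g = 1) := by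
  have hle : Module.finrank F W ≤ 2 := finrank_le_two_of_quadratic (exists_quadratic hq hirr)
  have hpos : 0 < Module.finrank F W := Module.finrank_pos
  have h12 : Module.finrank F W = 1 ∨ Module.finrank F W = 2 := by omega
  rcases h12 with h1 | h2
  · -- one-dimensional
    let b := Module.basisUnique (Fin 1) h1
    let v := b 0
    have hv : v ≠ 0 := b.ne_zero 0
    have hex : ∀ g, ∃ c : F, σ g = c • (1 : Module.End F W) := by
      intro g
      obtain ⟨c, hc⟩ := (finrank_eq_one_iff_of_nonzero' v hv).mp h1 (σ g v)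
      refine ⟨c, LinearMap.ext fun w => ?_⟩
      obtain ⟨a, rfl⟩ := (finrank_eq_one_iff_of_nonzero' v hv).mp h1 w
      rw [map_smul, ← hc, LinearMap.smul_apply, Module.End.one_apply, smul_comm]
    choose χ hχ using hex
    have hinj : ∀ a a' : F, a • (1 : Module.End F W) = a' • (1 : Module.End F W) → a = a' := by
      intro a a' h
      have := LinearMap.congr_fun h v
      simp only [LinearMap.smul_apply, Module.End.one_apply] at this
      exact smul_left_injective F hv this
    have hχ1 : χ 1 = 1 := hinj _ _ (by rw [← hχ 1, map_one, one_smul])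
    have hχmul : ∀ g h, χ (g * h) = χ g * χ h := fun g h => hinj _ _ (by
      rw [← hχ (g * h), map_mul, hχ g, hχ h, smul_mul_smul_comm, one_mul])
    have ht : ∀ g, t g = χ g + d g * χ g⁻¹ := fun g => hinj _ _ (by
      rw [← hq g, hχ g, hχ g⁻¹, add_smul, mul_smul])
    refine ⟨
      { toFun := fun g => Matrix.diagonal ![χ g, d g * χ g⁻¹]
        map_one' := by
          rw [inv_one, hχ1, map_one, mul_one]
          ext i j
          fin_cases i <;> fin_cases j <;> simp
        map_mul' := fun g h => by
          rw [Matrix.diagonal_mul_diagonal, mul_inv_rev, hχmul, hχmul, map_mul]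
          congr 1
          ext i
          fin_cases i
          · simp
          · simp; ring }, ?_, ?_⟩
    · intro g
      refine ⟨?_, ?_⟩
      · simp [ht g]
      · have : χ g * χ g⁻¹ = 1 := by rw [← hχmul, mul_inv_cancel, hχ1]
        simp only [MonoidHom.coe_mk, OneHom.coe_mk, Matrix.det_diagonal, Fin.prod_univ_two,
          Matrix.cons_val_zero, Matrix.cons_val_one]
        rw [mul_left_comm, this, mul_one]
    · intro g hg hd
      have h1 : χ g = 1 := hinj _ _ (by rw [← hχ g, hg, one_smul])
      have h2 : χ g⁻¹ = 1 := by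
        have : χ g * χ g⁻¹ = 1 := by rw [← hχmul, mul_inv_cancel, hχ1]
        rwa [h1, one_mul] at this
      simp only [MonoidHom.coe_mk, OneHom.coe_mk, h1, h2, hd, mul_one]
      ext i j
      fin_cases i <;> fin_cases j <;> simp
  · -- two-dimensional
    let b : Module.Basis (Fin 2) F W := Module.finBasisOfFinrankEq F W h2
    let e : Module.End F W ≃ₐ[F] Matrix (Fin 2) (Fin 2) F := LinearMap.toMatrixAlgEquiv b
    let M : G →* Matrix (Fin 2) (Fin 2) F := (e : Module.End F W →* Matrix (Fin 2) (Fin 2) F).comp σ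
    have hM : ∀ g, M g = e (σ g) := fun g => rfl
    have hq' : ∀ g, M g + d g • M g⁻¹ = t g • (1 : Matrix (Fin 2) (Fin 2) F) := by
      intro g
      rw [hM, hM, ← map_smul, ← map_add, hq g, map_smul, map_one]
    have hspan : Submodule.span F (Set.range M) = ⊤ := by
      have h := span_range_eq_top σ hirr
      have h' := congrArg (Submodule.map e.toLinearMap) h
      rw [Submodule.map_span, ← Set.range_comp, Submodule.map_top] at h'
      have h'' : e.toLinearMap.range = ⊤ := LinearMap.range_eq_top.mpr e.surjective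
      exact h'.trans h''
    refine ⟨M, trace_det_of_span_top M d t hq' hspan, fun g hg _ => ?_⟩
    rw [hM, hg, map_one]

/-- A nonzero finite-dimensional representation has a minimal nonzero invariant subspace. -/
theorem exists_minimal_invariant {F W G : Type*} [Field F] [AddCommGroup W] [Module F W]
    [FiniteDimensional F W] [Nontrivial W] [Group G] (σ : G →* Module.End F W) :
    ∃ U : Submodule F W, U ≠ ⊥ ∧ (∀ g, ∀ x ∈ U, σ g x ∈ U) ∧
      ∀ U' : Submodule F W, U' ≤ U → (∀ g, ∀ x ∈ U', σ g x ∈ U') → U' = ⊥ ∨ U' = U := by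
  let P : Set (Submodule F W) := {U | U ≠ ⊥ ∧ ∀ g, ∀ x ∈ U, σ g x ∈ U}
  have hne : P.Nonempty := ⟨⊤, top_ne_bot, fun _ _ _ => Submodule.mem_top⟩
  have hwf : WellFounded ((· < ·) : Submodule F W → Submodule F W → Prop) := wellFounded_lt
  refine ⟨hwf.min P hne, (hwf.min_mem P hne).1, (hwf.min_mem P hne).2, fun U' hle hU' => ?_⟩
  by_cases h0 : U' = ⊥
  · exact Or.inl h0
  · right
    have := hwf.not_lt_min P (x := U') ⟨h0, hU'⟩
    rcases hle.lt_or_eq with h | h
    · exact absurd h this
    · exact h

/-- **Main lemma**: a nonzero finite-dimensional representation `σ` of `G` over an algebraically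
closed field on which `σ g + d g • σ g⁻¹` is the scalar `t g` for every `g` gives rise to a
two-dimensional matrix representation with trace `t` and determinant `d`. -/
theorem exists_matrixRep (hq : QuadRel σ d t) :
    ∃ M : G →* Matrix (Fin 2) (Fin 2) F,
      (∀ g, (M g).trace = t g ∧ (M g).det = d g) ∧ (∀ g, σ g = 1 → d g = 1 → M g = 1) := by
  obtain ⟨U, hU0, hUinv, hUmin⟩ := exists_minimal_invariant σ
  have : Nontrivial U := Submodule.nontrivial_iff_ne_bot.mpr hU0
  let σU : G →* Module.End F U :=
    { toFun := fun g => (σ g).restrict (hUinv g)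
      map_one' := by
        ext x
        simp [LinearMap.restrict_apply]
      map_mul' := fun g h => by
        ext x
        simp [LinearMap.restrict_apply] }
  have hσU : ∀ g (x : U), ((σU g x : U) : W) = σ g x := fun g x => rfl
  have hqU : QuadRel σU d t := by
    intro g
    ext x
    have := LinearMap.congr_fun (hq g) (x : W)
    simpa [hσU] using this
  have hirr : ∀ V : Submodule F U, (∀ g, ∀ x ∈ V, σU g x ∈ V) → V = ⊥ ∨ V = ⊤ := by
    intro V hV
    have h1 := hUmin (V.map U.subtype) (Submodule.map_subtype_le U V) (by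
      rintro g _ ⟨x, hx, rfl⟩
      exact ⟨σU g x, hV g x hx, rfl⟩)
    rcases h1 with h1 | h1
    · left
      apply Submodule.map_injective_of_injective U.injective_subtype
      rw [h1, Submodule.map_bot]
    · right
      apply Submodule.map_injective_of_injective U.injective_subtype
      rw [h1, Submodule.map_top, Submodule.range_subtype]
  obtain ⟨M, hM1, hM2⟩ := exists_matrixRep_of_irreducible hqU hirr
  refine ⟨M, hM1, fun g hg hd => hM2 g ?_ hd⟩
  ext x
  rw [hσU, hg]
  rfl

end Final

section Powers

variable {F : Type*} [Field F] {W : Type*} [AddCommGroup W] [Module F W]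
variable {G : Type*} [Group G]

/-- `ScalarAt σ d g` : `σ g + d g • σ g⁻¹` is a scalar. -/
def ScalarAt (σ : G →* Module.End F W) (d : G →* F) (g : G) : Prop :=
  ∃ τ : F, σ g + d g • σ g⁻¹ = τ • (1 : Module.End F W)

variable {σ : G →* Module.End F W} {d : G →* F}

theorem scalarAt_one : ScalarAt σ d 1 := ⟨1 + 1, by simp [add_smul]⟩

theorem ScalarAt.inv {g : G} (h : ScalarAt σ d g) : ScalarAt σ d g⁻¹ := by
  obtain ⟨τ, hτ⟩ := h
  refine ⟨d g⁻¹ * τ, ?_⟩
  rw [mul_smul, ← hτ, smul_add, smul_smul, inv_inv]
  have : d g⁻¹ * d g = 1 := by rw [← map_mul, inv_mul_cancel, map_one]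
  rw [this, one_smul, add_comm]

theorem ScalarAt.pow {g : G} (h : ScalarAt σ d g) (n : ℕ) : ScalarAt σ d (g ^ n) := by
  obtain ⟨τ, hτ⟩ := h
  have key : ∀ n : ℕ, ScalarAt σ d (g ^ n) ∧ ScalarAt σ d (g ^ (n + 1)) := by
    intro n
    induction n with
    | zero => exact ⟨by simpa using scalarAt_one, by simpa using ⟨τ, hτ⟩⟩
    | succ n ih =>
      refine ⟨ih.2, ?_⟩
      obtain ⟨⟨a, ha⟩, ⟨b, hb⟩⟩ := ih
      refine ⟨b * τ - d g * a, ?_⟩
      -- (g^{n+1} + d^{n+1} g^{-(n+1)}) (g + d g^{-1}) = ...
      have e1 : (σ (g ^ (n + 1)) + d (g ^ (n + 1)) • σ (g ^ (n + 1))⁻¹) * (σ g + d g • σ g⁻¹)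
          = (σ (g ^ (n + 1 + 1)) + d (g ^ (n + 1 + 1)) • σ (g ^ (n + 1 + 1))⁻¹) +
            d g • (σ (g ^ n) + d (g ^ n) • σ (g ^ n)⁻¹) := by
        have h1 : g ^ (n + 1) * g = g ^ (n + 1 + 1) := (pow_succ g (n + 1)).symm
        have h2 : g ^ (n + 1) * g⁻¹ = g ^ n := by rw [pow_succ, mul_inv_cancel_right]
        have h3 : (g ^ (n + 1))⁻¹ * g = (g ^ n)⁻¹ := by
          rw [pow_succ', mul_inv_rev, inv_mul_cancel_right]
        have h4 : (g ^ (n + 1))⁻¹ * g⁻¹ = (g ^ (n + 1 + 1))⁻¹ := by
          rw [← mul_inv_rev, ← pow_succ']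
        have h5 : d (g ^ (n + 1)) = d g * d (g ^ n) := by rw [← map_mul, ← pow_succ']
        have h6 : d (g ^ (n + 1 + 1)) = d g * d (g ^ (n + 1)) := by rw [← map_mul, ← pow_succ']
        rw [add_mul, mul_add, mul_add, mul_smul_comm, smul_mul_assoc, smul_mul_assoc,
          mul_smul_comm, ← map_mul, ← map_mul, ← map_mul, ← map_mul, h1, h2, h3, h4, h6, smul_add,
          smul_smul, smul_smul, mul_comm (d (g ^ (n + 1))) (d g), ← h5]
        abel
      rw [ha, hb, hτ] at e1
      rw [sub_smul, mul_smul, mul_smul, eq_sub_iff_add_eq, ← e1, smul_mul_smul_comm, mul_one,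
        mul_smul]
  exact (key n).1

theorem ScalarAt.zpow {g : G} (h : ScalarAt σ d g) (n : ℤ) : ScalarAt σ d (g ^ n) := by
  cases n with
  | ofNat n => simpa using h.pow n
  | negSucc n => rw [zpow_negSucc]; exact (h.pow _).inv

end Powers

end Fermat.Agent.QuadraticModules
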