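import Fermat.Statements.S24
import Fermat.Agent.J.GenusX0
import Fermat.Agent.QbarInst

set_option autoImplicit false
open ModularCurve

namespace Fermat.Agent.S24

theorem genus_aux (N : ℕ) [NeZero N]
    (F : IntermediateField (AlgebraicClosure ℚ) (LaurentSeries (AlgebraicClosure ℚ)))
    (hF : F = modularFunctionFieldFullC (AlgebraicClosure ℚ) N)
    [AlgebraicCurve.HasCanonicalDivisor (K := AlgebraicClosure ℚ) (F := ↥F)] :
    (AlgebraicCurve.genus (AlgebraicClosure ℚ) ↥F : ℚ) = genusFormula N := by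
  subst hF
  let _ : Algebra (AlgebraicClosure ℚ) ℂ :=
    (IsAlgClosed.lift (M := ℂ) (S := AlgebraicClosure ℚ) (R := ℚ)).toRingHom.toAlgebra
  exact FermatJ.genus_fullC (AlgebraicClosure ℚ) N

theorem result (N : ℕ) [NeZero N]
    [AlgebraicCurve.HasCanonicalDivisor (K := AlgebraicClosure ℚ) (F := ↥(ModularCurve.modularFunctionFieldBar N))] :
    (AlgebraicCurve.genus (AlgebraicClosure ℚ) ↥(ModularCurve.modularFunctionFieldBar N) : ℚ)
      = ModularCurve.genusFormula N :=
  genus_aux N _ (Fermat.Agent.MFF.modularFunctionFieldBar_eq N)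

end Fermat.Agent.S24
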