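import Fermat.Statements.S05
import Fermat.Agent.ECRed.FreyUnramified

set_option autoImplicit false
open WeierstrassCurve WeierstrassCurve.Affine WeierstrassCurve.Affine.Point
open CuspForm ModularFormClass UpperHalfPlane
open FreyPackage

namespace Fermat.Agent.S05

open Fermat.Agent.ECRed

lemma frey_eq₀ (P : FreyPackage) : P.freyCurve =
    (⟨Units.mk0 2 two_ne_zero, 0, 1, 0⟩ : VariableChange ℚ) •
      specialCurve (P.b ^ P.p - P.a ^ P.p) (-(P.a * P.b) ^ P.p) := by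
  ext <;> simp [FreyPackage.freyCurve, specialCurve, variableChange_def, mul_pow] <;> ring

lemma frey_eq₁ (P : FreyPackage) : P.freyCurve =
    (⟨Units.mk0 2 two_ne_zero, -(P.a : ℚ) ^ P.p, 1, 0⟩ : VariableChange ℚ) •
      specialCurve (2 * P.a ^ P.p + P.b ^ P.p) ((P.a * P.c) ^ P.p) := by
  have hF : (P.a : ℚ) ^ P.p + (P.b : ℚ) ^ P.p = (P.c : ℚ) ^ P.p := by exact_mod_cast P.hFLT
  ext <;> simp [FreyPackage.freyCurve, specialCurve, variableChange_def, mul_pow] <;>
    (try rw [← hF]) <;> ring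

lemma coprime_of_not_dvd {q : ℕ} (hq : q.Prime) {n : ℤ} (h : ¬ (q : ℤ) ∣ n) :
    IsCoprime n (q : ℤ) :=
  ((Nat.prime_iff_prime_int.mp hq).coprime_iff_not_dvd.mpr h).symm

theorem result (P : FreyPackage) {q : ℕ} (hq : q.Prime) (hq2 : q ≠ 2) (hqp : q ≠ P.p) : P.GaloisRepUnramifiedAt q := by
  intro A hA σ hσ x
  have hqI : Prime (q : ℤ) := Nat.prime_iff_prime_int.mp hq
  have hpq : Nat.Coprime P.p q := (Nat.coprime_primes P.pp hq).mpr (Ne.symm hqp)
  have h2q : Nat.Coprime 2 q := (Nat.coprime_primes Nat.prime_two hq).mpr (Ne.symm hq2)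
  have h2dvd : ¬ (q : ℤ) ∣ 2 := by
    intro h
    have : q ∣ 2 := by exact_mod_cast h
    exact hq2 ((Nat.prime_dvd_prime_iff_eq hq Nat.prime_two).mp this)
  have hp3 : 3 ≤ P.p := by have := P.hp5; omega
  have hx : P.p • (x.1 : (P.freyCurve.toAffine.baseChange (AlgebraicClosure ℚ)).Point) = 0 := by
    have := (Submodule.mem_torsionBy_iff _ _).mp x.2
    rw [← natCast_zsmul]; exact this
  apply Subtype.ext
  change σ • (x.1 : (P.freyCurve.toAffine.baseChange (AlgebraicClosure ℚ)).Point) = x.1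
  -- the three cases
  by_cases hab : (q : ℤ) ∣ P.a * P.b
  · refine fixed_of_model _ _ (frey_eq₀ P) σ (n := P.p) (fun R hR => ?_) _ hx
    refine specialCurve_nodal A hA P.pp hp3 hpq h2q (coprime_of_not_dvd hq ?_) hab ?_
      (Or.inr rfl) σ hσ R hR
    · intro h
      have hgcd : IsCoprime P.a P.b :=
        (gcd_isUnit_iff _ _).mp (by rw [P.hgcdab]; exact isUnit_one)
      rcases hqI.dvd_or_dvd hab with h1 | h1
      · have h2 : (q : ℤ) ∣ P.b ^ P.p := by
          have := dvd_add h (dvd_pow h1 P.hp0)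
          simpa using this
        exact hqI.not_isUnit (hgcd.isUnit_of_dvd' h1 (hqI.dvd_of_dvd_pow h2))
      · have h2 : (q : ℤ) ∣ P.a ^ P.p := by
          have := dvd_sub (dvd_pow h1 P.hp0) h
          simpa using this
        exact hqI.not_isUnit (hgcd.isUnit_of_dvd' (hqI.dvd_of_dvd_pow h2) h1)
    · exact neg_ne_zero.mpr (pow_ne_zero _ (mul_ne_zero P.ha0 P.hb0))
  by_cases hc : (q : ℤ) ∣ P.c
  · refine fixed_of_model _ _ (frey_eq₁ P) σ (n := P.p) (fun R hR => ?_) _ hx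
    refine specialCurve_nodal A hA P.pp hp3 hpq h2q (coprime_of_not_dvd hq ?_)
      (dvd_mul_of_dvd_right hc P.a) ?_ (Or.inl rfl) σ hσ R hR
    · intro h
      have h1 : (q : ℤ) ∣ P.a ^ P.p := by
        have e : P.a ^ P.p = (2 * P.a ^ P.p + P.b ^ P.p) - P.c ^ P.p := by
          rw [← P.hFLT]; ring
        rw [e]
        exact dvd_sub h (dvd_pow hc P.hp0)
      exact hab (dvd_mul_of_dvd_left (hqI.dvd_of_dvd_pow h1) _)
    · exact pow_ne_zero _ (mul_ne_zero P.ha0 P.hc0)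
  · refine fixed_of_model _ _ (frey_eq₀ P) σ (n := P.p) (fun R hR => ?_) _ hx
    refine specialCurve_good A hA hpq (coprime_of_not_dvd hq ?_) σ hσ R hR
    have e : 16 * (-(P.a * P.b) ^ P.p) ^ 2 *
        ((P.b ^ P.p - P.a ^ P.p) ^ 2 - 4 * -(P.a * P.b) ^ P.p) =
        2 ^ 4 * ((P.a * P.b) ^ P.p) ^ 2 * (P.c ^ P.p) ^ 2 := by
      rw [← P.hFLT, mul_pow]; ring
    rw [e]
    intro h
    rcases hqI.dvd_or_dvd h with h | h
    · rcases hqI.dvd_or_dvd h with h | h
      · exact h2dvd (hqI.dvd_of_dvd_pow h)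
      · exact hab (hqI.dvd_of_dvd_pow (hqI.dvd_of_dvd_pow h))
    · exact hc (hqI.dvd_of_dvd_pow (hqI.dvd_of_dvd_pow h))

end Fermat.Agent.S05
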