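import Fermat.Agent.FlatMatch.Datum
import Fermat.Agent.IntStr.Main
import Fermat.Agent.S30Wiring

set_option autoImplicit false

/-!
# S32 from the inputs of S30 and the flat models of `J₀(N)[p^k]` (S19)
-/

namespace Fermat.Agent.S32Wiring

open IsLocalRing Fermat.FlatModel Fermat.FlatMatch ModularCurve

noncomputable section

/-- The conclusion of S19 at level `N` and the prime `ℓ`. -/
def FlatTorsionInput (N ℓ : ℕ) [NeZero N] : Prop :=
  ∀ k : ℕ,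
    ∃ (H : Type) (_ : CommRing H) (_ : HopfAlgebra (GaloisRep.ratLocalizedAt ℓ) H),
      Module.Finite (GaloisRep.ratLocalizedAt ℓ) H ∧ Module.Flat (GaloisRep.ratLocalizedAt ℓ) H ∧
      Coalgebra.IsCocomm (GaloisRep.ratLocalizedAt ℓ) H ∧
      ∃ e : WithConv (H →ₐ[GaloisRep.ratLocalizedAt ℓ] AlgebraicClosure ℚ) ≃
          ↥(Submodule.torsionBy ℤ (JZero N) ((ℓ : ℤ) ^ k)),
        (∀ f g, e (f * g) = e f + e g) ∧
        ∀ (σ : AlgebraicClosure ℚ ≃ₐ[ℚ] AlgebraicClosure ℚ)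
          (f g : WithConv (H →ₐ[GaloisRep.ratLocalizedAt ℓ] AlgebraicClosure ℚ)),
          (∀ h : H, g h = σ (f h)) → ((e g : JZero N)) = σ • (e f : JZero N)

theorem smulCommClass_int (N : ℕ) : SMulCommClass GQ ℤ (JZero N) :=
  ⟨fun g n x => (map_zsmul (DistribSMul.toAddMonoidHom (JZero N) g) n x)⟩

theorem hasFlatModel_of_flatTorsionInput {N ℓ : ℕ} [NeZero N]
    [SMulCommClass GQ ℤ (JZero N)] (h : FlatTorsionInput N ℓ) (k : ℕ) :
    HasFlatModel ℓ (addAct (torsAct ℤ (JZero N) (ℓ ^ k))) := by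
  have hcast : ((ℓ : ℤ) ^ k) = ((ℓ ^ k : ℕ) : ℤ) := by push_cast; rfl
  obtain ⟨H, _, _, h1, h2, h3, e, he, hσ⟩ := h k
  refine ⟨H, inferInstance, inferInstance, h1, h2, h3, e.trans (Equiv.subtypeEquivRight fun x => by
    rw [hcast]), ?_, ?_⟩
  · intro f g
    exact Subtype.ext (congrArg (Subtype.val) (he f g))
  · intro σ f g hfg
    exact Subtype.ext (hσ σ f g hfg)

end

end Fermat.Agent.S32Wiring

namespace Fermat.Agent.S32Wiring

open IsLocalRing Fermat.FlatModel Fermat.FlatMatch ModularCurve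

variable {p : ℕ} {N : ℕ} [NeZero N] {S : Finset ℕ}
  {𝒪 : Type} [CommRing 𝒪] [IsDomain 𝒪] [IsDiscreteValuationRing 𝒪]
  [IsAdicComplete (IsLocalRing.maximalIdeal 𝒪) 𝒪]
  {θ : CuspForm.heckeAlgebra N 2 (↑S : Set ℕ) →+* IsLocalRing.ResidueField 𝒪}
  {T : Type} [CommRing T] [IsLocalRing T] [IsNoetherianRing T]
  [IsAdicComplete (IsLocalRing.maximalIdeal T) T] [Algebra 𝒪 T] [IsLocalHom (algebraMap 𝒪 T)]
  [Module.Finite 𝒪 T] [Module.Free 𝒪 T]

omit [Module.Free 𝒪 T] in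
/-- **Core of S32**, for maps `π : heckeAlgebra N 2 S → T` to a reduced finite torsion-free
`𝒪`-algebra (no `HeckeGaloisRepDatum` needed). -/
theorem isFlatAt_core_of_inputs [Finite (IsLocalRing.ResidueField 𝒪)] [CharZero 𝒪]
    [Module.IsTorsionFree 𝒪 T] (hred : IsReduced T)
    (hp : p.Prime) (hp2 : p ≠ 2) (hp𝒪 : (p : 𝒪) ∈ IsLocalRing.maximalIdeal 𝒪)
    (hpS : p ∈ S) (hNS : ∀ q : ℕ, q.Prime → q ∣ N → q ∈ S)
    (π : CuspForm.heckeAlgebra N 2 (↑S : Set ℕ) →+* T) (ρ : GaloisRepAdic T)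
    (hcharpoly : ∀ (ℓ : ℕ) (hℓ : ℓ.Prime) (hℓN : ¬ ℓ ∣ N) (hℓS : ℓ ∉ (↑S : Set ℕ)),
      ∀ A : ValuationSubring (AlgebraicClosure ℚ), A.LiesOverPrime ℓ →
        ∀ σ : AlgebraicClosure ℚ ≃ₐ[ℚ] AlgebraicClosure ℚ, A.IsFrobeniusAt σ ℓ →
          LinearMap.charpoly (ρ.ρ σ) = Polynomial.X ^ 2 -
            Polynomial.C (π (CuspForm.heckeAlgebra.T hℓ hℓN hℓS)) * Polynomial.X +
            Polynomial.C ((ℓ : T)))
    (hirr : ρ.residual.IsAbsolutelyIrreducible)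
    (I : S30Wiring.Inputs N p S) (h19 : FlatTorsionInput N p) :
    ρ.IsFlatAt p := by
  let _ := heckeModuleBar N
  have _ : SMulCommClass GQ HeckeAlg (JZero N) := I.galois_hecke
  have _ := smulCommClass_int N
  have hfrob : FrobeniusQuadratic (K := ℚ) (L := AlgebraicClosure ℚ) N p (JZero N) :=
    S30Wiring.frobeniusQuadratic_of_specialization (I.specialization I.galois_hecke)
  have hfin : Finite {x : JZero N // p • x = 0} := by
    have h := I.finite 1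
    rw [pow_one] at h
    exact h
  have hsupp : Support N p S (JZero N) := I.support
  have hsm : ∀ x : JZero N, ∃ L : IntermediateField ℚ (AlgebraicClosure ℚ),
    FiniteDimensional ℚ L ∧ ∀ g : GQ, (∀ y ∈ L, g y = y) → g • x = x := I.smooth
  exact isFlatAt_core (𝒪 := 𝒪) hred hp hp2 hp𝒪 hpS hNS π ρ hcharpoly hirr (JZero N) hsm hfrob hfin
    hsupp (fun k => hasFlatModel_of_flatTorsionInput h19 k)

/-- **S32 from the inputs.** -/
theorem s32_of_inputs [Finite (IsLocalRing.ResidueField 𝒪)] [CharZero 𝒪]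
    (hp : p.Prime) (hp2 : p ≠ 2) (hp𝒪 : (p : 𝒪) ∈ IsLocalRing.maximalIdeal 𝒪)
    (hpS : p ∈ S) (hNS : ∀ q : ℕ, q.Prime → q ∣ N → q ∈ S)
    (H : CuspForm.HeckeGaloisRepDatum N (↑S : Set ℕ) 𝒪 θ T)
    (I : S30Wiring.Inputs N p S) (h19 : FlatTorsionInput N p) :
    H.ρ.IsFlatAt p := by
  have hredh : IsReduced (CuspForm.heckeAlgebra N 2 (↑S : Set ℕ)) :=
    Petersson.isReduced_heckeAlgebra hNS
  have _ : Module.Finite ℤ (CuspForm.heckeAlgebra N 2 (↑S : Set ℕ)) :=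
    IntStr.moduleFinite_heckeAlgebra N 2 (↑S : Set ℕ)
  have hred : IsReduced T := RT.Reduced.isReduced_of_adjoin_range_eq_top
    (CuspForm.heckeAlgebra N 2 (↑S : Set ℕ)) 𝒪 T H.π H.adjoin_range_π
  exact isFlatAt_core_of_inputs hred hp hp2 hp𝒪 hpS hNS H.π H.ρ H.charpoly_frob H.residual_absIrr
    I h19

end Fermat.Agent.S32Wiring
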