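import Fermat.Statements.S07
import Fermat.Prelude.Thm_ModularForm_sturm_bound_Gamma0

set_option autoImplicit false
open WeierstrassCurve WeierstrassCurve.Affine WeierstrassCurve.Affine.Point
open CuspForm ModularFormClass UpperHalfPlane
open ModularForm

namespace Fermat.Agent.S07

open scoped MatrixGroups

/-- The index of `Γ₀(N)` is at most `N ^ 2` (a crude bound, enough for the Sturm bound at small
level). -/
theorem index_Gamma0_le_sq (N : ℕ) [NeZero N] :
    (CongruenceSubgroup.Gamma0 N).index ≤ N * N := by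
  classical
  let F : SL(2, ℤ) → ZMod N × ZMod N := fun A => ((A 0 0 : ZMod N), (A 1 0 : ZMod N))
  have hF : ∀ A B : SL(2, ℤ), F A = F B → A⁻¹ * B ∈ CongruenceSubgroup.Gamma0 N := by
    intro A B h
    rw [CongruenceSubgroup.Gamma0_mem]
    have h0 : (A 0 0 : ZMod N) = (B 0 0 : ZMod N) := congrArg Prod.fst h
    have h1 : (A 1 0 : ZMod N) = (B 1 0 : ZMod N) := congrArg Prod.snd h
    have e : (A⁻¹ * B) 1 0 = -(A 1 0) * B 0 0 + A 0 0 * B 1 0 := by
      simp [Matrix.SpecialLinearGroup.coe_mul, Matrix.SpecialLinearGroup.SL2_inv_expl,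
        Matrix.mul_apply, Fin.sum_univ_two]
    rw [e]
    push_cast
    rw [h0, h1]
    ring
  have hinj : Function.Injective
      (fun q : SL(2, ℤ) ⧸ CongruenceSubgroup.Gamma0 N => F (Quotient.out q)) := by
    intro q q' h
    have := hF _ _ h
    rw [← QuotientGroup.out_eq' q, ← QuotientGroup.out_eq' q']
    exact QuotientGroup.eq.mpr this
  have := Nat.card_le_card_of_injective _ hinj
  simpa [Subgroup.index, Nat.card_prod, Nat.card_zmod] using this

theorem cuspForm_two_Gamma0_eq_zero_of_index (N : ℕ) [NeZero N]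
    (hN : (2 * ((CongruenceSubgroup.Gamma0 N).index : ℤ)).toNat / 12 = 0)
    (f : CuspForm (CongruenceSubgroup.Gamma0 N) 2) : f = 0 := by
  apply CuspForm.toModularFormₗ_injective
  rw [_root_.map_zero]
  apply ModularForm.sturm_bound_Gamma0 N
  intro n hn
  rw [hN] at hn
  obtain rfl : n = 0 := by omega
  have hz : IsZeroAtImInfty f := CuspFormClass.zero_at_infty f
  have h1 : (1 : ℝ) ∈ (CongruenceSubgroup.Gamma0 N : Subgroup (GL (Fin 2) ℝ)).strictPeriods := by
    simp
  rw [UpperHalfPlane.qExpansion_coeff_zero one_pos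
    (ModularFormClass.analyticAt_cuspFunction_zero (CuspForm.toModularFormₗ f) one_pos h1)
    (SlashInvariantFormClass.periodic_comp_ofComplex (CuspForm.toModularFormₗ f) h1)]
  exact hz.valueAtInfty_eq_zero

theorem result (f : CuspForm (CongruenceSubgroup.Gamma0 2) 2) : f = 0 := by
  refine cuspForm_two_Gamma0_eq_zero_of_index 2 ?_ f
  have := index_Gamma0_le_sq 2
  omega

end Fermat.Agent.S07
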