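import Mathlib
import Fermat.Prelude.Def_FLTPrelim_FreyPackage
import Fermat.Prelude.Def_FLTPrelim_GaloisRep
import Fermat.Prelude.Def_FLTPrelim_Modularity
import Fermat.Prelude.Def_FLTPrelim_ModularRep
import Fermat.Prelude.Def_FLTPrelim_Ramification
import Fermat.Prelude.Def_FreyPackage_IsConductorLevel

set_option autoImplicit false
open WeierstrassCurve WeierstrassCurve.Affine WeierstrassCurve.Affine.Point
open CuspForm ModularFormClass UpperHalfPlane

namespace Fermat.Agent.S45Wiring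

/-- Restricting a cusp form of level `Γ₀(M)` to level `Γ₀(N)` for `M ∣ N`. -/
noncomputable def restrictGamma0 {M N : ℕ} (h : M ∣ N) {k : ℤ}
    (f : CuspForm (CongruenceSubgroup.Gamma0 M) k) :
    CuspForm (CongruenceSubgroup.Gamma0 N) k where
  toFun := f
  slash_action_eq' γ hγ := by
    refine f.slash_action_eq' γ ?_
    obtain ⟨g, hg, rfl⟩ := hγ
    refine ⟨g, ?_, rfl⟩
    simp only [SetLike.mem_coe, CongruenceSubgroup.Gamma0_mem] at hg ⊢
    have := (ZMod.intCast_zmod_eq_zero_iff_dvd _ _).1 hg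
    exact (ZMod.intCast_zmod_eq_zero_iff_dvd _ _).2
      (dvd_trans (Int.natCast_dvd_natCast.2 h) this)
  holo' := f.holo'
  zero_at_cusps' {c} hc := by
    refine f.zero_at_cusps' (hc.mono ?_)
    refine Subgroup.map_mono ?_
    intro g hg
    simp only [CongruenceSubgroup.Gamma0_mem] at hg ⊢
    have := (ZMod.intCast_zmod_eq_zero_iff_dvd _ _).1 hg
    exact (ZMod.intCast_zmod_eq_zero_iff_dvd _ _).2
      (dvd_trans (Int.natCast_dvd_natCast.2 h) this)

@[simp] lemma coe_restrictGamma0 {M N : ℕ} (h : M ∣ N) {k : ℤ}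
    (f : CuspForm (CongruenceSubgroup.Gamma0 M) k) :
    (restrictGamma0 h f : ℍ → ℂ) = f := rfl

lemma restrictGamma0_ne_zero {M N : ℕ} (h : M ∣ N) {k : ℤ}
    {f : CuspForm (CongruenceSubgroup.Gamma0 M) k} (hf : f ≠ 0) :
    restrictGamma0 h f ≠ 0 := by
  intro h0
  apply hf
  apply DFunLike.coe_injective
  have := congrArg (fun g : CuspForm (CongruenceSubgroup.Gamma0 N) k => (g : ℍ → ℂ)) h0
  simpa using this

/-- The induction on the level. -/
theorem exists_form_of_modularRep (P : FreyPackage)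
    (h05 : ∀ {q : ℕ}, q.Prime → q ≠ 2 → q ≠ P.p → P.GaloisRepUnramifiedAt q)
    (h43 : ∀ {N q : ℕ}, P.IsConductorLevel N → q.Prime → q ≠ 2 → q ≠ P.p → q ∣ N →
      P.ModularRepOfLevel N → P.GaloisRepUnramifiedAt q →
      ∃ M : ℕ, M ∣ N ∧ ¬ q ∣ M ∧ P.ModularRepOfLevel M)
    (h44 : ∀ {N : ℕ}, P.IsConductorLevel N → P.p ∣ N → P.ModularRepOfLevel N →
      ∃ M : ℕ, M ∣ N ∧ ¬ P.p ∣ M ∧ P.ModularRepOfLevel M)
    (N : ℕ) (hN : P.IsConductorLevel N) (hmod : P.ModularRepOfLevel N) :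
    ∃ f : CuspForm (CongruenceSubgroup.Gamma0 2) 2, f ≠ 0 := by
  induction N using Nat.strong_induction_on with
  | _ N ih =>
  by_cases hodd : ∃ q : ℕ, q.Prime ∧ q ≠ 2 ∧ q ∣ N
  · obtain ⟨q, hq, hq2, hqN⟩ := hodd
    have key : ∃ M : ℕ, M ∣ N ∧ ¬ q ∣ M ∧ P.ModularRepOfLevel M := by
      by_cases hqp : q = P.p
      · subst hqp
        exact h44 hN hqN hmod
      · exact h43 hN hq hq2 hqp hqN hmod (h05 hq hq2 hqp)
    obtain ⟨M, hMN, hqM, hM⟩ := key
    have hMpos : 0 < M := Nat.pos_of_dvd_of_pos hMN hN.pos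
    have hMlt : M < N := lt_of_le_of_ne (Nat.le_of_dvd hN.pos hMN) (by
      rintro rfl; exact hqM hqN)
    exact ih M hMlt (hN.of_dvd hMN hMpos) hM
  · have hN2 : N ∣ 2 := by
      push Not at hodd
      have h4 := hN.not_four_dvd
      -- all prime factors are 2
      have hpow : ∀ q : ℕ, q.Prime → q ∣ N → q = 2 := fun q hq hqN => by
        by_contra h2
        exact hodd q hq h2 hqN
      obtain ⟨k, hk⟩ : ∃ k, N = 2 ^ k :=
        ⟨_, Nat.eq_prime_pow_of_unique_prime_dvd hN.pos.ne' (fun {d} => hpow d)⟩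
      subst hk
      have hk1 : k ≤ 1 := by
        by_contra hk2
        exact h4 (by
          have : (2:ℕ) ^ 2 ∣ 2 ^ k := pow_dvd_pow _ (by omega)
          simpa using this)
      calc 2 ^ k ∣ 2 ^ 1 := pow_dvd_pow _ hk1
        _ = 2 := by norm_num
    obtain ⟨f, W, 𝔪, hf, -⟩ := hmod
    exact ⟨restrictGamma0 hN2 f, restrictGamma0_ne_zero hN2 hf.ne_zero⟩

/-- Statement S45 from S05, S06, S43, S44. -/
theorem S45_of_S05_S06_S43_S44
    (h05 : ∀ (P : FreyPackage) {q : ℕ}, q.Prime → q ≠ 2 → q ≠ P.p → P.GaloisRepUnramifiedAt q)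
    (h06 : ∀ (P : FreyPackage), ∃ N : ℕ, P.IsConductorLevel N ∧ P.ModularRepOfLevel N)
    (h43 : ∀ (P : FreyPackage) {N q : ℕ}, P.IsConductorLevel N → q.Prime → q ≠ 2 → q ≠ P.p →
      q ∣ N → GaloisRepIsIrreducible (K := AlgebraicClosure ℚ) ℚ P.freyCurve P.p →
      P.ModularRepOfLevel N → P.GaloisRepUnramifiedAt q →
      ∃ M : ℕ, M ∣ N ∧ ¬ q ∣ M ∧ P.ModularRepOfLevel M)
    (h44 : ∀ (P : FreyPackage) {N : ℕ}, P.IsConductorLevel N → P.p ∣ N →
      GaloisRepIsIrreducible (K := AlgebraicClosure ℚ) ℚ P.freyCurve P.p →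
      P.ModularRepOfLevel N →
      ∃ M : ℕ, M ∣ N ∧ ¬ P.p ∣ M ∧ P.ModularRepOfLevel M)
    (P : FreyPackage) (_hmod : P.freyCurve.IsModular)
    (hirr : GaloisRepIsIrreducible (K := AlgebraicClosure ℚ) ℚ P.freyCurve P.p) :
    ∃ f : CuspForm (CongruenceSubgroup.Gamma0 2) 2, f ≠ 0 := by
  obtain ⟨N, hN, hmod'⟩ := h06 P
  exact exists_form_of_modularRep P (fun hq h2 hp => h05 P hq h2 hp)
    (fun hN hq h2 hp hqN hm hu => h43 P hN hq h2 hp hqN hirr hm hu)
    (fun hN hpN hm => h44 P hN hpN hirr hm) N hN hmod'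

end Fermat.Agent.S45Wiring
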