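import Mathlib
import Fermat.Agent.HeckeDualityB

/-!
# Lifting maximal ideals of the Hecke algebra to characteristic zero
-/

set_option autoImplicit false

noncomputable section

open UpperHalfPlane ModularForm ModularFormClass CongruenceSubgroup

namespace Fermat.Agent.HeckeDuality

/-- A prime `m` of a finite torsion-free `ℤ`-algebra `T` is the pull-back of a prime of `ℤ̄`
along some ring homomorphism `T → ℤ̄`. -/
theorem exists_ringHom_of_isMaximal {T : Type*} [CommRing T] [Module.Finite ℤ T]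
    [IsAddTorsionFree T] (m : Ideal T) [hm : m.IsMaximal] :
    ∃ (ψ : T →+* integralClosure ℤ ℂ) (m' : Ideal (integralClosure ℤ ℂ)),
      m'.IsMaximal ∧ m'.comap ψ = m := by
  obtain ⟨P, hP, hPm⟩ := Ideal.exists_minimalPrimes_le (bot_le : (⊥ : Ideal T) ≤ m)
  have hPp : P.IsPrime := hP.1.1
  have hint : Algebra.IsIntegral ℤ T := Algebra.IsIntegral.of_finite ℤ T
  have hnot : ∀ n : ℤ, n ≠ 0 → (n : T) ∉ P := by
    intro n hn hmem
    have hdisj := Ideal.disjoint_nonZeroDivisors_of_mem_minimalPrimes (p := P) hP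
    refine Set.disjoint_left.mp hdisj hmem ?_
    refine mem_nonZeroDivisors_iff_right.mpr fun x hx => ?_
    have h1 : n • x = 0 := by rw [zsmul_eq_mul, mul_comm]; exact hx
    exact (smul_eq_zero_iff_right hn).mp h1
  have hdom : IsDomain (T ⧸ P) := Ideal.Quotient.isDomain P
  have hinj : Function.Injective (algebraMap ℤ (T ⧸ P)) := by
    refine (injective_iff_map_eq_zero _).mpr fun n hn => ?_
    by_contra hne
    refine hnot n hne ?_
    rw [← Ideal.Quotient.eq_zero_iff_mem]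
    simpa using hn
  have hfaith : FaithfulSMul ℤ (T ⧸ P) := (faithfulSMul_iff_algebraMap_injective ℤ (T ⧸ P)).mpr hinj
  have htf : Module.IsTorsionFree ℤ (T ⧸ P) := inferInstance
  have hintP : Algebra.IsIntegral ℤ (T ⧸ P) := inferInstance
  have halg : Algebra.IsAlgebraic ℤ (T ⧸ P) := inferInstance
  let σ : (T ⧸ P) →ₐ[ℤ] ℂ := IsAlgClosed.lift
  have hσint : ∀ x : T ⧸ P, σ x ∈ integralClosure ℤ ℂ := fun x =>
    (hintP.isIntegral x).map σ
  let ψ₀ : (T ⧸ P) →ₐ[ℤ] integralClosure ℤ ℂ := σ.codRestrict _ hσint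
  have hψ₀inj : Function.Injective ψ₀ := by
    have hσinj : Function.Injective σ := by
      refine (injective_iff_map_eq_zero σ).mpr fun x hx => ?_
      by_contra hne
      -- `x` divides a nonzero integer
      obtain ⟨y, n, hn, hxy⟩ : ∃ (y : T ⧸ P) (n : ℤ), n ≠ 0 ∧ x * y = algebraMap ℤ _ n := by
        obtain ⟨y, hy, hy2⟩ := (halg.isAlgebraic x).exists_nonzero_dvd (mem_nonZeroDivisors_of_ne_zero hne)
        obtain ⟨z, hz⟩ := hy2
        exact ⟨z, y, hy, hz.symm⟩
      have h2 := congrArg σ hxy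
      rw [map_mul, hx, zero_mul, AlgHom.commutes] at h2
      exact hn (by simpa using h2.symm)
    intro x y hxy
    exact hσinj (congrArg Subtype.val hxy)
  let ψ : T →+* integralClosure ℤ ℂ := (ψ₀ : (T ⧸ P) →+* integralClosure ℤ ℂ).comp
    (Ideal.Quotient.mk P)
  have hker : RingHom.ker ψ ≤ m := by
    intro x hx
    have h1 : ψ₀ (Ideal.Quotient.mk P x) = 0 := hx
    have h2 : Ideal.Quotient.mk P x = 0 := hψ₀inj (h1.trans (map_zero ψ₀).symm)
    exact hPm (Ideal.Quotient.eq_zero_iff_mem.mp h2)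
  let _ : Algebra T (integralClosure ℤ ℂ) := ψ.toAlgebra
  have hint2 : Algebra.IsIntegral T (integralClosure ℤ ℂ) := by
    have : IsScalarTower ℤ T (integralClosure ℤ ℂ) := IsScalarTower.of_algebraMap_eq' (RingHom.ext_int _ _)
    exact Algebra.IsIntegral.tower_top (R := ℤ) (S := T) (T := integralClosure ℤ ℂ)
  obtain ⟨m', hm', hcomap⟩ := Ideal.exists_ideal_over_maximal_of_isIntegral
    (S := integralClosure ℤ ℂ) m hker
  exact ⟨ψ, m', hm', hcomap⟩

variable {N : ℕ} [NeZero N]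

/-- **Deligne–Serre lifting lemma**, Hecke algebra form: every maximal ideal `m` of the full
weight-2 Hecke algebra `𝕋` of level `N` comes from a normalised eigenform `f` and a maximal ideal
of `ℤ̄`. -/
theorem exists_eigenform_of_isMaximal (hint : CuspForm.HasIntegralStructure N 2)
    (m : Ideal (CuspForm.heckeAlgebra N 2 ∅)) [hm : m.IsMaximal] :
    ∃ (f : CuspForm (Gamma0 N) 2) (ψ : CuspForm.heckeAlgebra N 2 ∅ →+* integralClosure ℤ ℂ)
      (m' : Ideal (integralClosure ℤ ℂ)), f.IsNormalizedEigenform ∧ m'.IsMaximal ∧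
      m'.comap ψ = m ∧
      (∀ t : CuspForm.heckeAlgebra N 2 ∅,
        (t : Module.End ℂ (CuspForm (Gamma0 N) 2)) f = (ψ t : ℂ) • f) ∧
      ∀ (ℓ : ℕ) (hℓ : ℓ.Prime), qCoeff ⇑f ℓ = (ψ (gen N 2 hℓ) : ℂ) := by
  have := finite_heckeAlgebra (N := N) hint
  obtain ⟨ψ, m', hm', hcomap⟩ := exists_ringHom_of_isMaximal m
  obtain ⟨f, hf1, hf2, hf3⟩ := exists_eigenform_of_ringHom hint
    ((integralClosure ℤ ℂ).val.toRingHom.comp ψ)
  exact ⟨f, ψ, m', hf1, hm', hcomap, hf2, hf3⟩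

/-- The congruence form: if an integral form `g` has `a₁(g) ≢ 0 mod p` and is, modulo `p`, an
eigenvector of all Hecke operators with eigenvalues `c ℓ`, then there is a genuine normalised
eigenform with eigenvalues congruent to `c ℓ` modulo some maximal ideal of `ℤ̄` above `p`. -/
theorem exists_eigenform_congruent (hint : CuspForm.HasIntegralStructure N 2)
    (p : ℕ) (hp : p ≠ 0) (g : CuspForm.intLattice N 2) (hg1 : ¬ (p : ℤ) ∣ intCoeff g 1)
    (c : ℕ → ℤ) (hc : ∀ (ℓ : ℕ) (hℓ : ℓ.Prime) (n : ℕ),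
      (p : ℤ) ∣ intCoeff (latAct (gen N 2 hℓ) g) n - c ℓ * intCoeff g n) :
    ∃ (f : CuspForm (Gamma0 N) 2) (ψ : CuspForm.heckeAlgebra N 2 ∅ →+* integralClosure ℤ ℂ)
      (m' : Ideal (integralClosure ℤ ℂ)), f.IsNormalizedEigenform ∧ m'.IsMaximal ∧
      ((p : ℕ) : integralClosure ℤ ℂ) ∈ m' ∧
      (∀ t : CuspForm.heckeAlgebra N 2 ∅,
        (t : Module.End ℂ (CuspForm (Gamma0 N) 2)) f = (ψ t : ℂ) • f) ∧
      ∀ (ℓ : ℕ) (hℓ : ℓ.Prime), qCoeff ⇑f ℓ = (ψ (gen N 2 hℓ) : ℂ) ∧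
        ψ (gen N 2 hℓ) - (c ℓ : integralClosure ℤ ℂ) ∈ m' := by
  -- the ideal of operators mapping `g` into `p L`
  let I : Ideal (CuspForm.heckeAlgebra N 2 ∅) :=
    { carrier := {t | ∃ x : CuspForm.intLattice N 2, latAct t g = (p : ℤ) • x}
      add_mem' := by
        rintro s t ⟨x, hx⟩ ⟨y, hy⟩
        refine ⟨x + y, ?_⟩
        rw [smul_add, ← hx, ← hy]
        rfl
      zero_mem' := ⟨0, by rw [smul_zero]; rfl⟩
      smul_mem' := by
        rintro s t ⟨x, hx⟩
        refine ⟨latAct s x, ?_⟩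
        have h1 : latAct (s • t) g = latAct s (latAct t g) := rfl
        rw [h1, hx]
        exact Subtype.ext (map_zsmul _ _ _) }
  have hI : I ≠ ⊤ := by
    intro htop
    have h1 : (1 : CuspForm.heckeAlgebra N 2 ∅) ∈ I := by rw [htop]; trivial
    obtain ⟨x, hx⟩ := h1
    have h2 : latAct (1 : CuspForm.heckeAlgebra N 2 ∅) g = g := rfl
    rw [h2] at hx
    apply hg1
    rw [hx, intCoeff_zsmul]
    exact dvd_mul_right _ _
  obtain ⟨m, hm, hIm⟩ := Ideal.exists_le_maximal I hI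
  obtain ⟨f, ψ, m', hf, hm', hcomap, hf2, hf3⟩ := exists_eigenform_of_isMaximal hint m
  have hmem : ∀ t ∈ I, ψ t ∈ m' := by
    intro t ht
    have : t ∈ m'.comap ψ := by rw [hcomap]; exact hIm ht
    exact this
  refine ⟨f, ψ, m', hf, hm', ?_, hf2, fun ℓ hℓ => ⟨hf3 ℓ hℓ, ?_⟩⟩
  · have h1 : ((p : ℕ) : CuspForm.heckeAlgebra N 2 ∅) ∈ I := by
      refine ⟨g, ?_⟩
      apply Subtype.ext
      rw [coe_latAct]
      change (((p : ℕ) : CuspForm.heckeAlgebra N 2 ∅) : Module.End ℂ (CuspForm (Gamma0 N) 2)) g.1 =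
        (p : ℤ) • g.1
      push_cast
      rw [Module.End.natCast_apply, natCast_zsmul]
    have h2 := hmem _ h1
    rwa [map_natCast] at h2
  · have h1 : gen N 2 hℓ - ((c ℓ : ℤ) : CuspForm.heckeAlgebra N 2 ∅) ∈ I := by
      -- divide by `p`
      have hdiv : ∀ n, ∃ r : ℤ, intCoeff (latAct (gen N 2 hℓ) g) n - c ℓ * intCoeff g n =
          (p : ℤ) * r := fun n => hc ℓ hℓ n
      let y : CuspForm (Gamma0 N) 2 := ((p : ℂ)⁻¹) •
        ((latAct (gen N 2 hℓ) g : CuspForm (Gamma0 N) 2) - (c ℓ) • (g : CuspForm (Gamma0 N) 2))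
      have hpC : (p : ℂ) ≠ 0 := by exact_mod_cast hp
      have hy : y ∈ CuspForm.intLattice N 2 := by
        rw [mem_intLattice_iff]
        intro n
        obtain ⟨r, hr⟩ := hdiv n
        refine ⟨r, ?_⟩
        rw [qc_smul, qc_sub, qc_zsmul, ← coe_intCoeff, ← coe_intCoeff]
        rw [inv_mul_eq_iff_eq_mul₀ hpC]
        have := congrArg (fun z : ℤ => (z : ℂ)) hr
        push_cast at this
        exact this
      refine ⟨⟨y, hy⟩, ?_⟩
      apply Subtype.ext
      rw [coe_latAct]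
      change _ = (p : ℤ) • y
      have h3 : (p : ℤ) • y = ((latAct (gen N 2 hℓ) g : CuspForm (Gamma0 N) 2) -
          (c ℓ) • (g : CuspForm (Gamma0 N) 2)) := by
        rw [← Int.cast_smul_eq_zsmul ℂ (p : ℤ) y, Int.cast_natCast, smul_smul,
          mul_inv_cancel₀ hpC, one_smul]
      rw [h3]
      push_cast
      rw [LinearMap.sub_apply, coe_latAct, Module.End.intCast_apply]
    have h2 := hmem _ h1
    rwa [map_sub, map_intCast] at h2

end Fermat.Agent.HeckeDuality
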