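import Fermat.Statements.S54
import Fermat.Agent.FrobExists

set_option autoImplicit false
open GaloisRep GaloisRep.DeformationRingData

namespace Fermat.Agent.S54

open scoped TensorProduct
open Polynomial

/-- Equivalent representations have the same characteristic polynomials. -/
lemma charpoly_eq_of_equiv {A : Type} [CommRing A] [IsLocalRing A] {ρ₁ ρ₂ : GaloisRepAdic A}
    (e : GaloisRepAdic.Equiv ρ₁ ρ₂) (σ : AlgebraicClosure ℚ ≃ₐ[ℚ] AlgebraicClosure ℚ) :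
    LinearMap.charpoly (ρ₁.ρ σ) = LinearMap.charpoly (ρ₂.ρ σ) := by
  have h : e.toLinearEquiv.conj (ρ₁.ρ σ) = ρ₂.ρ σ := by
    refine LinearMap.ext fun x => ?_
    rw [LinearEquiv.conj_apply_apply, e.map_apply, LinearEquiv.apply_symm_apply]
  rw [← h, LinearEquiv.charpoly_conj]

/-- Base change and characteristic polynomials. -/
lemma charpoly_baseChangeAlong {A B : Type} [CommRing A] [IsLocalRing A] [CommRing B]
    [IsLocalRing B] (φ : A →+* B) (hφ : IsLocalHom φ) (ρ : GaloisRepAdic A)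
    (σ : AlgebraicClosure ℚ ≃ₐ[ℚ] AlgebraicClosure ℚ) :
    LinearMap.charpoly ((ρ.baseChangeAlong φ hφ).ρ σ) = (LinearMap.charpoly (ρ.ρ σ)).map φ := by
  letI : Algebra A B := φ.toAlgebra
  exact LinearMap.charpoly_baseChange (A := B) (ρ.ρ σ)

theorem result {𝒪 : Type} [CommRing 𝒪] [IsDomain 𝒪] [IsDiscreteValuationRing 𝒪] [IsAdicComplete (IsLocalRing.maximalIdeal 𝒪) 𝒪] {ρbar : ResidualGaloisRep (IsLocalRing.ResidueField 𝒪)} {𝒟 : ∀ ⦃A : Type⦄ [CommRing A] [IsLocalRing A] [Algebra 𝒪 A], GaloisRepAdic A → Prop} (D : GaloisRep.DeformationRingData 𝒪 ρbar 𝒟) {N : ℕ} [NeZero N] {S : Set ℕ} {θ : CuspForm.heckeAlgebra N 2 S →+* IsLocalRing.ResidueField 𝒪} {T : Type} [CommRing T] [IsLocalRing T] [IsNoetherianRing T] [IsAdicComplete (IsLocalRing.maximalIdeal T) T] [Algebra 𝒪 T] [IsLocalHom (algebraMap 𝒪 T)] [Module.Finite 𝒪 T] [Module.Free 𝒪 T] (H : CuspForm.HeckeGaloisRepDatum N S 𝒪 θ T) (hS : ∀ q : ℕ, q.Prime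 → q ∣ N → q ∈ S) (h𝒟 : 𝒟 H.ρ) (hres : H.ρ.residual.IsEquiv (ρbar.baseChangeAlong (IsLocalRing.ResidueField.map (algebraMap 𝒪 T)))) : ∃ φ : D.R →ₐ[𝒪] T, Function.Surjective φ ∧ ∃ hφ : IsLocalHom (φ : D.R →+* T), (D.ρ.baseChangeAlong (φ : D.R →+* T) hφ).IsEquiv H.ρ := by
  obtain ⟨φ, ⟨hφ, ⟨e⟩⟩, -⟩ := D.universal T H.residue_surjective H.ρ h𝒟 hres
  refine ⟨φ, ?_, hφ, ⟨e⟩⟩
  -- the Hecke operators lie in the range of `φ`
  have hT : ∀ (ℓ : ℕ) (hℓ : ℓ.Prime) (hℓN : ¬ ℓ ∣ N) (hℓS : ℓ ∉ S),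
      H.π (CuspForm.heckeAlgebra.T hℓ hℓN hℓS) ∈ φ.range := by
    intro ℓ hℓ hℓN hℓS
    obtain ⟨A, hA⟩ := FrobExists.exists_liesOverPrime (AlgebraicClosure ℚ) hℓ
    obtain ⟨σ, hσ⟩ := FrobExists.exists_isFrobeniusAt A hℓ hA
    have h1 := H.charpoly_frob ℓ hℓ hℓN hℓS A hA σ hσ
    have h2 : ((LinearMap.charpoly (D.ρ.ρ σ)).map (φ : D.R →+* T)) =
        LinearMap.charpoly (H.ρ.ρ σ) := by
      rw [← charpoly_eq_of_equiv e σ, charpoly_baseChangeAlong]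
    rw [h1] at h2
    have h3 := congrArg (fun p : T[X] => p.coeff 1) h2
    simp only [coeff_map, coeff_add, coeff_sub, coeff_C_mul, coeff_X_pow, coeff_X_one, coeff_C]
      at h3
    norm_num at h3
    refine ⟨-(LinearMap.charpoly (D.ρ.ρ σ)).coeff 1, ?_⟩
    rw [map_neg]
    exact neg_eq_iff_eq_neg.mpr h3
  have hmem : ∀ t : CuspForm.heckeAlgebra N 2 S, H.π t ∈ φ.range := by
    rintro ⟨t, ht⟩
    let S' : Subring T := φ.range.toSubring
    induction ht using Algebra.adjoin_induction with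
    | mem x hx =>
      rcases hx with ⟨ℓ, hℓ, hℓN, hℓS, rfl⟩ | ⟨q, hqN, hq, hqS, rfl⟩
      · exact hT ℓ hℓ hℓN hℓS
      · exact absurd (hS q hq hqN) hqS
    | algebraMap r =>
      have : H.π (algebraMap ℤ _ r) ∈ φ.range := by
        rw [eq_intCast, map_intCast]
        exact intCast_mem _ r
      exact this
    | add x y hx hy h1 h2 =>
      have h3 := add_mem h1 h2
      rw [← map_add] at h3
      exact h3
    | mul x y hx hy h1 h2 =>
      have h3 := mul_mem h1 h2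
      rw [← map_mul] at h3
      exact h3
  have htop : φ.range = ⊤ := by
    rw [eq_top_iff, ← H.adjoin_range_π, Algebra.adjoin_le_iff]
    rintro _ ⟨t, rfl⟩
    exact hmem t
  exact AlgHom.range_eq_top φ |>.mp htop

end Fermat.Agent.S54
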