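import Fermat.Statements.S10
import Fermat.Agent.Kummer.Main

set_option autoImplicit false
open WeierstrassCurve WeierstrassCurve.Affine WeierstrassCurve.Affine.Point
open CuspForm ModularFormClass UpperHalfPlane
open FreyPackage

namespace Fermat.Agent.S10

theorem result (P : FreyPackage) (hp : P.p = 5 ∨ P.p = 7 ∨ P.p = 13) : ¬ HasGaloisStableCofixedLine (K := AlgebraicClosure ℚ) ℚ P.freyCurve P.p := by
  rcases hp with hp | hp | hp
  · exact (Fermat.Agent.Kummer.no_frey_5 P hp).elim
  · exact (Fermat.Agent.Kummer.no_frey_7 P hp).elim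
  · exact (Fermat.Agent.Kummer.no_frey_13 P hp).elim

end Fermat.Agent.S10
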