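import Fermat.Statements.S13
import Fermat.Agent.S13Lib.Main
import Fermat.Agent.S13Lib.NoFixed

set_option autoImplicit false
open WeierstrassCurve WeierstrassCurve.Affine WeierstrassCurve.Affine.Point
open CuspForm ModularFormClass UpperHalfPlane
open FreyPackage

namespace Fermat.Agent.S13

theorem result (P : FreyPackage) (hred : ¬ GaloisRepIsIrreducible (K := AlgebraicClosure ℚ) ℚ P.freyCurve P.p) : HasGaloisStableCofixedLine (K := AlgebraicClosure ℚ) ℚ P.freyCurve P.p := by
  have hE := FreyPackage.AgentFrey.map_freyCurveInt P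
  have hΔ := FreyPackage.AgentFrey.freyCurveInt_Δ_ne_zero P
  have hnt : Nontrivial (Submodule.torsionBy ℤ (P.freyCurve⁄(AlgebraicClosure ℚ)).Point P.p) := by
    have hcard := Fermat.Agent.EllTorsion.frey_card_torsionBy P
    have hp2 := P.pp.two_le
    have : 1 < Nat.card (Submodule.torsionBy ℤ (P.freyCurve⁄(AlgebraicClosure ℚ)).Point P.p) := by
      rw [hcard]; nlinarith
    have hfin : Finite (Submodule.torsionBy ℤ (P.freyCurve⁄(AlgebraicClosure ℚ)).Point P.p) :=
      Nat.finite_of_card_ne_zero (by omega)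
    exact Finite.one_lt_card_iff_nontrivial.mp this
  rw [GaloisRepIsIrreducible, not_and] at hred
  have hred' := hred hnt
  push Not at hred'
  obtain ⟨N, hN, hb, ht⟩ := hred'
  have hp2 : P.p ≠ 2 := by have := P.hp5; omega
  rcases Fermat.Agent.S13Lib.fix_or_cofix hE hΔ (FreyPackage.AgentFrey.isSemistableModel P)
    P.pp hp2 hN hb ht with h | h
  · exfalso
    apply hb
    rw [Submodule.eq_bot_iff]
    intro x hx
    apply Subtype.ext
    refine Fermat.Agent.S13Lib.no_fixed_torsion P x.1 ?_ ?_
    · have := (Submodule.mem_torsionBy_iff _ _).mp x.2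
      rwa [Nat.cast_smul_eq_nsmul] at this
    · intro σ
      exact congrArg Subtype.val (h σ x hx)
  · exact ⟨N, hN, hb, ht, h⟩

end Fermat.Agent.S13
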