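import Fermat.Statements.S51
import Fermat.Agent.S51Lib.Points

set_option autoImplicit false
open WeierstrassCurve WeierstrassCurve.Affine WeierstrassCurve.Affine.Point
open CuspForm ModularFormClass UpperHalfPlane
open WeierstrassCurve

namespace Fermat.Agent.S51

/-- If the mod-`p` representation is not irreducible, there is a stable line. -/
lemma exists_stable_line (W : WeierstrassCurve ℤ) (hΔ : W.Δ ≠ 0) (p : ℕ) [hp : Fact p.Prime]
    (h : ¬ W.ModRepIsIrreducible p) :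
    ∃ N : Submodule (ZMod p) (Submodule.torsionBy ℤ
        ((W.map (Int.castRingHom ℚ) : Affine ℚ)⁄(AlgebraicClosure ℚ)).Point (p : ℤ)),
      IsGaloisStable ℚ N ∧ N ≠ ⊥ ∧ N ≠ ⊤ := by
  have hΔ' : (W.map (Int.castRingHom ℚ)).Δ ≠ 0 := by
    rw [WeierstrassCurve.map_Δ]
    simpa using hΔ
  have h2 := S51Lib.finrank_torsionBy (W.map (Int.castRingHom ℚ)) hΔ' p
  have hnt : Nontrivial (Submodule.torsionBy ℤ
      ((W.map (Int.castRingHom ℚ) : Affine ℚ)⁄(AlgebraicClosure ℚ)).Point (p : ℤ)) :=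
    Module.nontrivial_of_finrank_pos (R := ZMod p) (by rw [h2]; norm_num)
  unfold ModRepIsIrreducible GaloisRepIsIrreducible at h
  push Not at h
  obtain ⟨N, hN, h1, h2⟩ := h hnt
  exact ⟨N, hN, h1, h2⟩

theorem result (W : WeierstrassCurve ℤ) (hΔ : W.Δ ≠ 0) (hW : W.IsSemistableModel) : W.ModRepIsIrreducible 3 ∨ W.ModRepIsIrreducible 5 := by
  by_contra hcon
  rw [not_or] at hcon
  have h3p : Fact (Nat.Prime 3) := ⟨by norm_num⟩
  have h5p : Fact (Nat.Prime 5) := ⟨by norm_num⟩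
  have hΔ' : (W.map (Int.castRingHom ℚ)).Δ ≠ 0 := by
    rw [WeierstrassCurve.map_Δ]
    simpa using hΔ
  obtain ⟨N₃, h₃, hbot₃, htop₃⟩ := exists_stable_line W hΔ 3 hcon.1
  obtain ⟨N₅, h₅, hbot₅, htop₅⟩ := exists_stable_line W hΔ 5 hcon.2
  have hJ := S51Lib.jrel_of_stable_lines hΔ' h₃ hbot₃ htop₃ h₅ hbot₅ htop₅
  rw [WeierstrassCurve.map_c₄, WeierstrassCurve.map_Δ] at hJ
  exact S51Lib.not_jrel (hW 5 (by norm_num)) hJ

end Fermat.Agent.S51
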