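import Mathlib
import Fermat.Prelude.Def_FLTPrelim_ModularRep
import Fermat.Prelude.Def_FLTPrelim_Ramification
import Fermat.Prelude.Def_WeierstrassCurve_Mlc1RowStatement

/-!
Wiring of S60 (semistable modularity) from S51, S52, S59, residual modularity at `3` (S50) and the
"`9 ∣ M`" descent lemma `L9`.  Everything here is conditional on explicit hypotheses.
-/

set_option autoImplicit false
open WeierstrassCurve WeierstrassCurve.Affine WeierstrassCurve.Affine.Point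

namespace Fermat.Agent.S60Wiring

/-- The conclusion of S50 for a curve. -/
def S50Concl (W : WeierstrassCurve ℤ) : Prop :=
  ∃ M : ℕ, 0 < M ∧ W.IsResiduallyModularOfLevel 3 M ∧
      (∀ q : ℕ, q.Prime → q ≠ 3 → ¬ q ^ 3 ∣ M) ∧
      (3 ^ 2 ∣ M →
        ∀ A : ValuationSubring (AlgebraicClosure ℚ), A.LiesOverPrime 3 →
          ∀ x : Submodule.torsionBy ℤ
              ((W.map (Int.castRingHom ℚ))⁄(AlgebraicClosure ℚ)).Point (3 : ℕ),
            (∀ σ ∈ A.inertiaSubgroupIn ℚ, σ • x = x) → x = 0)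

/-- The statement of S50. -/
def S50Stmt : Prop :=
  ∀ (W : WeierstrassCurve ℤ), W.Δ ≠ 0 → W.IsSemistableModel → W.ModRepIsIrreducible 3 → S50Concl W

/-- The statement of S51. -/
def S51Stmt : Prop :=
  ∀ (W : WeierstrassCurve ℤ), W.Δ ≠ 0 → W.IsSemistableModel →
    W.ModRepIsIrreducible 3 ∨ W.ModRepIsIrreducible 5

/-- The statement of S52. -/
def S52Stmt : Prop :=
  ∀ (W : WeierstrassCurve ℤ), W.Δ ≠ 0 → W.IsSemistableModel → W.ModRepIsIrreducible 5 →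
    ∃ W' : WeierstrassCurve ℤ, W'.Δ ≠ 0 ∧ W'.IsSemistableModel ∧ W'.ModRepIsIrreducible 3 ∧
      ∀ ℓ : ℕ, ℓ.Prime → W.IsGoodPrimeFor ℓ → W'.IsGoodPrimeFor ℓ → ℓ ≠ 5 →
        (5 : ℤ) ∣ (W'.apOfModel ℓ - W.apOfModel ℓ)

/-- The statement of S59. -/
def S59Stmt : Prop :=
  ∀ (p : ℕ), p = 3 ∨ p = 5 → ∀ (W : WeierstrassCurve ℤ), W.Δ ≠ 0 → W.IsSemistableModel →
    W.ModRepIsIrreducible p → ∀ (M₀ : ℕ) [NeZero M₀], W.IsResiduallyModularOfLevel p M₀ →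
    ¬ p ^ 2 ∣ M₀ → (∀ q : ℕ, q.Prime → q ≠ p → ¬ q ^ 3 ∣ M₀) →
    Mlc1IsModularModelOfExactConductorLevel W

/-- The descent lemma needed when `9 ∣ M` in S50: residual modularity of some level prime to `9`. -/
def L9Stmt : Prop :=
  ∀ (W : WeierstrassCurve ℤ), W.Δ ≠ 0 → W.IsSemistableModel → W.ModRepIsIrreducible 3 →
    ∀ M : ℕ, 0 < M → W.IsResiduallyModularOfLevel 3 M →
    (∀ q : ℕ, q.Prime → q ≠ 3 → ¬ q ^ 3 ∣ M) →
    3 ^ 2 ∣ M →
    (∀ A : ValuationSubring (AlgebraicClosure ℚ), A.LiesOverPrime 3 →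
          ∀ x : Submodule.torsionBy ℤ
              ((W.map (Int.castRingHom ℚ))⁄(AlgebraicClosure ℚ)).Point (3 : ℕ),
            (∀ σ ∈ A.inertiaSubgroupIn ℚ, σ • x = x) → x = 0) →
    ∃ M₀ : ℕ, 0 < M₀ ∧ W.IsResiduallyModularOfLevel 3 M₀ ∧ ¬ 3 ^ 2 ∣ M₀ ∧
      (∀ q : ℕ, q.Prime → q ≠ 3 → ¬ q ^ 3 ∣ M₀)

theorem isModular_of_exactConductor {W : WeierstrassCurve ℤ}
    (h : Mlc1IsModularModelOfExactConductorLevel W) : (W.map (Int.castRingHom ℚ)).IsModular := by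
  obtain ⟨N, hN, -, -, hmod⟩ := h
  exact ⟨W, ⟨1, one_smul _ _⟩, N, hN, hmod⟩

theorem exactConductor_of_three (h50 : S50Stmt) (h59 : S59Stmt) (hL9 : L9Stmt)
    (W : WeierstrassCurve ℤ) (hΔ : W.Δ ≠ 0) (hW : W.IsSemistableModel)
    (h3 : W.ModRepIsIrreducible 3) : Mlc1IsModularModelOfExactConductorLevel W := by
  obtain ⟨M, hM, hres, hcube, hin⟩ := h50 W hΔ hW h3
  by_cases h9 : 3 ^ 2 ∣ M
  · obtain ⟨M₀, hM₀, hres₀, h9₀, hcube₀⟩ := hL9 W hΔ hW h3 M hM hres hcube h9 (hin h9)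
    haveI : NeZero M₀ := ⟨hM₀.ne'⟩
    exact h59 3 (Or.inl rfl) W hΔ hW h3 M₀ hres₀ h9₀ hcube₀
  · haveI : NeZero M := ⟨hM.ne'⟩
    exact h59 3 (Or.inl rfl) W hΔ hW h3 M hres h9 hcube

/-- Transport of modularity along a mod-`5` congruence. -/
theorem residuallyModular_five_of_congr {W W' : WeierstrassCurve ℤ}
    (hmod : Mlc1IsModularModelOfExactConductorLevel W')
    (hcongr : ∀ ℓ : ℕ, ℓ.Prime → W.IsGoodPrimeFor ℓ → W'.IsGoodPrimeFor ℓ → ℓ ≠ 5 →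
        (5 : ℤ) ∣ (W'.apOfModel ℓ - W.apOfModel ℓ)) :
    ∃ N : ℕ, 0 < N ∧ Squarefree N ∧ W.IsResiduallyModularOfLevel 5 N := by
  obtain ⟨N, hN, hsq, hsupp, f, hf, hap⟩ := hmod
  obtain ⟨𝔪, h𝔪, h5⟩ := FLTPrelim.exists_maximalIdeal_natCast_prime_mem Nat.prime_five
  refine ⟨N, hN, hsq, f, 𝔪, hf, h𝔪, h5, ?_⟩
  intro ℓ hℓ hgood hℓN hℓ5
  have hgood' : W'.IsGoodPrimeFor ℓ := fun h => hℓN ((hsupp ℓ hℓ).2 h)
  refine ⟨((W'.apOfModel ℓ : ℤ) : integralClosure ℤ ℂ), ?_, ?_⟩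
  · rw [hap ℓ hℓ hgood' hℓN]
    push_cast
    rfl
  · obtain ⟨c, hc⟩ := hcongr ℓ hℓ hgood hgood' hℓ5
    have : ((W'.apOfModel ℓ : ℤ) : integralClosure ℤ ℂ) - ((W.apOfModel ℓ : ℤ) : integralClosure ℤ ℂ)
        = ((5 : ℕ) : integralClosure ℤ ℂ) * ((c : ℤ) : integralClosure ℤ ℂ) := by
      rw [← Int.cast_sub, hc]
      push_cast
      rfl
    rw [this]
    exact 𝔪.mul_mem_right _ h5

theorem not_pow_dvd_of_squarefree {N q k : ℕ} (hsq : Squarefree N) (hq : q.Prime) (hk : 2 ≤ k) :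
    ¬ q ^ k ∣ N := by
  intro h
  have h2 : q ^ 2 ∣ N := (pow_dvd_pow q hk).trans h
  exact Nat.squarefree_iff_prime_squarefree.mp hsq q hq (by rwa [← pow_two])

theorem exactConductor (h50 : S50Stmt) (h51 : S51Stmt) (h52 : S52Stmt) (h59 : S59Stmt)
    (hL9 : L9Stmt) (W : WeierstrassCurve ℤ) (hΔ : W.Δ ≠ 0) (hW : W.IsSemistableModel) :
    Mlc1IsModularModelOfExactConductorLevel W := by
  rcases h51 W hΔ hW with h3 | h5
  · exact exactConductor_of_three h50 h59 hL9 W hΔ hW h3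
  · obtain ⟨W', hΔ', hW', h3', hcongr⟩ := h52 W hΔ hW h5
    obtain ⟨N, hN, hsq, hres⟩ := residuallyModular_five_of_congr
      (exactConductor_of_three h50 h59 hL9 W' hΔ' hW' h3') hcongr
    haveI : NeZero N := ⟨hN.ne'⟩
    exact h59 5 (Or.inr rfl) W hΔ hW h5 N hres
      (not_pow_dvd_of_squarefree hsq Nat.prime_five le_rfl)
      (fun q hq _ => not_pow_dvd_of_squarefree hsq hq (by norm_num))

/-- S60, conditional on S50, S51, S52, S59 and L9. -/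
theorem S60_of (h50 : S50Stmt) (h51 : S51Stmt) (h52 : S52Stmt) (h59 : S59Stmt)
    (hL9 : L9Stmt) (W : WeierstrassCurve ℤ) (hΔ : W.Δ ≠ 0) (hW : W.IsSemistableModel) :
    (W.map (Int.castRingHom ℚ)).IsModular :=
  isModular_of_exactConductor (exactConductor h50 h51 h52 h59 hL9 W hΔ hW)

end Fermat.Agent.S60Wiring
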