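import Fermat.Statements.S57
import Mathlib.RingTheory.Regular.ProjectiveDimension
import Mathlib.RingTheory.MvPowerSeries.Equiv
import Mathlib.RingTheory.MvPowerSeries.Inverse
import Mathlib.RingTheory.MvPowerSeries.NoZeroDivisors
import Mathlib.RingTheory.FiniteLength

set_option autoImplicit false
open Algebra Algebra.PatchingLevel

namespace Fermat.Agent.S57

open CategoryTheory IsLocalRing RingTheory.Sequence Module

section Regular

variable {𝒪 : Type} [CommRing 𝒪] {r : ℕ}

/-- The ideal generated by the first `k` variables. -/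
theorem mem_span_X_iff (k : ℕ) (hk : k ≤ r) (f : MvPowerSeries (Fin r) 𝒪) :
    f ∈ Ideal.span {g : MvPowerSeries (Fin r) 𝒪 | ∃ i : Fin r, i.1 < k ∧ g = MvPowerSeries.X i} ↔
      ∀ m : Fin r →₀ ℕ, (∀ i : Fin r, i.1 < k → m i = 0) → MvPowerSeries.coeff m f = 0 := by
  constructor
  · intro hf
    refine Submodule.span_induction (p := fun g _ => ∀ m : Fin r →₀ ℕ,
      (∀ i : Fin r, i.1 < k → m i = 0) → MvPowerSeries.coeff m g = 0) ?_ ?_ ?_ ?_ hf
    · rintro _ ⟨i, hi, rfl⟩ m hm
      rw [MvPowerSeries.coeff_X, if_neg]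
      rintro rfl
      simpa using hm i hi
    · simp
    · intro x y _ _ hx hy m hm
      simp [hx m hm, hy m hm]
    · intro a x _ hx m hm
      rw [smul_eq_mul, MvPowerSeries.coeff_mul]
      refine Finset.sum_eq_zero fun p hp => ?_
      rw [Finset.mem_antidiagonal] at hp
      rw [hx p.2 (fun i hi => ?_), mul_zero]
      have := hm i hi
      rw [← hp, Finsupp.add_apply] at this
      omega
  · induction k generalizing f with
    | zero =>
      intro h
      have : f = 0 := by
        ext m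
        simpa using h m (by simp)
      simp [this]
    | succ k ih =>
      intro h
      let i : Fin r := ⟨k, hk⟩
      let f2 : MvPowerSeries (Fin r) 𝒪 := fun m => if m i = 0 then MvPowerSeries.coeff m f else 0
      have hf2 : ∀ m, MvPowerSeries.coeff m f2 =
        if m i = 0 then MvPowerSeries.coeff m f else 0 := fun m => rfl
      have h1 : MvPowerSeries.X i ∣ f - f2 := by
        rw [MvPowerSeries.X_dvd_iff]
        intro m hm
        rw [map_sub, hf2, if_pos hm, sub_self]
      have h2 : f2 ∈ Ideal.span {g : MvPowerSeries (Fin r) 𝒪 |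
          ∃ i : Fin r, i.1 < k ∧ g = MvPowerSeries.X i} := by
        refine ih (by omega) f2 fun m hm => ?_
        rw [hf2]
        split_ifs with h0
        · refine h m fun j hj => ?_
          rcases Nat.lt_succ_iff_lt_or_eq.mp hj with hj | hj
          · exact hm j hj
          · have : j = i := Fin.ext hj
            rw [this]; exact h0
        · rfl
      rw [← sub_add_cancel f f2]
      refine Ideal.add_mem _ ?_ ?_
      · exact Ideal.mem_of_dvd _ h1 (Ideal.subset_span ⟨i, Nat.lt_succ_self k, rfl⟩)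
      · refine Ideal.span_mono ?_ h2
        rintro _ ⟨j, hj, rfl⟩
        exact ⟨j, by omega, rfl⟩

/-- The sequence `X₀, …, X_{r-1}, ϖ`. -/
noncomputable def seqX (ϖ : 𝒪) (r : ℕ) : List (MvPowerSeries (Fin r) 𝒪) :=
  (List.ofFn fun i : Fin r => (MvPowerSeries.X i : MvPowerSeries (Fin r) 𝒪)) ++
    [MvPowerSeries.C (σ := Fin r) ϖ]

theorem seqX_length (ϖ : 𝒪) (r : ℕ) : (seqX ϖ r).length = r + 1 := by
  simp [seqX]

theorem ofList_take_seqX (ϖ : 𝒪) (k : ℕ) (hk : k ≤ r) :
    Ideal.ofList ((seqX ϖ r).take k) = Ideal.span {g : MvPowerSeries (Fin r) 𝒪 |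
      ∃ i : Fin r, i.1 < k ∧ g = MvPowerSeries.X i} := by
  unfold Ideal.ofList
  congr 1
  ext g
  rw [Set.mem_ofPred_eq, Set.mem_ofPred_eq, seqX, List.take_append_of_le_length (by simpa using hk),
    List.mem_take_iff_getElem]
  constructor
  · rintro ⟨j, hj, rfl⟩
    have hj' : j < k ∧ j < r := by simpa using hj
    exact ⟨⟨j, hj'.2⟩, hj'.1, by simp⟩
  · rintro ⟨i, hi, rfl⟩
    refine ⟨i.1, by simpa using hi, by simp⟩

theorem isWeaklyRegular_seqX [IsDomain 𝒪] (ϖ : 𝒪) (hϖ : ϖ ≠ 0) :
    IsWeaklyRegular (MvPowerSeries (Fin r) 𝒪) (seqX ϖ r) := by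
  refine ⟨fun i hi => ?_⟩
  rw [isSMulRegular_quotient_iff_mem_of_smul_mem]
  intro f hf
  have hir : i ≤ r := by rw [seqX_length] at hi; omega
  rw [smul_eq_mul, Ideal.mul_top, ofList_take_seqX ϖ i hir, mem_span_X_iff i hir] at hf ⊢
  intro m hm
  rcases Nat.lt_or_ge i r with hlt | hge
  · have hx : (seqX ϖ r)[i] = MvPowerSeries.X ⟨i, hlt⟩ := by
      simp [seqX, hlt]
    rw [hx, smul_eq_mul] at hf
    have := hf (m + Finsupp.single ⟨i, hlt⟩ 1) (fun j hj => by
      have hne : (⟨i, hlt⟩ : Fin r) ≠ j := by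
        rintro rfl
        simp at hj
      rw [Finsupp.add_apply, hm j hj, Finsupp.single_apply, if_neg hne, add_zero])
    rwa [add_comm, MvPowerSeries.X, MvPowerSeries.coeff_add_monomial_mul, one_mul] at this
  · have hir' : i = r := le_antisymm hir hge
    subst hir'
    have hx : (seqX ϖ i)[i] = MvPowerSeries.C (σ := Fin i) ϖ := by
      simp [seqX]
    rw [hx, smul_eq_mul] at hf
    have := hf m hm
    rw [MvPowerSeries.coeff_C_mul] at this
    exact (mul_eq_zero.mp this).resolve_left hϖ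

theorem ofList_seqX [IsDomain 𝒪] [IsDiscreteValuationRing 𝒪] (ϖ : 𝒪) (hϖ : Irreducible ϖ) :
    Ideal.ofList (seqX ϖ r) = maximalIdeal (MvPowerSeries (Fin r) 𝒪) := by
  have hmax := hϖ.maximalIdeal_eq
  have htake := ofList_take_seqX (r := r) ϖ r le_rfl
  have htake' : (seqX ϖ r).take r =
      (List.ofFn fun i : Fin r => (MvPowerSeries.X i : MvPowerSeries (Fin r) 𝒪)) := by
    rw [seqX, List.take_append_of_le_length (by simp)]
    simp
  rw [htake'] at htake
  apply le_antisymm
  · rw [Ideal.ofList, Ideal.span_le]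
    intro g hg
    rw [Set.mem_ofPred_eq, seqX, List.mem_append] at hg
    rw [SetLike.mem_coe, mem_maximalIdeal, mem_nonunits_iff, MvPowerSeries.isUnit_iff_constantCoeff,
      ← mem_nonunits_iff, ← mem_maximalIdeal]
    rcases hg with hg | hg
    · rw [List.mem_ofFn] at hg
      obtain ⟨i, rfl⟩ := hg
      simp
    · rw [List.mem_singleton] at hg
      subst hg
      rw [MvPowerSeries.constantCoeff_C, hmax]
      exact Ideal.mem_span_singleton_self ϖ
  · intro f hf
    rw [mem_maximalIdeal, mem_nonunits_iff, MvPowerSeries.isUnit_iff_constantCoeff,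
      ← mem_nonunits_iff, ← mem_maximalIdeal, hmax, Ideal.mem_span_singleton] at hf
    obtain ⟨a, ha⟩ := hf
    rw [seqX, Ideal.ofList_append, Ideal.ofList_singleton, htake]
    rw [← sub_add_cancel f (MvPowerSeries.C (σ := Fin r) (ϖ * a))]
    refine Submodule.add_mem_sup ?_ ?_
    · rw [mem_span_X_iff r le_rfl]
      intro m hm
      have hm0 : m = 0 := by
        ext i
        simpa using hm i i.2
      subst hm0
      rw [map_sub, MvPowerSeries.coeff_zero_C, MvPowerSeries.coeff_zero_eq_constantCoeff_apply, ha,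
        sub_self]
    · rw [map_mul]
      exact Ideal.mul_mem_right _ _ (Ideal.mem_span_singleton_self _)

end Regular

section PD

/-- over a Noetherian local ring, if residue field has projective dimension `< n` then every
finite length module has projective dimension `< n`. -/
theorem hasProjectiveDimensionLT_of_isFiniteLength {S : Type} [CommRing S] [IsLocalRing S]
    (n : ℕ) (h : HasProjectiveDimensionLT (ModuleCat.of S (S ⧸ maximalIdeal S)) n)
    (P : Type) [AddCommGroup P] [Module S P] (hP : IsFiniteLength S P) :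
    HasProjectiveDimensionLT (ModuleCat.of S P) n := by
  induction hP with
  | of_subsingleton =>
    rename_i M _ _ _
    have : HasProjectiveDimensionLT (ModuleCat.of S M) 0 :=
      (ModuleCat.isZero_of_subsingleton (ModuleCat.of S M)).hasProjectiveDimensionLT_zero
    exact hasProjectiveDimensionLT_of_ge _ 0 n (Nat.zero_le _)
  | of_simple_quotient hN ih =>
    rename_i M _ _ N hs
    obtain ⟨I, hI, ⟨e⟩⟩ := isSimpleModule_iff_quot_maximal.mp hs
    have hIm : I = maximalIdeal S := IsLocalRing.eq_maximalIdeal hI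
    subst hIm
    have h3 : HasProjectiveDimensionLT (ModuleCat.of S (M ⧸ N)) n :=
      hasProjectiveDimensionLT_of_iso e.symm.toModuleIso n
    let C : ShortComplex (ModuleCat S) := ShortComplex.mk (ModuleCat.ofHom N.subtype)
      (ModuleCat.ofHom N.mkQ) (by ext x; simp)
    have hC : C.ShortExact :=
      { exact := by
          rw [ShortComplex.ShortExact.moduleCat_exact_iff_function_exact]
          exact LinearMap.exact_subtype_mkQ N
        mono_f := (ModuleCat.mono_iff_injective _).mpr N.injective_subtype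
        epi_g := (ModuleCat.epi_iff_surjective _).mpr N.mkQ_surjective }
    exact hC.hasProjectiveDimensionLT_X₂ n ih h3

end PD

section Main

variable {𝒪 : Type} [CommRing 𝒪] [IsDomain 𝒪] [IsDiscreteValuationRing 𝒪] {r : ℕ}

/-- An `𝒪`-algebra endomorphism of a power series ring sends variables to nonunits. -/
theorem map_X_mem (φ : MvPowerSeries (Fin r) 𝒪 →ₐ[𝒪] MvPowerSeries (Fin r) 𝒪) (i : Fin r) :
    φ (MvPowerSeries.X i) ∈ maximalIdeal (MvPowerSeries (Fin r) 𝒪) := by
  rw [mem_maximalIdeal, mem_nonunits_iff, MvPowerSeries.isUnit_iff_constantCoeff]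
  intro hu
  obtain ⟨u, hu⟩ := hu
  have h1 : IsUnit (1 - algebraMap 𝒪 (MvPowerSeries (Fin r) 𝒪) (↑u⁻¹) * MvPowerSeries.X i) := by
    rw [MvPowerSeries.isUnit_iff_constantCoeff]
    simp
  have h2 := h1.map φ
  rw [map_sub, map_one, map_mul, AlgHom.commutes, MvPowerSeries.isUnit_iff_constantCoeff, map_sub,
    map_mul, ← hu, map_one, MvPowerSeries.algebraMap_apply, Algebra.algebraMap_self_apply,
    MvPowerSeries.constantCoeff_C] at h2
  simp at h2

/-- The main homological input: the module `N` of a patching level is free. -/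
theorem free_of_level (φ : MvPowerSeries (Fin r) 𝒪 →ₐ[𝒪] MvPowerSeries (Fin r) 𝒪)
    (N : Type) [AddCommGroup N] [Module (MvPowerSeries (Fin r) 𝒪) N] [Nontrivial N]
    (d : ℕ) (b : Fin d → N)
    (b_span : ∀ x : N, ∃ c : Fin d → MvPowerSeries (Fin r) 𝒪, x = ∑ i, φ (c i) • b i)
    (b_rel : ∀ c : Fin d → MvPowerSeries (Fin r) 𝒪, ∑ i, φ (c i) • b i = 0 ↔ ∀ i, c i = 0) :
    Module.Finite (MvPowerSeries (Fin r) 𝒪) N ∧ Module.Free (MvPowerSeries (Fin r) 𝒪) N := by
  obtain ⟨ϖ, hϖ⟩ := IsDiscreteValuationRing.exists_irreducible 𝒪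
  have hfin : Module.Finite (MvPowerSeries (Fin r) 𝒪) N := by
    refine Module.Finite.of_surjective
      (Fintype.linearCombination (MvPowerSeries (Fin r) 𝒪) b) fun x => ?_
    obtain ⟨c, rfl⟩ := b_span x
    exact ⟨fun i => φ (c i), rfl⟩
  -- the additive equivalence
  let e0 : (Fin d → MvPowerSeries (Fin r) 𝒪) →+ N :=
    { toFun := fun c => ∑ i, φ (c i) • b i
      map_zero' := by simp
      map_add' := fun c c' => by simp [add_smul, Finset.sum_add_distrib] }
  have he0 : Function.Bijective e0 := by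
    constructor
    · rw [injective_iff_map_eq_zero]
      intro c hc
      funext i
      exact (b_rel c).mp hc i
    · intro x
      obtain ⟨c, hc⟩ := b_span x
      exact ⟨c, hc.symm⟩
  let e : (Fin d → MvPowerSeries (Fin r) 𝒪) ≃+ N := AddEquiv.ofBijective e0 he0
  have he : ∀ (f : MvPowerSeries (Fin r) 𝒪) (c : Fin d → MvPowerSeries (Fin r) 𝒪),
      e (f • c) = φ f • e c := by
    intro f c
    change ∑ i, φ ((f • c) i) • b i = φ f • ∑ i, φ (c i) • b i
    simp [Finset.smul_sum, mul_smul]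
  let rs := (seqX ϖ r).map φ
  have hreg0 := isWeaklyRegular_seqX (r := r) ϖ hϖ.ne_zero
  have hreg1 : IsWeaklyRegular (Fin d → MvPowerSeries (Fin r) 𝒪) (seqX ϖ r) := by
    rw [← (TensorProduct.rid (MvPowerSeries (Fin r) 𝒪)
      (Fin d → MvPowerSeries (Fin r) 𝒪)).isWeaklyRegular_congr]
    exact hreg0.isWeaklyRegular_lTensor
  have hreg : IsWeaklyRegular N rs := by
    refine (e.isWeaklyRegular_congr (as := seqX ϖ r) (bs := rs) ?_).mp hreg1
    rw [List.forall₂_map_right_iff, List.forall₂_same]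
    intro f _ c
    exact he f c
  have hmem : ∀ g ∈ rs, g ∈ maximalIdeal (MvPowerSeries (Fin r) 𝒪) := by
    intro g hg
    rw [List.mem_map] at hg
    obtain ⟨f, hf, rfl⟩ := hg
    rw [seqX, List.mem_append] at hf
    rcases hf with hf | hf
    · rw [List.mem_ofFn] at hf
      obtain ⟨i, rfl⟩ := hf
      exact map_X_mem φ i
    · rw [List.mem_singleton] at hf
      subst hf
      have : φ (MvPowerSeries.C (σ := Fin r) ϖ) = MvPowerSeries.C (σ := Fin r) ϖ := φ.commutes ϖ
      rw [this, mem_maximalIdeal, mem_nonunits_iff, MvPowerSeries.isUnit_iff_constantCoeff,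
        MvPowerSeries.constantCoeff_C]
      exact hϖ.not_isUnit
  have hlen : rs.length = r + 1 := by rw [List.length_map, seqX_length]
  -- projective dimension of the residue field
  have hk : HasProjectiveDimensionLT (ModuleCat.of (MvPowerSeries (Fin r) 𝒪)
      (MvPowerSeries (Fin r) 𝒪 ⧸ maximalIdeal (MvPowerSeries (Fin r) 𝒪))) (r + 1 + 1) := by
    have h1 := ModuleCat.projectiveDimension_quotient_eq_add_length_of_isWeaklyRegular
      (ModuleCat.of (MvPowerSeries (Fin r) 𝒪) (MvPowerSeries (Fin r) 𝒪)) (seqX ϖ r) hreg0 (by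
        intro g hg
        rw [← ofList_seqX ϖ hϖ]
        exact Ideal.subset_span hg)
    rw [ModuleCat.projectiveDimension_eq_zero_of_projective (ModuleCat.of (MvPowerSeries (Fin r) 𝒪)
      (MvPowerSeries (Fin r) 𝒪)), zero_add, seqX_length] at h1
    have h2 : HasProjectiveDimensionLT (ModuleCat.of (MvPowerSeries (Fin r) 𝒪)
        (MvPowerSeries (Fin r) 𝒪 ⧸ (Ideal.ofList (seqX ϖ r) •
          (⊤ : Submodule (MvPowerSeries (Fin r) 𝒪) (MvPowerSeries (Fin r) 𝒪))))) (r + 1 + 1) :=
      (projectiveDimension_le_iff _ (r + 1)).mp h1.le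
    refine @hasProjectiveDimensionLT_of_iso _ _ _ _ _ (LinearEquiv.toModuleIso
      (Submodule.quotEquivOfEq _ _ ?_)) _ h2
    rw [smul_eq_mul, Ideal.mul_top, ofList_seqX ϖ hϖ]
  -- the quotient has finite length
  have hP : IsFiniteLength (MvPowerSeries (Fin r) 𝒪)
      (N ⧸ (Ideal.ofList rs • (⊤ : Submodule (MvPowerSeries (Fin r) 𝒪) N))) := by
    rw [isFiniteLength_iff_isNoetherian_isArtinian]
    refine ⟨inferInstance, ?_⟩
    let _ : Module 𝒪 (N ⧸ (Ideal.ofList rs • (⊤ : Submodule (MvPowerSeries (Fin r) 𝒪) N))) :=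
      Module.compHom _ (algebraMap 𝒪 (MvPowerSeries (Fin r) 𝒪))
    have : IsScalarTower 𝒪 (MvPowerSeries (Fin r) 𝒪)
        (N ⧸ (Ideal.ofList rs • (⊤ : Submodule (MvPowerSeries (Fin r) 𝒪) N))) :=
      ⟨fun a f x => by
        change (a • f) • x = algebraMap 𝒪 (MvPowerSeries (Fin r) 𝒪) a • f • x
        rw [Algebra.smul_def, mul_smul]⟩
    apply isArtinian_of_tower 𝒪
    have hkill : ∀ g ∈ Ideal.ofList rs, ∀ x : (N ⧸ (Ideal.ofList rs •
        (⊤ : Submodule (MvPowerSeries (Fin r) 𝒪) N))), g • x = 0 := by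
      intro g hg x
      obtain ⟨x, rfl⟩ := Submodule.mkQ_surjective _ x
      rw [← map_smul, Submodule.mkQ_apply, Submodule.Quotient.mk_eq_zero]
      exact Submodule.smul_mem_smul hg trivial
    have hφC : ∀ f : MvPowerSeries (Fin r) 𝒪,
        φ f - algebraMap 𝒪 (MvPowerSeries (Fin r) 𝒪) (MvPowerSeries.constantCoeff f) ∈
          Ideal.ofList rs := by
      intro f
      rw [← φ.commutes, ← map_sub]
      have h1 : f - algebraMap 𝒪 (MvPowerSeries (Fin r) 𝒪) (MvPowerSeries.constantCoeff f) ∈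
          Ideal.ofList (seqX ϖ r) := by
        rw [ofList_seqX ϖ hϖ, mem_maximalIdeal, mem_nonunits_iff,
          MvPowerSeries.isUnit_iff_constantCoeff, map_sub]
        change ¬ IsUnit (_ - MvPowerSeries.constantCoeff (MvPowerSeries.C (σ := Fin r)
          (MvPowerSeries.constantCoeff f)))
        simp
      have h2 := Ideal.mem_map_of_mem (φ : MvPowerSeries (Fin r) 𝒪 →+* MvPowerSeries (Fin r) 𝒪) h1
      rw [Ideal.map_ofList] at h2
      exact h2
    have hfinO : Module.Finite 𝒪 (N ⧸ (Ideal.ofList rs •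
        (⊤ : Submodule (MvPowerSeries (Fin r) 𝒪) N))) := by
      refine Module.Finite.of_surjective (Fintype.linearCombination 𝒪
        (fun i => Submodule.mkQ (Ideal.ofList rs •
          (⊤ : Submodule (MvPowerSeries (Fin r) 𝒪) N)) (b i))) fun x => ?_
      obtain ⟨x, rfl⟩ := Submodule.mkQ_surjective _ x
      obtain ⟨c, rfl⟩ := b_span x
      refine ⟨fun i => MvPowerSeries.constantCoeff (c i), ?_⟩
      rw [Fintype.linearCombination_apply, map_sum]
      refine Finset.sum_congr rfl fun i _ => ?_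
      rw [map_smul, ← algebraMap_smul (MvPowerSeries (Fin r) 𝒪), eq_comm, ← sub_eq_zero, ← sub_smul]
      exact hkill _ (hφC _) _
    have htors : Module.IsTorsionBySet 𝒪 (N ⧸ (Ideal.ofList rs •
        (⊤ : Submodule (MvPowerSeries (Fin r) 𝒪) N))) (maximalIdeal 𝒪) := by
      rintro x ⟨a, ha⟩
      change a • x = 0
      rw [hϖ.maximalIdeal_eq, SetLike.mem_coe, Ideal.mem_span_singleton] at ha
      obtain ⟨a, rfl⟩ := ha
      rw [mul_comm, mul_smul, ← algebraMap_smul (MvPowerSeries (Fin r) 𝒪) ϖ, hkill, smul_zero]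
      refine Ideal.subset_span ?_
      refine List.mem_map.mpr ⟨MvPowerSeries.C (σ := Fin r) ϖ, by simp [seqX], φ.commutes ϖ⟩
    let _ : Module (𝒪 ⧸ maximalIdeal 𝒪) (N ⧸ (Ideal.ofList rs •
        (⊤ : Submodule (MvPowerSeries (Fin r) 𝒪) N))) := htors.module
    have : IsScalarTower 𝒪 (𝒪 ⧸ maximalIdeal 𝒪) (N ⧸ (Ideal.ofList rs •
        (⊤ : Submodule (MvPowerSeries (Fin r) 𝒪) N))) := htors.isScalarTower
    have : Module.Finite (𝒪 ⧸ maximalIdeal 𝒪) (N ⧸ (Ideal.ofList rs •
        (⊤ : Submodule (MvPowerSeries (Fin r) 𝒪) N))) :=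
      Module.Finite.of_restrictScalars_finite 𝒪 _ _
    have : IsArtinianRing (𝒪 ⧸ maximalIdeal 𝒪) :=
      @DivisionRing.instIsArtinianRing _ (Ideal.Quotient.field (maximalIdeal 𝒪)).toDivisionRing
    exact isArtinian_of_surjective_algebraMap (R := 𝒪 ⧸ maximalIdeal 𝒪)
      Ideal.Quotient.mk_surjective
  have hpdP := hasProjectiveDimensionLT_of_isFiniteLength _ hk _ hP
  have hpd := ModuleCat.projectiveDimension_quotient_eq_add_length_of_isWeaklyRegular
    (ModuleCat.of (MvPowerSeries (Fin r) 𝒪) N) rs hreg hmem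
  have hpdP' := (projectiveDimension_le_iff _ (r + 1)).mpr hpdP
  have h3 : projectiveDimension (ModuleCat.of (MvPowerSeries (Fin r) 𝒪) N) + ((r + 1 : ℕ)) ≤
      ((r + 1 : ℕ) : WithBot ℕ∞) := by
    rw [← hlen, ← hpd, hlen]
    exact hpdP'
  have h4 : projectiveDimension (ModuleCat.of (MvPowerSeries (Fin r) 𝒪) N) ≤ ((0 : ℕ) : WithBot ℕ∞) := by
    have h5 : projectiveDimension (ModuleCat.of (MvPowerSeries (Fin r) 𝒪) N) + ((r + 1 : ℕ)) ≤
      0 + ((r + 1 : ℕ) : WithBot ℕ∞) := by rwa [zero_add]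
    exact (ENat.WithBot.add_le_add_natCast_right_iff).mp h5
  rw [projectiveDimension_le_iff] at h4
  have h6 : CategoryTheory.Projective (ModuleCat.of (MvPowerSeries (Fin r) 𝒪) N) :=
    (projective_iff_hasProjectiveDimensionLE_zero _).mpr h4
  rw [← IsProjective.iff_projective] at h6
  exact ⟨hfin, Module.free_of_flat_of_isLocalRing⟩

end Main

theorem result
    {𝒪 : Type} [CommRing 𝒪] [IsDomain 𝒪] [IsDiscreteValuationRing 𝒪]
    {r : ℕ} {R : Type} [CommRing R] [Algebra 𝒪 R]
    {M : Type} [AddCommGroup M] [Module R M] [Nontrivial M]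
    (L : Algebra.PatchingLevel 𝒪 r R M ⊥) :
    Module.Free R M ∧ Module.annihilator R M = ⊥ ∧
      RingHom.ker L.ψ = Ideal.span (Set.range fun i : Fin r => L.φ (MvPowerSeries.X i)) := by
  have hN : Nontrivial L.N := L.π_surjective.nontrivial
  obtain ⟨hfin, hfree⟩ := free_of_level L.φ L.N L.d L.b L.b_span (by simpa using L.b_rel)
  let I : Ideal (MvPowerSeries (Fin r) 𝒪) :=
    Ideal.span (Set.range fun i : Fin r => L.φ (MvPowerSeries.X i))
  let B := Module.Free.chooseBasis (MvPowerSeries (Fin r) 𝒪) L.N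
  have hne : Nonempty (Module.Free.ChooseBasisIndex (MvPowerSeries (Fin r) 𝒪) L.N) :=
    B.index_nonempty
  -- coordinates of elements of `I N`
  have hcoord : ∀ x ∈ I • (⊤ : Submodule (MvPowerSeries (Fin r) 𝒪) L.N), ∀ j, B.repr x j ∈ I := by
    intro x hx j
    have h1 := Submodule.mem_map_of_mem (f := B.coord j) hx
    rw [Submodule.map_smul''] at h1
    have h2 : I • (Submodule.map (B.coord j) ⊤) ≤ I := by
      refine (Submodule.smul_mono le_rfl le_top).trans ?_
      rw [smul_eq_mul, Ideal.mul_top]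
    exact h2 h1
  have hIker : I ≤ RingHom.ker L.ψ := by
    rw [Ideal.span_le]
    rintro _ ⟨i, rfl⟩
    exact L.ψ_φ_X i
  have hkill : ∀ f : MvPowerSeries (Fin r) 𝒪, (∀ m : M, L.ψ f • m = 0) → f ∈ I := by
    intro f hf
    obtain ⟨j⟩ := hne
    have h1 : L.π (f • B j) = 0 := by rw [L.π_smul, hf]
    have h2 := hcoord _ ((L.ker_π _).mp h1) j
    simpa using h2
  have hker : RingHom.ker L.ψ = I := by
    refine le_antisymm (fun f hf => hkill f fun m => ?_) hIker
    rw [RingHom.mem_ker] at hf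
    change L.ψ f = 0 at hf
    rw [hf, zero_smul]
  refine ⟨?_, ?_, hker⟩
  · let v : Module.Free.ChooseBasisIndex (MvPowerSeries (Fin r) 𝒪) L.N → M := fun j => L.π (B j)
    have hli : LinearIndependent R v := by
      rw [Fintype.linearIndependent_iff]
      intro g hg j
      choose c hc using fun j => L.ψ_surjective (g j)
      have h1 : L.π (∑ j, c j • B j) = 0 := by
        rw [map_sum, ← hg]
        refine Finset.sum_congr rfl fun j _ => ?_
        rw [L.π_smul, hc]
      have h2 := hcoord _ ((L.ker_π _).mp h1) j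
      rw [B.repr_sum_self] at h2
      rw [← hc]
      exact hIker h2
    have hsp : ⊤ ≤ Submodule.span R (Set.range v) := by
      rintro m -
      obtain ⟨x, rfl⟩ := L.π_surjective m
      rw [← B.sum_repr x, map_sum]
      refine Submodule.sum_mem _ fun j _ => ?_
      rw [L.π_smul]
      exact Submodule.smul_mem _ _ (Submodule.subset_span ⟨j, rfl⟩)
    exact Module.Free.of_basis (Basis.mk hli hsp)
  · rw [_root_.eq_bot_iff]
    intro a ha
    obtain ⟨f, rfl⟩ := L.ψ_surjective a
    rw [Module.mem_annihilator] at ha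
    have := hkill f ha
    exact hIker this

end Fermat.Agent.S57
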