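import Fermat.Statements.S02
-- import your own Fermat.Agent.* helpers here

set_option autoImplicit false
open FreyPackage

namespace Fermat.Agent.S02

/-- `a` odd, `b` even, coprime: negate if necessary to get `a ≡ 3 mod 4`. -/
theorem aux_sign (a b c : ℤ) (ha : a ≠ 0) (hb : b ≠ 0) (hc : c ≠ 0) (p : ℕ) (pp : p.Prime)
    (hp5 : 5 ≤ p) (H : a ^ p + b ^ p = c ^ p) (hab : gcd a b = 1) (hb2 : (2 : ℤ) ∣ b)
    (ha2 : ¬ (2 : ℤ) ∣ a) : Nonempty FreyPackage := by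
  have hodd : Odd p := pp.odd_of_ne_two (by omega)
  have hcase : a % 4 = 3 ∨ a % 4 = 1 := by omega
  rcases hcase with h | h
  · refine ⟨⟨a, b, c, ha, hb, hc, p, pp, hp5, H, hab, ?_, ?_⟩⟩
    · have h1 : ((a : ℤ) : ZMod 4) = ((3 : ℤ) : ZMod 4) :=
        (ZMod.intCast_eq_intCast_iff a 3 4).2 (by simpa [Int.ModEq] using h)
      simpa using h1
    · exact (ZMod.intCast_zmod_eq_zero_iff_dvd b 2).2 (by exact_mod_cast hb2)
  · refine ⟨⟨-a, -b, -c, neg_ne_zero.2 ha, neg_ne_zero.2 hb, neg_ne_zero.2 hc, p, pp, hp5,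
      ?_, ?_, ?_, ?_⟩⟩
    · rw [hodd.neg_pow, hodd.neg_pow, hodd.neg_pow, ← H]; ring
    · rw [← Int.coe_gcd] at hab ⊢
      rwa [Int.gcd_neg, Int.neg_gcd]
    · have h1 : ((-a : ℤ) : ZMod 4) = ((3 : ℤ) : ZMod 4) :=
        (ZMod.intCast_eq_intCast_iff (-a) 3 4).2 (by
          have : (-a) % 4 = 3 := by omega
          simpa [Int.ModEq] using this)
      simpa using h1
    · exact (ZMod.intCast_zmod_eq_zero_iff_dvd (-b) 2).2 (by
        have := (dvd_neg (a := (2 : ℤ)) (b := b)).2 hb2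
        exact_mod_cast this)

theorem aux_coprime (a b c : ℤ) (ha : a ≠ 0) (hb : b ≠ 0) (hc : c ≠ 0) (p : ℕ) (pp : p.Prime)
    (hp5 : 5 ≤ p) (H : a ^ p + b ^ p = c ^ p) (hab : gcd a b = 1) : Nonempty FreyPackage := by
  have hodd : Odd p := pp.odd_of_ne_two (by omega)
  have hp0 : p ≠ 0 := by omega
  have h2 : Prime (2 : ℤ) := Int.prime_two
  have hno (x y : ℤ) (h : gcd x y = 1) (hx : (2 : ℤ) ∣ x) : ¬ (2 : ℤ) ∣ y := by
    intro hy
    have h3 : (2 : ℤ) ∣ gcd x y := dvd_gcd hx hy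
    rw [h] at h3
    omega
  by_cases hb2 : (2 : ℤ) ∣ b
  · exact aux_sign a b c ha hb hc p pp hp5 H hab hb2
      (hno b a (by rw [gcd_comm]; exact hab) hb2)
  by_cases ha2 : (2 : ℤ) ∣ a
  · exact aux_sign b a c hb ha hc p pp hp5 (by rw [← H, add_comm])
      (by rw [gcd_comm]; exact hab) ha2 hb2
  -- both odd, so `c` is even
  have hc2 : (2 : ℤ) ∣ c := by
    have hae : Odd (a ^ p) := (Int.not_even_iff_odd.1 (fun h => ha2 h.two_dvd)).pow
    have hbe : Odd (b ^ p) := (Int.not_even_iff_odd.1 (fun h => hb2 h.two_dvd)).pow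
    have hce : Even (c ^ p) := H ▸ hae.add_odd hbe
    exact h2.dvd_of_dvd_pow hce.two_dvd
  have hac : gcd a c = 1 := by
    rw [← gcdab_eq_gcdac (Nat.pos_of_ne_zero hp0) H, hab]
  refine aux_sign a (-c) (-b) ha (neg_ne_zero.2 hc) (neg_ne_zero.2 hb) p pp hp5 ?_ ?_ ?_ ha2
  · rw [hodd.neg_pow, hodd.neg_pow, ← H]; ring
  · rw [← Int.coe_gcd] at hac ⊢
    rwa [Int.gcd_neg]
  · exact (dvd_neg (a := (2 : ℤ)) (b := c)).2 hc2

theorem result (a b c : ℤ) (ha : a ≠ 0) (hb : b ≠ 0) (hc : c ≠ 0) (p : ℕ) (pp : p.Prime) (hp5 : 5 ≤ p) (H : a ^ p + b ^ p = c ^ p) : Nonempty FreyPackage := by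
  have hp0 : p ≠ 0 := by omega
  have hg0 : gcd a b ≠ 0 := fun h => ha ((gcd_eq_zero_iff a b).1 h).1
  obtain ⟨a', ha'⟩ := gcd_dvd_left a b
  obtain ⟨b', hb'⟩ := gcd_dvd_right a b
  have hgc : gcd a b ∣ c := by
    rw [← Int.pow_dvd_pow_iff hp0, ← H]
    exact dvd_add (pow_dvd_pow_of_dvd (gcd_dvd_left a b) p)
      (pow_dvd_pow_of_dvd (gcd_dvd_right a b) p)
  obtain ⟨c', hc'⟩ := hgc
  set g := gcd a b with hg
  have hgn : normalize g = g := by rw [hg]; exact normalize_gcd a b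
  have hcop : gcd a' b' = 1 := by
    have h1 : gcd (g * a') (g * b') = normalize g * gcd a' b' := gcd_mul_left g a' b'
    rw [← ha', ← hb', ← hg, hgn] at h1
    exact mul_left_cancel₀ hg0 (by rw [mul_one]; exact h1.symm)
  refine aux_coprime a' b' c' ?_ ?_ ?_ p pp hp5 ?_ hcop
  · rintro rfl; exact ha (by rw [ha', mul_zero])
  · rintro rfl; exact hb (by rw [hb', mul_zero])
  · rintro rfl; exact hc (by rw [hc', mul_zero])
  · have hgp : g ^ p ≠ 0 := pow_ne_zero p hg0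
    apply mul_left_cancel₀ hgp
    rw [mul_add, ← mul_pow, ← mul_pow, ← mul_pow, ← ha', ← hb', ← hc', H]

end Fermat.Agent.S02
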