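import Fermat.Statements.S03
import Fermat.Agent.FINISH.Done

set_option autoImplicit false
open FreyPackage

namespace Fermat.Agent.S03

theorem result (P : FreyPackage) : False := by
  exact Fermat.Agent.FINISH.s03 Fermat.Agent.FINISH.inputs P

end Fermat.Agent.S03
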