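import Mathlib
import Fermat.Prelude.Def_FLTPrelim_FreyPackage
import Fermat.Prelude.Def_FLTPrelim_ModularRep
import Fermat.Prelude.Def_FreyPackage_IsConductorLevel
import Fermat.Prelude.Def_WeierstrassCurve_Mlc1RowStatement
import Fermat.Prelude.Def_WeierstrassCurve_ConductorLevel
import Fermat.Agent.Frey.CurveFacts

set_option autoImplicit false

/-! Wiring for statement S06: residual modularity of the Frey curve at a conductor level,
from modularity at the exact conductor level of `P.freyCurveInt`. -/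

namespace Fermat.Agent.S06Wiring

open WeierstrassCurve

/-- From a modular integral model at a squarefree level supported on the bad primes one gets S06. -/
theorem modularRepOfConductorLevel_of_level (P : FreyPackage)
    (h : ∃ N : ℕ, 0 < N ∧ Squarefree N ∧
      (∀ q : ℕ, q.Prime → q ∣ N → (q : ℤ) ∣ P.freyCurveInt.Δ) ∧
      P.freyCurveInt.IsModularModelOfLevel N) :
    ∃ N : ℕ, P.IsConductorLevel N ∧ P.ModularRepOfLevel N := by
  obtain ⟨N, hN0, hNsq, hNsupp, f, hf, hfa⟩ := h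
  obtain ⟨𝔪, hmax, hp𝔪⟩ := FLTPrelim.exists_maximalIdeal_natCast_prime_mem P.pp
  refine ⟨N, ⟨hN0, hNsq, fun q hq hqN =>
      FreyPackage.AgentFrey.prime_dvd_Δ P hq (hNsupp q hq hqN)⟩,
    f, P.freyCurveInt, 𝔪, hf, FreyPackage.AgentFrey.isIntegralModelOf P, hmax, hp𝔪, ?_⟩
  intro ℓ hℓ hgood hℓN _
  refine ⟨((P.freyCurveInt.apOfModel ℓ : ℤ) : integralClosure ℤ ℂ), ?_, ?_⟩
  · rw [hfa ℓ hℓ hgood hℓN]; push_cast; rfl
  · rw [sub_self]; exact 𝔪.zero_mem

/-- S06 from exact-conductor-level modularity (the conclusion of S59) of semistable curves. -/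
theorem S06_of_exactConductorLevel
    (h : ∀ W : WeierstrassCurve ℤ, W.Δ ≠ 0 → W.IsSemistableModel →
      Mlc1IsModularModelOfExactConductorLevel W)
    (P : FreyPackage) : ∃ N : ℕ, P.IsConductorLevel N ∧ P.ModularRepOfLevel N := by
  obtain ⟨N, hN, hsq, hsupp, hmod⟩ := h P.freyCurveInt
    (FreyPackage.AgentFrey.freyCurveInt_Δ_ne_zero P) (FreyPackage.AgentFrey.isSemistableModel P)
  exact modularRepOfConductorLevel_of_level P
    ⟨N, hN, hsq, fun q hq hqN => (hsupp q hq).1 hqN, hmod⟩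

/-- S06 from modularity at the level `W.conductorLevel` (the conclusion of S58). -/
theorem S06_of_conductorLevel
    (h : ∀ W : WeierstrassCurve ℤ, W.Δ ≠ 0 → W.IsSemistableModel →
      W.IsModularModelOfLevel W.conductorLevel)
    (P : FreyPackage) : ∃ N : ℕ, P.IsConductorLevel N ∧ P.ModularRepOfLevel N := by
  have hΔ := FreyPackage.AgentFrey.freyCurveInt_Δ_ne_zero P
  refine modularRepOfConductorLevel_of_level P
    ⟨P.freyCurveInt.conductorLevel, P.freyCurveInt.conductorLevel_pos,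
      P.freyCurveInt.squarefree_conductorLevel, fun q hq hqN =>
        (P.freyCurveInt.prime_dvd_conductorLevel_iff hΔ hq).1 hqN,
      h _ hΔ (FreyPackage.AgentFrey.isSemistableModel P)⟩

/-- Exact conductor level modularity of every semistable curve from
S51, S52, S59 and residual modularity at 3 of a level `M₀` with `9 ∤ M₀`, cube-free away from 3
(this is S50 with a stronger conclusion). -/
theorem exactConductorLevel_of
    (h51 : ∀ W : WeierstrassCurve ℤ, W.Δ ≠ 0 → W.IsSemistableModel →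
      W.ModRepIsIrreducible 3 ∨ W.ModRepIsIrreducible 5)
    (h52 : ∀ W : WeierstrassCurve ℤ, W.Δ ≠ 0 → W.IsSemistableModel → W.ModRepIsIrreducible 5 →
      ∃ W' : WeierstrassCurve ℤ, W'.Δ ≠ 0 ∧ W'.IsSemistableModel ∧ W'.ModRepIsIrreducible 3 ∧
        ∀ ℓ : ℕ, ℓ.Prime → W.IsGoodPrimeFor ℓ → W'.IsGoodPrimeFor ℓ → ℓ ≠ 5 →
          (5 : ℤ) ∣ (W'.apOfModel ℓ - W.apOfModel ℓ))
    (h50 : ∀ W : WeierstrassCurve ℤ, W.Δ ≠ 0 → W.IsSemistableModel → W.ModRepIsIrreducible 3 →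
      ∃ M : ℕ, 0 < M ∧ W.IsResiduallyModularOfLevel 3 M ∧
        (∀ q : ℕ, q.Prime → q ≠ 3 → ¬ q ^ 3 ∣ M) ∧ ¬ 3 ^ 2 ∣ M)
    (h59 : ∀ (p : ℕ), p = 3 ∨ p = 5 → ∀ W : WeierstrassCurve ℤ, W.Δ ≠ 0 → W.IsSemistableModel →
      W.ModRepIsIrreducible p → ∀ (M₀ : ℕ) [NeZero M₀], W.IsResiduallyModularOfLevel p M₀ →
      ¬ p ^ 2 ∣ M₀ → (∀ q : ℕ, q.Prime → q ≠ p → ¬ q ^ 3 ∣ M₀) →
      Mlc1IsModularModelOfExactConductorLevel W)
    (W : WeierstrassCurve ℤ) (hΔ : W.Δ ≠ 0) (hW : W.IsSemistableModel) :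
    Mlc1IsModularModelOfExactConductorLevel W := by
  have case3 : ∀ W : WeierstrassCurve ℤ, W.Δ ≠ 0 → W.IsSemistableModel →
      W.ModRepIsIrreducible 3 → Mlc1IsModularModelOfExactConductorLevel W := by
    intro W hΔ hW h3
    obtain ⟨M, hM, hres, hcube, h9⟩ := h50 W hΔ hW h3
    haveI : NeZero M := ⟨hM.ne'⟩
    exact h59 3 (Or.inl rfl) W hΔ hW h3 M hres h9 hcube
  rcases h51 W hΔ hW with h3 | h5
  · exact case3 W hΔ hW h3
  · obtain ⟨W', hΔ', hW', h3', hcong⟩ := h52 W hΔ hW h5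
    obtain ⟨N, hN, hsq, hsupp, f, hf, hfa⟩ := case3 W' hΔ' hW' h3'
    haveI : NeZero N := ⟨hN.ne'⟩
    obtain ⟨𝔪, hmax, h5𝔪⟩ := FLTPrelim.exists_maximalIdeal_natCast_prime_mem Nat.prime_five
    have hsq' : ∀ q : ℕ, q.Prime → ¬ q * q ∣ N :=
      Nat.squarefree_iff_prime_squarefree.1 hsq
    refine h59 5 (Or.inr rfl) W hΔ hW h5 N ⟨f, 𝔪, hf, hmax, h5𝔪, ?_⟩ ?_ ?_
    · intro ℓ hℓ hgood hℓN hℓ5
      have hgood' : W'.IsGoodPrimeFor ℓ := fun hbad => hℓN ((hsupp ℓ hℓ).2 hbad)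
      refine ⟨((W'.apOfModel ℓ : ℤ) : integralClosure ℤ ℂ), ?_, ?_⟩
      · rw [hfa ℓ hℓ hgood' hℓN]; push_cast; rfl
      · obtain ⟨k, hk⟩ := hcong ℓ hℓ hgood hgood' hℓ5
        have : ((W'.apOfModel ℓ : ℤ) : integralClosure ℤ ℂ) -
            ((W.apOfModel ℓ : ℤ) : integralClosure ℤ ℂ) =
            ((5 : ℕ) : integralClosure ℤ ℂ) * ((k : ℤ) : integralClosure ℤ ℂ) := by
          rw [← Int.cast_sub, hk]; push_cast; ring
        rw [this]
        exact 𝔪.mul_mem_right _ h5𝔪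
    · intro h25
      exact hsq' 5 Nat.prime_five (by simpa [pow_two] using h25)
    · intro q hq _ hq3
      exact hsq' q hq (dvd_trans ⟨q, by ring⟩ hq3)

/-- S60 from exact-conductor-level modularity. -/
theorem S60_of_exactConductorLevel
    (h : ∀ W : WeierstrassCurve ℤ, W.Δ ≠ 0 → W.IsSemistableModel →
      Mlc1IsModularModelOfExactConductorLevel W)
    (W : WeierstrassCurve ℤ) (hΔ : W.Δ ≠ 0) (hW : W.IsSemistableModel) :
    (W.map (Int.castRingHom ℚ)).IsModular := by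
  obtain ⟨N, hN, -, -, hmod⟩ := h W hΔ hW
  exact ⟨W, ⟨1, one_smul _ _⟩, N, hN, hmod⟩

end Fermat.Agent.S06Wiring
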