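import Fermat.Statements.S08
import Fermat.Prelude.Thm_ModularForm_sturm_bound_Gamma0
import Fermat.Prelude.Thm_CongruenceSubgroup_one_mem_strictPeriods_Gamma0
-- import your own Fermat.Agent.* helpers here

set_option autoImplicit false
open WeierstrassCurve WeierstrassCurve.Affine WeierstrassCurve.Affine.Point
open CuspForm ModularFormClass UpperHalfPlane
open ModularForm

namespace Fermat.Agent.S08

/-- `Γ₀(1)` is the whole of `SL₂(ℤ)`. -/
theorem gamma0_one_eq_top : CongruenceSubgroup.Gamma0 1 = ⊤ := by
  ext A
  simp only [CongruenceSubgroup.Gamma0_mem, Subgroup.mem_top, iff_true]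
  exact Subsingleton.elim _ _

theorem result (f : CuspForm (CongruenceSubgroup.Gamma0 1) 2) : f = 0 := by
  have h1 := CongruenceSubgroup.one_mem_strictPeriods_Gamma0 1
  have hcusp : Fact (IsCusp OnePoint.infty
      (Subgroup.map (Matrix.SpecialLinearGroup.mapGL ℝ) (CongruenceSubgroup.Gamma0 1))) :=
    ⟨Subgroup.isCusp_of_mem_strictPeriods one_pos h1⟩
  have h0 : (qExpansion 1 f).coeff 0 = 0 := by
    rw [qExpansion_coeff_zero one_pos (ModularFormClass.analyticAt_cuspFunction_zero f one_pos h1)
      (SlashInvariantFormClass.periodic_comp_ofComplex f h1)]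
    exact (CuspFormClass.zero_at_infty f).valueAtInfty_eq_zero
  have h : (f : ModularForm (CongruenceSubgroup.Gamma0 1) 2) = 0 := by
    refine ModularForm.sturm_bound_Gamma0 1 _ fun n hn => ?_
    rw [gamma0_one_eq_top, Subgroup.index_top] at hn
    obtain rfl : n = 0 := by simpa using hn
    exact h0
  ext z
  simpa using congrArg (fun g : ModularForm (CongruenceSubgroup.Gamma0 1) 2 => g z) h

end Fermat.Agent.S08
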