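import Fermat.Statements.S09

set_option autoImplicit false
open WeierstrassCurve WeierstrassCurve.Affine WeierstrassCurve.Affine.Point

namespace Fermat.Agent.S09Wiring

/-- primes `≥ 5` below `17` are `5, 7, 11, 13`. -/
theorem prime_cases {p : ℕ} (hp : p.Prime) (h5 : 5 ≤ p) :
    (p = 5 ∨ p = 7 ∨ p = 13) ∨ p = 11 ∨ 17 ≤ p := by
  by_contra h
  push Not at h
  obtain ⟨⟨h5', h7, h13⟩, h11, h17⟩ := h
  interval_cases p <;> first | omega | (revert hp; decide)

/-- S09 from S10, S11, S12, S13. -/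
theorem s09_of
    (h10 : ∀ P : FreyPackage, (P.p = 5 ∨ P.p = 7 ∨ P.p = 13) →
      ¬ HasGaloisStableCofixedLine (K := AlgebraicClosure ℚ) ℚ P.freyCurve P.p)
    (h11 : ∀ P : FreyPackage, P.p = 11 →
      ¬ HasGaloisStableCofixedLine (K := AlgebraicClosure ℚ) ℚ P.freyCurve P.p)
    (h12 : ∀ P : FreyPackage, 17 ≤ P.p →
      ¬ HasGaloisStableCofixedLine (K := AlgebraicClosure ℚ) ℚ P.freyCurve P.p)
    (h13 : ∀ P : FreyPackage,
      ¬ GaloisRepIsIrreducible (K := AlgebraicClosure ℚ) ℚ P.freyCurve P.p →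
      HasGaloisStableCofixedLine (K := AlgebraicClosure ℚ) ℚ P.freyCurve P.p)
    (P : FreyPackage) :
    GaloisRepIsIrreducible (K := AlgebraicClosure ℚ) ℚ P.freyCurve P.p := by
  by_contra hred
  have hc := h13 P hred
  rcases prime_cases P.pp P.hp5 with h | h | h
  · exact h10 P h hc
  · exact h11 P h hc
  · exact h12 P h hc

end Fermat.Agent.S09Wiring
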