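import Fermat.Statements.S12
import Fermat.Agent.S15
import Fermat.Agent.Mazur.S12.Final
import Fermat.Agent.Mazur.S12.Point

set_option autoImplicit false
open WeierstrassCurve WeierstrassCurve.Affine WeierstrassCurve.Affine.Point
open CuspForm ModularFormClass UpperHalfPlane
open FreyPackage

namespace Fermat.Agent.S12

theorem result (P : FreyPackage) (hp : 17 ≤ P.p) : ¬ HasGaloisStableCofixedLine (K := AlgebraicClosure ℚ) ℚ P.freyCurve P.p :=
  Fermat.Agent.Mazur.S12.s12_of @Fermat.Agent.S15.result
    (fun _ hp h17 _ _ _ _ N hT =>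
      ⟨⟨(N.two hp (by omega) hT).1, (N.two hp (by omega) hT).2.1,
        (N.two hp (by omega) hT).2.2.2.1, (N.two hp (by omega) hT).2.2.2.2.1⟩,
        N.exists_point hp (by omega) hT⟩) P hp

end Fermat.Agent.S12
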