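import Fermat.Statements.S49
import Fermat.Agent.HeckeDualityC

set_option autoImplicit false
open CuspForm EisensteinWeightOne CongruenceSubgroup ModularFormClass
open FLT FLT.AbstractIntegralStructure

namespace Fermat.Agent.S49

open Fermat.Agent.HeckeDuality

theorem hasIntegralStructure_of_basis {N : ℕ} (h : CuspForm.HasIntegralBasis N) :
    CuspForm.HasIntegralStructure N 2 := by
  rw [CuspForm.HasIntegralStructure, eq_top_iff, ← h]
  refine Submodule.span_mono fun f hf => ?_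
  refine Submodule.subset_span fun n => ?_
  obtain ⟨m, hm⟩ := Subring.mem_bot.mp (hf n)
  exact ⟨m, hm.symm⟩

theorem chiNegThree_congr (ℓ : ℕ) : (3 : ℤ) ∣ (ℓ : ℤ) - chiNegThree ℓ := by
  unfold chiNegThree
  split_ifs with h1 h2 <;> omega

theorem bridge_congr (a : ℕ → ℤ) (n : ℕ) :
    (3 : ℤ) ∣ (bridgeProduct a).coeff n - a n := by
  obtain ⟨F, hF⟩ : ∃ F : PowerSeries ℤ, e1Chi3In ℤ = 1 + F * PowerSeries.C 3 := by
    refine ⟨PowerSeries.mk fun n => if n = 0 then 0 else 2 * sigmaChi n, ?_⟩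
    ext n
    simp only [e1Chi3In, e1Chi3, PowerSeries.coeff_map, PowerSeries.coeff_mk, map_add,
      PowerSeries.coeff_one, PowerSeries.coeff_mul_C]
    by_cases hn : n = 0
    · simp [hn]
    · simp [hn]; ring
  rw [bridgeProduct, hF, mul_add, mul_one, map_add, PowerSeries.coeff_mk, add_sub_cancel_left,
    ← mul_assoc, PowerSeries.coeff_mul_C]
  exact dvd_mul_left _ _

theorem result
    {N : ℕ} [NeZero N] (h : CuspForm.HasIntegralBasis N) {a : ℕ → ℤ}
    (heig : FormalHecke.IsEigensystem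
      (fun ℓ => if ℓ ∣ N then 0 else ((chiNegThree ℓ : ℤ) : ℤ)) a)
    (hreal : CuspForm.IsLatticeRealized N a) :
    ∃ (f : CuspForm (Gamma0 N) 2) (_ : f.IsNormalizedEigenform)
      (𝔪' : Ideal (integralClosure ℤ ℂ)), 𝔪'.IsMaximal ∧
      ((3 : ℕ) : integralClosure ℤ ℂ) ∈ 𝔪' ∧
      ∀ (ℓ : ℕ) (_ : ℓ.Prime) (_ : ¬ ℓ ∣ N),
        ∃ c : integralClosure ℤ ℂ, (c : ℂ) = ModularFormClass.qCoeff f ℓ ∧
          c - (a ℓ : integralClosure ℤ ℂ) ∈ 𝔪' := by
  obtain ⟨g, hg, af, haf, hcong⟩ := hreal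
  have hint := hasIntegralStructure_of_basis h
  have hgL : g ∈ CuspForm.intLattice N 2 := by
    rw [mem_intLattice_iff]
    exact fun n => ⟨af n, (haf n).symm⟩
  let G : CuspForm.intLattice N 2 := ⟨g, hgL⟩
  have hGaf : ∀ n, intCoeff G n = af n := by
    intro n
    have h1 := coe_intCoeff G n
    rw [← haf n] at h1
    exact_mod_cast h1
  have hafa : ∀ n, (3 : ℤ) ∣ af n - a n := by
    intro n
    have h1 := dvd_add (hcong n) (bridge_congr a n)
    rwa [sub_add_sub_cancel] at h1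
  have hG1 : ¬ ((3 : ℕ) : ℤ) ∣ intCoeff G 1 := by
    rw [hGaf]
    have h1 := hafa 1
    rw [heig.1] at h1
    push_cast
    omega
  have hc : ∀ (ℓ : ℕ) (hℓ : ℓ.Prime) (n : ℕ),
      ((3 : ℕ) : ℤ) ∣ intCoeff (latAct (gen N 2 hℓ) G) n - a ℓ * intCoeff G n := by
    intro ℓ hℓ n
    have h1 : intCoeff (latAct (gen N 2 hℓ) G) n =
        af (n * ℓ) + if ℓ ∣ n ∧ ¬ ℓ ∣ N then (ℓ : ℤ) * af (n / ℓ) else 0 := by
      have h2 := coe_intCoeff (latAct (gen N 2 hℓ) G) n
      rw [coe_latAct, qc_gen] at h2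
      have h3 : qCoeff ⇑(G : CuspForm (Gamma0 N) 2) (n * ℓ) = (af (n * ℓ) : ℂ) := (haf _).symm
      have h4 : qCoeff ⇑(G : CuspForm (Gamma0 N) 2) (n / ℓ) = (af (n / ℓ) : ℂ) := (haf _).symm
      rw [h3, h4] at h2
      have h5 : ((ℓ : ℂ) ^ ((2 : ℤ) - 1)) = ((ℓ : ℤ) : ℂ) := by
        norm_num
      rw [h5] at h2
      split_ifs at h2 ⊢ with hcond
      · exact_mod_cast h2
      · exact_mod_cast h2
    have h2 := heig.2 ℓ hℓ n
    rw [h1, hGaf]
    have ha1 := hafa (n * ℓ)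
    have ha2 := hafa (n / ℓ)
    have ha3 := hafa n
    have hchi := chiNegThree_congr ℓ
    rw [mul_comm ℓ n] at h2
    push_cast
    have key : ∀ x : ℤ, (x : ZMod 3) = 0 → (3 : ℤ) ∣ x := fun x hx => by
      exact (ZMod.intCast_zmod_eq_zero_iff_dvd x 3).mp hx
    have key2 : ∀ x : ℤ, (3 : ℤ) ∣ x → (x : ZMod 3) = 0 := fun x hx =>
      (ZMod.intCast_zmod_eq_zero_iff_dvd x 3).mpr hx
    apply key
    have ha1' := key2 _ ha1
    have ha2' := key2 _ ha2
    have ha3' := key2 _ ha3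
    have hchi' := key2 _ hchi
    have h2' := congrArg (fun z : ℤ => (z : ZMod 3)) h2
    push_cast at ha1' ha2' ha3' hchi' h2' ⊢
    rw [sub_eq_zero] at ha1' ha2' ha3' hchi'
    by_cases hN : ℓ ∣ N
    · simp only [hN, not_true_eq_false, and_false, if_false, if_true, add_zero] at h2' ⊢
      rw [ha1', ha3', sub_eq_zero]
      simpa using h2'
    · by_cases hn : ℓ ∣ n
      · simp only [hN, hn, not_false_eq_true, and_self, if_true, if_false] at h2' ⊢
        rw [ha1', ha2', ha3', hchi', h2', sub_self]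
      · simp only [hN, hn, false_and, if_false, add_zero, mul_zero] at h2' ⊢
        rw [ha1', ha3', h2', sub_self]
  obtain ⟨f, ψ, m', hf, hm', h3m', -, hf3⟩ := exists_eigenform_congruent hint 3 (by norm_num) G hG1
    a hc
  exact ⟨f, hf, m', hm', h3m', fun ℓ hℓ _ => ⟨ψ (gen N 2 hℓ), (hf3 ℓ hℓ).1.symm, (hf3 ℓ hℓ).2⟩⟩

end Fermat.Agent.S49
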