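import Fermat.Statements.S46
import Fermat.Agent.S46.Lattice
import Fermat.Agent.S46.Eig
import Fermat.Agent.S46Lib.Strip
import Fermat.Agent.Lib.EigenCharacter
import Fermat.Agent.S49
import Fermat.Agent.S50

set_option autoImplicit false
open WeierstrassCurve CuspForm EisensteinWeightOne FormalHecke
open FLT FLT.No2BridgeWiring

namespace Fermat.Agent.S46

open Fermat.Agent.S46Eig Fermat.Agent.S46Lat Fermat.Agent.S46Lib ModularFormClass in
theorem result :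
    ∀ W : WeierstrassCurve ℤ, W.Δ ≠ 0 → W.IsSemistableModel → W.ModRepIsIrreducible 3 →
      ∃ (N : ℕ) (_ : NeZero N) (a : ℕ → ℤ),
        CuspForm.HasIntegralBasis N ∧
        FormalHecke.IsEigensystem
          (fun ℓ => if ℓ ∣ N then 0 else ((chiNegThree ℓ : ℤ) : ℤ)) a ∧
        CuspForm.IsLatticeRealized N a ∧
        (∀ q : ℕ, q.Prime → q ≠ 3 → ¬ q ^ 3 ∣ N) ∧
        ∀ ℓ : ℕ, ℓ.Prime → W.IsGoodPrimeFor ℓ → ¬ ℓ ∣ N → ℓ ≠ 3 →
          (3 : ℤ) ∣ (a ℓ - W.apOfModel ℓ) := by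
  classical
  intro W hΔ hW h3
  obtain ⟨M, hM, ⟨f, 𝔪, hf, hmax, h3m, hcong⟩, hq3, -⟩ := S50.result W hΔ hW h3
  have i1 : NeZero M := ⟨hM.ne'⟩
  have hQ0 : 3 * M * W.Δ.natAbs ≠ 0 :=
    mul_ne_zero (mul_ne_zero (by norm_num) hM.ne') (Int.natAbs_ne_zero.mpr hΔ)
  obtain ⟨S, hS⟩ : ∃ S : Finset ℕ, S = (3 * M * W.Δ.natAbs).primeFactors := ⟨_, rfl⟩
  have hmemS : ∀ q : ℕ, q ∈ S ↔ q.Prime ∧ q ∣ 3 * M * W.Δ.natAbs := by
    intro q
    rw [hS, Nat.mem_primeFactors]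
    exact ⟨fun h => ⟨h.1, h.2.1⟩, fun h => ⟨h.1, h.2, hQ0⟩⟩
  have h3S : 3 ∈ S := (hmemS 3).mpr ⟨Nat.prime_three, ⟨M * W.Δ.natAbs, by ring⟩⟩
  obtain ⟨N, g, hN, hMN, hSN, hNS, hcube, hg⟩ :=
    exists_strip hM.ne' f S (fun q hq => ((hmemS q).mp hq).1)
  have i2 : NeZero N := ⟨hN⟩
  have hSN' : ∀ q : ℕ, q.Prime → (q ∣ N ↔ q ∈ S) := by
    intro q hq
    refine ⟨fun h => ?_, hSN q⟩
    rcases hNS q hq h with h1 | h1
    · exact (hmemS q).mpr ⟨hq, (h1.mul_left 3).mul_right _⟩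
    · exact h1
  obtain ⟨e, he⟩ : ∃ e : ℕ → ℤ, e = fun ℓ => if ℓ ∣ N then 0 else ((chiNegThree ℓ : ℤ) : ℤ) :=
    ⟨_, rfl⟩
  obtain ⟨c, hc⟩ : ∃ c : ℕ → ℤ, c = fun ℓ => if ℓ ∣ N then 0 else W.apOfModel ℓ := ⟨_, rfl⟩
  -- the coefficients of `g`
  let b : ℕ → integralClosure ℤ ℂ := fun n =>
    if ∀ q ∈ S, ¬ q ∣ n then ⟨qCoeff ⇑f n, EigenCharacter.isIntegral_qCoeff' hf n⟩ else 0
  have hb : ∀ n, ((b n : integralClosure ℤ ℂ) : ℂ) = qCoeff ⇑g n := by
    intro n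
    rw [hg n]
    simp only [b]
    split_ifs <;> rfl
  have hbN : ∀ n, (∀ q ∈ S, ¬ q ∣ n) → ((b n : integralClosure ℤ ℂ) : ℂ) = qCoeff ⇑f n := by
    intro n hn
    rw [hb n, hg n, if_pos hn]
  have hb0 : ∀ n, (¬ ∀ q ∈ S, ¬ q ∣ n) → b n = 0 := by
    intro n hn
    simp only [b]
    rw [if_neg hn]
  have hpS : ∀ p : ℕ, p.Prime → ¬ p ∣ N → ∀ k, ∀ q ∈ S, ¬ q ∣ p ^ k := by
    intro p hp hpN k q hq hqp
    have h1 := (Nat.prime_dvd_prime_iff_eq ((hmemS q).mp hq).1 hp).mp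
      (((hmemS q).mp hq).1.dvd_of_dvd_pow hqp)
    rw [h1] at hq
    exact hpN (hSN p hq)
  have hpS1 : ∀ p : ℕ, p.Prime → ¬ p ∣ N → ∀ q ∈ S, ¬ q ∣ p := by
    intro p hp hpN
    have := hpS p hp hpN 1
    rwa [pow_one] at this
  have hkey : ∀ n, b n - ((eigSeq e c n : ℤ) : integralClosure ℤ ℂ) ∈ 𝔪 := by
    refine sub_eigSeq_mem 𝔪 e c b ?_ ?_ ?_ ?_ ?_
    · exact hb0 0 fun h => h 3 h3S (dvd_zero 3)
    · apply Subtype.ext
      rw [hbN 1 fun q hq h => ((hmemS q).mp hq).1.one_lt.ne' (Nat.dvd_one.mp h), hf.qCoeff_one]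
      rfl
    · intro m n hmn
      by_cases hm : ∀ q ∈ S, ¬ q ∣ m
      · by_cases hn : ∀ q ∈ S, ¬ q ∣ n
        · have hmn' : ∀ q ∈ S, ¬ q ∣ m * n := by
            intro q hq h
            rcases (((hmemS q).mp hq).1.dvd_mul).mp h with h1 | h1
            · exact hm q hq h1
            · exact hn q hq h1
          apply Subtype.ext
          rw [hbN _ hmn', MulMemClass.coe_mul, hbN _ hm, hbN _ hn, hf.qCoeff_mul_of_coprime m n hmn]
        · rw [hb0 n hn, mul_zero]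
          exact hb0 _ fun h => hn fun q hq h1 => h q hq (h1.mul_left m)
      · rw [hb0 m hm, zero_mul]
        exact hb0 _ fun h => hm fun q hq h1 => h q hq (h1.mul_right n)
    · intro p hp
      by_cases hpN : p ∣ N
      · rw [hb0 p fun h => h p ((hSN' p hp).mp hpN) dvd_rfl, hc]
        simp [hpN]
      · have hpS' : p ∉ S := fun h => hpN (hSN p h)
        have hpM : ¬ p ∣ M := fun h => hpS' ((hmemS p).mpr ⟨hp, (h.mul_left 3).mul_right _⟩)
        have hpΔ : W.IsGoodPrimeFor p := fun h =>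
          hpS' ((hmemS p).mpr ⟨hp, (Int.natCast_dvd.mp h).mul_left _⟩)
        have hp3 : p ≠ 3 := by
          rintro rfl
          exact hpS' h3S
        obtain ⟨a', ha', hmem⟩ := hcong p hp hpΔ hpM hp3
        have h1 : b p = a' := by
          apply Subtype.ext
          rw [hbN p (hpS1 p hp hpN), ha']
        have h2 : c p = W.apOfModel p := by rw [hc]; simp [hpN]
        rw [h1, h2]
        exact hmem
    · intro p hp r
      by_cases hpN : p ∣ N
      · have hpS' : p ∈ S := (hSN' p hp).mp hpN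
        have h1 : b (p ^ (r + 2)) = 0 :=
          hb0 _ fun h => h p hpS' (dvd_pow_self p (Nat.succ_ne_zero _))
        have h2 : b p = 0 := hb0 _ fun h => h p hpS' dvd_rfl
        have h3 : e p = 0 := by rw [he]; simp [hpN]
        rw [h1, h2, h3]
        simp
      · have h1 : b (p ^ (r + 2)) = b p * b (p ^ (r + 1)) - (p : integralClosure ℤ ℂ) * b (p ^ r) := by
          apply Subtype.ext
          rw [AddSubgroupClass.coe_sub, MulMemClass.coe_mul, MulMemClass.coe_mul,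
            hbN _ (hpS p hp hpN _), hbN _ (hpS1 p hp hpN), hbN _ (hpS p hp hpN _),
            hbN _ (hpS p hp hpN _),
            hf.qCoeff_prime_pow_of_not_dvd p r hp fun h => hpN (h.trans hMN)]
          rfl
        have h2 : e p = chiNegThree p := by rw [he]; simp [hpN]
        obtain ⟨t, ht⟩ := S49.chiNegThree_congr p
        have h3 : (chiNegThree p : integralClosure ℤ ℂ) =
            (p : integralClosure ℤ ℂ) - (3 : ℕ) * (t : integralClosure ℤ ℂ) := by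
          have h4 : chiNegThree p = (p : ℤ) - 3 * t := by linarith
          rw [h4]; push_cast; ring
        have h5 : b (p ^ (r + 2)) - (b p * b (p ^ (r + 1)) -
            ((e p : ℤ) : integralClosure ℤ ℂ) * b (p ^ r)) =
            ((3 : ℕ) : integralClosure ℤ ℂ) * (-(t * b (p ^ r))) := by
          rw [h1, h2, h3]; ring
        rw [h5]
        exact 𝔪.mul_mem_right _ h3m
  obtain ⟨F, hF, af, haf, hafa⟩ := exists_integral_of_cong Nat.prime_three g 𝔪 hmax h3m b hb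
    (eigSeq e c) hkey
  refine ⟨N, i2, eigSeq e c, hasIntegralBasis N, ?_, ⟨F, hF, af, haf, fun n => ?_⟩, ?_, ?_⟩
  · have h := isEigensystem_eigSeq e c
    rw [he] at h ⊢
    exact h
  · have h1 := hafa n
    have h2 := S49.bridge_congr (eigSeq e c) n
    have h3 : af n - (bridgeProduct (eigSeq e c)).coeff n =
        (af n - eigSeq e c n) - ((bridgeProduct (eigSeq e c)).coeff n - eigSeq e c n) := by ring
    rw [h3]
    exact dvd_sub h1 h2
  · intro q hq hq3'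
    exact hcube q hq (hq3 q hq hq3')
  · intro ℓ hℓ hgood hℓN hℓ3
    rw [eigSeq_prime e c hℓ, hc]
    simp [hℓN]

end Fermat.Agent.S46
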